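import Mathlib
import Fermat.Agent.S24.FF.Dedekind

/-!
# Places ⇒ `LocPow`  (bridge between `K1Defs.K1E` and `Model.main_b`)

`locPow_all_of_forall_place` : in a function field `L / E` (char. 0) with a transcendental `u` such
that `L / E(u)` is finite, an element `g ≠ 0` all of whose orders at the places of `L / E` are
divisible by `p` satisfies the body of `Model.LocPow p u g` (locally at every closed point of
the affine `u`-line, `g` is a `p`-th power times a unit).  The statement is spelled out without
any `Model.*` name, so this file does not depend on the skeleton files.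

Sections `Dedekind` and `Denominator` are generic facts on Dedekind domains.
-/

set_option autoImplicit false

namespace Fermat.Agent.S30.Model.LocPowPlace

open IsDedekindDomain WithZero

section Dedekind

variable {R : Type*} [CommRing R] [IsDedekindDomain R]

/-- Weak approximation, integral form: prescribed non-negative orders at finitely many primes. -/
theorem exists_intValuation_eq (W : Finset (HeightOneSpectrum R)) (a : HeightOneSpectrum R → ℕ) :
    ∃ t : R, t ≠ 0 ∧ ∀ w ∈ W, w.intValuation t = exp (-(a w : ℤ)) := by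
  classical
  rcases W.eq_empty_or_nonempty with rfl | hne
  · exact ⟨1, one_ne_zero, by simp⟩
  -- uniformisers
  have hunif : ∀ w : HeightOneSpectrum R, ∃ ϖ : R, w.intValuation ϖ = exp (-1 : ℤ) :=
    fun w => w.intValuation_exists_uniformizer
  choose ϖ hϖ using hunif
  obtain ⟨y, hy⟩ := IsDedekindDomain.exists_forall_sub_mem_ideal
    (s := W) (fun w : HeightOneSpectrum R => w.asIdeal) (fun w => a w + 1)
    (fun w _ => w.prime) (fun w _ w' _ hww' h => hww' (HeightOneSpectrum.ext h))
    (fun w => ϖ w ^ a w)
  have key : ∀ w ∈ W, w.intValuation y = exp (-(a w : ℤ)) := by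
    intro w hw
    have h1 : w.intValuation (y - ϖ w ^ a w) ≤ exp (-((a w + 1 : ℕ) : ℤ)) :=
      (w.intValuation_le_pow_iff_mem _ _).2 (hy w hw)
    have h2 : w.intValuation (ϖ w ^ a w) = exp (-(a w : ℤ)) := by
      rw [map_pow, hϖ, ← exp_nsmul]
      simp
    have h3 : w.intValuation (y - ϖ w ^ a w) < w.intValuation (ϖ w ^ a w) := by
      rw [h2]
      refine lt_of_le_of_lt h1 ?_
      rw [exp_lt_exp]
      push_cast
      omega
    have h4 : y = (y - ϖ w ^ a w) + ϖ w ^ a w := by ring
    rw [h4, Valuation.map_add_eq_of_lt_right _ h3, h2]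
  refine ⟨y, ?_, key⟩
  obtain ⟨w, hw⟩ := hne
  intro h0
  have := key w hw
  rw [h0, map_zero] at this
  exact exp_ne_zero this.symm

variable {K : Type*} [Field K] [Algebra R K] [IsFractionRing R K]

/-- Weak approximation: prescribed integer orders at finitely many primes. -/
theorem exists_valuation_eq (W : Finset (HeightOneSpectrum R)) (e : HeightOneSpectrum R → ℤ) :
    ∃ τ : K, τ ≠ 0 ∧ ∀ w ∈ W, w.valuation K τ = exp (-(e w)) := by
  obtain ⟨t₁, ht₁, h₁⟩ := exists_intValuation_eq W (fun w => (e w).toNat)
  obtain ⟨t₂, ht₂, h₂⟩ := exists_intValuation_eq W (fun w => (-(e w)).toNat)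
  have hinj := IsFractionRing.injective R K
  have h₁' : algebraMap R K t₁ ≠ 0 := fun h => ht₁ (hinj (by rw [h, map_zero]))
  have h₂' : algebraMap R K t₂ ≠ 0 := fun h => ht₂ (hinj (by rw [h, map_zero]))
  refine ⟨algebraMap R K t₁ / algebraMap R K t₂, div_ne_zero h₁' h₂', fun w hw => ?_⟩
  rw [map_div₀, HeightOneSpectrum.valuation_of_algebraMap, HeightOneSpectrum.valuation_of_algebraMap,
    h₁ w hw, h₂ w hw, ← exp_sub]
  congr 1
  omega

end Dedekind

section Denominator

variable {A R K : Type*} [CommRing A] [WfDvdMonoid A]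
  [CommRing R] [IsDedekindDomain R] [Algebra A R] [Algebra.IsIntegral A R]
  [Field K] [Algebra R K] [IsFractionRing R K] [Algebra A K] [IsScalarTower A R K]
  [Algebra.IsAlgebraic A K]

/-- An element of `K = Frac R` without poles at the primes of `R` above the irreducible `f ∈ A`
becomes integral over `A` after multiplication by an element of `A` not divisible by `f`. -/
theorem exists_smul_isIntegral {f : A} (hf : Irreducible f) (z : K)
    (hz : ∀ w : HeightOneSpectrum R, algebraMap A R f ∈ w.asIdeal → w.valuation K z ≤ 1) :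
    ∃ s : A, ¬ f ∣ s ∧ IsIntegral A (s • z) := by
  obtain ⟨d, hd0, hd⟩ := (Algebra.IsAlgebraic.isAlgebraic (R := A) z).exists_integral_multiple
  obtain ⟨k, d', hd', rfl⟩ := WfDvdMonoid.max_power_factor hd0 hf
  refine ⟨d', hd', ?_⟩
  have hmem : d' • z ∈ (algebraMap R K).range := by
    refine HeightOneSpectrum.mem_integers_of_valuation_le_one (R := R) K _ fun w => ?_
    by_cases hfw : algebraMap A R f ∈ w.asIdeal
    · rw [Algebra.smul_def, IsScalarTower.algebraMap_apply A R K, map_mul]
      exact mul_le_one' (w.valuation_le_one _) (hz w hfw)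
    · have h1 : w.valuation K (algebraMap R K (algebraMap A R f)) = 1 :=
        (HeightOneSpectrum.valuation_eq_one_iff_notMem w).2 hfw
      have h2 : IsIntegral R ((f ^ k * d') • z) := hd.tower_top
      obtain ⟨r, hr⟩ := IsIntegrallyClosed.isIntegral_iff.1 h2
      have h3 : w.valuation K ((f ^ k * d') • z) ≤ 1 := by
        rw [← hr]; exact w.valuation_le_one r
      have h4 : (f ^ k * d') • z = algebraMap R K (algebraMap A R f) ^ k * (d' • z) := by
        rw [mul_smul, Algebra.smul_def (f ^ k), IsScalarTower.algebraMap_apply A R K, map_pow,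
          map_pow]
      rw [h4, map_mul, map_pow, h1, one_pow, one_mul] at h3
      exact h3
  obtain ⟨r, hr⟩ := hmem
  rw [← hr]
  exact (Algebra.IsIntegral.isIntegral (R := A) r).algebraMap

end Denominator

section Glue

open AlgebraicCurve IntermediateField Polynomial
open scoped IntermediateField.algebraAdjoinAdjoin

variable {E L : Type*} [Field E] [CharZero E] [Field L] [Algebra E L]

/-- **Places ⇒ local `p`-th power.**  If all orders of `g` at the places of `L / E` are divisible
by `p`, then `g` is, locally at EVERY closed point `f` of the affine `u`-line, a `p`-th power times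
a unit.  The conclusion is, verbatim, the unfolded body of `Model.LocPow` / `Model.IsIntegralAt`
(`S30/Model/Main.lean`), so `Model.LocPow p u g` is `locPow_all_of_forall_place u hu p g hg h`
(and the variant with excluded branch points `S` is `fun f hf _ => ... f hf`). -/
theorem locPow_all_of_forall_place (u : L) (hu : Transcendental E u)
    [FiniteDimensional (IntermediateField.adjoin E {u}) L] (p : ℕ) (g : L) (hg : g ≠ 0)
    (h : ∀ P : Place E L, (p : ℤ) ∣ P.ord g) :
    ∀ f : E[X], Irreducible f → ∃ τ : L, τ ≠ 0 ∧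
      (∃ s : L, s ∈ Algebra.adjoin E {u} ∧
        (∀ c : L, c ∈ Algebra.adjoin E {u} → s ≠ aeval u f * c) ∧
        IsIntegral (Algebra.adjoin E {u}) (s * (g / τ ^ p))) ∧
      (∃ s : L, s ∈ Algebra.adjoin E {u} ∧
        (∀ c : L, c ∈ Algebra.adjoin E {u} → s ≠ aeval u f * c) ∧
        IsIntegral (Algebra.adjoin E {u}) (s * (τ ^ p / g))) := by
  classical
  have : IsPrincipalIdealRing (Algebra.adjoin E {u}) :=
    Fermat.Agent.S24.FF.polyRing_isPrincipalIdealRing E u hu
  have : IsDedekindDomain (integralClosure (Algebra.adjoin E {u}) L) :=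
    integralClosure.isDedekindDomain (Algebra.adjoin E {u}) E⟮u⟯ L
  have : IsFractionRing (integralClosure (Algebra.adjoin E {u}) L) L :=
    integralClosure.isFractionRing_of_finite_extension E⟮u⟯ L
  have : IsScalarTower E (integralClosure (Algebra.adjoin E {u}) L) L :=
    IsScalarTower.of_algebraMap_eq (fun c => by simp [Algebra.algebraMap_eq_smul_one])
  have : Algebra.IsAlgebraic (Algebra.adjoin E {u}) L :=
    (IsFractionRing.comap_isAlgebraic_iff (A := Algebra.adjoin E {u}) (K := E⟮u⟯) (C := L)).2
      inferInstance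
  intro f hf
  -- the element `f(u)` of `E[u]`
  have hmem : aeval u f ∈ Algebra.adjoin E {u} := by
    rw [Algebra.adjoin_singleton_eq_range_aeval]
    exact ⟨f, rfl⟩
  set fa : Algebra.adjoin E {u} := ⟨aeval u f, hmem⟩ with hfa
  have hfa_eq : fa = Polynomial.algEquivOfTranscendental E u hu f := by
    apply Subtype.ext
    simp [hfa, Polynomial.algEquivOfTranscendental_apply]
  have hfa_irr : Irreducible fa := by
    rw [hfa_eq]
    exact (MulEquiv.irreducible_iff (Polynomial.algEquivOfTranscendental E u hu).toMulEquiv).2 hf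
  have hinjAR : Function.Injective
      (algebraMap (Algebra.adjoin E {u}) (integralClosure (Algebra.adjoin E {u}) L)) := by
    intro a b hab
    have h1 := congrArg (algebraMap (integralClosure (Algebra.adjoin E {u}) L) L) hab
    rw [← IsScalarTower.algebraMap_apply, ← IsScalarTower.algebraMap_apply] at h1
    exact Subtype.ext h1
  -- the finitely many primes above `f`
  have hI : (Ideal.span {algebraMap (Algebra.adjoin E {u})
      (integralClosure (Algebra.adjoin E {u}) L) fa} :
        Ideal (integralClosure (Algebra.adjoin E {u}) L)) ≠ 0 := by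
    rw [Ne, Ideal.zero_eq_bot, Ideal.span_singleton_eq_bot]
    intro h0
    exact hfa_irr.ne_zero (hinjAR (by rw [h0, map_zero]))
  have hfin := Ideal.finite_factors hI
  set W : Finset (HeightOneSpectrum (integralClosure (Algebra.adjoin E {u}) L)) :=
    hfin.toFinset with hW
  have hWmem : ∀ w : HeightOneSpectrum (integralClosure (Algebra.adjoin E {u}) L),
      algebraMap (Algebra.adjoin E {u}) (integralClosure (Algebra.adjoin E {u}) L) fa ∈ w.asIdeal →
        w ∈ W := by
    intro w hw
    exact (Set.Finite.mem_toFinset hfin).2 (Ideal.dvd_span_singleton.2 hw)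
  -- orders
  have hord : ∀ w : HeightOneSpectrum (integralClosure (Algebra.adjoin E {u}) L),
      (p : ℤ) ∣ log (w.valuation L g) := by
    intro w
    have h1 := h (Place.ofHeightOneSpectrum (K := E) (F := L) w)
    rw [Fermat.Agent.S24.FF.ord_ofHeightOneSpectrum (K := E) w hg] at h1
    exact (dvd_neg).1 h1
  obtain ⟨τ, hτ0, hτ⟩ := exists_valuation_eq (K := L) W
    (fun w => -(log (w.valuation L g) / (p : ℤ)))
  have hval : ∀ w ∈ W, w.valuation L (τ ^ p) = w.valuation L g := by
    intro w hw
    have hg0 : w.valuation L g ≠ 0 := (Valuation.ne_zero_iff _).2 hg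
    rw [map_pow, hτ w hw, neg_neg, ← exp_nsmul, nsmul_eq_mul, Int.mul_ediv_cancel' (hord w),
      exp_log hg0]
  have hτp : τ ^ p ≠ 0 := pow_ne_zero _ hτ0
  refine ⟨τ, hτ0, ?_, ?_⟩
  · obtain ⟨s, hs, hsint⟩ := exists_smul_isIntegral
      (R := integralClosure (Algebra.adjoin E {u}) L) (K := L) hfa_irr (g / τ ^ p) (fun w hw => by
        rw [map_div₀, hval w (hWmem w hw), div_self ((Valuation.ne_zero_iff _).2 hg)])
    refine ⟨(s : L), s.2, fun c hc heq => hs ⟨⟨c, hc⟩, Subtype.ext heq⟩, ?_⟩
    exact hsint
  · obtain ⟨s, hs, hsint⟩ := exists_smul_isIntegral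
      (R := integralClosure (Algebra.adjoin E {u}) L) (K := L) hfa_irr (τ ^ p / g) (fun w hw => by
        rw [map_div₀, hval w (hWmem w hw), div_self ((Valuation.ne_zero_iff _).2 hg)])
    refine ⟨(s : L), s.2, fun c hc heq => hs ⟨⟨c, hc⟩, Subtype.ext heq⟩, ?_⟩
    exact hsint

end Glue

end Fermat.Agent.S30.Model.LocPowPlace
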