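import Mathlib

/-!
# Trace-self-duality at a prime versus the discriminant

`C` a finite free `R`-algebra with basis `b`, `p : R` a prime element.

* `TraceSelfDualAt R C p` : the trace form of `C/pC` over `R/p` is nondegenerate, stated
  without quotients: if `p ∣ Tr(x y)` for all `y` then `x ∈ pC`.
* `not_dvd_discr_iff` : `¬ p ∣ discr R b ↔ TraceSelfDualAt R C p`.
* `isUnit_discr` : over a UFD, a nonzero discriminant which is trace-self-dual at every prime
  element is a unit.  (This is the "purity by hand" step of the MODEL THEOREM: the integral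
  closure over the two-dimensional regular local ring `O[u]_x` is free, so its branch locus is
  a divisor.)
* `traceSelfDualAt_of_field` : the hypothesis may be checked with the field trace
  `Tr_{L/K}` on the fraction fields.
-/

set_option autoImplicit false

namespace Fermat.Agent.S30.Model.DiscUnit

open Matrix

variable (R C : Type*) [CommRing R] [CommRing C] [Algebra R C]

/-- The trace form of `C` over `R` is nondegenerate modulo `p`. -/
def TraceSelfDualAt (p : R) : Prop :=
  ∀ x : C, (∀ y : C, p ∣ Algebra.trace R C (x * y)) → ∃ z : C, x = p • z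

variable {R C} {ι : Type*} [Fintype ι] [DecidableEq ι]

omit [DecidableEq ι] in
theorem trace_mul_basis (b : Module.Basis ι R C) (x : C) (j : ι) :
    Algebra.trace R C (x * b j) = (Algebra.traceMatrix R b *ᵥ (b.repr x)) j := by
  conv_lhs => rw [← b.sum_repr x]
  rw [Finset.sum_mul, map_sum]
  simp only [Matrix.mulVec, dotProduct, Algebra.traceMatrix_apply, Algebra.traceForm_apply]
  refine Finset.sum_congr rfl fun i _ => ?_
  rw [smul_mul_assoc, map_smul, smul_eq_mul, mul_comm (b j) (b i), mul_comm]

theorem traceSelfDualAt_of_not_dvd_discr (b : Module.Basis ι R C) {p : R} (hp : Prime p)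
    (h : ¬ p ∣ Algebra.discr R b) : TraceSelfDualAt R C p := by
  intro x hx
  set M := Algebra.traceMatrix R b with hM
  set c := b.repr x with hc
  -- `M *ᵥ c = p • w`
  have hdiv : ∀ j, p ∣ (M *ᵥ c) j := fun j => by
    rw [← trace_mul_basis b x j]; exact hx (b j)
  choose w hw using hdiv
  have hMc : M *ᵥ c = p • w := by
    funext j; rw [hw j]; simp
  have hadj : M.det • (c : ι → R) = p • (M.adjugate *ᵥ w) := by
    have h1 : M.adjugate *ᵥ (M *ᵥ c) = M.det • (c : ι → R) := by
      rw [Matrix.mulVec_mulVec, Matrix.adjugate_mul, Matrix.smul_mulVec, Matrix.one_mulVec]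
    rw [← h1, hMc, Matrix.mulVec_smul]
  have hci : ∀ i, p ∣ c i := by
    intro i
    have h2 : M.det * c i = p * (M.adjugate *ᵥ w) i := by
      have := congrFun hadj i
      simpa using this
    have h3 : p ∣ M.det * c i := ⟨_, h2⟩
    rcases hp.dvd_or_dvd h3 with h4 | h4
    · exact absurd (by rwa [Algebra.discr_def]) h
    · exact h4
  choose c' hc' using hci
  refine ⟨∑ i, c' i • b i, ?_⟩
  rw [Finset.smul_sum]
  conv_lhs => rw [← b.sum_repr x]
  refine Finset.sum_congr rfl fun i _ => ?_
  rw [smul_smul, ← hc' i]

theorem not_dvd_discr_of_traceSelfDualAt (b : Module.Basis ι R C) {p : R} (hp : Prime p)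
    (h : TraceSelfDualAt R C p) : ¬ p ∣ Algebra.discr R b := by
  intro hdvd
  set M := Algebra.traceMatrix R b with hM
  have : (Ideal.span {p}).IsPrime := (Ideal.span_singleton_prime hp.ne_zero).mpr hp
  let k := R ⧸ Ideal.span {p}
  let q : R →+* k := Ideal.Quotient.mk (Ideal.span {p})
  have hdet : (M.map q).det = 0 := by
    rw [← RingHom.mapMatrix_apply, ← RingHom.map_det]
    rw [Algebra.discr_def] at hdvd
    exact Ideal.Quotient.eq_zero_iff_mem.mpr (Ideal.mem_span_singleton.mpr hdvd)
  obtain ⟨v, hv0, hv⟩ := Matrix.exists_mulVec_eq_zero_iff.mpr hdet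
  -- lift `v`
  have hsurj : ∀ i, ∃ r : R, q r = v i := fun i => Ideal.Quotient.mk_surjective (v i)
  choose c hc using hsurj
  set x : C := ∑ i, c i • b i with hx
  have hrepr : ∀ i, b.repr x i = c i := by
    intro i
    have : b.repr x = Finsupp.equivFunOnFinite.symm c := by
      rw [hx]
      apply b.repr.symm.injective
      rw [LinearEquiv.symm_apply_apply]
      simp [Finsupp.linearCombination_apply, Finsupp.sum_fintype]
    rw [this]; rfl
  have hMc : ∀ j, p ∣ (M *ᵥ c) j := by
    intro j
    have h1 : q ((M *ᵥ c) j) = ((M.map q) *ᵥ v) j := by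
      simp only [Matrix.mulVec, dotProduct, map_sum, map_mul, Matrix.map_apply, hc]
    rw [hv] at h1
    exact Ideal.mem_span_singleton.mp (Ideal.Quotient.eq_zero_iff_mem.mp h1)
  have hxy : ∀ y : C, p ∣ Algebra.trace R C (x * y) := by
    intro y
    conv_rhs => rw [← b.sum_repr y]
    rw [Finset.mul_sum, map_sum]
    refine Finset.dvd_sum fun j _ => ?_
    rw [mul_smul_comm, map_smul, smul_eq_mul, trace_mul_basis b x j]
    have : (b.repr x : ι → R) = c := funext hrepr
    rw [this]
    exact (hMc j).mul_left _
  obtain ⟨z, hz⟩ := h x hxy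
  apply hv0
  funext i
  have h2 : c i = p * b.repr z i := by
    rw [← hrepr i, hz, map_smul]; simp
  rw [← hc i, h2, map_mul]
  have : q p = 0 := Ideal.Quotient.eq_zero_iff_mem.mpr (Ideal.mem_span_singleton_self p)
  rw [this, zero_mul]; rfl

/-- **Discriminant versus trace-self-duality.** -/
theorem not_dvd_discr_iff (b : Module.Basis ι R C) {p : R} (hp : Prime p) :
    ¬ p ∣ Algebra.discr R b ↔ TraceSelfDualAt R C p :=
  ⟨traceSelfDualAt_of_not_dvd_discr b hp, not_dvd_discr_of_traceSelfDualAt b hp⟩

/-- **Purity by hand.** Over a UFD, a nonzero discriminant which no prime element divides is a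
unit. -/
theorem isUnit_discr_of_forall_prime [IsDomain R] [UniqueFactorizationMonoid R]
    (b : Module.Basis ι R C) (h0 : Algebra.discr R b ≠ 0)
    (h : ∀ p : R, Prime p → ¬ p ∣ Algebra.discr R b) : IsUnit (Algebra.discr R b) := by
  by_contra hu
  obtain ⟨p, hp, hdvd⟩ := WfDvdMonoid.exists_irreducible_factor hu h0
  exact h p (UniqueFactorizationMonoid.irreducible_iff_prime.mp hp) hdvd

/-- Purity by hand, trace form: over a UFD, if `C` is trace-self-dual at every prime element
and the discriminant is nonzero, then the discriminant is a unit. -/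
theorem isUnit_discr [IsDomain R] [UniqueFactorizationMonoid R]
    (b : Module.Basis ι R C) (h0 : Algebra.discr R b ≠ 0)
    (h : ∀ p : R, Prime p → TraceSelfDualAt R C p) : IsUnit (Algebra.discr R b) :=
  isUnit_discr_of_forall_prime b h0 fun p hp => not_dvd_discr_of_traceSelfDualAt b hp (h p hp)

/-- A unit discriminant is trace-self-dual at every prime. -/
theorem traceSelfDualAt_of_isUnit_discr (b : Module.Basis ι R C)
    (hb : IsUnit (Algebra.discr R b)) {p : R} (hp : Prime p) : TraceSelfDualAt R C p :=
  traceSelfDualAt_of_not_dvd_discr b hp fun hdvd => hp.not_isUnit (isUnit_of_dvd_unit hdvd hb)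

section Field

variable {K L : Type*} [Field K] [Field L] [Algebra R K] [IsFractionRing R K] [Algebra K L]
  [Algebra R L] [IsScalarTower R K L] [Algebra C L] [IsScalarTower R C L]

/-- The trace of `C` over `R` is the field trace on the fraction fields. -/
theorem algebraMap_trace_eq [IsDomain R] [Module.Free R C] [Module.Finite R C]
    [IsLocalization (Algebra.algebraMapSubmonoid C (nonZeroDivisors R)) L] (x : C) :
    algebraMap R K (Algebra.trace R C x) = Algebra.trace K L (algebraMap C L x) :=
  (Algebra.trace_localization R (nonZeroDivisors R) (Rₘ := K) (Sₘ := L) x).symm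

/-- Trace-self-duality may be checked with the field trace. -/
theorem traceSelfDualAt_of_field [IsDomain R] [Module.Free R C] [Module.Finite R C]
    [IsLocalization (Algebra.algebraMapSubmonoid C (nonZeroDivisors R)) L] (p : R)
    (h : ∀ x : C, (∀ y : C, ∃ w : R,
        Algebra.trace K L (algebraMap C L (x * y)) = algebraMap R K (p * w)) →
      ∃ z : C, x = p • z) : TraceSelfDualAt R C p := by
  intro x hx
  refine h x fun y => ?_
  obtain ⟨w, hw⟩ := hx y
  exact ⟨w, by rw [← algebraMap_trace_eq (R := R) (C := C) (K := K) (L := L), hw]⟩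

/-- Conversely, trace-self-duality gives the field-trace statement. -/
theorem field_of_traceSelfDualAt [IsDomain R] [Module.Free R C] [Module.Finite R C]
    [IsLocalization (Algebra.algebraMapSubmonoid C (nonZeroDivisors R)) L] (p : R)
    (h : TraceSelfDualAt R C p) (x : C)
    (hx : ∀ y : C, ∃ w : R,
        Algebra.trace K L (algebraMap C L (x * y)) = algebraMap R K (p * w)) :
    ∃ z : C, x = p • z := by
  refine h x fun y => ?_
  obtain ⟨w, hw⟩ := hx y
  refine ⟨w, ?_⟩
  apply IsFractionRing.injective R K
  rw [algebraMap_trace_eq (R := R) (C := C) (K := K) (L := L), hw]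

end Field

end Fermat.Agent.S30.Model.DiscUnit
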