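import Mathlib

/-!
# Abstract connectedness core of the MODEL THEOREM (S30 route, helper210 sec. 4)

Setting: a two-chart Cech datum `C0 → C01 ← C1` of algebras over a base ring `O` with a
prime element `π`.  If the global sections are `O` (hypothesis `H0`) and the Cech `H¹` has
bounded `π`-power torsion (hypothesis `H1`), then every idempotent of the special fibre
(a compatible pair of idempotents of `C0/π`, `C1/π`) is `0` or `1`.

No lengths, no completions: idempotents are lifted modulo `π^(c+1)` by the Newton step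
`a ↦ 3a² - 2a³`, the two lifts agree on the overlap modulo `π^(c+1)`, bounded torsion turns
the pair into an honest global section, which is a scalar.

Providers for `H1`:
* `bounded_torsion` : `C01 / (range r0 + range r1)` finite over a noetherian `O` ⇒ `H1`;
* `finite_H1` : the Cech `H¹` of two finite charts `O[u]`, `O[1/u]` is a finite `O`-module.
-/

set_option autoImplicit false

namespace Fermat.Agent.S30.Model.CechConn

section Lift

variable {R : Type*} [CommRing R]

/-- Newton step for idempotent lifting. -/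
def step (a : R) : R := 3 * a ^ 2 - 2 * a ^ 3

theorem step_sub (a : R) : step a - a = (a ^ 2 - a) * (1 - 2 * a) := by
  unfold step; ring

theorem step_sq_sub (a : R) :
    step a ^ 2 - step a = (a ^ 2 - a) ^ 2 * ((2 * a - 3) * (2 * a + 1)) := by
  unfold step; ring

/-- Idempotent lifting: an idempotent modulo `p` lifts to an idempotent modulo `p ^ (n+1)`. -/
theorem exists_lift (p a : R) (h : p ∣ a ^ 2 - a) (n : ℕ) :
    ∃ a' : R, p ^ (n + 1) ∣ a' ^ 2 - a' ∧ p ∣ a' - a := by
  induction n with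
  | zero => exact ⟨a, by simpa using h, by simp⟩
  | succ n ih =>
    obtain ⟨b, hb, hba⟩ := ih
    refine ⟨step b, ?_, ?_⟩
    · rw [step_sq_sub]
      have h2 : (p ^ (n + 1)) ^ 2 ∣ (b ^ 2 - b) ^ 2 := pow_dvd_pow_of_dvd hb 2
      have h3 : p ^ (n + 1 + 1) ∣ (p ^ (n + 1)) ^ 2 := by
        rw [← pow_mul]
        exact pow_dvd_pow p (by omega)
      exact (h3.trans h2).mul_right _
    · have h1 : p ∣ step b - b := by
        rw [step_sub]
        exact ((dvd_pow_self p (Nat.succ_ne_zero n)).trans hb).mul_right _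
      have e : step b - a = (step b - b) + (b - a) := by ring
      rw [e]
      exact dvd_add h1 hba

/-- Uniqueness of idempotent lifts: two idempotents modulo `p ^ N` which agree modulo `p`
agree modulo `p ^ N`. -/
theorem dvd_sub_of_idem (p x y : R) (N : ℕ) (hx : p ^ N ∣ x ^ 2 - x) (hy : p ^ N ∣ y ^ 2 - y)
    (hxy : p ∣ x - y) : p ^ N ∣ x - y := by
  have h3 : p ^ N ∣ (x - y) ^ 3 - (x - y) := by
    have e : (x - y) ^ 3 - (x - y)
        = (x ^ 2 - x) * (x + 1 - 3 * y) + (y ^ 2 - y) * (3 * x - y - 1) := by ring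
    rw [e]
    exact dvd_add (hx.mul_right _) (hy.mul_right _)
  have key : ∀ m : ℕ, p ^ N ∣ (x - y) ^ (3 ^ m) - (x - y) := by
    intro m
    induction m with
    | zero => simp
    | succ m ih =>
      have e : (x - y) ^ (3 ^ (m + 1)) - (x - y)
          = ((x - y) ^ (3 ^ m) - (x - y)) *
              (((x - y) ^ (3 ^ m)) ^ 2 + (x - y) ^ (3 ^ m) * (x - y) + (x - y) ^ 2)
            + ((x - y) ^ 3 - (x - y)) := by
        rw [pow_succ, pow_mul]; ring
      rw [e]
      exact dvd_add (ih.mul_right _) h3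
  have hN : p ^ N ∣ (x - y) ^ (3 ^ N) := by
    have h1 : p ^ (3 ^ N) ∣ (x - y) ^ (3 ^ N) := pow_dvd_pow_of_dvd hxy _
    exact (pow_dvd_pow p (Nat.lt_pow_self (by norm_num)).le).trans h1
  have := dvd_sub hN (key N)
  simpa using this

end Lift

section Main

variable {O C0 C1 C01 : Type*} [CommRing O] [CommRing C0] [CommRing C1] [CommRing C01]
  [Algebra O C0] [Algebra O C1] [Algebra O C01]

/-- **Connectedness of the special fibre.**  Two-chart Cech datum `C0 → C01 ← C1` over `O`,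
`π` prime in `O`; global sections are `O` (`H0`), the Cech `H¹` has bounded `π`-torsion (`H1`),
`C01` has no `π`-torsion.  Then every idempotent `(e0, e1)` of the special fibre is `0` or `1`. -/
theorem idempotent_trivial (r0 : C0 →ₐ[O] C01) (r1 : C1 →ₐ[O] C01)
    (π : O) (hπ : Prime π) (hinj : Function.Injective (algebraMap O C0))
    (htf : ∀ w : C01, algebraMap O C01 π * w = 0 → w = 0)
    (H0 : ∀ a b, r0 a = r1 b → ∃ l : O, a = algebraMap O C0 l ∧ b = algebraMap O C1 l)
    (H1 : ∃ c : ℕ, ∀ (n : ℕ) (w : C01),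
        (∃ a b, algebraMap O C01 π ^ n * w = r0 a - r1 b) →
        ∃ a b, algebraMap O C01 π ^ c * w = r0 a - r1 b)
    (e0 : C0) (e1 : C1) (h0 : algebraMap O C0 π ∣ e0 ^ 2 - e0)
    (h1 : algebraMap O C1 π ∣ e1 ^ 2 - e1)
    (h01 : algebraMap O C01 π ∣ r0 e0 - r1 e1) :
    (algebraMap O C0 π ∣ e0 ∧ algebraMap O C1 π ∣ e1) ∨
      (algebraMap O C0 π ∣ e0 - 1 ∧ algebraMap O C1 π ∣ e1 - 1) := by
  obtain ⟨c, hc⟩ := H1
  have hr0 : r0 (algebraMap O C0 π) = algebraMap O C01 π := r0.commutes π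
  have hr1 : r1 (algebraMap O C1 π) = algebraMap O C01 π := r1.commutes π
  obtain ⟨a, ha, haa⟩ := exists_lift (algebraMap O C0 π) e0 h0 c
  obtain ⟨b, hb, hbb⟩ := exists_lift (algebraMap O C1 π) e1 h1 c
  have hx : algebraMap O C01 π ^ (c + 1) ∣ (r0 a) ^ 2 - r0 a := by
    have := map_dvd r0 ha
    simpa only [map_pow, map_sub, hr0] using this
  have hy : algebraMap O C01 π ^ (c + 1) ∣ (r1 b) ^ 2 - r1 b := by
    have := map_dvd r1 hb
    simpa only [map_pow, map_sub, hr1] using this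
  have hxy : algebraMap O C01 π ∣ r0 a - r1 b := by
    have e : r0 a - r1 b = r0 (a - e0) - r1 (b - e1) + (r0 e0 - r1 e1) := by
      simp only [map_sub]; ring
    rw [e]
    have h1' : algebraMap O C01 π ∣ r0 (a - e0) := hr0 ▸ map_dvd r0 haa
    have h2' : algebraMap O C01 π ∣ r1 (b - e1) := hr1 ▸ map_dvd r1 hbb
    exact dvd_add (dvd_sub h1' h2') h01
  obtain ⟨w, hw⟩ := dvd_sub_of_idem (algebraMap O C01 π) (r0 a) (r1 b) (c + 1) hx hy hxy
  obtain ⟨a', b', hab⟩ := hc (c + 1) w ⟨a, b, hw.symm⟩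
  have hglob : r0 (a - algebraMap O C0 π * a') = r1 (b - algebraMap O C1 π * b') := by
    simp only [map_sub, map_mul, hr0, hr1]
    have e : r0 a - r1 b = algebraMap O C01 π * (r0 a' - r1 b') := by
      rw [hw, ← hab]; ring
    linear_combination e
  obtain ⟨l, hl0, hl1⟩ := H0 _ _ hglob
  have hA : algebraMap O C0 π ∣ algebraMap O C0 (l ^ 2 - l) := by
    have e : algebraMap O C0 (l ^ 2 - l)
        = (a ^ 2 - a) + algebraMap O C0 π *
            (algebraMap O C0 π * a' ^ 2 - 2 * a * a' + a') := by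
      simp only [map_sub, map_pow, ← hl0]; ring
    rw [e]
    exact dvd_add ((dvd_pow_self _ (Nat.succ_ne_zero c)).trans ha) (dvd_mul_right _ _)
  have hB : algebraMap O C1 π ∣ algebraMap O C1 (l ^ 2 - l) := by
    have e : algebraMap O C1 (l ^ 2 - l)
        = (b ^ 2 - b) + algebraMap O C1 π *
            (algebraMap O C1 π * b' ^ 2 - 2 * b * b' + b') := by
      simp only [map_sub, map_pow, ← hl1]; ring
    rw [e]
    exact dvd_add ((dvd_pow_self _ (Nat.succ_ne_zero c)).trans hb) (dvd_mul_right _ _)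
  obtain ⟨s, hs⟩ := hA
  obtain ⟨t, ht⟩ := hB
  have hst : r0 s = r1 t := by
    have e : algebraMap O C01 π * (r0 s - r1 t) = 0 := by
      have e0' : algebraMap O C01 π * r0 s = algebraMap O C01 (l ^ 2 - l) := by
        rw [← hr0, ← map_mul, ← hs, r0.commutes]
      have e1' : algebraMap O C01 π * r1 t = algebraMap O C01 (l ^ 2 - l) := by
        rw [← hr1, ← map_mul, ← ht, r1.commutes]
      rw [mul_sub, e0', e1', sub_self]
    exact sub_eq_zero.mp (htf _ e)
  obtain ⟨μ, hμ0, -⟩ := H0 _ _ hst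
  have hlμ : l ^ 2 - l = π * μ := hinj (by rw [hs, hμ0, map_mul])
  have hdiv : π ∣ l * (l - 1) := ⟨μ, by rw [← hlμ]; ring⟩
  rcases hπ.dvd_or_dvd hdiv with h | h
  · left
    refine ⟨?_, ?_⟩
    · have e : e0 = algebraMap O C0 l + algebraMap O C0 π * a' - (a - e0) := by
        rw [← hl0]; ring
      rw [e]
      exact dvd_sub (dvd_add (map_dvd (algebraMap O C0) h) (dvd_mul_right _ _)) haa
    · have e : e1 = algebraMap O C1 l + algebraMap O C1 π * b' - (b - e1) := by
        rw [← hl1]; ring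
      rw [e]
      exact dvd_sub (dvd_add (map_dvd (algebraMap O C1) h) (dvd_mul_right _ _)) hbb
  · right
    refine ⟨?_, ?_⟩
    · have e : e0 - 1 = algebraMap O C0 (l - 1) + algebraMap O C0 π * a' - (a - e0) := by
        rw [map_sub, map_one, ← hl0]; ring
      rw [e]
      exact dvd_sub (dvd_add (map_dvd (algebraMap O C0) h) (dvd_mul_right _ _)) haa
    · have e : e1 - 1 = algebraMap O C1 (l - 1) + algebraMap O C1 π * b' - (b - e1) := by
        rw [map_sub, map_one, ← hl1]; ring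
      rw [e]
      exact dvd_sub (dvd_add (map_dvd (algebraMap O C1) h) (dvd_mul_right _ _)) hbb

/-- The Cech `H¹` as an `O`-module. -/
abbrev cechSub (r0 : C0 →ₐ[O] C01) (r1 : C1 →ₐ[O] C01) : Submodule O C01 :=
  LinearMap.range r0.toLinearMap ⊔ LinearMap.range r1.toLinearMap

theorem mem_cechSub_iff (r0 : C0 →ₐ[O] C01) (r1 : C1 →ₐ[O] C01) (w : C01) :
    w ∈ cechSub r0 r1 ↔ ∃ a b, w = r0 a - r1 b := by
  unfold cechSub
  rw [Submodule.mem_sup]
  constructor
  · rintro ⟨y, ⟨a, rfl⟩, z, ⟨b, rfl⟩, rfl⟩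
    exact ⟨a, -b, by simp⟩
  · rintro ⟨a, b, rfl⟩
    exact ⟨r0 a, ⟨a, rfl⟩, r1 (-b), ⟨-b, rfl⟩, by simp [sub_eq_add_neg]⟩

/-- **Bounded torsion**: if the Cech `H¹` is a finite module over the noetherian ring `O`,
hypothesis `H1` of `idempotent_trivial` holds (for every `π`). -/
theorem bounded_torsion [IsNoetherianRing O] (r0 : C0 →ₐ[O] C01) (r1 : C1 →ₐ[O] C01) (π : O)
    (hfin : Module.Finite O (C01 ⧸ cechSub r0 r1)) :
    ∃ c : ℕ, ∀ (n : ℕ) (w : C01),
        (∃ a b, algebraMap O C01 π ^ n * w = r0 a - r1 b) →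
        ∃ a b, algebraMap O C01 π ^ c * w = r0 a - r1 b := by
  classical
  set S := cechSub r0 r1 with hS
  have : IsNoetherian O (C01 ⧸ S) := isNoetherian_of_isNoetherianRing_of_finite O _
  let K : ℕ →o Submodule O (C01 ⧸ S) :=
    { toFun := fun n => LinearMap.ker (LinearMap.lsmul O (C01 ⧸ S) (π ^ n))
      monotone' := by
        intro m n hmn x hx
        rw [LinearMap.mem_ker, LinearMap.lsmul_apply] at hx ⊢
        obtain ⟨k, rfl⟩ := Nat.exists_eq_add_of_le hmn
        rw [pow_add, mul_comm, mul_smul, hx, smul_zero] }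
  obtain ⟨c, hc⟩ := (monotone_stabilizes_iff_noetherian (R := O) (M := C01 ⧸ S)).mpr
    inferInstance K
  refine ⟨c, fun n w hw => ?_⟩
  have hmem : (Submodule.Quotient.mk w : C01 ⧸ S) ∈ K n := by
    change (Submodule.Quotient.mk w : C01 ⧸ S) ∈
      LinearMap.ker (LinearMap.lsmul O (C01 ⧸ S) (π ^ n))
    rw [LinearMap.mem_ker, LinearMap.lsmul_apply, ← Submodule.Quotient.mk_smul,
      Submodule.Quotient.mk_eq_zero, hS, mem_cechSub_iff]
    obtain ⟨a, b, hab⟩ := hw
    exact ⟨a, b, by rw [← hab, Algebra.smul_def, map_pow]⟩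
  have hmem' : (Submodule.Quotient.mk w : C01 ⧸ S) ∈ K c := by
    have h1 : K n ≤ K (max n c) := K.monotone (le_max_left _ _)
    have h2 : K c = K (max n c) := hc _ (le_max_right _ _)
    rw [h2]; exact h1 hmem
  change (Submodule.Quotient.mk w : C01 ⧸ S) ∈
      LinearMap.ker (LinearMap.lsmul O (C01 ⧸ S) (π ^ c)) at hmem'
  rw [LinearMap.mem_ker, LinearMap.lsmul_apply, ← Submodule.Quotient.mk_smul,
      Submodule.Quotient.mk_eq_zero, hS, mem_cechSub_iff] at hmem'
  obtain ⟨a, b, hab⟩ := hmem'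
  exact ⟨a, b, by rw [← hab, Algebra.smul_def, map_pow]⟩

/-- **The Cech `H¹` of two finite charts is a finite `O`-module.**
`C0` is spanned over `O[u0]` by a finite set `s`; `r0 u0` and `r1 v1` are mutually inverse in
`C01`; `C01 = C0[1/u] = C1[1/v]`. -/
theorem finite_H1 (r0 : C0 →ₐ[O] C01) (r1 : C1 →ₐ[O] C01)
    (u0 : C0) (v1 : C1) (huv : r0 u0 * r1 v1 = 1)
    (s : Finset C0)
    (hs : ∀ a : C0, ∃ f : C0 → Polynomial O, a = ∑ β ∈ s, Polynomial.aeval u0 (f β) * β)
    (h1 : ∀ w : C01, ∃ (n : ℕ) (b : C1), w * r1 v1 ^ n = r1 b)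
    (h0 : ∀ w : C01, ∃ (n : ℕ) (a : C0), w * r0 u0 ^ n = r0 a) :
    Module.Finite O (C01 ⧸ cechSub r0 r1) := by
  classical
  set u := r0 u0 with hu
  set v := r1 v1 with hv
  have hvu : v * u = 1 := by rw [mul_comm]; exact huv
  have huvpow : ∀ k : ℕ, u ^ k * v ^ k = 1 := fun k => by rw [← mul_pow, huv, one_pow]
  choose nb bb hbb using fun β : C0 => h1 (r0 β)
  -- `r0 β * v ^ nb β = r1 (bb β)`
  set r : ℕ := s.sup nb with hr
  set G : Set C01 := (fun x : C0 × ℕ => v ^ x.2 * r0 x.1) '' ((s : Set C0) ×ˢ (Finset.range r : Set ℕ))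
    with hG
  have hGfin : G.Finite := ((s.finite_toSet).prod (Finset.range r).finite_toSet).image _
  set S := cechSub r0 r1 with hS
  set T : Submodule O C01 := S ⊔ Submodule.span O G with hT
  have hr0T : ∀ a, r0 a ∈ T :=
    fun a => Submodule.mem_sup_left ((mem_cechSub_iff r0 r1 _).mpr ⟨a, 0, by simp⟩)
  have hr1T : ∀ b, r1 b ∈ T :=
    fun b => Submodule.mem_sup_left ((mem_cechSub_iff r0 r1 _).mpr ⟨0, -b, by simp⟩)
  -- negative powers
  have hneg : ∀ β ∈ s, ∀ m : ℕ, v ^ m * r0 β ∈ T := by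
    intro β hβ m
    by_cases hm : m < r
    · exact Submodule.mem_sup_right (Submodule.subset_span
        ⟨(β, m), ⟨hβ, by simpa using hm⟩, rfl⟩)
    · have hle : nb β ≤ m := (Finset.le_sup hβ).trans (not_lt.mp hm)
      obtain ⟨k, rfl⟩ := Nat.exists_eq_add_of_le hle
      have e : v ^ (nb β + k) * r0 β = r1 (v1 ^ k * bb β) := by
        rw [map_mul, map_pow, ← hbb β, ← hv]; ring
      rw [e]; exact hr1T _
  have hmono : ∀ β ∈ s, ∀ k n : ℕ, v ^ n * (u ^ k * r0 β) ∈ T := by
    intro β hβ k n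
    rcases le_total n k with h | h
    · obtain ⟨d, rfl⟩ := Nat.exists_eq_add_of_le h
      have e : v ^ n * (u ^ (n + d) * r0 β) = r0 (u0 ^ d * β) := by
        rw [map_mul, map_pow, ← hu, pow_add]
        calc v ^ n * (u ^ n * u ^ d * r0 β) = (u ^ n * v ^ n) * (u ^ d * r0 β) := by ring
          _ = u ^ d * r0 β := by rw [huvpow, one_mul]
      rw [e]; exact hr0T _
    · obtain ⟨d, rfl⟩ := Nat.exists_eq_add_of_le h
      have e : v ^ (k + d) * (u ^ k * r0 β) = v ^ d * r0 β := by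
        rw [pow_add]
        calc v ^ k * v ^ d * (u ^ k * r0 β) = (u ^ k * v ^ k) * (v ^ d * r0 β) := by ring
          _ = v ^ d * r0 β := by rw [huvpow, one_mul]
      rw [e]; exact hneg β hβ d
  have htop : T = ⊤ := by
    rw [eq_top_iff]
    intro w _
    obtain ⟨n, a, hna⟩ := h0 w
    have hw : w = v ^ n * r0 a := by
      calc w = w * (u ^ n * v ^ n) := by rw [huvpow, mul_one]
        _ = v ^ n * (w * u ^ n) := by ring
        _ = v ^ n * r0 a := by rw [hna]
    obtain ⟨f, hf⟩ := hs a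
    rw [hw, hf, map_sum, Finset.mul_sum]
    refine Submodule.sum_mem _ fun β hβ => ?_
    rw [map_mul, ← Polynomial.aeval_algHom_apply, ← hu, Polynomial.aeval_eq_sum_range,
      Finset.sum_mul, Finset.mul_sum]
    refine Submodule.sum_mem _ fun k _ => ?_
    have e : v ^ n * ((f β).coeff k • u ^ k * r0 β) = (f β).coeff k • (v ^ n * (u ^ k * r0 β)) := by
      rw [smul_mul_assoc, mul_smul_comm]
    rw [e]
    exact Submodule.smul_mem _ _ (hmono β hβ k n)
  -- conclude
  have : Module.Finite O (Submodule.span O G) := Module.Finite.span_of_finite O hGfin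
  refine Module.Finite.of_surjective (S.mkQ.comp (Submodule.span O G).subtype) ?_
  intro x
  obtain ⟨w, rfl⟩ := Submodule.Quotient.mk_surjective S x
  have hwT : w ∈ T := htop ▸ Submodule.mem_top
  obtain ⟨y, hy, z, hz, rfl⟩ := Submodule.mem_sup.mp hwT
  refine ⟨⟨z, hz⟩, ?_⟩
  simp only [LinearMap.comp_apply, Submodule.subtype_apply, Submodule.mkQ_apply]
  rw [Submodule.Quotient.mk_add, (Submodule.Quotient.mk_eq_zero S).mpr hy, zero_add]

/-- Combined form: connectedness of the special fibre for two finite charts over a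
noetherian base. -/
theorem idempotent_trivial_of_finite [IsNoetherianRing O] (r0 : C0 →ₐ[O] C01)
    (r1 : C1 →ₐ[O] C01) (π : O) (hπ : Prime π) (hinj : Function.Injective (algebraMap O C0))
    (htf : ∀ w : C01, algebraMap O C01 π * w = 0 → w = 0)
    (H0 : ∀ a b, r0 a = r1 b → ∃ l : O, a = algebraMap O C0 l ∧ b = algebraMap O C1 l)
    (u0 : C0) (v1 : C1) (huv : r0 u0 * r1 v1 = 1)
    (s : Finset C0)
    (hs : ∀ a : C0, ∃ f : C0 → Polynomial O, a = ∑ β ∈ s, Polynomial.aeval u0 (f β) * β)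
    (h1 : ∀ w : C01, ∃ (n : ℕ) (b : C1), w * r1 v1 ^ n = r1 b)
    (h0 : ∀ w : C01, ∃ (n : ℕ) (a : C0), w * r0 u0 ^ n = r0 a)
    (e0 : C0) (e1 : C1) (he0 : algebraMap O C0 π ∣ e0 ^ 2 - e0)
    (he1 : algebraMap O C1 π ∣ e1 ^ 2 - e1)
    (he01 : algebraMap O C01 π ∣ r0 e0 - r1 e1) :
    (algebraMap O C0 π ∣ e0 ∧ algebraMap O C1 π ∣ e1) ∨
      (algebraMap O C0 π ∣ e0 - 1 ∧ algebraMap O C1 π ∣ e1 - 1) :=
  idempotent_trivial r0 r1 π hπ hinj htf H0
    (bounded_torsion r0 r1 π (finite_H1 r0 r1 u0 v1 huv s hs h1 h0)) e0 e1 he0 he1 he01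

end Main

end Fermat.Agent.S30.Model.CechConn
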