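import Mathlib
import Fermat.Agent.S30.Model.CechConn

/-!
# The concrete two-chart Čech datum of the normalisation of `P¹_O` in a field `L`

`O` a commutative ring, `L` a field which is an `O`-algebra, `u : L` nonzero.  The charts are
the integral closures of `O[u]`, `O[u⁻¹]`, `O[u, u⁻¹]` in `L`; everything is stated with
`IsIntegral` over `Algebra.adjoin O {u}` etc., no custom types.

* `isIntegral_of_two_charts` (**H⁰**): integral over `O[u]` and over `O[u⁻¹]` ⇒ integral over `O`.
* `exists_pow_mul_isIntegral` : integral over `O[u, u⁻¹]` ⇒ `u ^ n * w` integral over `O[u]`.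
-/

set_option autoImplicit false

namespace Fermat.Agent.S30.Model.CechP1

open Polynomial

variable {O L : Type*} [CommRing O] [Field L] [Algebra O L]

/-- The `O`-span of the monomials `u^a * x^b`, `a ≤ A`, `b ≤ B`. -/
def boxSpan (u x : L) (A B : ℕ) : Submodule O L :=
  Submodule.span O ((fun p : ℕ × ℕ => u ^ p.1 * x ^ p.2) ''
    ((Finset.range (A + 1) ×ˢ Finset.range (B + 1) : Finset (ℕ × ℕ)) : Set (ℕ × ℕ)))

theorem mem_boxSpan (u x : L) {A B a b : ℕ} (ha : a ≤ A) (hb : b ≤ B) :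
    u ^ a * x ^ b ∈ boxSpan (O := O) u x A B := by
  apply Submodule.subset_span
  refine ⟨(a, b), ?_, rfl⟩
  simp only [Finset.coe_product, Finset.coe_range, Set.mem_prod, Set.mem_Iio]
  exact ⟨by omega, by omega⟩

theorem boxSpan_fg (u x : L) (A B : ℕ) : (boxSpan (O := O) u x A B).FG :=
  Submodule.fg_span ((Finset.finite_toSet _).image _)

theorem aeval_mul_mem (u x : L) {A B a b : ℕ} (p : O[X]) (ha : a + p.natDegree ≤ A)
    (hb : b ≤ B) : u ^ a * aeval u p * x ^ b ∈ boxSpan (O := O) u x A B := by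
  rw [aeval_eq_sum_range, Finset.mul_sum, Finset.sum_mul]
  refine Submodule.sum_mem _ fun k hk => ?_
  have hk' : k ≤ p.natDegree := by
    have := Finset.mem_range.mp hk; omega
  have e : u ^ a * p.coeff k • u ^ k * x ^ b = p.coeff k • (u ^ (a + k) * x ^ b) := by
    rw [pow_add]; simp only [Algebra.smul_def]; ring
  rw [e]
  exact Submodule.smul_mem _ _ (mem_boxSpan u x (by omega) hb)

theorem aeval_inv_mul_mem (u x : L) (hu : u ≠ 0) {A B a b : ℕ} (p : O[X])
    (ha : p.natDegree ≤ a) (haA : a ≤ A) (hb : b ≤ B) :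
    u ^ a * aeval u⁻¹ p * x ^ b ∈ boxSpan (O := O) u x A B := by
  rw [aeval_eq_sum_range, Finset.mul_sum, Finset.sum_mul]
  refine Submodule.sum_mem _ fun k hk => ?_
  have hk' : k ≤ a := by
    have := Finset.mem_range.mp hk; omega
  have e : u ^ a * p.coeff k • u⁻¹ ^ k * x ^ b = p.coeff k • (u ^ (a - k) * x ^ b) := by
    have h1 : u ^ a = u ^ (a - k) * u ^ k := by rw [← pow_add]; congr 1; omega
    have h2 : u ^ k * u⁻¹ ^ k = 1 := by rw [← mul_pow, mul_inv_cancel₀ hu, one_pow]
    simp only [Algebra.smul_def]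
    rw [h1]
    calc u ^ (a - k) * u ^ k * (algebraMap O L (p.coeff k) * u⁻¹ ^ k) * x ^ b
        = algebraMap O L (p.coeff k) * (u ^ (a - k) * x ^ b) * (u ^ k * u⁻¹ ^ k) := by ring
      _ = algebraMap O L (p.coeff k) * (u ^ (a - k) * x ^ b) := by rw [h2, mul_one]
  rw [e]
  exact Submodule.smul_mem _ _ (mem_boxSpan u x (by omega) hb)

/-- An integral equation over `O[t]` in explicit form. -/
theorem exists_eqn_of_isIntegral (t x : L) (h : IsIntegral (Algebra.adjoin O {t}) x) :
    ∃ (d r : ℕ) (a : ℕ → O[X]), (∀ i, (a i).natDegree ≤ r) ∧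
      x ^ d = ∑ i ∈ Finset.range d, aeval t (a i) * x ^ i := by
  classical
  obtain ⟨P, hP, hPx⟩ := h
  have hcoeff : ∀ i : ℕ, ∃ q : O[X], aeval t q = -((P.coeff i : Algebra.adjoin O {t}) : L) := by
    intro i
    have hmem : ((P.coeff i : Algebra.adjoin O {t}) : L) ∈ (aeval t : O[X] →ₐ[O] L).range := by
      rw [← Algebra.adjoin_singleton_eq_range_aeval]
      exact (P.coeff i).2
    obtain ⟨q, hq⟩ := hmem
    exact ⟨-q, by rw [map_neg]; exact congrArg Neg.neg hq⟩
  choose a ha using hcoeff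
  refine ⟨P.natDegree, (Finset.range P.natDegree).sup fun i => (a i).natDegree,
    fun i => if i < P.natDegree then a i else 0, ?_, ?_⟩
  · intro i
    by_cases hi : i < P.natDegree
    · simp only [hi, if_true]
      exact Finset.le_sup (f := fun i => (a i).natDegree) (Finset.mem_range.mpr hi)
    · simp [hi]
  · rw [eval₂_eq_sum_range, Finset.sum_range_succ] at hPx
    have hlead : P.coeff P.natDegree = 1 := hP
    rw [hlead, map_one, one_mul] at hPx
    have hsum : ∑ i ∈ Finset.range P.natDegree,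
        aeval t (if i < P.natDegree then a i else 0) * x ^ i =
        - ∑ i ∈ Finset.range P.natDegree,
          algebraMap (Algebra.adjoin O {t}) L (P.coeff i) * x ^ i := by
      rw [← Finset.sum_neg_distrib]
      refine Finset.sum_congr rfl fun i hi => ?_
      rw [if_pos (Finset.mem_range.mp hi), ha i]
      rw [neg_mul]; rfl
    rw [hsum]
    linear_combination hPx

/-- **H⁰ of the two-chart cover.** An element integral over `O[u]` and over `O[u⁻¹]` is
integral over `O`. -/
theorem isIntegral_of_two_charts (u : L) (hu : u ≠ 0) (x : L)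
    (h0 : IsIntegral (Algebra.adjoin O {u}) x)
    (h1 : IsIntegral (Algebra.adjoin O {u⁻¹}) x) : IsIntegral O x := by
  obtain ⟨d, r1, a, ha, hxd⟩ := exists_eqn_of_isIntegral u x h0
  obtain ⟨e, r2, b, hb, hxe⟩ := exists_eqn_of_isIntegral u⁻¹ x h1
  set A := r1 + r2 with hA
  set B := d + e with hB
  refine isIntegral_of_smul_mem_submodule (boxSpan (O := O) u x A B) ?_ (boxSpan_fg u x A B) x ?_
  · intro hbot
    have h1mem : (1 : L) ∈ boxSpan (O := O) u x A B := by
      have := mem_boxSpan (O := O) u x (A := A) (B := B) (a := 0) (b := 0) (by omega) (by omega)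
      simpa using this
    rw [hbot, Submodule.mem_bot] at h1mem
    exact one_ne_zero h1mem
  · intro n hn
    induction hn using Submodule.span_induction with
    | mem y hy =>
      obtain ⟨⟨a', b'⟩, hab, rfl⟩ := hy
      simp only [Finset.coe_product, Finset.coe_range, Set.mem_prod, Set.mem_Iio] at hab
      obtain ⟨ha', hb'⟩ := hab
      show x • (u ^ a' * x ^ b') ∈ _
      rw [smul_eq_mul]
      by_cases hbB : b' + 1 ≤ B
      · have e1 : x * (u ^ a' * x ^ b') = u ^ a' * x ^ (b' + 1) := by ring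
        rw [e1]
        exact mem_boxSpan u x (by omega) hbB
      · have hb'B : b' = B := by omega
        subst hb'B
        by_cases har : r2 ≤ a'
        · -- use the equation over `O[u⁻¹]`
          have e1 : x * (u ^ a' * x ^ (d + e)) =
              ∑ i ∈ Finset.range e, u ^ a' * aeval u⁻¹ (b i) * x ^ (d + 1 + i) := by
            have : x * (u ^ a' * x ^ (d + e)) = u ^ a' * x ^ (d + 1) * x ^ e := by ring
            rw [this, hxe, Finset.mul_sum]
            refine Finset.sum_congr rfl fun i _ => ?_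
            ring
          rw [e1]
          refine Submodule.sum_mem _ fun i hi => ?_
          have hi' := Finset.mem_range.mp hi
          exact aeval_inv_mul_mem u x hu (b i) ((hb i).trans har) (by omega) (by omega)
        · -- use the equation over `O[u]`
          have e1 : x * (u ^ a' * x ^ (d + e)) =
              ∑ i ∈ Finset.range d, u ^ a' * aeval u (a i) * x ^ (e + 1 + i) := by
            have : x * (u ^ a' * x ^ (d + e)) = u ^ a' * x ^ (e + 1) * x ^ d := by ring
            rw [this, hxd, Finset.mul_sum]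
            refine Finset.sum_congr rfl fun i _ => ?_
            ring
          rw [e1]
          refine Submodule.sum_mem _ fun i hi => ?_
          have hi' := Finset.mem_range.mp hi
          have := ha i
          exact aeval_mul_mem u x (a i) (by omega) (by omega)
    | zero => simp
    | add y z _ _ hy hz => rw [smul_add]; exact Submodule.add_mem _ hy hz
    | smul c y _ hy =>
      rw [smul_comm]; exact Submodule.smul_mem _ _ hy

/-- Elements of `O[u, u⁻¹]` land in `O[u]` after multiplication by a high power of `u`. -/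
theorem exists_pow_mul_mem (u : L) (hu : u ≠ 0) (c : L)
    (hc : c ∈ Algebra.adjoin O {u, u⁻¹}) :
    ∃ m : ℕ, ∀ n, m ≤ n → u ^ n * c ∈ Algebra.adjoin O {u} := by
  have hu_mem : u ∈ Algebra.adjoin O {u} := Algebra.subset_adjoin (Set.mem_singleton u)
  induction hc using Algebra.adjoin_induction with
  | mem x hx =>
    rcases hx with rfl | hx
    · exact ⟨0, fun n _ => mul_mem (pow_mem hu_mem n) hu_mem⟩
    · rw [Set.mem_singleton_iff] at hx
      subst hx
      refine ⟨1, fun n hn => ?_⟩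
      obtain ⟨k, rfl⟩ : ∃ k, n = k + 1 := ⟨n - 1, by omega⟩
      have : u ^ (k + 1) * u⁻¹ = u ^ k := by
        rw [pow_succ, mul_assoc, mul_inv_cancel₀ hu, mul_one]
      rw [this]
      exact pow_mem hu_mem k
  | algebraMap r =>
    exact ⟨0, fun n _ => mul_mem (pow_mem hu_mem n) (Subalgebra.algebraMap_mem _ r)⟩
  | add x y _ _ hx hy =>
    obtain ⟨m1, h1⟩ := hx
    obtain ⟨m2, h2⟩ := hy
    refine ⟨max m1 m2, fun n hn => ?_⟩
    rw [mul_add]
    exact add_mem (h1 n (le_trans (le_max_left _ _) hn)) (h2 n (le_trans (le_max_right _ _) hn))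
  | mul x y _ _ hx hy =>
    obtain ⟨m1, h1⟩ := hx
    obtain ⟨m2, h2⟩ := hy
    refine ⟨m1 + m2, fun n hn => ?_⟩
    have e : u ^ n * (x * y) = (u ^ m1 * x) * (u ^ (n - m1) * y) := by
      have : u ^ n = u ^ m1 * u ^ (n - m1) := by rw [← pow_add]; congr 1; omega
      rw [this]; ring
    rw [e]
    exact mul_mem (h1 m1 le_rfl) (h2 (n - m1) (by omega))

/-- An element integral over `O[u, u⁻¹]` becomes integral over `O[u]` after multiplication by
a power of `u`. -/
theorem exists_pow_mul_isIntegral (u : L) (hu : u ≠ 0) (w : L)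
    (hw : IsIntegral (Algebra.adjoin O {u, u⁻¹}) w) :
    ∃ n : ℕ, IsIntegral (Algebra.adjoin O {u}) (u ^ n * w) := by
  classical
  obtain ⟨P, hP, hPw⟩ := hw
  have hm : ∀ i : ℕ, ∃ m : ℕ, ∀ n, m ≤ n →
      u ^ n * ((P.coeff i : Algebra.adjoin O {u, u⁻¹}) : L) ∈ Algebra.adjoin O {u} :=
    fun i => exists_pow_mul_mem u hu _ (P.coeff i).2
  choose m hm using hm
  set d := P.natDegree with hd
  set n := (Finset.range d).sup m with hn
  have hle : Algebra.adjoin O {u} ≤ Algebra.adjoin O {u, u⁻¹} :=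
    Algebra.adjoin_mono (by simp)
  have hu01 : u ∈ Algebra.adjoin O {u, u⁻¹} := Algebra.subset_adjoin (by simp)
  let s : Algebra.adjoin O {u, u⁻¹} := ⟨u ^ n, pow_mem hu01 n⟩
  let f : Algebra.adjoin O {u} →+* Algebra.adjoin O {u, u⁻¹} :=
    (Subalgebra.inclusion hle).toRingHom
  have hQ : (scaleRoots P s).Monic := (monic_scaleRoots_iff s).mpr hP
  have hQroot : eval₂ (algebraMap (Algebra.adjoin O {u, u⁻¹}) L)
      (algebraMap (Algebra.adjoin O {u, u⁻¹}) L s * w) (scaleRoots P s) = 0 :=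
    scaleRoots_eval₂_eq_zero _ hPw
  have hlifts : scaleRoots P s ∈ lifts f := by
    rw [lifts_iff_coeff_lifts]
    intro i
    rw [coeff_scaleRoots]
    rcases lt_trichotomy i d with hi | hi | hi
    · have hmem : u ^ (n * (d - i)) * ((P.coeff i : Algebra.adjoin O {u, u⁻¹}) : L) ∈
          Algebra.adjoin O {u} := by
        apply hm i
        have h1 : m i ≤ n := Finset.le_sup (f := m) (Finset.mem_range.mpr hi)
        have h2 : n ≤ n * (d - i) := Nat.le_mul_of_pos_right n (by omega)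
        exact h1.trans h2
      refine ⟨⟨_, hmem⟩, ?_⟩
      apply Subtype.ext
      show u ^ (n * (d - i)) * ((P.coeff i : Algebra.adjoin O {u, u⁻¹}) : L) =
        ((P.coeff i * s ^ (d - i) : Algebra.adjoin O {u, u⁻¹}) : L)
      push_cast
      rw [pow_mul]; ring
    · subst hi
      refine ⟨1, ?_⟩
      have : P.coeff d = 1 := hP
      rw [this, Nat.sub_self, pow_zero, mul_one, map_one]
    · refine ⟨0, ?_⟩
      rw [coeff_eq_zero_of_natDegree_lt hi, zero_mul, map_zero]
  obtain ⟨q, hq, -, hqm⟩ := lifts_and_natDegree_eq_and_monic hlifts hQ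
  refine ⟨n, q, hqm, ?_⟩
  have e1 : algebraMap (Algebra.adjoin O {u, u⁻¹}) L s = u ^ n := rfl
  rw [e1, ← hq, eval₂_map] at hQroot
  exact hQroot

/-- The chart ring: the integral closure of `O[t]` in `L`, as an `O`-subalgebra of `L`. -/
def chart (O : Type*) {L : Type*} [CommRing O] [Field L] [Algebra O L] (t : Set L) :
    Subalgebra O L :=
  (integralClosure (Algebra.adjoin O t) L).restrictScalars O

theorem mem_chart {t : Set L} {x : L} :
    x ∈ chart O t ↔ IsIntegral (Algebra.adjoin O t) x := Iff.rfl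

theorem isIntegral_mono {S T : Subalgebra O L} (h : S ≤ T) {x : L} (hx : IsIntegral S x) :
    IsIntegral T x := by
  obtain ⟨P, hP, hPx⟩ := hx
  refine ⟨P.map (Subalgebra.inclusion h).toRingHom, hP.map _, ?_⟩
  rw [eval₂_map]
  exact hPx

theorem chart_mono {s t : Set L} (h : s ⊆ t) : chart O s ≤ chart O t :=
  fun _ hx => isIntegral_mono (Algebra.adjoin_mono h) hx

theorem isIntegral_adjoin_of_mem {t : Set L} {x : L} (hx : x ∈ Algebra.adjoin O t) :
    IsIntegral (Algebra.adjoin O t) x :=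
  isIntegral_algebraMap (R := Algebra.adjoin O t) (A := L) (x := ⟨x, hx⟩)

/-- Subalgebra form of `CechConn.idempotent_trivial_of_finite`: three `O`-subalgebras
`C0, C1 ≤ C01` of a field `L`, with `u ∈ C0`, `u⁻¹ ∈ C1`. -/
theorem connected_subalgebra [IsNoetherianRing O] (C0 C1 C01 : Subalgebra O L)
    (h0le : C0 ≤ C01) (h1le : C1 ≤ C01) (π : O) (hπ : Prime π)
    (hinj : Function.Injective (algebraMap O L))
    (H0 : ∀ x : L, x ∈ C0 → x ∈ C1 → ∃ a : O, algebraMap O L a = x)
    (u : L) (hu : u ≠ 0) (hu0 : u ∈ C0) (hu1 : u⁻¹ ∈ C1)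
    (hfin : ∃ s : Finset L, (∀ β ∈ s, β ∈ C0) ∧
      ∀ x : L, x ∈ C0 → ∃ f : L → O[X], x = ∑ β ∈ s, aeval u (f β) * β)
    (hloc1 : ∀ w : L, w ∈ C01 → ∃ n : ℕ, u⁻¹ ^ n * w ∈ C1)
    (hloc0 : ∀ w : L, w ∈ C01 → ∃ n : ℕ, u ^ n * w ∈ C0)
    (e0 e1 : L) (he0 : e0 ∈ C0) (he1 : e1 ∈ C1)
    (h0 : ∃ w, w ∈ C0 ∧ e0 ^ 2 - e0 = algebraMap O L π * w)
    (h1 : ∃ w, w ∈ C1 ∧ e1 ^ 2 - e1 = algebraMap O L π * w)
    (h01 : ∃ w, w ∈ C01 ∧ e0 - e1 = algebraMap O L π * w) :
    ((∃ w, w ∈ C0 ∧ e0 = algebraMap O L π * w) ∧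
        (∃ w, w ∈ C1 ∧ e1 = algebraMap O L π * w)) ∨
      ((∃ w, w ∈ C0 ∧ e0 - 1 = algebraMap O L π * w) ∧
        (∃ w, w ∈ C1 ∧ e1 - 1 = algebraMap O L π * w)) := by
  classical
  have hπL : algebraMap O L π ≠ 0 := fun h => hπ.ne_zero (hinj (by rw [h, map_zero]))
  have hinj' : Function.Injective (algebraMap O C0) := by
    intro a b hab
    apply hinj
    have h := congrArg (Subalgebra.val C0) hab
    simpa using h
  have htf : ∀ w : C01, algebraMap O C01 π * w = 0 → w = 0 := by
    intro w hw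
    have h : algebraMap O L π * (w : L) = 0 := by
      have h := congrArg (Subalgebra.val C01) hw
      simpa using h
    exact Subtype.ext ((mul_eq_zero.mp h).resolve_left hπL)
  have H0' : ∀ (a : C0) (b : C1), Subalgebra.inclusion h0le a = Subalgebra.inclusion h1le b →
      ∃ l : O, a = algebraMap O C0 l ∧ b = algebraMap O C1 l := by
    intro a b hab
    have hab' : (a : L) = (b : L) := by
      have h := congrArg (Subalgebra.val C01) hab
      simpa using h
    obtain ⟨l, hl⟩ := H0 (a : L) a.2 (by rw [hab']; exact b.2)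
    refine ⟨l, Subtype.ext ?_, Subtype.ext ?_⟩
    · rw [Subalgebra.coe_algebraMap]; exact hl.symm
    · rw [Subalgebra.coe_algebraMap]; exact (hl.trans hab').symm
  have huv : Subalgebra.inclusion h0le (⟨u, hu0⟩ : C0) *
      Subalgebra.inclusion h1le (⟨u⁻¹, hu1⟩ : C1) = 1 := by
    apply Subtype.ext
    rw [Subalgebra.coe_mul, Subalgebra.coe_inclusion, Subalgebra.coe_inclusion,
      Subalgebra.coe_one]
    exact mul_inv_cancel₀ hu
  obtain ⟨s', hs'int, hs'span⟩ := hfin
  have hs : ∀ a : C0, ∃ f : C0 → O[X],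
      a = ∑ β ∈ s'.attach.image (fun β => (⟨β.1, hs'int β.1 β.2⟩ : C0)),
        aeval (⟨u, hu0⟩ : C0) (f β) * β := by
    intro a
    obtain ⟨f, hf⟩ := hs'span (a : L) a.2
    refine ⟨fun c => f (c : L), Subtype.ext ?_⟩
    rw [hf, ← Subalgebra.coe_val, map_sum, Finset.sum_image]
    · rw [← Finset.sum_attach s' fun β => aeval u (f β) * β]
      refine Finset.sum_congr rfl fun β _ => ?_
      simp only [map_mul, Subalgebra.coe_val, aeval_subalgebra_coe]
    · intro x _ y _ hxy
      have h := congrArg (Subalgebra.val C0) hxy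
      exact Subtype.ext (by simpa using h)
  have h1' : ∀ w : C01, ∃ (n : ℕ) (b : C1),
      w * Subalgebra.inclusion h1le (⟨u⁻¹, hu1⟩ : C1) ^ n = Subalgebra.inclusion h1le b := by
    intro w
    obtain ⟨n, hn⟩ := hloc1 (w : L) w.2
    refine ⟨n, ⟨u⁻¹ ^ n * w, hn⟩, Subtype.ext ?_⟩
    rw [Subalgebra.coe_mul, Subalgebra.coe_pow, Subalgebra.coe_inclusion,
      Subalgebra.coe_inclusion]
    exact mul_comm _ _
  have h0' : ∀ w : C01, ∃ (n : ℕ) (a : C0),
      w * Subalgebra.inclusion h0le (⟨u, hu0⟩ : C0) ^ n = Subalgebra.inclusion h0le a := by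
    intro w
    obtain ⟨n, hn⟩ := hloc0 (w : L) w.2
    refine ⟨n, ⟨u ^ n * w, hn⟩, Subtype.ext ?_⟩
    rw [Subalgebra.coe_mul, Subalgebra.coe_pow, Subalgebra.coe_inclusion,
      Subalgebra.coe_inclusion]
    exact mul_comm _ _
  have hE0 : algebraMap O C0 π ∣ (⟨e0, he0⟩ : C0) ^ 2 - ⟨e0, he0⟩ := by
    obtain ⟨w, hw, hweq⟩ := h0
    refine ⟨⟨w, hw⟩, Subtype.ext ?_⟩
    rw [Subalgebra.coe_sub, Subalgebra.coe_pow, Subalgebra.coe_mul, Subalgebra.coe_algebraMap]
    exact hweq
  have hE1 : algebraMap O C1 π ∣ (⟨e1, he1⟩ : C1) ^ 2 - ⟨e1, he1⟩ := by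
    obtain ⟨w, hw, hweq⟩ := h1
    refine ⟨⟨w, hw⟩, Subtype.ext ?_⟩
    rw [Subalgebra.coe_sub, Subalgebra.coe_pow, Subalgebra.coe_mul, Subalgebra.coe_algebraMap]
    exact hweq
  have hE01 : algebraMap O C01 π ∣ Subalgebra.inclusion h0le (⟨e0, he0⟩ : C0) -
      Subalgebra.inclusion h1le (⟨e1, he1⟩ : C1) := by
    obtain ⟨w, hw, hweq⟩ := h01
    refine ⟨⟨w, hw⟩, Subtype.ext ?_⟩
    rw [Subalgebra.coe_sub, Subalgebra.coe_inclusion, Subalgebra.coe_inclusion,
      Subalgebra.coe_mul, Subalgebra.coe_algebraMap]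
    exact hweq
  have hcoe0 : ∀ w0 : C0, (⟨e0, he0⟩ : C0) = algebraMap O C0 π * w0 →
      e0 = algebraMap O L π * w0 := by
    intro w0 h
    have h' := congrArg (Subalgebra.val C0) h
    simpa using h'
  have hcoe1 : ∀ w1 : C1, (⟨e1, he1⟩ : C1) = algebraMap O C1 π * w1 →
      e1 = algebraMap O L π * w1 := by
    intro w1 h
    have h' := congrArg (Subalgebra.val C1) h
    simpa using h'
  have hcoe0' : ∀ w0 : C0, (⟨e0, he0⟩ : C0) - 1 = algebraMap O C0 π * w0 →
      e0 - 1 = algebraMap O L π * w0 := by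
    intro w0 h
    have h' := congrArg (Subalgebra.val C0) h
    simpa using h'
  have hcoe1' : ∀ w1 : C1, (⟨e1, he1⟩ : C1) - 1 = algebraMap O C1 π * w1 →
      e1 - 1 = algebraMap O L π * w1 := by
    intro w1 h
    have h' := congrArg (Subalgebra.val C1) h
    simpa using h'
  rcases CechConn.idempotent_trivial_of_finite (Subalgebra.inclusion h0le)
      (Subalgebra.inclusion h1le) π hπ hinj' htf H0' ⟨u, hu0⟩ ⟨u⁻¹, hu1⟩ huv _ hs h1' h0'
      ⟨e0, he0⟩ ⟨e1, he1⟩ hE0 hE1 hE01 with ⟨⟨w0, hw0⟩, ⟨w1, hw1⟩⟩ | ⟨⟨w0, hw0⟩, ⟨w1, hw1⟩⟩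
  · exact Or.inl ⟨⟨w0, w0.2, hcoe0 w0 hw0⟩, ⟨w1, w1.2, hcoe1 w1 hw1⟩⟩
  · exact Or.inr ⟨⟨w0, w0.2, hcoe0' w0 hw0⟩, ⟨w1, w1.2, hcoe1' w1 hw1⟩⟩

/-- Provider for the finiteness hypothesis of `connected`: if the integral closure of `O[u]` in
`L` is a finite `O[u]`-module (e.g. by `IsIntegralClosure.finite`), it is spanned over `O[u]`
by a finite set, with polynomial coefficients. -/
theorem hfin_of_finite (u : L)
    [Module.Finite (Algebra.adjoin O {u}) (integralClosure (Algebra.adjoin O {u}) L)] :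
    ∃ s : Finset L, (∀ β ∈ s, IsIntegral (Algebra.adjoin O {u}) β) ∧
      ∀ x : L, IsIntegral (Algebra.adjoin O {u}) x →
        ∃ f : L → O[X], x = ∑ β ∈ s, aeval u (f β) * β := by
  classical
  obtain ⟨S, hS⟩ := Module.Finite.fg_top (R := Algebra.adjoin O {u})
    (M := integralClosure (Algebra.adjoin O {u}) L)
  refine ⟨S.image Subtype.val, ?_, ?_⟩
  · intro β hβ
    obtain ⟨b, -, rfl⟩ := Finset.mem_image.mp hβ
    exact b.2
  · intro x hx
    have hmem : (⟨x, hx⟩ : integralClosure (Algebra.adjoin O {u}) L) ∈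
        Submodule.span (Algebra.adjoin O {u}) (S : Set (integralClosure (Algebra.adjoin O {u}) L)) := by
      rw [hS]; exact Submodule.mem_top
    obtain ⟨c, -, hc⟩ := Submodule.mem_span_finset.mp hmem
    have hpoly : ∀ a : Algebra.adjoin O {u}, ∃ q : O[X], aeval u q = (a : L) := by
      intro a
      have hmem : (a : L) ∈ (aeval u : O[X] →ₐ[O] L).range := by
        rw [← Algebra.adjoin_singleton_eq_range_aeval]; exact a.2
      exact hmem
    choose q hq using hpoly
    let F : L → O[X] := fun β =>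
      if h : β ∈ integralClosure (Algebra.adjoin O {u}) L then q (c ⟨β, h⟩) else 0
    have hF : ∀ i : integralClosure (Algebra.adjoin O {u}) L, F (i : L) = q (c i) := by
      intro i
      show (if h : (i : L) ∈ integralClosure (Algebra.adjoin O {u}) L
        then q (c ⟨(i : L), h⟩) else 0) = q (c i)
      rw [dif_pos i.2]
    refine ⟨F, ?_⟩
    rw [Finset.sum_image (fun a _ b _ h => Subtype.ext h)]
    have hx' : x = ((∑ i ∈ S, c i • i : integralClosure (Algebra.adjoin O {u}) L) : L) := by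
      rw [hc]
    rw [hx', ← Subalgebra.coe_val, map_sum]
    refine Finset.sum_congr rfl fun i _ => ?_
    have e1 : (integralClosure (Algebra.adjoin O {u}) L).val i = (i : L) := rfl
    rw [e1, hF, hq]
    rfl

/-- **Connectedness of the special fibre of the normalisation of `P¹_O` in `L`.**
A pair `(e0, e1)` of elements of the two chart rings (integral closures of `O[u]`, `O[u⁻¹]`
in `L`) which are idempotent modulo `π` and agree modulo `π` on the overlap is congruent to
`0` or to `1` modulo `π` on both charts. -/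
theorem connected [IsNoetherianRing O] (π : O) (hπ : Prime π)
    (hinj : Function.Injective (algebraMap O L))
    (hOL : ∀ x : L, IsIntegral O x → ∃ a : O, algebraMap O L a = x)
    (u : L) (hu : u ≠ 0)
    (hfin : ∃ s : Finset L, (∀ β ∈ s, IsIntegral (Algebra.adjoin O {u}) β) ∧
      ∀ x : L, IsIntegral (Algebra.adjoin O {u}) x →
        ∃ f : L → O[X], x = ∑ β ∈ s, aeval u (f β) * β)
    (e0 e1 : L)
    (he0 : IsIntegral (Algebra.adjoin O {u}) e0) (he1 : IsIntegral (Algebra.adjoin O {u⁻¹}) e1)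
    (h0 : ∃ w, IsIntegral (Algebra.adjoin O {u}) w ∧ e0 ^ 2 - e0 = algebraMap O L π * w)
    (h1 : ∃ w, IsIntegral (Algebra.adjoin O {u⁻¹}) w ∧ e1 ^ 2 - e1 = algebraMap O L π * w)
    (h01 : ∃ w, IsIntegral (Algebra.adjoin O {u, u⁻¹}) w ∧ e0 - e1 = algebraMap O L π * w) :
    ((∃ w, IsIntegral (Algebra.adjoin O {u}) w ∧ e0 = algebraMap O L π * w) ∧
        (∃ w, IsIntegral (Algebra.adjoin O {u⁻¹}) w ∧ e1 = algebraMap O L π * w)) ∨
      ((∃ w, IsIntegral (Algebra.adjoin O {u}) w ∧ e0 - 1 = algebraMap O L π * w) ∧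
        (∃ w, IsIntegral (Algebra.adjoin O {u⁻¹}) w ∧ e1 - 1 = algebraMap O L π * w)) := by
  have hloc1 : ∀ w : L, w ∈ chart O ({u, u⁻¹} : Set L) →
      ∃ n : ℕ, u⁻¹ ^ n * w ∈ chart O ({u⁻¹} : Set L) := by
    intro w hw
    have hw' : IsIntegral (Algebra.adjoin O {u⁻¹, u⁻¹⁻¹}) w := by
      rw [inv_inv, Set.pair_comm]; exact hw
    exact exists_pow_mul_isIntegral u⁻¹ (inv_ne_zero hu) w hw'
  exact connected_subalgebra (chart O ({u} : Set L)) (chart O ({u⁻¹} : Set L))
    (chart O ({u, u⁻¹} : Set L)) (chart_mono (by simp)) (chart_mono (by simp)) π hπ hinj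
    (fun x hx0 hx1 => hOL x (isIntegral_of_two_charts u hu x hx0 hx1)) u hu
    (isIntegral_adjoin_of_mem (Algebra.subset_adjoin (Set.mem_singleton u)))
    (isIntegral_adjoin_of_mem (Algebra.subset_adjoin (Set.mem_singleton u⁻¹)))
    hfin hloc1 (fun w hw => exists_pow_mul_isIntegral u hu w hw) e0 e1 he0 he1 h0 h1 h01

end Fermat.Agent.S30.Model.CechP1
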