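import Mathlib
import Fermat.Agent.S30.CechIdem

/-!
# Model theorem, assembly step: "locally a domain modulo `π`" + Čech connectedness ⇒ `π` prime

Two-chart situation `C0 → C0inf ← Cinf` over `O` (as in `CechIdem`), with `C0inf = Cinf[1/u]`.
If both charts are Noetherian and *locally domains modulo `π`* (for every maximal ideal `M ∋ π`
the ring `C_M / π` is a domain, stated elementwise), then a pair of zero divisors modulo `π` on
the chart `C0` produces a nontrivial idempotent of `C0 / π`, which extends to a compatible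
idempotent of `Cinf / π`; the connectedness theorem `CechIdem.idem_trivial` forbids this.
Hence `π` is a prime element of `C0`.
-/

set_option autoImplicit false

namespace Fermat.Agent.S30.Model.GluePrime

section Abstract

variable {B : Type*} [CommRing B]

/-- In a Noetherian ring which is locally a domain (elementwise form), the annihilator of an
element is generated by an idempotent; so a pair `x * y = 0` gives an idempotent `e` with
`e * x = 0` and `e * y = y`. -/
theorem exists_idem_of_mul_eq_zero [IsNoetherianRing B]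
    (hLD : ∀ M : Ideal B, M.IsMaximal → ∀ x y : B, x * y = 0 →
      ∃ s, s ∉ M ∧ (s * x = 0 ∨ s * y = 0))
    (x y : B) (hxy : x * y = 0) :
    ∃ e : B, IsIdempotentElem e ∧ e * x = 0 ∧ e * y = y := by
  classical
  -- the annihilator of `x`
  set I : Ideal B := LinearMap.ker (LinearMap.mulLeft B x) with hI
  have hmem : ∀ z : B, z ∈ I ↔ x * z = 0 := by
    intro z
    rw [hI, LinearMap.mem_ker, LinearMap.mulLeft_apply]
  have hidem : IsIdempotentElem I := by
    refine le_antisymm Ideal.mul_le_left ?_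
    intro z hz
    by_contra hzn
    set T : Ideal B := Submodule.comap (LinearMap.mulRight B z) (I * I) with hT
    have hTmem : ∀ t : B, t ∈ T ↔ t * z ∈ I * I := by
      intro t
      rw [hT, Submodule.mem_comap, LinearMap.mulRight_apply]
    have hTne : T ≠ ⊤ := by
      intro h
      have h1 : (1 : B) ∈ T := by rw [h]; exact Submodule.mem_top
      rw [hTmem, one_mul] at h1
      exact hzn h1
    obtain ⟨M, hM, hTM⟩ := Ideal.exists_le_maximal T hTne
    have hzx : z * x = 0 := by
      rw [mul_comm]; exact (hmem z).mp hz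
    obtain ⟨s, hsM, hs⟩ := hLD M hM z x hzx
    apply hsM
    apply hTM
    rw [hTmem]
    rcases hs with hs | hs
    · rw [hs]; exact Ideal.zero_mem _
    · have hsI : s ∈ I := by rw [hmem, mul_comm]; exact hs
      exact Ideal.mul_mem_mul hsI hz
  obtain ⟨e, he, hIe⟩ :=
    (Ideal.isIdempotentElem_iff_of_fg I (IsNoetherian.noetherian I)).mp hidem
  refine ⟨e, he, ?_, ?_⟩
  · have : e ∈ I := by rw [hIe]; exact Ideal.mem_span_singleton_self e
    rw [mul_comm]; exact (hmem e).mp this
  · have hy : y ∈ I := (hmem y).mpr hxy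
    rw [hIe, Ideal.mem_span_singleton'] at hy
    obtain ⟨w, rfl⟩ := hy
    calc e * (w * e) = w * (e * e) := by ring
      _ = w * e := by rw [he.eq]

/-- Idempotents descend along a localisation-like injection `φ : B → B' = B[1/h]` when `B` is
Noetherian and locally a domain. -/
theorem exists_idem_map_eq {B' : Type*} [CommRing B'] [IsNoetherianRing B]
    (hLD : ∀ M : Ideal B, M.IsMaximal → ∀ x y : B, x * y = 0 →
      ∃ s, s ∉ M ∧ (s * x = 0 ∨ s * y = 0))
    (φ : B →+* B') (hφ : Function.Injective φ) (h : B) (hh : IsUnit (φ h))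
    (hloc : ∀ z : B', ∃ (n : ℕ) (y : B), φ h ^ n * z = φ y)
    (ε' : B') (hε : IsIdempotentElem ε') :
    ∃ ε : B, IsIdempotentElem ε ∧ φ ε = ε' := by
  classical
  have hε0 : ε' * (1 - ε') = 0 := by
    have := hε.eq
    linear_combination -this
  -- the ideal of elements supported on the component `ε'`
  set I : Ideal B := RingHom.ker ((Ideal.Quotient.mk (Ideal.span {ε'})).comp φ) with hI
  have hmem : ∀ z : B, z ∈ I ↔ φ z * (1 - ε') = 0 := by
    intro z
    rw [hI, RingHom.mem_ker, RingHom.comp_apply, Ideal.Quotient.eq_zero_iff_mem,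
      Ideal.mem_span_singleton']
    constructor
    · rintro ⟨w, hw⟩
      rw [← hw]
      linear_combination w * hε0
    · intro hz
      exact ⟨φ z, by linear_combination (-1 : B') * hz⟩
  obtain ⟨n, y, hy⟩ := hloc ε'
  have hun : IsUnit (φ h ^ n) := hh.pow n
  have hyI : y ∈ I := by
    rw [hmem, ← hy]
    linear_combination (φ h ^ n) * hε0
  have hy0 : y * (h ^ n - y) = 0 := by
    apply hφ
    rw [map_mul, map_sub, map_pow, ← hy, map_zero]
    linear_combination (φ h ^ n) ^ 2 * hε0
  have hidem : IsIdempotentElem I := by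
    refine le_antisymm Ideal.mul_le_left ?_
    intro x hx
    by_contra hxn
    set T : Ideal B := Submodule.comap (LinearMap.mulRight B x) (I * I) with hT
    have hTmem : ∀ t : B, t ∈ T ↔ t * x ∈ I * I := by
      intro t
      rw [hT, Submodule.mem_comap, LinearMap.mulRight_apply]
    have hTne : T ≠ ⊤ := by
      intro h'
      have h1 : (1 : B) ∈ T := by rw [h']; exact Submodule.mem_top
      rw [hTmem, one_mul] at h1
      exact hxn h1
    obtain ⟨M, hM, hTM⟩ := Ideal.exists_le_maximal T hTne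
    obtain ⟨s, hsM, hs⟩ := hLD M hM y (h ^ n - y) hy0
    apply hsM
    apply hTM
    rw [hTmem]
    have hx' : φ x * (1 - ε') = 0 := (hmem x).mp hx
    rcases hs with hs | hs
    · -- `s` is supported off the component, so `s * x = 0`
      have h1 : φ s * (φ h ^ n * ε') = 0 := by
        rw [hy, ← map_mul, hs, map_zero]
      have h2 : φ s * ε' = 0 := by
        have : φ h ^ n * (φ s * ε') = 0 := by linear_combination h1
        exact (hun.mul_right_eq_zero).mp this
      have h3 : s * x = 0 := by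
        apply hφ
        rw [map_mul, map_zero]
        linear_combination φ s * hx' + φ x * h2
      rw [h3]; exact Ideal.zero_mem _
    · -- `s` is supported on the component, so `s ∈ I`
      have h1 : φ s * (φ h ^ n - φ h ^ n * ε') = 0 := by
        rw [hy, ← map_pow, ← map_sub, ← map_mul, hs, map_zero]
      have h2 : φ s * (1 - ε') = 0 := by
        have : φ h ^ n * (φ s * (1 - ε')) = 0 := by linear_combination h1
        exact (hun.mul_right_eq_zero).mp this
      have hsI : s ∈ I := (hmem s).mpr h2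
      exact Ideal.mul_mem_mul hsI hx
  obtain ⟨e, he, hIe⟩ :=
    (Ideal.isIdempotentElem_iff_of_fg I (IsNoetherian.noetherian I)).mp hidem
  refine ⟨e, he, ?_⟩
  have heI : e ∈ I := by rw [hIe]; exact Ideal.mem_span_singleton_self e
  have h1 : φ e * (1 - ε') = 0 := (hmem e).mp heI
  have hye : y * e = y := by
    have hy' := hyI
    rw [hIe, Ideal.mem_span_singleton'] at hy'
    obtain ⟨w, rfl⟩ := hy'
    calc w * e * e = w * (e * e) := by ring
      _ = w * e := by rw [he.eq]
  have h2 : φ h ^ n * (ε' * φ e - ε') = 0 := by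
    have := congrArg φ hye
    rw [map_mul, ← hy] at this
    linear_combination this
  have h3 : ε' * φ e - ε' = 0 := (hun.mul_right_eq_zero).mp h2
  linear_combination h1 + h3

end Abstract

section Main

variable {O C0 Cinf C0inf : Type*} [CommRing O] [CommRing C0] [CommRing Cinf] [CommRing C0inf]
  [Algebra O C0] [Algebra O Cinf] [Algebra O C0inf]

/-- The elementwise "locally a domain modulo `p`" hypothesis passes to the quotient ring. -/
theorem quotient_locally_domain {C : Type*} [CommRing C] (p : C)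
    (hLD : ∀ M : Ideal C, M.IsMaximal → p ∈ M → ∀ a b : C, p ∣ a * b →
      ∃ s, s ∉ M ∧ (p ∣ s * a ∨ p ∣ s * b)) :
    ∀ M : Ideal (C ⧸ Ideal.span {p}), M.IsMaximal → ∀ x y : C ⧸ Ideal.span {p}, x * y = 0 →
      ∃ s, s ∉ M ∧ (s * x = 0 ∨ s * y = 0) := by
  intro M hM x y hxy
  obtain ⟨a, rfl⟩ := Ideal.Quotient.mk_surjective x
  obtain ⟨b, rfl⟩ := Ideal.Quotient.mk_surjective y
  have hM' : (M.comap (Ideal.Quotient.mk (Ideal.span {p}))).IsMaximal :=
    Ideal.comap_isMaximal_of_surjective _ Ideal.Quotient.mk_surjective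
  have hpM : p ∈ M.comap (Ideal.Quotient.mk (Ideal.span {p})) := by
    rw [Ideal.mem_comap]
    have : (Ideal.Quotient.mk (Ideal.span {p})) p = 0 :=
      Ideal.Quotient.eq_zero_iff_mem.mpr (Ideal.mem_span_singleton_self p)
    rw [this]; exact Ideal.zero_mem _
  have hab : p ∣ a * b := by
    rw [← map_mul, Ideal.Quotient.eq_zero_iff_mem, Ideal.mem_span_singleton] at hxy
    exact hxy
  obtain ⟨s, hs, h⟩ := hLD _ hM' hpM a b hab
  refine ⟨Ideal.Quotient.mk _ s, fun h' => hs (Ideal.mem_comap.mpr h'), ?_⟩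
  rcases h with h | h
  · left
    rw [← map_mul, Ideal.Quotient.eq_zero_iff_mem, Ideal.mem_span_singleton]
    exact h
  · right
    rw [← map_mul, Ideal.Quotient.eq_zero_iff_mem, Ideal.mem_span_singleton]
    exact h

/-- **Assembly of the model theorem.**  Two Noetherian charts which are locally domains
modulo `π`, glued along `C0inf = Cinf[1/uinf]`, with the Čech hypotheses of
`CechIdem.idem_trivial`: then `π` is a prime element of `C0`. -/
theorem prime_of_locally_domain [IsNoetherianRing C0] [IsNoetherianRing Cinf]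
    (π : O) (hπ : Prime π) (ι0 : C0 →ₐ[O] C0inf) (ιinf : Cinf →ₐ[O] C0inf)
    (htf0 : ∀ x : C0, algebraMap O C0 π * x = 0 → x = 0)
    (htfinf : ∀ y : Cinf, algebraMap O Cinf π * y = 0 → y = 0)
    (hH0 : ∀ (x : C0) (y : Cinf), ι0 x = ιinf y →
      ∃ a : O, x = algebraMap O C0 a ∧ y = algebraMap O Cinf a)
    (hpur : ∀ a : O, algebraMap O C0 π ∣ algebraMap O C0 a → π ∣ a)
    (c : ℕ)
    (hH1 : ∀ (m : ℕ) (z : C0inf), (∃ x y, algebraMap O C0inf π ^ m * z = ι0 x - ιinf y) →
      ∃ x y, algebraMap O C0inf π ^ c * z = ι0 x - ιinf y)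
    (uinf : Cinf) (hu : IsUnit (ιinf uinf))
    (hloc : ∀ z : C0inf, ∃ (n : ℕ) (y : Cinf), ιinf uinf ^ n * z = ιinf y)
    (hinjπ : ∀ y : Cinf, algebraMap O C0inf π ∣ ιinf y → algebraMap O Cinf π ∣ y)
    (hLD0 : ∀ M : Ideal C0, M.IsMaximal → algebraMap O C0 π ∈ M → ∀ a b : C0,
      algebraMap O C0 π ∣ a * b →
        ∃ s, s ∉ M ∧ (algebraMap O C0 π ∣ s * a ∨ algebraMap O C0 π ∣ s * b))
    (hLDinf : ∀ M : Ideal Cinf, M.IsMaximal → algebraMap O Cinf π ∈ M → ∀ a b : Cinf,
      algebraMap O Cinf π ∣ a * b →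
        ∃ s, s ∉ M ∧ (algebraMap O Cinf π ∣ s * a ∨ algebraMap O Cinf π ∣ s * b)) :
    Prime (algebraMap O C0 π) := by
  classical
  -- notation for the three special fibres
  set p0 : C0 := algebraMap O C0 π with hp0
  set pinf : Cinf := algebraMap O Cinf π with hpinf
  set p01 : C0inf := algebraMap O C0inf π with hp01
  have hι0p : ι0 p0 = p01 := by rw [hp0, hp01, AlgHom.commutes]
  have hιinfp : ιinf pinf = p01 := by rw [hpinf, hp01, AlgHom.commutes]
  have hle0 : Ideal.span {p0} ≤ (Ideal.span {p01}).comap (ι0 : C0 →+* C0inf) := by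
    rw [Ideal.span_singleton_le_iff_mem, Ideal.mem_comap]
    show ι0 p0 ∈ _
    rw [hι0p]; exact Ideal.mem_span_singleton_self _
  have hleinf : Ideal.span {pinf} ≤ (Ideal.span {p01}).comap (ιinf : Cinf →+* C0inf) := by
    rw [Ideal.span_singleton_le_iff_mem, Ideal.mem_comap]
    show ιinf pinf ∈ _
    rw [hιinfp]; exact Ideal.mem_span_singleton_self _
  let φ0 : C0 ⧸ Ideal.span {p0} →+* C0inf ⧸ Ideal.span {p01} :=
    Ideal.quotientMap (Ideal.span {p01}) (ι0 : C0 →+* C0inf) hle0
  let φinf : Cinf ⧸ Ideal.span {pinf} →+* C0inf ⧸ Ideal.span {p01} :=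
    Ideal.quotientMap (Ideal.span {p01}) (ιinf : Cinf →+* C0inf) hleinf
  have hφ0 : ∀ x : C0, φ0 (Ideal.Quotient.mk _ x) = Ideal.Quotient.mk _ (ι0 x) := fun x =>
    Ideal.quotientMap_mk
  have hφinf : ∀ y : Cinf, φinf (Ideal.Quotient.mk _ y) = Ideal.Quotient.mk _ (ιinf y) :=
    fun y => Ideal.quotientMap_mk
  have hφinf_inj : Function.Injective φinf := by
    rw [injective_iff_map_eq_zero]
    intro x hx
    obtain ⟨y, rfl⟩ := Ideal.Quotient.mk_surjective x
    rw [hφinf, Ideal.Quotient.eq_zero_iff_mem, Ideal.mem_span_singleton] at hx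
    rw [Ideal.Quotient.eq_zero_iff_mem, Ideal.mem_span_singleton]
    exact hinjπ y hx
  have hφinf_unit : IsUnit (φinf (Ideal.Quotient.mk _ uinf)) := by
    rw [hφinf]; exact hu.map _
  have hφinf_loc : ∀ z : C0inf ⧸ Ideal.span {p01}, ∃ (n : ℕ) (y : Cinf ⧸ Ideal.span {pinf}),
      φinf (Ideal.Quotient.mk _ uinf) ^ n * z = φinf y := by
    intro z
    obtain ⟨z, rfl⟩ := Ideal.Quotient.mk_surjective z
    obtain ⟨n, y, hy⟩ := hloc z
    refine ⟨n, Ideal.Quotient.mk _ y, ?_⟩
    rw [hφinf, hφinf, ← hy, map_mul, map_pow]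
  have hLD0' := quotient_locally_domain p0 hLD0
  have hLDinf' := quotient_locally_domain pinf hLDinf
  -- `π` is neither zero nor a unit in `C0`
  have hnu : ¬ IsUnit p0 := by
    intro h
    have h1 : p0 ∣ algebraMap O C0 1 := h.dvd
    exact hπ.not_isUnit (isUnit_of_dvd_one (hpur 1 h1))
  have hne : p0 ≠ 0 := by
    intro h
    have h1 : (1 : C0) = 0 := htf0 1 (by rw [h, zero_mul])
    have h2 : p0 ∣ algebraMap O C0 1 := by
      rw [map_one, h1]
      exact dvd_zero _
    exact hπ.not_isUnit (isUnit_of_dvd_one (hpur 1 h2))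
  refine ⟨hne, hnu, fun a b hab => ?_⟩
  have hxy : (Ideal.Quotient.mk (Ideal.span {p0}) a) * (Ideal.Quotient.mk _ b) = 0 := by
    rw [← map_mul, Ideal.Quotient.eq_zero_iff_mem, Ideal.mem_span_singleton]
    exact hab
  obtain ⟨e, he, hea, heb⟩ := exists_idem_of_mul_eq_zero hLD0' _ _ hxy
  have hε' : IsIdempotentElem (φ0 e) := he.map φ0
  obtain ⟨εinf, hεinf, hεeq⟩ := exists_idem_map_eq hLDinf' φinf hφinf_inj
    (Ideal.Quotient.mk _ uinf) hφinf_unit hφinf_loc (φ0 e) hε'
  obtain ⟨e0, rfl⟩ := Ideal.Quotient.mk_surjective e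
  obtain ⟨einf, rfl⟩ := Ideal.Quotient.mk_surjective εinf
  have h0 : p0 ∣ e0 ^ 2 - e0 := by
    rw [← Ideal.mem_span_singleton, ← Ideal.Quotient.eq_zero_iff_mem, map_sub, map_pow,
      sub_eq_zero, pow_two]
    exact he.eq
  have hinf : pinf ∣ einf ^ 2 - einf := by
    rw [← Ideal.mem_span_singleton, ← Ideal.Quotient.eq_zero_iff_mem, map_sub, map_pow,
      sub_eq_zero, pow_two]
    exact hεinf.eq
  have hglue : p01 ∣ ι0 e0 - ιinf einf := by
    rw [← Ideal.mem_span_singleton, ← Ideal.Quotient.eq_zero_iff_mem, map_sub, sub_eq_zero,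
      ← hφ0, ← hφinf]
    exact hεeq.symm
  rcases CechIdem.idem_trivial π hπ ι0 ιinf htf0 htfinf hH0 hpur c hH1 e0 einf h0 hinf hglue
    with ⟨h1, _⟩ | ⟨h1, _⟩
  · -- `e = 0`, so `b ≡ 0`
    right
    have : (Ideal.Quotient.mk (Ideal.span {p0}) e0) = 0 := by
      rw [Ideal.Quotient.eq_zero_iff_mem, Ideal.mem_span_singleton]; exact h1
    rw [this, zero_mul] at heb
    rw [← Ideal.mem_span_singleton, ← Ideal.Quotient.eq_zero_iff_mem]
    exact heb.symm
  · -- `e = 1`, so `a ≡ 0`
    left
    have : (Ideal.Quotient.mk (Ideal.span {p0}) e0) = 1 := by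
      have h2 : (Ideal.Quotient.mk (Ideal.span {p0})) (e0 - 1) = 0 := by
        rw [Ideal.Quotient.eq_zero_iff_mem, Ideal.mem_span_singleton]; exact h1
      rw [map_sub, map_one, sub_eq_zero] at h2
      exact h2
    rw [this, one_mul] at hea
    rw [← Ideal.mem_span_singleton, ← Ideal.Quotient.eq_zero_iff_mem]
    exact hea

end Main

section Adapter

/-- Adapter: the global "reduced + distinct minimal primes over `p` are comaximal" shape implies
the elementwise "locally a domain modulo `p`" hypothesis of `prime_of_locally_domain`. -/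
theorem locally_domain_of_minimalPrimes {C : Type*} [CommRing C] [IsNoetherianRing C] (p : C)
    (hred : ∀ x : C, p ∣ x ^ 2 → p ∣ x)
    (hcomax : ∀ P Q : Ideal C, P ∈ (Ideal.span {p}).minimalPrimes →
      Q ∈ (Ideal.span {p}).minimalPrimes → P ≠ Q → P ⊔ Q = ⊤)
    (M : Ideal C) (hM : M.IsMaximal) (hpM : p ∈ M) (a b : C) (hab : p ∣ a * b) :
    ∃ s, s ∉ M ∧ (p ∣ s * a ∨ p ∣ s * b) := by
  classical
  set I : Ideal C := Ideal.span {p} with hI
  have hrad : I.IsRadical := by
    rw [Ideal.isRadical_iff_pow_one_lt 2 (by norm_num)]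
    intro x hx
    rw [hI, Ideal.mem_span_singleton] at hx ⊢
    exact hred x hx
  have hfin : I.minimalPrimes.Finite := Ideal.finite_minimalPrimes_of_isNoetherianRing C I
  have hsInf : sInf I.minimalPrimes = I := by rw [Ideal.sInf_minimalPrimes, hrad.radical]
  have hIM : I ≤ M := by
    rw [hI, Ideal.span_singleton_le_iff_mem]; exact hpM
  have : M.IsPrime := hM.isPrime
  obtain ⟨P, hP, hPM⟩ := Ideal.exists_minimalPrimes_le hIM
  have hPprime : P.IsPrime := hP.1.1
  have hIP : I ≤ P := hP.1.2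
  -- every other minimal prime contains an element outside `M`
  have hex : ∀ Q : Ideal C, Q ∈ I.minimalPrimes → Q ≠ P → ∃ t, t ∈ Q ∧ t ∉ M := by
    intro Q hQ hQP
    by_contra hcon
    push Not at hcon
    have hQM : Q ≤ M := fun t ht => hcon t ht
    have htop : P ⊔ Q = ⊤ := hcomax P Q hP hQ (Ne.symm hQP)
    have : (⊤ : Ideal C) ≤ M := by rw [← htop]; exact sup_le hPM hQM
    exact hM.ne_top (top_le_iff.mp this)
  let t : Ideal C → C := fun Q =>
    if h : Q ∈ I.minimalPrimes ∧ Q ≠ P then (hex Q h.1 h.2).choose else 1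
  have ht_mem : ∀ Q : Ideal C, Q ∈ I.minimalPrimes → Q ≠ P → t Q ∈ Q := by
    intro Q hQ hQP
    simp only [t, dif_pos (And.intro hQ hQP)]
    exact (hex Q hQ hQP).choose_spec.1
  have ht_not : ∀ Q : Ideal C, t Q ∉ M := by
    intro Q
    by_cases h : Q ∈ I.minimalPrimes ∧ Q ≠ P
    · simp only [t, dif_pos h]
      exact (hex Q h.1 h.2).choose_spec.2
    · simp only [t, dif_neg h]
      exact fun h1 => hM.ne_top ((Ideal.eq_top_iff_one _).mpr h1)
  set s : C := ∏ Q ∈ hfin.toFinset.erase P, t Q with hs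
  have hsM : s ∉ M := by
    rw [hs, Ideal.IsPrime.prod_mem_iff]
    rintro ⟨Q, _, hQ⟩
    exact ht_not Q hQ
  have hsQ : ∀ Q : Ideal C, Q ∈ I.minimalPrimes → Q ≠ P → s ∈ Q := by
    intro Q hQ hQP
    have hmem : Q ∈ hfin.toFinset.erase P :=
      Finset.mem_erase.mpr ⟨hQP, hfin.mem_toFinset.mpr hQ⟩
    exact Ideal.mem_of_dvd Q (Finset.dvd_prod_of_mem t hmem) (ht_mem Q hQ hQP)
  have key : ∀ c : C, c ∈ P → p ∣ s * c := by
    intro c hc
    rw [← Ideal.mem_span_singleton, ← hI, ← hsInf, Ideal.mem_sInf]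
    intro Q hQ
    by_cases hQP : Q = P
    · rw [hQP]; exact Ideal.mul_mem_left _ _ hc
    · exact Ideal.mul_mem_right _ _ (hsQ Q hQ hQP)
  have habP : a * b ∈ P := hIP (by rw [hI, Ideal.mem_span_singleton]; exact hab)
  refine ⟨s, hsM, ?_⟩
  rcases hPprime.mem_or_mem habP with h | h
  · exact Or.inl (key a h)
  · exact Or.inr (key b h)

end Adapter

end Fermat.Agent.S30.Model.GluePrime
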