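import Mathlib
import Fermat.Agent.S30.Model.GluePrime

/-!
# Model theorem: the local hypothesis `hLD` of `GluePrime.prime_of_locally_domain` is local

`hLD` ("`C_M / p` is a domain for every maximal `M ∋ p`", elementwise) may be checked after
localising: if `C'` is a localisation of `C` at a multiplicative set `S` and `C'` satisfies
`hLD`, then `C` satisfies `hLD` at every maximal ideal disjoint from `S`.  In particular, for
an integral algebra `C` over `A`, it is enough to check `hLD` on the localisations of `C` at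
the maximal ideals of `A` containing `p`.
-/

set_option autoImplicit false

namespace Fermat.Agent.S30.Model.LocalDomain

/-- The elementwise "locally a domain modulo `p`" property at a single maximal ideal. -/
def LDAt {C : Type*} [CommRing C] (p : C) (M : Ideal C) : Prop :=
  ∀ a b : C, p ∣ a * b → ∃ s, s ∉ M ∧ (p ∣ s * a ∨ p ∣ s * b)

/-- `hLD` descends from a localisation: if `C' = S⁻¹ C` is locally a domain modulo `p` at the
maximal ideal `M C'`, then `C` is locally a domain modulo `p` at `M` (for `M` disjoint from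
`S`). -/
theorem ldAt_of_isLocalization {C C' : Type*} [CommRing C] [CommRing C'] [Algebra C C']
    (S : Submonoid C) [IsLocalization S C'] (p : C)
    (hLD' : ∀ M' : Ideal C', M'.IsMaximal → algebraMap C C' p ∈ M' →
      LDAt (algebraMap C C' p) M')
    (M : Ideal C) (hM : M.IsMaximal) (hMS : Disjoint (S : Set C) (M : Set C)) (hpM : p ∈ M) :
    LDAt p M := by
  classical
  intro a b hab
  have hMp : M.IsPrime := hM.isPrime
  set M' : Ideal C' := M.map (algebraMap C C') with hM'
  have hM'prime : M'.IsPrime := IsLocalization.isPrime_of_isPrime_disjoint S C' M hMp hMS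
  have hcomap : M'.comap (algebraMap C C') = M :=
    IsLocalization.under_map_of_isPrime_disjoint S C' hMp hMS
  have hM'max : M'.IsMaximal := by
    refine Ideal.isMaximal_iff.mpr ⟨?_, ?_⟩
    · intro h1
      exact hM'prime.ne_top ((Ideal.eq_top_iff_one _).mpr h1)
    · intro J x hMJ hxM hxJ
      by_contra h1
      have hJne : J ≠ ⊤ := fun h => h1 (by rw [h]; exact Submodule.mem_top)
      have hle : M ≤ J.comap (algebraMap C C') := by
        rw [← hcomap]; exact Ideal.comap_mono hMJ
      have hne : J.comap (algebraMap C C') ≠ ⊤ := by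
        intro h
        apply hJne
        rw [Ideal.eq_top_iff_one] at h ⊢
        rw [Ideal.mem_comap, map_one] at h
        exact h
      have heq : J.comap (algebraMap C C') = M := (hM.eq_of_le hne hle).symm
      have : J = M' := by
        rw [hM', ← heq]
        exact (IsLocalization.map_under S (S := C') J).symm
      rw [this] at hxJ
      exact hxM hxJ
  have hpM' : algebraMap C C' p ∈ M' := Ideal.mem_map_of_mem _ hpM
  have hab' : algebraMap C C' p ∣ algebraMap C C' a * algebraMap C C' b := by
    rw [← map_mul]; exact map_dvd _ hab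
  obtain ⟨s', hs', hdiv⟩ := hLD' M' hM'max hpM' _ _ hab'
  obtain ⟨s, t, rfl⟩ := IsLocalization.exists_mk'_eq S s'
  have hsM : s ∉ M := by
    intro h
    apply hs'
    have h1 : IsLocalization.mk' C' s t * algebraMap C C' t = algebraMap C C' s :=
      IsLocalization.mk'_spec C' s t
    have h2 : algebraMap C C' s ∈ M' := Ideal.mem_map_of_mem _ h
    rw [← h1] at h2
    rcases hM'prime.mem_or_mem h2 with h3 | h3
    · exact h3
    · exfalso
      have h4 : (t : C) ∈ M := by rw [← hcomap]; exact Ideal.mem_comap.mpr h3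
      exact Set.disjoint_left.mp hMS t.2 h4
  -- descend a divisibility `p ∣ mk' s t * algebraMap x` to `C`
  have key : ∀ x : C, algebraMap C C' p ∣ IsLocalization.mk' C' s t * algebraMap C C' x →
      ∃ r, r ∉ M ∧ p ∣ r * x := by
    intro x hx
    obtain ⟨w', hw'⟩ := hx
    obtain ⟨w, t₁, rfl⟩ := IsLocalization.exists_mk'_eq S w'
    have h1 : algebraMap C C' (s * x * t₁) = algebraMap C C' (p * w * t) := by
      have e1 : IsLocalization.mk' C' s t * algebraMap C C' t = algebraMap C C' s :=
        IsLocalization.mk'_spec C' s t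
      have e2 : IsLocalization.mk' C' w t₁ * algebraMap C C' t₁ = algebraMap C C' w :=
        IsLocalization.mk'_spec C' w t₁
      simp only [map_mul]
      rw [← e1, ← e2]
      linear_combination (algebraMap C C' t) * (algebraMap C C' t₁) * hw'
    obtain ⟨t₂, ht₂⟩ := (IsLocalization.eq_iff_exists S C').mp h1
    refine ⟨t₂ * t₁ * s, ?_, ⟨t₂ * w * t, by linear_combination ht₂⟩⟩
    intro h
    rcases hMp.mem_or_mem h with h | h
    · rcases hMp.mem_or_mem h with h | h
      · exact Set.disjoint_left.mp hMS t₂.2 h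
      · exact Set.disjoint_left.mp hMS t₁.2 h
    · exact hsM h
  rcases hdiv with h | h
  · obtain ⟨r, hr, hd⟩ := key a h
    exact ⟨r, hr, Or.inl hd⟩
  · obtain ⟨r, hr, hd⟩ := key b h
    exact ⟨r, hr, Or.inr hd⟩

/-- For an integral `A`-algebra `C`: `hLD` for `C` follows from `hLD` for the localisations of
`C` at the maximal ideals `𝔪 ∋ p` of the base `A` (a family `C' 𝔪` of localisations is given). -/
theorem ldAt_of_forall_localization {A C : Type*} [CommRing A] [CommRing C] [Algebra A C]
    [Algebra.IsIntegral A C] (p : A)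
    (C' : Ideal A → Type*) [∀ 𝔪, CommRing (C' 𝔪)] [∀ 𝔪, Algebra C (C' 𝔪)]
    (hloc : ∀ (𝔪 : Ideal A) [𝔪.IsMaximal], p ∈ 𝔪 →
      IsLocalization (Algebra.algebraMapSubmonoid C 𝔪.primeCompl) (C' 𝔪))
    (hLD' : ∀ (𝔪 : Ideal A) [𝔪.IsMaximal], p ∈ 𝔪 → ∀ M' : Ideal (C' 𝔪), M'.IsMaximal →
      algebraMap C (C' 𝔪) (algebraMap A C p) ∈ M' →
      LDAt (algebraMap C (C' 𝔪) (algebraMap A C p)) M')
    (M : Ideal C) (hM : M.IsMaximal) (hpM : algebraMap A C p ∈ M) :
    LDAt (algebraMap A C p) M := by
  classical
  set 𝔪 : Ideal A := M.comap (algebraMap A C) with h𝔪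
  have h𝔪max : 𝔪.IsMaximal := Ideal.isMaximal_comap_of_isIntegral_of_isMaximal M
  have hp𝔪 : p ∈ 𝔪 := Ideal.mem_comap.mpr hpM
  have := hloc 𝔪 hp𝔪
  refine ldAt_of_isLocalization (C' := C' 𝔪) (Algebra.algebraMapSubmonoid C 𝔪.primeCompl)
    (algebraMap A C p) (hLD' 𝔪 hp𝔪) M hM ?_ hpM
  rw [Set.disjoint_left]
  rintro x ⟨y, hy, rfl⟩ hxM
  exact hy (Ideal.mem_comap.mpr hxM)

end Fermat.Agent.S30.Model.LocalDomain
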