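import Mathlib
import Fermat.Agent.S30.Model.CechP1
import Fermat.Agent.S30.Model.LocalDomain

/-!
# Model theorem (a), concrete assembly on the two charts of `P¹_O`

* `prime_of_conn` : the assembly step of `GluePrime.prime_of_locally_domain`, with the
  connectedness of the special fibre as a hypothesis (no `O`-algebra structures).
* `prime_integralClosure` : for the integral closures `C0`, `Cinf` of `O[u]`, `O[u⁻¹]` in a
  field `L`: if both are finite over their base, locally domains modulo `π` (hypothesis `hLD`,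
  the output of the local bricks) and `u⁻¹` is a non-zero-divisor modulo `π` on `Cinf`, then
  `π` is a prime element of `C0`.  Connectedness comes from `CechP1.connected`.
-/

set_option autoImplicit false

namespace Fermat.Agent.S30.Model.GlueChart

open Fermat.Agent.S30.Model.GluePrime Fermat.Agent.S30.Model.LocalDomain

section Abstract

variable {C0 Cinf C01 : Type*} [CommRing C0] [CommRing Cinf] [CommRing C01]

/-- Assembly step with connectedness as a hypothesis. -/
theorem prime_of_conn [IsNoetherianRing C0] [IsNoetherianRing Cinf]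
    (ι0 : C0 →+* C01) (ιinf : Cinf →+* C01) (p0 : C0) (pinf : Cinf)
    (hp : ι0 p0 = ιinf pinf) (hne : p0 ≠ 0) (hnu : ¬ IsUnit p0)
    (hconn : ∀ (e0 : C0) (einf : Cinf), p0 ∣ e0 ^ 2 - e0 → pinf ∣ einf ^ 2 - einf →
      ιinf pinf ∣ ι0 e0 - ιinf einf →
        (p0 ∣ e0 ∧ pinf ∣ einf) ∨ (p0 ∣ e0 - 1 ∧ pinf ∣ einf - 1))
    (uinf : Cinf) (hu : IsUnit (ιinf uinf))
    (hloc : ∀ z : C01, ∃ (n : ℕ) (y : Cinf), ιinf uinf ^ n * z = ιinf y)
    (hinjπ : ∀ y : Cinf, ιinf pinf ∣ ιinf y → pinf ∣ y)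
    (hLD0 : ∀ M : Ideal C0, M.IsMaximal → p0 ∈ M → LDAt p0 M)
    (hLDinf : ∀ M : Ideal Cinf, M.IsMaximal → pinf ∈ M → LDAt pinf M) :
    Prime p0 := by
  classical
  set p01 : C01 := ιinf pinf with hp01
  have hle0 : Ideal.span {p0} ≤ (Ideal.span {p01}).comap ι0 := by
    rw [Ideal.span_singleton_le_iff_mem, Ideal.mem_comap, hp]
    exact Ideal.mem_span_singleton_self _
  have hleinf : Ideal.span {pinf} ≤ (Ideal.span {p01}).comap ιinf := by
    rw [Ideal.span_singleton_le_iff_mem, Ideal.mem_comap]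
    exact Ideal.mem_span_singleton_self _
  let φ0 : C0 ⧸ Ideal.span {p0} →+* C01 ⧸ Ideal.span {p01} :=
    Ideal.quotientMap (Ideal.span {p01}) ι0 hle0
  let φinf : Cinf ⧸ Ideal.span {pinf} →+* C01 ⧸ Ideal.span {p01} :=
    Ideal.quotientMap (Ideal.span {p01}) ιinf hleinf
  have hφ0 : ∀ x : C0, φ0 (Ideal.Quotient.mk _ x) = Ideal.Quotient.mk _ (ι0 x) := fun x =>
    Ideal.quotientMap_mk
  have hφinf : ∀ y : Cinf, φinf (Ideal.Quotient.mk _ y) = Ideal.Quotient.mk _ (ιinf y) :=
    fun y => Ideal.quotientMap_mk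
  have hφinf_inj : Function.Injective φinf := by
    rw [injective_iff_map_eq_zero]
    intro x hx
    obtain ⟨y, rfl⟩ := Ideal.Quotient.mk_surjective x
    rw [hφinf, Ideal.Quotient.eq_zero_iff_mem, Ideal.mem_span_singleton] at hx
    rw [Ideal.Quotient.eq_zero_iff_mem, Ideal.mem_span_singleton]
    exact hinjπ y hx
  have hφinf_unit : IsUnit (φinf (Ideal.Quotient.mk _ uinf)) := by
    rw [hφinf]; exact hu.map _
  have hφinf_loc : ∀ z : C01 ⧸ Ideal.span {p01}, ∃ (n : ℕ) (y : Cinf ⧸ Ideal.span {pinf}),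
      φinf (Ideal.Quotient.mk _ uinf) ^ n * z = φinf y := by
    intro z
    obtain ⟨z, rfl⟩ := Ideal.Quotient.mk_surjective z
    obtain ⟨n, y, hy⟩ := hloc z
    refine ⟨n, Ideal.Quotient.mk _ y, ?_⟩
    rw [hφinf, hφinf, ← hy, map_mul, map_pow]
  have hLD0' := quotient_locally_domain p0 hLD0
  have hLDinf' := quotient_locally_domain pinf hLDinf
  refine ⟨hne, hnu, fun a b hab => ?_⟩
  have hxy : (Ideal.Quotient.mk (Ideal.span {p0}) a) * (Ideal.Quotient.mk _ b) = 0 := by
    rw [← map_mul, Ideal.Quotient.eq_zero_iff_mem, Ideal.mem_span_singleton]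
    exact hab
  obtain ⟨e, he, hea, heb⟩ := exists_idem_of_mul_eq_zero hLD0' _ _ hxy
  have hε' : IsIdempotentElem (φ0 e) := he.map φ0
  obtain ⟨εinf, hεinf, hεeq⟩ := exists_idem_map_eq hLDinf' φinf hφinf_inj
    (Ideal.Quotient.mk _ uinf) hφinf_unit hφinf_loc (φ0 e) hε'
  obtain ⟨e0, rfl⟩ := Ideal.Quotient.mk_surjective e
  obtain ⟨einf, rfl⟩ := Ideal.Quotient.mk_surjective εinf
  have h0 : p0 ∣ e0 ^ 2 - e0 := by
    rw [← Ideal.mem_span_singleton, ← Ideal.Quotient.eq_zero_iff_mem, map_sub, map_pow,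
      sub_eq_zero, pow_two]
    exact he.eq
  have hinf : pinf ∣ einf ^ 2 - einf := by
    rw [← Ideal.mem_span_singleton, ← Ideal.Quotient.eq_zero_iff_mem, map_sub, map_pow,
      sub_eq_zero, pow_two]
    exact hεinf.eq
  have hglue : p01 ∣ ι0 e0 - ιinf einf := by
    rw [← Ideal.mem_span_singleton, ← Ideal.Quotient.eq_zero_iff_mem, map_sub, sub_eq_zero,
      ← hφ0, ← hφinf]
    exact hεeq.symm
  rcases hconn e0 einf h0 hinf hglue with ⟨h1, _⟩ | ⟨h1, _⟩
  · right
    have : (Ideal.Quotient.mk (Ideal.span {p0}) e0) = 0 := by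
      rw [Ideal.Quotient.eq_zero_iff_mem, Ideal.mem_span_singleton]; exact h1
    rw [this, zero_mul] at heb
    rw [← Ideal.mem_span_singleton, ← Ideal.Quotient.eq_zero_iff_mem]
    exact heb.symm
  · left
    have : (Ideal.Quotient.mk (Ideal.span {p0}) e0) = 1 := by
      have h2 : (Ideal.Quotient.mk (Ideal.span {p0})) (e0 - 1) = 0 := by
        rw [Ideal.Quotient.eq_zero_iff_mem, Ideal.mem_span_singleton]; exact h1
      rw [map_sub, map_one, sub_eq_zero] at h2
      exact h2
    rw [this, one_mul] at hea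
    rw [← Ideal.mem_span_singleton, ← Ideal.Quotient.eq_zero_iff_mem]
    exact hea

end Abstract

section Concrete

variable {O L : Type*} [CommRing O] [Field L] [Algebra O L]

theorem isNoetherianRing_adjoin_singleton [IsNoetherianRing O] (t : L) :
    IsNoetherianRing (Algebra.adjoin O ({t} : Set L)) :=
  isNoetherianRing_of_fg ⟨{t}, by rw [Finset.coe_singleton]⟩

/-- Inclusion of integral closures (in `L`) for nested base subalgebras. -/
noncomputable def inclHom {S T : Subalgebra O L} (h : S ≤ T) :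
    integralClosure S L →+* integralClosure T L where
  toFun x := ⟨x.1, CechP1.isIntegral_mono h x.2⟩
  map_one' := rfl
  map_mul' _ _ := rfl
  map_zero' := rfl
  map_add' _ _ := rfl

@[simp]
theorem coe_inclHom {S T : Subalgebra O L} (h : S ≤ T) (x : integralClosure S L) :
    ((inclHom h x : integralClosure T L) : L) = (x : L) := rfl

/-- The element `π` of the integral closure of `S` in `L`. -/
noncomputable def piElt (S : Subalgebra O L) (π : O) : integralClosure S L :=
  algebraMap S (integralClosure S L) (algebraMap O S π)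

@[simp]
theorem coe_piElt (S : Subalgebra O L) (π : O) :
    ((piElt S π : integralClosure S L) : L) = algebraMap O L π := rfl

/-- Divisibility by `π` in the integral closure, elementwise in `L`. -/
theorem piElt_dvd_iff (S : Subalgebra O L) (π : O) (x : integralClosure S L) :
    piElt S π ∣ x ↔ ∃ w : L, IsIntegral S w ∧ (x : L) = algebraMap O L π * w := by
  constructor
  · rintro ⟨w, rfl⟩
    exact ⟨w.1, w.2, rfl⟩
  · rintro ⟨w, hw, hx⟩
    exact ⟨⟨w, hw⟩, Subtype.ext hx⟩

/-- The overlap is the localisation of the chart at infinity at `u⁻¹`. -/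
theorem exists_pow_mul_inclHom (u : L) (hu : u ≠ 0)
    (uinf : integralClosure (Algebra.adjoin O ({u⁻¹} : Set L)) L) (huinf : (uinf : L) = u⁻¹)
    (hle : Algebra.adjoin O ({u⁻¹} : Set L) ≤ Algebra.adjoin O ({u, u⁻¹} : Set L))
    (z : integralClosure (Algebra.adjoin O ({u, u⁻¹} : Set L)) L) :
    ∃ (n : ℕ) (y : integralClosure (Algebra.adjoin O ({u⁻¹} : Set L)) L),
      inclHom hle uinf ^ n * z = inclHom hle y := by
  have hz' : IsIntegral (Algebra.adjoin O ({u⁻¹, u⁻¹⁻¹} : Set L)) (z : L) := by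
    rw [inv_inv, Set.pair_comm]; exact z.2
  obtain ⟨n, hn⟩ := CechP1.exists_pow_mul_isIntegral u⁻¹ (inv_ne_zero hu) (z : L) hz'
  refine ⟨n, ⟨u⁻¹ ^ n * z, hn⟩, Subtype.ext ?_⟩
  rw [Subalgebra.coe_mul, Subalgebra.coe_pow, coe_inclHom, coe_inclHom, huinf]

/-- Iterated non-zero-divisor property. -/
theorem isIntegral_div_of_pow_mul {S : Subalgebra O L} (t p : L) (ht : IsIntegral S t)
    (hnzd : ∀ x : L, IsIntegral S x → IsIntegral S (t * x / p) → IsIntegral S (x / p))
    (n : ℕ) (x : L) (hx : IsIntegral S x) (h : IsIntegral S (t ^ n * x / p)) :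
    IsIntegral S (x / p) := by
  induction n generalizing x with
  | zero =>
    rw [pow_zero, one_mul] at h
    exact h
  | succ n ih =>
    apply ih x hx
    apply hnzd (t ^ n * x) ((ht.pow n).mul hx)
    have e : t * (t ^ n * x) / p = t ^ (n + 1) * x / p := by
      rw [pow_succ]; ring
    rw [e]; exact h

/-- Injectivity modulo `π` of the chart at infinity into the overlap. -/
theorem piElt_dvd_of_dvd_inclHom (π : O) (hπL : algebraMap O L π ≠ 0) (u : L) (hu : u ≠ 0)
    (hle : Algebra.adjoin O ({u⁻¹} : Set L) ≤ Algebra.adjoin O ({u, u⁻¹} : Set L))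
    (hnzd : ∀ x : L, IsIntegral (Algebra.adjoin O ({u⁻¹} : Set L)) x →
      IsIntegral (Algebra.adjoin O ({u⁻¹} : Set L)) (u⁻¹ * x / algebraMap O L π) →
      IsIntegral (Algebra.adjoin O ({u⁻¹} : Set L)) (x / algebraMap O L π))
    (y : integralClosure (Algebra.adjoin O ({u⁻¹} : Set L)) L)
    (hy : inclHom hle (piElt _ π) ∣ inclHom hle y) : piElt _ π ∣ y := by
  obtain ⟨w, hw⟩ := hy
  have hw' : (y : L) = algebraMap O L π * (w : L) := by
    have := congrArg Subtype.val hw
    rw [Subalgebra.coe_mul, coe_inclHom, coe_inclHom, coe_piElt] at this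
    exact this
  have hz' : IsIntegral (Algebra.adjoin O ({u⁻¹, u⁻¹⁻¹} : Set L)) (w : L) := by
    rw [inv_inv, Set.pair_comm]; exact w.2
  obtain ⟨n, hn⟩ := CechP1.exists_pow_mul_isIntegral u⁻¹ (inv_ne_zero hu) (w : L) hz'
  have huinv_int : IsIntegral (Algebra.adjoin O ({u⁻¹} : Set L)) u⁻¹ :=
    CechP1.isIntegral_adjoin_of_mem (Algebra.subset_adjoin (Set.mem_singleton _))
  have h1 : IsIntegral (Algebra.adjoin O ({u⁻¹} : Set L)) ((y : L) / algebraMap O L π) := by
    apply isIntegral_div_of_pow_mul u⁻¹ (algebraMap O L π) huinv_int hnzd n (y : L) y.2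
    have e : u⁻¹ ^ n * (y : L) / algebraMap O L π = u⁻¹ ^ n * (w : L) := by
      rw [hw', mul_comm (algebraMap O L π) (w : L), ← mul_assoc, mul_div_assoc,
        div_self hπL, mul_one]
    rw [e]; exact hn
  rw [piElt_dvd_iff]
  exact ⟨(y : L) / algebraMap O L π, h1, (mul_div_cancel₀ _ hπL).symm⟩

/-- Connectedness of the special fibre, in the shape consumed by `prime_of_conn`. -/
theorem conn_integralClosure [IsNoetherianRing O] (π : O) (hπ : Prime π)
    (hinj : Function.Injective (algebraMap O L))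
    (hOL : ∀ x : L, IsIntegral O x → ∃ a : O, algebraMap O L a = x)
    (u : L) (hu : u ≠ 0)
    [Module.Finite (Algebra.adjoin O ({u} : Set L))
      (integralClosure (Algebra.adjoin O ({u} : Set L)) L)]
    (hle0 : Algebra.adjoin O ({u} : Set L) ≤ Algebra.adjoin O ({u, u⁻¹} : Set L))
    (hleinf : Algebra.adjoin O ({u⁻¹} : Set L) ≤ Algebra.adjoin O ({u, u⁻¹} : Set L))
    (e0 : integralClosure (Algebra.adjoin O ({u} : Set L)) L)
    (einf : integralClosure (Algebra.adjoin O ({u⁻¹} : Set L)) L)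
    (h0 : piElt _ π ∣ e0 ^ 2 - e0) (hinf : piElt _ π ∣ einf ^ 2 - einf)
    (hglue : inclHom hleinf (piElt _ π) ∣ inclHom hle0 e0 - inclHom hleinf einf) :
    (piElt _ π ∣ e0 ∧ piElt _ π ∣ einf) ∨ (piElt _ π ∣ e0 - 1 ∧ piElt _ π ∣ einf - 1) := by
  rw [piElt_dvd_iff] at h0 hinf
  have hglue' : ∃ w : L, IsIntegral (Algebra.adjoin O ({u, u⁻¹} : Set L)) w ∧
      (e0 : L) - (einf : L) = algebraMap O L π * w := by
    obtain ⟨w, hw⟩ := hglue
    refine ⟨w.1, w.2, ?_⟩
    have := congrArg Subtype.val hw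
    rw [Subalgebra.coe_mul, Subalgebra.coe_sub, coe_inclHom, coe_inclHom, coe_inclHom,
      coe_piElt] at this
    exact this
  have h0' : ∃ w, IsIntegral (Algebra.adjoin O ({u} : Set L)) w ∧
      (e0 : L) ^ 2 - (e0 : L) = algebraMap O L π * w := by
    obtain ⟨w, hw, h⟩ := h0
    exact ⟨w, hw, by rw [← h, Subalgebra.coe_sub, Subalgebra.coe_pow]⟩
  have hinf' : ∃ w, IsIntegral (Algebra.adjoin O ({u⁻¹} : Set L)) w ∧
      (einf : L) ^ 2 - (einf : L) = algebraMap O L π * w := by
    obtain ⟨w, hw, h⟩ := hinf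
    exact ⟨w, hw, by rw [← h, Subalgebra.coe_sub, Subalgebra.coe_pow]⟩
  have key := CechP1.connected π hπ hinj hOL u hu (CechP1.hfin_of_finite u) (e0 : L)
    (einf : L) e0.2 einf.2 h0' hinf' hglue'
  rcases key with ⟨h1, h2⟩ | ⟨⟨w1, hw1, h1⟩, ⟨w2, hw2, h2⟩⟩
  · exact Or.inl ⟨(piElt_dvd_iff _ π e0).mpr h1, (piElt_dvd_iff _ π einf).mpr h2⟩
  · refine Or.inr ⟨(piElt_dvd_iff _ π (e0 - 1)).mpr ⟨w1, hw1, ?_⟩,
      (piElt_dvd_iff _ π (einf - 1)).mpr ⟨w2, hw2, ?_⟩⟩
    · rw [Subalgebra.coe_sub, Subalgebra.coe_one]; exact h1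
    · rw [Subalgebra.coe_sub, Subalgebra.coe_one]; exact h2

/-- **Model theorem (a), concrete assembly.**  `C0`, `Cinf` the integral closures of `O[u]`,
`O[u⁻¹]` in the field `L`.  Assume: `O` Noetherian, `π` prime, `O` integrally closed in `L`
(`hOL`), both closures finite over their base rings, `π` not a unit of `C0`, `u⁻¹` a
non-zero-divisor modulo `π` on `Cinf`, and both charts locally domains modulo `π`.  Then `π`
is a prime element of `C0`. -/
theorem prime_integralClosure [IsNoetherianRing O] (π : O) (hπ : Prime π)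
    (hinj : Function.Injective (algebraMap O L))
    (hOL : ∀ x : L, IsIntegral O x → ∃ a : O, algebraMap O L a = x)
    (u : L) (hu : u ≠ 0)
    [Module.Finite (Algebra.adjoin O ({u} : Set L))
      (integralClosure (Algebra.adjoin O ({u} : Set L)) L)]
    [Module.Finite (Algebra.adjoin O ({u⁻¹} : Set L))
      (integralClosure (Algebra.adjoin O ({u⁻¹} : Set L)) L)]
    (hnu : ¬ IsIntegral (Algebra.adjoin O ({u} : Set L)) (algebraMap O L π)⁻¹)
    (hnzd : ∀ x : L, IsIntegral (Algebra.adjoin O ({u⁻¹} : Set L)) x →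
      IsIntegral (Algebra.adjoin O ({u⁻¹} : Set L)) (u⁻¹ * x / algebraMap O L π) →
      IsIntegral (Algebra.adjoin O ({u⁻¹} : Set L)) (x / algebraMap O L π))
    (hLD0 : ∀ M : Ideal (integralClosure (Algebra.adjoin O ({u} : Set L)) L), M.IsMaximal →
      piElt (Algebra.adjoin O ({u} : Set L)) π ∈ M →
      LDAt (piElt (Algebra.adjoin O ({u} : Set L)) π) M)
    (hLDinf : ∀ M : Ideal (integralClosure (Algebra.adjoin O ({u⁻¹} : Set L)) L),
      M.IsMaximal → piElt (Algebra.adjoin O ({u⁻¹} : Set L)) π ∈ M →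
      LDAt (piElt (Algebra.adjoin O ({u⁻¹} : Set L)) π) M) :
    Prime (piElt (Algebra.adjoin O ({u} : Set L)) π) := by
  classical
  have hle0 : Algebra.adjoin O ({u} : Set L) ≤ Algebra.adjoin O ({u, u⁻¹} : Set L) :=
    Algebra.adjoin_mono (by simp)
  have hleinf : Algebra.adjoin O ({u⁻¹} : Set L) ≤ Algebra.adjoin O ({u, u⁻¹} : Set L) :=
    Algebra.adjoin_mono (by simp)
  have hπL : algebraMap O L π ≠ 0 := fun h => hπ.ne_zero (hinj (by rw [h, map_zero]))
  have hN0 : IsNoetherianRing (Algebra.adjoin O ({u} : Set L)) :=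
    isNoetherianRing_adjoin_singleton u
  have hNinf : IsNoetherianRing (Algebra.adjoin O ({u⁻¹} : Set L)) :=
    isNoetherianRing_adjoin_singleton u⁻¹
  have hNC0 : IsNoetherianRing (integralClosure (Algebra.adjoin O ({u} : Set L)) L) :=
    IsNoetherianRing.of_finite (Algebra.adjoin O ({u} : Set L)) _
  have hNCinf : IsNoetherianRing (integralClosure (Algebra.adjoin O ({u⁻¹} : Set L)) L) :=
    IsNoetherianRing.of_finite (Algebra.adjoin O ({u⁻¹} : Set L)) _
  have huinv_mem : u⁻¹ ∈ Algebra.adjoin O ({u⁻¹} : Set L) :=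
    Algebra.subset_adjoin (Set.mem_singleton _)
  have hu_mem01 : u ∈ Algebra.adjoin O ({u, u⁻¹} : Set L) := Algebra.subset_adjoin (by simp)
  let uinf : integralClosure (Algebra.adjoin O ({u⁻¹} : Set L)) L :=
    ⟨u⁻¹, CechP1.isIntegral_adjoin_of_mem huinv_mem⟩
  let u01 : integralClosure (Algebra.adjoin O ({u, u⁻¹} : Set L)) L :=
    ⟨u, CechP1.isIntegral_adjoin_of_mem hu_mem01⟩
  have hp : inclHom hle0 (piElt _ π) = inclHom hleinf (piElt _ π) := Subtype.ext (by
    rw [coe_inclHom, coe_inclHom, coe_piElt, coe_piElt])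
  have hne : piElt (Algebra.adjoin O ({u} : Set L)) π ≠ 0 := by
    intro h
    apply hπL
    rw [← coe_piElt (Algebra.adjoin O ({u} : Set L)) π, h, ZeroMemClass.coe_zero]
  have hnu' : ¬ IsUnit (piElt (Algebra.adjoin O ({u} : Set L)) π) := by
    intro h
    obtain ⟨v, hv⟩ := h.exists_right_inv
    have hv' : algebraMap O L π * (v : L) = 1 := by
      have := congrArg Subtype.val hv
      rw [Subalgebra.coe_mul, coe_piElt, Subalgebra.coe_one] at this
      exact this
    have : (v : L) = (algebraMap O L π)⁻¹ := eq_inv_of_mul_eq_one_right hv'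
    exact hnu (this ▸ v.2)
  have hunit : IsUnit (inclHom hleinf uinf) := by
    refine IsUnit.of_mul_eq_one u01 (Subtype.ext ?_)
    rw [Subalgebra.coe_mul, coe_inclHom, Subalgebra.coe_one]
    exact inv_mul_cancel₀ hu
  exact prime_of_conn (inclHom hle0) (inclHom hleinf) (piElt _ π) (piElt _ π) hp hne hnu'
    (fun e0 einf h0 hinf hglue =>
      conn_integralClosure π hπ hinj hOL u hu hle0 hleinf e0 einf h0 hinf hglue)
    uinf hunit (exists_pow_mul_inclHom u hu uinf rfl hleinf)
    (piElt_dvd_of_dvd_inclHom π hπL u hu hleinf hnzd) hLD0 hLDinf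

end Concrete

end Fermat.Agent.S30.Model.GlueChart
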