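import Mathlib
import Fermat.Agent.S30.Model.GlueChart

/-!
# Model theorem (a): the chart at infinity only matters at the points over `u = ∞`

`C0`, `Cinf` the integral closures of `O[u]`, `O[u⁻¹]` in `L`.  If `C0` is locally a domain
modulo `π` (hypothesis `hLD0` of `GlueChart.prime_integralClosure`), then `Cinf` is locally a
domain modulo `π` at every maximal ideal **not containing `u⁻¹`** (such a point also lies on the
chart `C0`).  Hence in `prime_integralClosure` the hypothesis `hLDinf` is only needed at the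
maximal ideals of `Cinf` containing `u⁻¹`, i.e. at the points of the special fibre over `u = ∞`.
-/

set_option autoImplicit false

namespace Fermat.Agent.S30.Model.ChartInf

open Fermat.Agent.S30.Model.GlueChart Fermat.Agent.S30.Model.LocalDomain

variable {O L : Type*} [CommRing O] [Field L] [Algebra O L]

/-- Integrality over `O[t]` of `t ^ n * x` propagates to larger exponents. -/
theorem isIntegral_pow_mul_of_le (t x : L) {m n : ℕ} (hmn : m ≤ n)
    (h : IsIntegral (Algebra.adjoin O ({t} : Set L)) (t ^ m * x)) :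
    IsIntegral (Algebra.adjoin O ({t} : Set L)) (t ^ n * x) := by
  have ht : IsIntegral (Algebra.adjoin O ({t} : Set L)) t :=
    CechP1.isIntegral_adjoin_of_mem (Algebra.subset_adjoin (Set.mem_singleton t))
  have e : t ^ n * x = t ^ (n - m) * (t ^ m * x) := by
    rw [← mul_assoc, ← pow_add]; congr 2; omega
  rw [e]
  exact (ht.pow _).mul h

/-- An element of the overlap lands in the chart `O[u]` after multiplication by all high powers
of `u`. -/
theorem exists_forall_ge_isIntegral (u : L) (hu : u ≠ 0) (w : L)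
    (hw : IsIntegral (Algebra.adjoin O ({u, u⁻¹} : Set L)) w) :
    ∃ m : ℕ, ∀ n, m ≤ n → IsIntegral (Algebra.adjoin O ({u} : Set L)) (u ^ n * w) := by
  obtain ⟨m, hm⟩ := CechP1.exists_pow_mul_isIntegral u hu w hw
  exact ⟨m, fun n hn => isIntegral_pow_mul_of_le u w hn hm⟩

/-- The same for the chart at infinity. -/
theorem exists_forall_ge_isIntegral_inv (u : L) (hu : u ≠ 0) (w : L)
    (hw : IsIntegral (Algebra.adjoin O ({u, u⁻¹} : Set L)) w) :
    ∃ m : ℕ, ∀ n, m ≤ n → IsIntegral (Algebra.adjoin O ({u⁻¹} : Set L)) (u⁻¹ ^ n * w) := by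
  have hw' : IsIntegral (Algebra.adjoin O ({u⁻¹, u⁻¹⁻¹} : Set L)) w := by
    rw [inv_inv, Set.pair_comm]; exact hw
  exact exists_forall_ge_isIntegral u⁻¹ (inv_ne_zero hu) w hw'

theorem isIntegral_overlap_of_zero (u : L) {x : L}
    (hx : IsIntegral (Algebra.adjoin O ({u} : Set L)) x) :
    IsIntegral (Algebra.adjoin O ({u, u⁻¹} : Set L)) x :=
  CechP1.isIntegral_mono (Algebra.adjoin_mono (by simp)) hx

theorem isIntegral_overlap_of_inf (u : L) {x : L}
    (hx : IsIntegral (Algebra.adjoin O ({u⁻¹} : Set L)) x) :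
    IsIntegral (Algebra.adjoin O ({u, u⁻¹} : Set L)) x :=
  CechP1.isIntegral_mono (Algebra.adjoin_mono (by simp)) hx

/-- The element `u⁻¹` of the chart at infinity. -/
noncomputable def tInf (u : L) : integralClosure (Algebra.adjoin O ({u⁻¹} : Set L)) L :=
  ⟨u⁻¹, CechP1.isIntegral_adjoin_of_mem (Algebra.subset_adjoin (Set.mem_singleton _))⟩

@[simp]
theorem coe_tInf (u : L) : ((tInf (O := O) u : integralClosure _ L) : L) = u⁻¹ := rfl

/-- The contraction to `C0` of a prime ideal `M` of `Cinf` not containing `u⁻¹`: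
`{x ∈ C0 | u⁻¹ ^ n * x ∈ M for some n}`. -/
noncomputable def contract (u : L) (hu : u ≠ 0)
    (M : Ideal (integralClosure (Algebra.adjoin O ({u⁻¹} : Set L)) L)) :
    Ideal (integralClosure (Algebra.adjoin O ({u} : Set L)) L) where
  carrier := {x | ∃ (n : ℕ) (y : integralClosure (Algebra.adjoin O ({u⁻¹} : Set L)) L),
    (y : L) = u⁻¹ ^ n * (x : L) ∧ y ∈ M}
  zero_mem' := ⟨0, 0, by rw [ZeroMemClass.coe_zero, ZeroMemClass.coe_zero, mul_zero],
    M.zero_mem⟩
  add_mem' := by
    rintro x y ⟨n1, y1, h1, hx⟩ ⟨n2, y2, h2, hy⟩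
    refine ⟨n1 + n2, tInf u ^ n2 * y1 + tInf u ^ n1 * y2, ?_,
      M.add_mem (M.mul_mem_left _ hx) (M.mul_mem_left _ hy)⟩
    rw [Subalgebra.coe_add, Subalgebra.coe_mul, Subalgebra.coe_mul, Subalgebra.coe_pow,
      Subalgebra.coe_pow, coe_tInf, h1, h2, Subalgebra.coe_add, pow_add]
    ring
  smul_mem' := by
    rintro c x ⟨n, y1, h1, hx⟩
    obtain ⟨j, hj⟩ := exists_forall_ge_isIntegral_inv u hu (c : L)
      (isIntegral_overlap_of_zero u c.2)
    have hc : IsIntegral (Algebra.adjoin O ({u⁻¹} : Set L)) (u⁻¹ ^ j * (c : L)) := hj j le_rfl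
    refine ⟨n + j, ⟨u⁻¹ ^ j * (c : L), hc⟩ * y1, ?_, M.mul_mem_left _ hx⟩
    rw [Subalgebra.coe_mul, h1, smul_eq_mul, Subalgebra.coe_mul, pow_add]
    ring

theorem mem_contract (u : L) (hu : u ≠ 0)
    (M : Ideal (integralClosure (Algebra.adjoin O ({u⁻¹} : Set L)) L))
    (x : integralClosure (Algebra.adjoin O ({u} : Set L)) L) :
    x ∈ contract u hu M ↔
      ∃ (n : ℕ) (y : integralClosure (Algebra.adjoin O ({u⁻¹} : Set L)) L),
        (y : L) = u⁻¹ ^ n * (x : L) ∧ y ∈ M :=
  Iff.rfl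

/-- **Transfer of `hLD` from the chart `C0` to the chart at infinity**, at the maximal ideals
not containing `u⁻¹`. -/
theorem ldAt_inf_of_ldAt_zero (π : O) (u : L) (hu : u ≠ 0)
    (hLD0 : ∀ M : Ideal (integralClosure (Algebra.adjoin O ({u} : Set L)) L), M.IsMaximal →
      piElt (Algebra.adjoin O ({u} : Set L)) π ∈ M →
      LDAt (piElt (Algebra.adjoin O ({u} : Set L)) π) M)
    (M : Ideal (integralClosure (Algebra.adjoin O ({u⁻¹} : Set L)) L)) (hM : M.IsMaximal)
    (hπM : piElt (Algebra.adjoin O ({u⁻¹} : Set L)) π ∈ M) (htM : tInf u ∉ M) :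
    LDAt (piElt (Algebra.adjoin O ({u⁻¹} : Set L)) π) M := by
  classical
  have hMp : M.IsPrime := hM.isPrime
  set P := contract u hu M with hP
  -- `P` is proper and contains `π`
  have hPne : P ≠ ⊤ := by
    intro h
    have h1 : (1 : integralClosure (Algebra.adjoin O ({u} : Set L)) L) ∈ P := by
      rw [h]; exact Submodule.mem_top
    obtain ⟨n, y, hy, hmem⟩ := (mem_contract u hu M 1).mp h1
    have e : y = tInf u ^ n := by
      apply Subtype.ext
      rw [hy, Subalgebra.coe_pow, coe_tInf, Subalgebra.coe_one, mul_one]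
    rw [e] at hmem
    exact htM (hMp.mem_of_pow_mem n hmem)
  obtain ⟨M0, hM0, hPM0⟩ := Ideal.exists_le_maximal P hPne
  have hπP : piElt (Algebra.adjoin O ({u} : Set L)) π ∈ P := by
    rw [hP, mem_contract]
    exact ⟨0, piElt (Algebra.adjoin O ({u⁻¹} : Set L)) π,
      by rw [pow_zero, one_mul, coe_piElt, coe_piElt], hπM⟩
  intro a b hab
  obtain ⟨w, hw, habw⟩ := (piElt_dvd_iff _ π (a * b)).mp hab
  rw [Subalgebra.coe_mul] at habw
  -- move everything to the chart `C0`
  obtain ⟨ka, hka⟩ := exists_forall_ge_isIntegral u hu (a : L) (isIntegral_overlap_of_inf u a.2)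
  obtain ⟨kb, hkb⟩ := exists_forall_ge_isIntegral u hu (b : L) (isIntegral_overlap_of_inf u b.2)
  obtain ⟨kw, hkw⟩ := exists_forall_ge_isIntegral u hu w (isIntegral_overlap_of_inf u hw)
  set k := max ka (max kb kw) with hk
  have hka' := hka k (le_max_left _ _)
  have hkb' := hkb k ((le_max_left _ _).trans (le_max_right _ _))
  have hkw' := hkw k ((le_max_right _ _).trans (le_max_right _ _))
  have hu0 : IsIntegral (Algebra.adjoin O ({u} : Set L)) u :=
    CechP1.isIntegral_adjoin_of_mem (Algebra.subset_adjoin (Set.mem_singleton u))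
  let a0 : integralClosure (Algebra.adjoin O ({u} : Set L)) L := ⟨u ^ k * a, hka'⟩
  let b0 : integralClosure (Algebra.adjoin O ({u} : Set L)) L := ⟨u ^ k * b, hkb'⟩
  have hab0 : piElt (Algebra.adjoin O ({u} : Set L)) π ∣ a0 * b0 := by
    rw [piElt_dvd_iff]
    refine ⟨u ^ k * (u ^ k * w), (hu0.pow k).mul hkw', ?_⟩
    rw [Subalgebra.coe_mul]
    show u ^ k * (a : L) * (u ^ k * (b : L)) = _
    calc u ^ k * (a : L) * (u ^ k * (b : L)) = u ^ k * u ^ k * ((a : L) * (b : L)) := by ring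
      _ = algebraMap O L π * (u ^ k * (u ^ k * w)) := by rw [habw]; ring
  obtain ⟨s, hsM0, hs⟩ := hLD0 M0 hM0 (hPM0 hπP) a0 b0 hab0
  have hsP : s ∉ P := fun h => hsM0 (hPM0 h)
  -- descend a divisibility `π ∣ s * (u^k x)` in `C0` to the chart at infinity
  have key : ∀ x : integralClosure (Algebra.adjoin O ({u⁻¹} : Set L)) L,
      ∀ hx : IsIntegral (Algebra.adjoin O ({u} : Set L)) (u ^ k * (x : L)),
      piElt (Algebra.adjoin O ({u} : Set L)) π ∣ s * ⟨u ^ k * x, hx⟩ →
      ∃ s' : integralClosure (Algebra.adjoin O ({u⁻¹} : Set L)) L, s' ∉ M ∧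
        piElt (Algebra.adjoin O ({u⁻¹} : Set L)) π ∣ s' * x := by
    intro x hx hdiv
    obtain ⟨c, hc, hsc⟩ := (piElt_dvd_iff _ π _).mp hdiv
    rw [Subalgebra.coe_mul] at hsc
    have hsc' : (s : L) * (u ^ k * (x : L)) = algebraMap O L π * c := hsc
    obtain ⟨ms, hms⟩ := exists_forall_ge_isIntegral_inv u hu (s : L)
      (isIntegral_overlap_of_zero u s.2)
    obtain ⟨mc, hmc⟩ := exists_forall_ge_isIntegral_inv u hu c (isIntegral_overlap_of_zero u hc)
    set n := max ms mc with hn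
    have hsn := hms n (le_max_left _ _)
    have hcn := hmc (n + k) ((le_max_right _ _).trans (Nat.le_add_right _ _))
    refine ⟨⟨u⁻¹ ^ n * s, hsn⟩, ?_, ?_⟩
    · intro hmem
      exact hsP ((mem_contract u hu M s).mpr ⟨n, ⟨u⁻¹ ^ n * s, hsn⟩, rfl, hmem⟩)
    · rw [piElt_dvd_iff]
      refine ⟨u⁻¹ ^ (n + k) * c, hcn, ?_⟩
      rw [Subalgebra.coe_mul]
      show u⁻¹ ^ n * (s : L) * (x : L) = _
      have huk : u⁻¹ ^ k * u ^ k = 1 := by
        rw [← mul_pow, inv_mul_cancel₀ hu, one_pow]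
      calc u⁻¹ ^ n * (s : L) * (x : L)
          = u⁻¹ ^ n * (u⁻¹ ^ k * u ^ k) * ((s : L) * (x : L)) := by rw [huk]; ring
        _ = u⁻¹ ^ (n + k) * ((s : L) * (u ^ k * (x : L))) := by rw [pow_add]; ring
        _ = algebraMap O L π * (u⁻¹ ^ (n + k) * c) := by rw [hsc']; ring
  rcases hs with h | h
  · obtain ⟨s', hs', hd⟩ := key a hka' h
    exact ⟨s', hs', Or.inl hd⟩
  · obtain ⟨s', hs', hd⟩ := key b hkb' h
    exact ⟨s', hs', Or.inr hd⟩

/-- **Model theorem (a), concrete assembly, final form**: as `GlueChart.prime_integralClosure`,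
but the local hypothesis on the chart at infinity is only required at the maximal ideals
containing `u⁻¹` (the points of the special fibre over `u = ∞`). -/
theorem prime_integralClosure [IsNoetherianRing O] (π : O) (hπ : Prime π)
    (hinj : Function.Injective (algebraMap O L))
    (hOL : ∀ x : L, IsIntegral O x → ∃ a : O, algebraMap O L a = x)
    (u : L) (hu : u ≠ 0)
    [Module.Finite (Algebra.adjoin O ({u} : Set L))
      (integralClosure (Algebra.adjoin O ({u} : Set L)) L)]
    [Module.Finite (Algebra.adjoin O ({u⁻¹} : Set L))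
      (integralClosure (Algebra.adjoin O ({u⁻¹} : Set L)) L)]
    (hnu : ¬ IsIntegral (Algebra.adjoin O ({u} : Set L)) (algebraMap O L π)⁻¹)
    (hnzd : ∀ x : L, IsIntegral (Algebra.adjoin O ({u⁻¹} : Set L)) x →
      IsIntegral (Algebra.adjoin O ({u⁻¹} : Set L)) (u⁻¹ * x / algebraMap O L π) →
      IsIntegral (Algebra.adjoin O ({u⁻¹} : Set L)) (x / algebraMap O L π))
    (hLD0 : ∀ M : Ideal (integralClosure (Algebra.adjoin O ({u} : Set L)) L), M.IsMaximal →
      piElt (Algebra.adjoin O ({u} : Set L)) π ∈ M →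
      LDAt (piElt (Algebra.adjoin O ({u} : Set L)) π) M)
    (hLDinf : ∀ M : Ideal (integralClosure (Algebra.adjoin O ({u⁻¹} : Set L)) L),
      M.IsMaximal → piElt (Algebra.adjoin O ({u⁻¹} : Set L)) π ∈ M → tInf u ∈ M →
      LDAt (piElt (Algebra.adjoin O ({u⁻¹} : Set L)) π) M) :
    Prime (piElt (Algebra.adjoin O ({u} : Set L)) π) := by
  refine GlueChart.prime_integralClosure π hπ hinj hOL u hu hnu hnzd hLD0 fun M hM hπM => ?_
  by_cases htM : tInf u ∈ M
  · exact hLDinf M hM hπM htM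
  · exact ldAt_inf_of_ldAt_zero π u hu hLD0 M hM hπM htM

end Fermat.Agent.S30.Model.ChartInf
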