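import Mathlib
import Fermat.Agent.Lib.NormalFree

/-!
# S30 / MODEL THEOREM: the localisation layer

* (L1) the hypotheses of `Lib.NormalFree.free_of_prime` for `R = A_x`, `A = O[u]`:
  `isPrincipalIdealRing_quotient`, `prime_algebraMap`, `algebraMap_mem_maximalIdeal`,
  `isPrincipalIdealRing_polynomial_quotient`, `free_of_isLocalization_atPrime`,
  `free_integralClosure_of_isLocalization_atPrime`, `free_integralClosure_polynomial_atPrime`.
* (L2) local-to-global for comaximality of the minimal primes over an ideal:
  `eq_top_of_forall_maximal`, `exists_mem_sup_of_isLocalization`, `sup_eq_top_of_forall_local`.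
-/

set_option autoImplicit false

open Polynomial

namespace Fermat.Agent.S30.Model.RegLocal

universe w

section Quotient

variable {A : Type*} [CommRing A] (M : Submonoid A) (R : Type*) [CommRing R] [Algebra A R]
  [IsLocalization M R]

include M in
/-- A localisation of `A` modulo `π` is a principal ideal ring as soon as `A ⧸ (π)` is. -/
theorem isPrincipalIdealRing_quotient (π : A) [IsPrincipalIdealRing (A ⧸ Ideal.span {π})] :
    IsPrincipalIdealRing (R ⧸ Ideal.span {algebraMap A R π}) := by
  refine ⟨fun J => ?_⟩
  set J' : Ideal R := J.comap (Ideal.Quotient.mk (Ideal.span {algebraMap A R π})) with hJ'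
  set 𝔞 : Ideal A := J'.comap (algebraMap A R) with h𝔞
  have hπ𝔞 : π ∈ 𝔞 := by
    rw [h𝔞, Ideal.mem_comap, hJ', Ideal.mem_comap,
      Ideal.Quotient.eq_zero_iff_mem.mpr (Ideal.mem_span_singleton_self _)]
    exact J.zero_mem
  obtain ⟨g, hg⟩ :=
    (IsPrincipalIdealRing.principal (𝔞.map (Ideal.Quotient.mk (Ideal.span {π})))).principal
  obtain ⟨f, rfl⟩ := Ideal.Quotient.mk_surjective g
  -- `f ∈ 𝔞`
  have hf𝔞 : f ∈ 𝔞 := by
    have h1 : Ideal.Quotient.mk (Ideal.span {π}) f ∈
        𝔞.map (Ideal.Quotient.mk (Ideal.span {π})) := by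
      rw [hg]; exact Submodule.mem_span_singleton_self _
    obtain ⟨a, ha, hae⟩ :=
      (Ideal.mem_map_iff_of_surjective _ Ideal.Quotient.mk_surjective).mp h1
    have h2 : a - f ∈ Ideal.span {π} := Ideal.Quotient.eq.mp hae
    obtain ⟨c, hc⟩ := Ideal.mem_span_singleton.mp h2
    have : f = a - π * c := by rw [← hc]; ring
    rw [this]
    exact 𝔞.sub_mem ha (𝔞.mul_mem_right c hπ𝔞)
  refine ⟨⟨Ideal.Quotient.mk _ (algebraMap A R f), le_antisymm ?_ ?_⟩⟩
  · intro j hj
    obtain ⟨r, rfl⟩ := Ideal.Quotient.mk_surjective j
    have hr : r ∈ J' := hj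
    rw [← IsLocalization.map_under M R J'] at hr
    obtain ⟨⟨⟨a, ha⟩, m⟩, ham⟩ := (IsLocalization.mem_map_algebraMap_iff M R).mp hr
    simp only at ham
    -- `a = g * f + π * c`
    have h3 : Ideal.Quotient.mk (Ideal.span {π}) a ∈
        Submodule.span (A ⧸ Ideal.span {π}) {Ideal.Quotient.mk (Ideal.span {π}) f} := by
      rw [← hg]; exact Ideal.mem_map_of_mem _ ha
    obtain ⟨g', hg'⟩ := Submodule.mem_span_singleton.mp h3
    obtain ⟨g, rfl⟩ := Ideal.Quotient.mk_surjective g'
    have h4 : g * f - a ∈ Ideal.span {π} := by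
      apply Ideal.Quotient.eq.mp
      rw [← hg', smul_eq_mul, map_mul]
    obtain ⟨c, hc⟩ := Ideal.mem_span_singleton.mp h4
    obtain ⟨u, hu⟩ := (IsLocalization.map_units R m).exists_left_inv
    have h5 : r = algebraMap A R g * u * algebraMap A R f - algebraMap A R π * (algebraMap A R c * u) := by
      have h6 : algebraMap A R a = algebraMap A R g * algebraMap A R f - algebraMap A R π * algebraMap A R c := by
        rw [← map_mul, ← map_mul, ← map_sub]
        congr 1
        rw [← hc]; ring
      calc r = r * algebraMap A R m * u := by rw [mul_assoc, mul_comm _ u, hu, mul_one]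
        _ = _ := by rw [ham, h6]; ring
    rw [Submodule.mem_span_singleton]
    refine ⟨Ideal.Quotient.mk _ (algebraMap A R g * u), ?_⟩
    rw [smul_eq_mul, ← map_mul, eq_comm]
    apply Ideal.Quotient.eq.mpr
    rw [h5]
    apply Ideal.mem_span_singleton.mpr
    exact ⟨-(algebraMap A R c * u), by ring⟩
  · rw [Submodule.span_singleton_le_iff_mem]
    exact hf𝔞

end Quotient

section AtPrime

variable {A : Type*} [CommRing A] (π : A) (x : Ideal A) [x.IsPrime] (R : Type*) [CommRing R]
  [Algebra A R] [IsLocalization.AtPrime R x]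

/-- `π ∈ x` is in the maximal ideal of `A_x`. -/
theorem algebraMap_mem_maximalIdeal [IsLocalRing R] (hπx : π ∈ x) :
    algebraMap A R π ∈ IsLocalRing.maximalIdeal R := by
  rw [← IsLocalization.AtPrime.map_eq_maximalIdeal x R]
  exact Ideal.mem_map_of_mem _ hπx

/-- A prime element `π ∈ x` of `A` stays prime in `A_x`. -/
theorem prime_algebraMap [IsDomain A] (hπ : Prime π) (hπx : π ∈ x) :
    Prime (algebraMap A R π) := by
  have hdisj : Disjoint (x.primeCompl : Set A) (Ideal.span {π} : Set A) := by
    rw [Set.disjoint_left]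
    intro a ha hax
    exact ha ((Ideal.span_singleton_le_iff_mem x).mpr hπx hax)
  have hprime : (Ideal.span {π}).IsPrime := (Ideal.span_singleton_prime hπ.ne_zero).mpr hπ
  have h1 := IsLocalization.isPrime_of_isPrime_disjoint x.primeCompl R _ hprime hdisj
  rw [Ideal.map_span, Set.image_singleton] at h1
  have hinj : Function.Injective (algebraMap A R) :=
    IsLocalization.injective R x.primeCompl_le_nonZeroDivisors
  have hne : algebraMap A R π ≠ 0 := (map_ne_zero_iff _ hinj).mpr hπ.ne_zero
  exact (Ideal.span_singleton_prime hne).mp h1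

end AtPrime

section Poly

variable {O : Type*} [CommRing O]

/-- `O[X] ⧸ (ϖ)` is a principal ideal ring when `O ⧸ (ϖ)` is a field. -/
theorem isPrincipalIdealRing_polynomial_quotient (ϖ : O) [hmax : (Ideal.span {ϖ}).IsMaximal] :
    IsPrincipalIdealRing (O[X] ⧸ Ideal.span {(C ϖ : O[X])}) := by
  let : Field (O ⧸ Ideal.span {ϖ}) := Ideal.Quotient.field _
  have h1 : IsPrincipalIdealRing (O ⧸ Ideal.span {ϖ})[X] := inferInstance
  have h2 : (Ideal.span {ϖ}).map (C : O →+* O[X]) = Ideal.span {(C ϖ : O[X])} := by
    rw [Ideal.map_span, Set.image_singleton]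
  have e := Ideal.polynomialQuotientEquivQuotientPolynomial (Ideal.span {ϖ})
  rw [h2] at e
  exact IsPrincipalIdealRing.of_surjective e.toRingHom e.surjective

/-- `C ϖ` is prime in `O[X]` when `ϖ` is prime in the domain `O`. -/
theorem prime_C [IsDomain O] {ϖ : O} (hϖ : Prime ϖ) : Prime (C ϖ : O[X]) :=
  Polynomial.prime_C_iff.mpr hϖ

end Poly

section Free

open Fermat.Agent.Lib.NormalFree

/-- **Freeness over `A_x`.**  `A` a Noetherian integrally closed domain, `π` a prime element with
`A ⧸ (π)` a principal ideal ring, `x` a prime ideal containing `π`, `R = A_x`.  Every integrally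
closed domain `Cx`, finite over `R` with `R → Cx` injective, is a free `R`-module. -/
theorem free_of_isLocalization_atPrime {A : Type*} [CommRing A] [IsDomain A] [IsNoetherianRing A]
    [IsIntegrallyClosed A] {π : A} (hπ : Prime π) [IsPrincipalIdealRing (A ⧸ Ideal.span {π})]
    (x : Ideal A) [x.IsPrime] (hx : π ∈ x) (R : Type*) [CommRing R] [Algebra A R]
    [IsLocalization.AtPrime R x] (Cx : Type*) [CommRing Cx] [IsDomain Cx] [IsIntegrallyClosed Cx]
    [Algebra R Cx] [FaithfulSMul R Cx] [Module.Finite R Cx] : Module.Free R Cx := by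
  have : IsDomain R := IsLocalization.isDomain_of_atPrime R x
  have : IsLocalRing R := IsLocalization.AtPrime.isLocalRing R x
  have : IsNoetherianRing R := IsLocalization.isNoetherianRing x.primeCompl R inferInstance
  have : IsIntegrallyClosed R :=
    isIntegrallyClosed_of_isLocalization R x.primeCompl x.primeCompl_le_nonZeroDivisors
  have : IsPrincipalIdealRing (R ⧸ Ideal.span {algebraMap A R π}) :=
    isPrincipalIdealRing_quotient x.primeCompl R π
  exact free_of_prime (prime_algebraMap π x R hπ hx) (algebraMap_mem_maximalIdeal π x R hx)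

/-- **Freeness of the integral closure over `A_x`**, `A` as in `free_of_isLocalization_atPrime`,
`L` a finite separable extension of `K = Frac A_x`. -/
theorem free_integralClosure_of_isLocalization_atPrime {A : Type*} [CommRing A] [IsDomain A]
    [IsNoetherianRing A] [IsIntegrallyClosed A] {π : A} (hπ : Prime π)
    [IsPrincipalIdealRing (A ⧸ Ideal.span {π})] (x : Ideal A) [x.IsPrime] (hx : π ∈ x)
    (R : Type*) [CommRing R] [Algebra A R] [IsLocalization.AtPrime R x]
    (K L : Type*) [Field K] [Algebra R K] [IsFractionRing R K] [Field L] [Algebra K L]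
    [Algebra R L] [IsScalarTower R K L] [FiniteDimensional K L] [Algebra.IsSeparable K L] :
    Module.Free R (integralClosure R L) := by
  have : IsDomain R := IsLocalization.isDomain_of_atPrime R x
  have : IsLocalRing R := IsLocalization.AtPrime.isLocalRing R x
  have : IsNoetherianRing R := IsLocalization.isNoetherianRing x.primeCompl R inferInstance
  have : IsIntegrallyClosed R :=
    isIntegrallyClosed_of_isLocalization R x.primeCompl x.primeCompl_le_nonZeroDivisors
  have : IsPrincipalIdealRing (R ⧸ Ideal.span {algebraMap A R π}) :=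
    isPrincipalIdealRing_quotient x.primeCompl R π
  exact free_integralClosure K L (prime_algebraMap π x R hπ hx)
    (algebraMap_mem_maximalIdeal π x R hx)

/-- **The case `A = O[X]`**: `O` a Noetherian integrally closed domain (e.g. a DVR), `ϖ` a prime
element generating a maximal ideal, `x` a prime of `O[X]` containing `ϖ`, `R = O[X]_x`,
`L` a finite separable extension of `Frac R`.  The integral closure of `R` in `L` is `R`-free. -/
theorem free_integralClosure_polynomial_atPrime {O : Type*} [CommRing O] [IsDomain O]
    [IsNoetherianRing O] [IsIntegrallyClosed O] {ϖ : O} (hϖ : Prime ϖ)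
    [(Ideal.span {ϖ}).IsMaximal] (x : Ideal O[X]) [x.IsPrime] (hx : (C ϖ : O[X]) ∈ x)
    (R : Type*) [CommRing R] [Algebra O[X] R] [IsLocalization.AtPrime R x]
    (K L : Type*) [Field K] [Algebra R K] [IsFractionRing R K] [Field L] [Algebra K L]
    [Algebra R L] [IsScalarTower R K L] [FiniteDimensional K L] [Algebra.IsSeparable K L] :
    Module.Free R (integralClosure R L) := by
  have : IsPrincipalIdealRing (O[X] ⧸ Ideal.span {(C ϖ : O[X])}) :=
    isPrincipalIdealRing_polynomial_quotient ϖ
  exact free_integralClosure_of_isLocalization_atPrime (prime_C hϖ) x hx R K L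

end Free

section LocalGlobal

variable {A C : Type*} [CommRing A] [CommRing C] [Algebra A C]

/-- An ideal of `C` which, for every maximal ideal `x` of `A`, contains the image of an element
outside `x`, is the unit ideal. -/
theorem eq_top_of_forall_maximal (I : Ideal C)
    (h : ∀ x : Ideal A, x.IsMaximal → ∃ a, a ∉ x ∧ algebraMap A C a ∈ I) : I = ⊤ := by
  by_contra hI
  have hne : I.comap (algebraMap A C) ≠ ⊤ := by
    intro htop
    apply hI
    rw [Ideal.eq_top_iff_one]
    have : (1 : A) ∈ I.comap (algebraMap A C) := htop ▸ Submodule.mem_top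
    simpa using this
  obtain ⟨x, hx, hle⟩ := Ideal.exists_le_maximal _ hne
  obtain ⟨a, hax, haI⟩ := h x hx
  exact hax (hle haI)

/-- Variant: only the maximal ideals containing the contraction of `J ≤ I` matter. -/
theorem eq_top_of_forall_maximal_of_le {I J : Ideal C} (hJI : J ≤ I)
    (h : ∀ x : Ideal A, x.IsMaximal → J.comap (algebraMap A C) ≤ x →
      ∃ a, a ∉ x ∧ algebraMap A C a ∈ I) : I = ⊤ := by
  refine eq_top_of_forall_maximal (A := A) I fun x hx => ?_
  by_cases hle : J.comap (algebraMap A C) ≤ x
  · exact h x hx hle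
  · obtain ⟨a, haJ, hax⟩ := Set.not_subset.mp hle
    exact ⟨a, hax, hJI haJ⟩

/-- **Local step.**  `Cx` a localisation of `C` at `M`.  If the distinct minimal primes over
`J · Cx` are pairwise comaximal, then for distinct minimal primes `P`, `Q` over `J` the ideal
`P ⊔ Q` meets `M`. -/
theorem exists_mem_sup_of_isLocalization (M : Submonoid C) (Cx : Type*) [CommRing Cx]
    [Algebra C Cx] [IsLocalization M Cx] {J : Ideal C}
    (hloc : ∀ p q : Ideal Cx, p ∈ (J.map (algebraMap C Cx)).minimalPrimes →
      q ∈ (J.map (algebraMap C Cx)).minimalPrimes → p ≠ q → p ⊔ q = ⊤)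
    {P Q : Ideal C} (hP : P ∈ J.minimalPrimes) (hQ : Q ∈ J.minimalPrimes) (hPQ : P ≠ Q) :
    ∃ m ∈ M, m ∈ P ⊔ Q := by
  have hPp : P.IsPrime := hP.1.1
  have hQp : Q.IsPrime := hQ.1.1
  by_cases hPM : Disjoint (M : Set C) (P : Set C)
  · by_cases hQM : Disjoint (M : Set C) (Q : Set C)
    · have hp : P.map (algebraMap C Cx) ∈ (J.map (algebraMap C Cx)).minimalPrimes := by
        rw [IsLocalization.minimalPrimes_map M Cx J, Set.mem_preimage,
          IsLocalization.under_map_of_isPrime_disjoint M Cx hPp hPM]
        exact hP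
      have hq : Q.map (algebraMap C Cx) ∈ (J.map (algebraMap C Cx)).minimalPrimes := by
        rw [IsLocalization.minimalPrimes_map M Cx J, Set.mem_preimage,
          IsLocalization.under_map_of_isPrime_disjoint M Cx hQp hQM]
        exact hQ
      have hne : P.map (algebraMap C Cx) ≠ Q.map (algebraMap C Cx) := by
        intro h
        apply hPQ
        rw [← IsLocalization.under_map_of_isPrime_disjoint M Cx hPp hPM,
          ← IsLocalization.under_map_of_isPrime_disjoint M Cx hQp hQM, h]
      have htop := hloc _ _ hp hq hne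
      rw [← Ideal.map_sup] at htop
      have hnd : ¬ Disjoint (M : Set C) ((P ⊔ Q : Ideal C) : Set C) := by
        intro hd
        exact (IsLocalization.map_algebraMap_ne_top_iff_disjoint M Cx _).mpr hd htop
      obtain ⟨m, hmM, hmPQ⟩ := Set.not_disjoint_iff.mp hnd
      exact ⟨m, hmM, hmPQ⟩
    · obtain ⟨m, hmM, hmQ⟩ := Set.not_disjoint_iff.mp hQM
      exact ⟨m, hmM, Ideal.mem_sup_right hmQ⟩
  · obtain ⟨m, hmM, hmP⟩ := Set.not_disjoint_iff.mp hPM
    exact ⟨m, hmM, Ideal.mem_sup_left hmP⟩

/-- **Local-to-global.**  If for every maximal ideal `x` of `A` containing the contraction of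
`J`, the distinct minimal primes over `J` in the localisation of `C` at `A ∖ x` are pairwise
comaximal, then the distinct minimal primes over `J` in `C` are pairwise comaximal. -/
theorem sup_eq_top_of_forall_local {J : Ideal C}
    (hloc : ∀ (x : Ideal A) [x.IsMaximal], J.comap (algebraMap A C) ≤ x →
      ∃ (Cx : Type w) (_ : CommRing Cx) (_ : Algebra C Cx)
        (_ : IsLocalization (Algebra.algebraMapSubmonoid C x.primeCompl) Cx),
        ∀ p q : Ideal Cx, p ∈ (J.map (algebraMap C Cx)).minimalPrimes →
          q ∈ (J.map (algebraMap C Cx)).minimalPrimes → p ≠ q → p ⊔ q = ⊤)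
    {P Q : Ideal C} (hP : P ∈ J.minimalPrimes) (hQ : Q ∈ J.minimalPrimes) (hPQ : P ≠ Q) :
    P ⊔ Q = ⊤ := by
  refine eq_top_of_forall_maximal_of_le (A := A) (J := J) (le_sup_of_le_left hP.1.2)
    fun x hx hJx => ?_
  have : x.IsMaximal := hx
  obtain ⟨Cx, _, _, _, h⟩ := hloc x hJx
  obtain ⟨m, ⟨a, hax, rfl⟩, hm⟩ :=
    exists_mem_sup_of_isLocalization (Algebra.algebraMapSubmonoid C x.primeCompl) Cx h hP hQ hPQ
  exact ⟨a, hax, hm⟩

end LocalGlobal

section IntegralClosure

universe u v

variable {A : Type u} {L : Type v} [CommRing A] [Field L] [Algebra A L]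

/-- The inclusion of the integral closure of `A` in `L` into the integral closure of an
intermediate ring `R`. -/
noncomputable def integralClosureMap (R : Type*) [CommRing R] [Algebra A R] [Algebra R L]
    [IsScalarTower A R L] : integralClosure A L →+* integralClosure R L where
  toFun c := ⟨c.1, IsIntegral.tower_top c.2⟩
  map_one' := rfl
  map_mul' _ _ := rfl
  map_zero' := rfl
  map_add' _ _ := rfl

/-- **Local-to-global for integral closures in a field.**  `A ⊆ L`, `π ∈ A`.  Suppose that for
every maximal ideal `x ∋ π` of `A` and every model `R` of `A_x` (mapping to `L` compatibly) the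
distinct primes of the integral closure of `R` in `L` minimal over `π` are pairwise comaximal.
Then the distinct primes of the integral closure of `A` in `L` minimal over `π` are pairwise
comaximal. -/
theorem sup_eq_top_integralClosure_of_local [FaithfulSMul A L] (π : A)
    (hloc : ∀ (x : Ideal A) [x.IsMaximal], π ∈ x →
      ∀ (R : Type u) [CommRing R] [Algebra A R] [IsLocalization.AtPrime R x] [Algebra R L]
        [IsScalarTower A R L],
      ∀ p q : Ideal (integralClosure R L),
        p ∈ (Ideal.span {algebraMap R (integralClosure R L) (algebraMap A R π)}).minimalPrimes →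
        q ∈ (Ideal.span {algebraMap R (integralClosure R L) (algebraMap A R π)}).minimalPrimes →
        p ≠ q → p ⊔ q = ⊤)
    {P Q : Ideal (integralClosure A L)}
    (hP : P ∈ (Ideal.span {algebraMap A (integralClosure A L) π}).minimalPrimes)
    (hQ : Q ∈ (Ideal.span {algebraMap A (integralClosure A L) π}).minimalPrimes)
    (hPQ : P ≠ Q) : P ⊔ Q = ⊤ := by
  have hinj : Function.Injective (algebraMap A L) := FaithfulSMul.algebraMap_injective A L
  refine sup_eq_top_of_forall_local (A := A) (J := Ideal.span {algebraMap A (integralClosure A L) π})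
    (fun x hx hJx => ?_) hP hQ hPQ
  have hπx : π ∈ x := hJx (Ideal.mem_comap.mpr (Ideal.mem_span_singleton_self _))
  have hunit : ∀ y : x.primeCompl, IsUnit (algebraMap A L y) := fun y =>
    IsUnit.mk0 _ ((map_ne_zero_iff _ hinj).mpr (fun h0 => y.2 (h0 ▸ x.zero_mem)))
  let R := Localization.AtPrime x
  let algRL : Algebra R L := (IsLocalization.lift (M := x.primeCompl) hunit).toAlgebra
  have tower : IsScalarTower A R L := IsScalarTower.of_algebraMap_eq fun a => by
    simp [RingHom.algebraMap_toAlgebra, R]
  let algCC : Algebra (integralClosure A L) (integralClosure R L) :=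
    (integralClosureMap (A := A) (L := L) R).toAlgebra
  have tower2 : IsScalarTower (integralClosure A L) (integralClosure R L) L :=
    IsScalarTower.of_algebraMap_eq fun c => rfl
  have tower3 : IsScalarTower A (integralClosure A L) (integralClosure R L) :=
    IsScalarTower.of_algebraMap_eq fun a => Subtype.ext rfl
  have hLL : IsLocalization (Algebra.algebraMapSubmonoid L x.primeCompl) L := by
    apply IsLocalization.self
    rintro _ ⟨y, hy, rfl⟩
    exact hunit ⟨y, hy⟩
  have hloc' : IsLocalization (Algebra.algebraMapSubmonoid (integralClosure A L) x.primeCompl)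
      (integralClosure R L) :=
    IsLocalization.integralClosure (S := L) (Rf := R) (Sf := L) x.primeCompl
  refine ⟨integralClosure R L, inferInstance, algCC, hloc', ?_⟩
  have hmap : (Ideal.span {algebraMap A (integralClosure A L) π}).map
      (algebraMap (integralClosure A L) (integralClosure R L)) =
      Ideal.span {algebraMap R (integralClosure R L) (algebraMap A R π)} := by
    rw [Ideal.map_span, Set.image_singleton]
    congr 2
    apply Subtype.ext
    change algebraMap A L π = algebraMap R L (algebraMap A R π)
    rw [← IsScalarTower.algebraMap_apply]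
  rw [hmap]
  exact hloc x hπx R

end IntegralClosure

end Fermat.Agent.S30.Model.RegLocal
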