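import Mathlib
import Fermat.Agent.S30.Model.RegLocal

/-!
# MODEL THEOREM: the chart package

`B` a domain with fraction field `E` (`B = O` the DVR, or `B = E`), `L` a field over `E`,
`w : L` transcendental over `B`, `A := Algebra.adjoin B {w} ⊆ L` (a chart `B[w]` of the line),
`K` an intermediate field of `L / E` with `w ∈ K ⊆ E(w)`.

* `polyEquiv` : `B[X] ≃ₐ[B] A`, and the transported properties: Noetherian, integrally closed,
  UFD, `A ⧸ (π)` principal, `π` prime, classification of the prime elements.
* `incl` : the inclusion `A →+* K` (to be used as `letI := (incl B w K hwK).toAlgebra`), with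
  `isScalarTower_incl`, `isFractionRing_incl`.
-/

set_option autoImplicit false

open Polynomial

namespace Fermat.Agent.S30.Model.ChartInst

section Equiv

variable (B : Type*) {L : Type*} [CommRing B] [Field L] [Algebra B L]

/-- `B[X] ≃ₐ[B] B[w]` for a transcendental `w`. -/
noncomputable def polyEquiv (w : L) (hw : Transcendental B w) :
    B[X] ≃ₐ[B] Algebra.adjoin B {w} :=
  (AlgEquiv.ofInjective (aeval w) (transcendental_iff_injective.mp hw)).trans
    (Subalgebra.equivOfEq _ _ (Algebra.adjoin_singleton_eq_range_aeval B w).symm)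

@[simp]
theorem coe_polyEquiv (w : L) (hw : Transcendental B w) (P : B[X]) :
    ((polyEquiv B w hw P : Algebra.adjoin B {w}) : L) = aeval w P := rfl

theorem polyEquiv_C (w : L) (hw : Transcendental B w) (a : B) :
    polyEquiv B w hw (C a) = algebraMap B (Algebra.adjoin B {w}) a := by
  apply Subtype.ext
  rw [coe_polyEquiv, aeval_C]
  rfl

theorem polyEquiv_X (w : L) (hw : Transcendental B w) :
    ((polyEquiv B w hw X : Algebra.adjoin B {w}) : L) = w := by
  rw [coe_polyEquiv, aeval_X]

theorem isNoetherianRing_adjoin [IsNoetherianRing B] (w : L) (hw : Transcendental B w) :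
    IsNoetherianRing (Algebra.adjoin B {w}) :=
  isNoetherianRing_of_ringEquiv B[X] (polyEquiv B w hw).toRingEquiv

theorem uniqueFactorizationMonoid_adjoin [IsDomain B] [UniqueFactorizationMonoid B] (w : L)
    (hw : Transcendental B w) : UniqueFactorizationMonoid (Algebra.adjoin B {w}) :=
  (polyEquiv B w hw).toMulEquiv.uniqueFactorizationMonoid inferInstance

theorem isIntegrallyClosed_adjoin [IsDomain B] [UniqueFactorizationMonoid B] (w : L)
    (hw : Transcendental B w) : IsIntegrallyClosed (Algebra.adjoin B {w}) :=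
  have := uniqueFactorizationMonoid_adjoin B w hw
  inferInstance

theorem prime_algebraMap_adjoin [IsDomain B] (w : L) (hw : Transcendental B w) {π : B}
    (hπ : Prime π) : Prime (algebraMap B (Algebra.adjoin B {w}) π) := by
  rw [← polyEquiv_C B w hw]
  exact (MulEquiv.prime_iff (polyEquiv B w hw)).mpr (prime_C_iff.mpr hπ)

theorem isPrincipalIdealRing_quotient_adjoin (w : L) (hw : Transcendental B w) (π : B)
    [(Ideal.span {π}).IsMaximal] :
    IsPrincipalIdealRing
      (Algebra.adjoin B {w} ⧸ Ideal.span {algebraMap B (Algebra.adjoin B {w}) π}) := by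
  have h1 : IsPrincipalIdealRing (B[X] ⧸ Ideal.span {(C π : B[X])}) :=
    RegLocal.isPrincipalIdealRing_polynomial_quotient π
  have hIJ : Ideal.span {algebraMap B (Algebra.adjoin B {w}) π} =
      (Ideal.span {(C π : B[X])}).map ((polyEquiv B w hw).toRingEquiv : B[X] →+* _) := by
    rw [Ideal.map_span, Set.image_singleton]
    congr 2
    exact (polyEquiv_C B w hw π).symm
  let e := Ideal.quotientEquiv (Ideal.span {(C π : B[X])})
    (Ideal.span {algebraMap B (Algebra.adjoin B {w}) π}) (polyEquiv B w hw).toRingEquiv hIJ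
  exact IsPrincipalIdealRing.of_surjective e.toRingHom e.surjective

end Equiv

section Incl

variable (B : Type*) {E L : Type*} [CommRing B] [Field E] [Algebra B E] [Field L] [Algebra E L]
  [Algebra B L] [IsScalarTower B E L]

/-- `B[w] ⊆ K` when `w ∈ K`. -/
theorem mem_of_mem_adjoin (w : L) (K : IntermediateField E L) (hwK : w ∈ K) {a : L}
    (ha : a ∈ Algebra.adjoin B {w}) : a ∈ K := by
  have h1 : Algebra.adjoin B {w} ≤ K.toSubalgebra.restrictScalars B :=
    Algebra.adjoin_le (Set.singleton_subset_iff.mpr hwK)
  exact h1 ha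

/-- The inclusion `B[w] →+* K` for `w ∈ K`. -/
def incl (w : L) (K : IntermediateField E L) (hwK : w ∈ K) : Algebra.adjoin B {w} →+* K where
  toFun a := ⟨a.1, mem_of_mem_adjoin B w K hwK a.2⟩
  map_one' := rfl
  map_mul' _ _ := rfl
  map_zero' := rfl
  map_add' _ _ := rfl

@[simp]
theorem coe_incl (w : L) (K : IntermediateField E L) (hwK : w ∈ K) (a : Algebra.adjoin B {w}) :
    ((incl B w K hwK a : K) : L) = (a : L) := rfl

theorem incl_injective (w : L) (K : IntermediateField E L) (hwK : w ∈ K) :
    Function.Injective (incl B w K hwK) := fun _ _ h =>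
  Subtype.ext (congrArg (fun x : K => (x : L)) h)

theorem isScalarTower_incl (w : L) (K : IntermediateField E L) (hwK : w ∈ K) :
    letI := (incl B w K hwK).toAlgebra
    IsScalarTower (Algebra.adjoin B {w}) K L :=
  letI := (incl B w K hwK).toAlgebra
  IsScalarTower.of_algebraMap_eq fun _ => rfl

/-- `K = Frac B[w]` when `E = Frac B` and `w ∈ K ⊆ E(w)`. -/
theorem isFractionRing_incl [IsDomain B] [IsFractionRing B E] (w : L)
    (K : IntermediateField E L) (hwK : w ∈ K) (hK : K ≤ IntermediateField.adjoin E {w}) :
    letI := (incl B w K hwK).toAlgebra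
    IsFractionRing (Algebra.adjoin B {w}) K := by
  let _ := (incl B w K hwK).toAlgebra
  have hfs : FaithfulSMul (Algebra.adjoin B {w}) K :=
    (faithfulSMul_iff_algebraMap_injective _ _).mpr (incl_injective B w K hwK)
  refine IsFractionRing.of_field _ _ (fun z => ?_)
  obtain ⟨r, s, hrs⟩ := (IntermediateField.mem_adjoin_simple_iff E (z : L)).mp (hK z.2)
  obtain ⟨br, hbrm, hbr⟩ := IsLocalization.integerNormalization_spec (nonZeroDivisors B) r
  obtain ⟨bs, hbsm, hbs⟩ := IsLocalization.integerNormalization_spec (nonZeroDivisors B) s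
  set R := IsLocalization.integerNormalization (nonZeroDivisors B) r with hR
  set S := IsLocalization.integerNormalization (nonZeroDivisors B) s with hS
  have hbr0 : algebraMap B L br ≠ 0 := by
    rw [IsScalarTower.algebraMap_apply B E L]
    exact (_root_.map_ne_zero _).mpr (IsFractionRing.to_map_ne_zero_of_mem_nonZeroDivisors hbrm)
  have hbs0 : algebraMap B L bs ≠ 0 := by
    rw [IsScalarTower.algebraMap_apply B E L]
    exact (_root_.map_ne_zero _).mpr (IsFractionRing.to_map_ne_zero_of_mem_nonZeroDivisors hbsm)
  have hRr : aeval w R = algebraMap B L br * aeval w r := by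
    have h1 : aeval w (R.map (algebraMap B E)) = aeval w R := aeval_map_algebraMap E w R
    rw [← h1, hbr, Algebra.smul_def, map_mul, Polynomial.algebraMap_apply, aeval_C,
      ← IsScalarTower.algebraMap_apply]
  have hSs : aeval w S = algebraMap B L bs * aeval w s := by
    have h1 : aeval w (S.map (algebraMap B E)) = aeval w S := aeval_map_algebraMap E w S
    rw [← h1, hbs, Algebra.smul_def, map_mul, Polynomial.algebraMap_apply, aeval_C,
      ← IsScalarTower.algebraMap_apply]
  have hmem : ∀ P : B[X], aeval w P ∈ Algebra.adjoin B {w} := fun P => by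
    rw [Algebra.adjoin_singleton_eq_range_aeval]; exact ⟨P, rfl⟩
  refine ⟨⟨aeval w (C bs * R), hmem _⟩, ⟨aeval w (C br * S), hmem _⟩, ?_⟩
  apply Subtype.ext
  change (z : L) = aeval w (C bs * R) / aeval w (C br * S)
  rw [map_mul, map_mul, aeval_C, aeval_C, hRr, hSs, hrs]
  by_cases hs0 : aeval w s = 0
  · simp [hs0]
  · field_simp

end Incl

section Primes

variable {O : Type*} [CommRing O] [IsDomain O]

/-- An irreducible non-constant polynomial over a domain is primitive. -/
theorem isPrimitive_of_irreducible {P : O[X]} (hP : Irreducible P) (hdeg : P.natDegree ≠ 0) :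
    P.IsPrimitive := by
  intro r hr
  obtain ⟨Q, hQ⟩ := hr
  rcases hP.isUnit_or_isUnit hQ with h | h
  · exact Polynomial.isUnit_C.mp h
  · exfalso
    apply hdeg
    have h1 : Q.natDegree = 0 := natDegree_eq_zero_of_isUnit h
    have h2 := natDegree_mul_le (p := C r) (q := Q)
    rw [natDegree_C, h1] at h2
    rw [hQ]
    omega

/-- If the image over the fraction field of an irreducible `P ∈ O[X]` is associated to `X - c`
with `c ∈ O`, then `P` is associated to `X - c`. -/
theorem associated_X_sub_C_of_map {E : Type*} [Field E] [Algebra O E] [IsFractionRing O E]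
    {P : O[X]} (hP : Irreducible P) (c : O)
    (h : Associated (P.map (algebraMap O E)) (X - C (algebraMap O E c))) :
    Associated (X - C c) P := by
  have h1 : (P.map (algebraMap O E)).IsRoot (algebraMap O E c) :=
    dvd_iff_isRoot.mp h.symm.dvd
  have h2 : P.IsRoot c := by
    rw [IsRoot.def, eval_map_algebraMap, aeval_algebraMap_apply_eq_algebraMap_eval] at h1
    rw [IsRoot.def]
    exact IsFractionRing.injective O E (by rw [h1, map_zero])
  obtain ⟨Q, hQ⟩ := dvd_iff_isRoot.mpr h2
  rcases hP.isUnit_or_isUnit hQ with h3 | h3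
  · exact absurd h3 (not_isUnit_X_sub_C c)
  · obtain ⟨v, rfl⟩ := h3
    exact ⟨v, hQ.symm⟩

/-- **Prime elements of `O[X]`, `O` a DVR**: associated to the uniformiser, or non-constant,
primitive and irreducible over the fraction field. -/
theorem prime_cases {E : Type*} [Field E] [Algebra O E] [IsFractionRing O E]
    [IsDiscreteValuationRing O] {π : O} (hπ : Irreducible π) {P : O[X]} (hP : Prime P) :
    Associated P (C π) ∨
      (P.natDegree ≠ 0 ∧ P.IsPrimitive ∧ Irreducible (P.map (algebraMap O E))) := by
  by_cases hdeg : P.natDegree = 0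
  · left
    obtain ⟨a, rfl⟩ : ∃ a, P = C a := ⟨_, eq_C_of_natDegree_eq_zero hdeg⟩
    have ha : Irreducible a := (prime_C_iff.mp hP).irreducible
    obtain ⟨v, hv⟩ := IsDiscreteValuationRing.associated_of_irreducible O ha hπ
    exact ⟨Units.map (C : O →+* O[X]).toMonoidHom v, by simp [← hv]⟩
  · right
    have hprim := isPrimitive_of_irreducible hP.irreducible hdeg
    exact ⟨hdeg, hprim, (hprim.irreducible_iff_irreducible_map_fraction_map).mp hP.irreducible⟩

end Primes

section Loc

variable (O : Type*) {E L : Type*} [CommRing O] [IsDomain O] [Field E] [Algebra O E]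
  [IsFractionRing O E] [Field L] [Algebra E L] [Algebra O L] [IsScalarTower O E L]

omit [IsDomain O] [IsFractionRing O E] in
/-- `O[w] ⊆ E[w]`. -/
theorem mem_adjoin_of_mem_adjoin (w : L) {a : L} (ha : a ∈ Algebra.adjoin O {w}) :
    a ∈ Algebra.adjoin E {w} := by
  rw [Algebra.adjoin_singleton_eq_range_aeval] at ha ⊢
  obtain ⟨P, rfl⟩ := ha
  exact ⟨P.map (algebraMap O E), aeval_map_algebraMap E w P⟩

/-- The inclusion `O[w] →+* E[w]`. -/
def inclE (w : L) : Algebra.adjoin O {w} →+* Algebra.adjoin E {w} :=
  RingHom.codRestrict (algebraMap (Algebra.adjoin O {w}) L) (Algebra.adjoin E {w})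
    (fun a => mem_adjoin_of_mem_adjoin O w a.2)

omit [IsDomain O] [IsFractionRing O E] in
theorem coe_inclE (w : L) (a : Algebra.adjoin O {w}) :
    ((inclE O (E := E) w a : Algebra.adjoin E {w}) : L) = (a : L) :=
  RingHom.codRestrict_apply _ _ _ a

omit [IsDomain O] [IsFractionRing O E] in
theorem inclE_injective (w : L) : Function.Injective (inclE O (E := E) w) := fun a b h =>
  Subtype.ext (by rw [← coe_inclE O (E := E) w a, ← coe_inclE O (E := E) w b, h])

/-- `E[w]` is the localisation of `O[w]` at the nonzero constants. -/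
theorem isLocalization_inclE (w : L) :
    letI := (inclE O (E := E) w).toAlgebra
    IsLocalization (Algebra.algebraMapSubmonoid (Algebra.adjoin O {w}) (nonZeroDivisors O))
      (Algebra.adjoin E {w}) := by
  let _ := (inclE O (E := E) w).toAlgebra
  have hmap : ∀ a : Algebra.adjoin O {w},
      ((algebraMap (Algebra.adjoin O {w}) (Algebra.adjoin E {w}) a : Algebra.adjoin E {w}) : L)
        = (a : L) := fun a => coe_inclE O w a
  refine ⟨?_, ?_, ?_⟩
  · rintro ⟨_, c, hc, rfl⟩
    have h1 : algebraMap (Algebra.adjoin O {w}) (Algebra.adjoin E {w})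
        (algebraMap O (Algebra.adjoin O {w}) c) =
        algebraMap E (Algebra.adjoin E {w}) (algebraMap O E c) := by
      apply Subtype.ext
      rw [hmap]
      exact IsScalarTower.algebraMap_apply O E L c
    rw [h1]
    exact (IsUnit.mk0 _ (IsFractionRing.to_map_ne_zero_of_mem_nonZeroDivisors hc)).map _
  · rintro ⟨z, hz⟩
    have hz' := hz
    rw [Algebra.adjoin_singleton_eq_range_aeval] at hz'
    obtain ⟨r, hr⟩ := hz'
    obtain ⟨b, hbm, hb⟩ := IsLocalization.integerNormalization_spec (nonZeroDivisors O) r
    set R := IsLocalization.integerNormalization (nonZeroDivisors O) r with hR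
    have hRr : aeval w R = algebraMap O L b * aeval w r := by
      have h1 : aeval w (R.map (algebraMap O E)) = aeval w R := aeval_map_algebraMap E w R
      rw [← h1, hb, Algebra.smul_def, map_mul, Polynomial.algebraMap_apply, aeval_C,
        ← IsScalarTower.algebraMap_apply]
    have hmem : aeval w R ∈ Algebra.adjoin O {w} := by
      rw [Algebra.adjoin_singleton_eq_range_aeval]; exact ⟨R, rfl⟩
    refine ⟨(⟨aeval w R, hmem⟩, ⟨algebraMap O (Algebra.adjoin O {w}) b, b, hbm, rfl⟩), ?_⟩
    apply Subtype.ext
    rw [Subalgebra.coe_mul, hmap, hmap]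
    have hr' : (aeval w) r = z := hr
    have hb' : ((algebraMap O (Algebra.adjoin O {w}) b : Algebra.adjoin O {w}) : L) =
        algebraMap O L b := rfl
    rw [hb']
    change z * algebraMap O L b = aeval w R
    rw [hRr, ← hr', mul_comm]
  · intro x y hxy
    refine ⟨1, ?_⟩
    have h1 : x = y := inclE_injective O (E := E) w hxy
    rw [h1]

end Loc

end Fermat.Agent.S30.Model.ChartInst
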