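import Mathlib

/-!
# MODEL THEOREM — definitions of the trace-self-dual (TSD) form (E1, owner helper289)

`Model/Main.lean` (family form `UnramAt / GaussUnram / HorizUnram`, + `AlgClosedIn`, `GaussOne`,
`LocPow`, `IsIntegralAt`) is the frozen E2-facing contract and is NOT changed.  This file ADDS the
canonical E1-internal form of "unramified at `q`" (new names only, Mathlib only, no `sorry`):

* `TSDAt K D q` : elementwise field-trace self-duality at `q` of the integral closure of the
  subalgebra `D ⊆ L` (fraction field `K`, an intermediate field of `L / E`).  It is the
  elementwise twin of `LocalDisc.TSDField` / `KummerPersist.TSD`, and is implied by `UnramAt`.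
* `GaussTSD π t`  : hypothesis (i)  in TSD form (`D = O[t]`, `q = π`).
* `HorizTSD S t`  : hypothesis (ii) in TSD form (`D = E[t]`, `q = f(t)`, `f` irreducible and not
  one of the `t - c`, `c ∈ S`).
* `ChartUnram S t` : the combined hypothesis on one chart `Spec O[t]`, in terms of the prime
  elements of `O[X]`.
-/

set_option autoImplicit false

open Polynomial

namespace Fermat.Agent.S30.Model

section Defs

variable {E L : Type*} [Field E] [Field L] [Algebra E L]

/-- **Canonical "unramified at `q`"**: elementwise field-trace self-duality at `q` of the integral
closure of `D` in `L`.  `K` is the fraction field of the base ring `D ⊆ L`, `q ∈ D`. -/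
def TSDAt {A : Type*} [CommRing A] [Algebra A L] (K : IntermediateField E L)
    (D : Subalgebra A L) (q : L) : Prop :=
  ∀ x : L, IsIntegral D x →
    (∀ y : L, IsIntegral D y →
      ∃ w : L, w ∈ D ∧ ((Algebra.trace K L (x * y) : K) : L) = q * w) →
    ∃ z : L, IsIntegral D z ∧ x = q * z

variable {O : Type*} [CommRing O] [Algebra O E] [Algebra O L] [IsScalarTower O E L]

/-- Hypothesis (i), TSD form: the Gauss valuation of `E(t)` attached to `π` is unramified in `L`
(with separable residue field extensions). -/
def GaussTSD (π : O) (t : L) : Prop :=
  TSDAt (IntermediateField.adjoin E {t}) (Algebra.adjoin O {t}) (algebraMap O L π)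

/-- Hypothesis (ii), TSD form: `L / E(t)` is unramified at every closed point of the affine
`t`-line over `E` except possibly the points `t = c`, `c ∈ S`. -/
def HorizTSD (S : Finset O) (t : L) : Prop :=
  ∀ f : E[X], Irreducible f → (∀ c ∈ S, ¬ Associated f (X - C (algebraMap O E c))) →
    TSDAt (IntermediateField.adjoin E {t}) (Algebra.adjoin E {t}) (aeval t f)

/-- The hypothesis consumed by the local theorems on one chart `Spec O[t]`: trace-self-duality
at every prime element `f` of `O[X]` which is not one of the branch sections `X - c`, `c ∈ S`.
(`f` a prime constant is the Gauss prime.) -/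
def ChartUnram (S : Finset O) (t : L) : Prop :=
  ∀ f : O[X], Prime f → (∀ c ∈ S, ¬ Associated f (X - C c)) →
    TSDAt (IntermediateField.adjoin E {t}) (Algebra.adjoin O {t}) (aeval t f)

end Defs

end Fermat.Agent.S30.Model
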