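import Mathlib
import Fermat.Agent.S30.Model.DiscUnit
import Fermat.Agent.S30.Model.RegLocal

/-!
# Trace-self-duality in field form, localisation, and the support of the discriminant

`TSDField A K L p` : the integral closure of `A` in `L` is trace-self-dual at the prime element
`p` of `A`, stated with the field trace `Tr_{L/K}` (`K = Frac A`) and `IsIntegral`, so that it
makes sense for the global charts `A = O[u]` (where the integral closure is not known to be a
free module).

* `traceSelfDualAt_of_tsdField` : `TSDField A K L p` passes to the localisation `R = A_x` at a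
  prime `x ∋ p`, in the form `DiscUnit.TraceSelfDualAt R C (algebraMap A R p)` for the (free)
  integral closure `C` of `R` in `L`.
* `discr_dvd_pow` : if `A` is a UFD and every prime element `p ∈ x` either divides `a₀` or
  satisfies `TSDField A K L p`, then `discr R b ∣ a₀ ^ n` in `R = A_x`.
* `isUnit_discr` : the case `a₀ = 1` (non-branch point).
-/

set_option autoImplicit false

namespace Fermat.Agent.S30.Model.LocalDisc

open Fermat.Agent.S30.Model.DiscUnit

/-- Field-trace self-duality of the integral closure of `A` in `L` at `p`. -/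
def TSDField (A K L : Type*) [CommRing A] [Field K] [Field L] [Algebra A K] [Algebra K L]
    [Algebra A L] (p : A) : Prop :=
  ∀ x : L, IsIntegral A x →
    (∀ y : L, IsIntegral A y → ∃ w : A, Algebra.trace K L (x * y) = algebraMap A K (p * w)) →
    ∃ z : L, IsIntegral A z ∧ x = algebraMap A L p * z

variable {A R K L C : Type*} [CommRing A] [IsDomain A] [IsIntegrallyClosed A]
  [CommRing R] [IsDomain R] [Algebra A R]
  [Field K] [Field L] [Algebra A K] [IsFractionRing A K] [Algebra R K] [IsFractionRing R K]
  [IsScalarTower A R K] [Algebra K L] [FiniteDimensional K L] [Algebra A L] [IsScalarTower A K L]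
  [Algebra R L] [IsScalarTower R K L] [IsScalarTower A R L]
  [CommRing C] [Algebra R C] [Algebra C L] [IsScalarTower R C L] [IsIntegralClosure C R L]
  [Module.Free R C] [Module.Finite R C]

/-- **Localisation of trace-self-duality.** -/
theorem traceSelfDualAt_of_tsdField (x : Ideal A) [x.IsPrime] [IsLocalization.AtPrime R x]
    (p : A) (hp : Prime p) (hpx : p ∈ x) (h : TSDField A K L p) :
    TraceSelfDualAt R C (algebraMap A R p) := by
  have hloc : IsLocalization (Algebra.algebraMapSubmonoid C (nonZeroDivisors R)) L :=
    IsIntegralClosure.isLocalization R K L C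
  have hinjAR : Function.Injective (algebraMap A R) :=
    IsLocalization.injective R x.primeCompl_le_nonZeroDivisors
  apply traceSelfDualAt_of_field (K := K) (L := L)
  intro c hc
  have hX : IsIntegral R (algebraMap C L c) :=
    (IsIntegralClosure.isIntegral_iff (A := C)).mpr ⟨c, rfl⟩
  obtain ⟨⟨s, hs⟩, hsX⟩ :=
    IsIntegral.exists_multiple_integral_of_isLocalization x.primeCompl (algebraMap C L c) hX
  have hsX' : IsIntegral A (algebraMap A L s * algebraMap C L c) := by
    have e : (⟨s, hs⟩ : x.primeCompl) • algebraMap C L c
        = algebraMap A L s * algebraMap C L c := by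
      rw [Submonoid.smul_def, Algebra.smul_def]
    rwa [e] at hsX
  have key : ∀ y : L, IsIntegral A y → ∃ w : A,
      Algebra.trace K L (algebraMap A L s * algebraMap C L c * y) = algebraMap A K (p * w) := by
    intro y hy
    have hyR : IsIntegral R y := hy.tower_top
    obtain ⟨y', rfl⟩ := (IsIntegralClosure.isIntegral_iff (A := C)).mp hyR
    obtain ⟨w, hw⟩ := hc y'
    have htr : IsIntegral A
        (Algebra.trace K L (algebraMap A L s * algebraMap C L c * algebraMap C L y')) :=
      Algebra.isIntegral_trace (hsX'.mul hy)
    obtain ⟨a, ha⟩ := IsIntegrallyClosed.isIntegral_iff.mp htr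
    have h1 : algebraMap A R a = algebraMap A R (s * p) * w := by
      apply IsFractionRing.injective R K
      rw [← IsScalarTower.algebraMap_apply, ha, mul_assoc, ← map_mul (algebraMap C L),
        IsScalarTower.algebraMap_apply A K L, ← smul_eq_mul (algebraMap K L _),
        algebraMap_smul, map_smul, hw, smul_eq_mul, map_mul (algebraMap R K),
        map_mul (algebraMap R K), ← IsScalarTower.algebraMap_apply A R K,
        ← IsScalarTower.algebraMap_apply A R K, map_mul (algebraMap A K)]
      ring
    obtain ⟨⟨w0, t⟩, hwt⟩ := IsLocalization.surj x.primeCompl w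
    have h2 : a * (t : A) = s * p * w0 := by
      apply hinjAR
      rw [map_mul, h1, map_mul (algebraMap A R) (s * p) w0, ← hwt]
      ring
    have h3 : p ∣ a * (t : A) := ⟨s * w0, by rw [h2]; ring⟩
    rcases hp.dvd_or_dvd h3 with h4 | h4
    · obtain ⟨a', rfl⟩ := h4
      exact ⟨a', ha.symm⟩
    · exact absurd (x.mem_of_dvd h4 hpx) t.2
  obtain ⟨z, hz, hxz⟩ := h _ hsX' key
  have hzR : IsIntegral R z := hz.tower_top
  obtain ⟨z', rfl⟩ := (IsIntegralClosure.isIntegral_iff (A := C)).mp hzR
  have hC : algebraMap A R s • c = algebraMap A R p • z' := by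
    apply IsIntegralClosure.algebraMap_injective C R L
    rw [Algebra.smul_def, Algebra.smul_def, map_mul, map_mul,
      ← IsScalarTower.algebraMap_apply R C L, ← IsScalarTower.algebraMap_apply R C L,
      ← IsScalarTower.algebraMap_apply A R L, ← IsScalarTower.algebraMap_apply A R L]
    exact hxz
  have hsu : IsUnit (algebraMap A R s) := IsLocalization.map_units R (⟨s, hs⟩ : x.primeCompl)
  obtain ⟨u, hu⟩ := hsu
  refine ⟨(↑u⁻¹ : R) • z', ?_⟩
  rw [smul_smul, mul_comm, ← smul_smul, ← hC, ← hu, smul_smul, Units.inv_mul, one_smul]

variable {ι : Type*} [Fintype ι] [DecidableEq ι]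

/-- **Support of the discriminant.** `A` a UFD, `R = A_x`; if every prime element `p ∈ x` of
`A` divides `a₀` or is a point of trace-self-duality, the discriminant of the integral closure
over `R` divides a power of `a₀`. -/
theorem discr_dvd_pow [UniqueFactorizationMonoid A] [Algebra.IsSeparable K L]
    (x : Ideal A) [x.IsPrime] [IsLocalization.AtPrime R x] (b : Module.Basis ι R C) (a₀ : A)
    (h : ∀ p : A, Prime p → p ∈ x → p ∣ a₀ ∨ TSDField A K L p) :
    ∃ n : ℕ, Algebra.discr R b ∣ algebraMap A R a₀ ^ n := by
  classical
  have hloc : IsLocalization (Algebra.algebraMapSubmonoid C (nonZeroDivisors R)) L :=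
    IsIntegralClosure.isLocalization R K L C
  have hinjAR : Function.Injective (algebraMap A R) :=
    IsLocalization.injective R x.primeCompl_le_nonZeroDivisors
  -- the discriminant is nonzero
  have hd0 : Algebra.discr R b ≠ 0 := by
    intro h0
    have h1 := Algebra.discr_localizationLocalization R (nonZeroDivisors R) (Rₘ := K) L b
    rw [h0, map_zero] at h1
    exact Algebra.discr_not_zero_of_basis K (b.localizationLocalization K (nonZeroDivisors R) L) h1
  obtain ⟨⟨a, t⟩, hat⟩ := IsLocalization.surj x.primeCompl (Algebra.discr R b)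
  have ha0 : a ≠ 0 := by
    rintro rfl
    rw [map_zero] at hat
    rcases mul_eq_zero.mp hat with h1 | h1
    · exact hd0 h1
    · exact (IsLocalization.map_units R t).ne_zero h1
  obtain ⟨f, hf, hfa⟩ := UniqueFactorizationMonoid.exists_prime_factors a ha0
  -- every prime factor in `x` divides `a₀`
  have hfx : ∀ p ∈ f, p ∈ x → p ∣ a₀ := by
    intro p hpf hpx
    rcases h p (hf p hpf) hpx with h1 | h1
    · exact h1
    · exfalso
      have hp' : Prime (algebraMap A R p) := RegLocal.prime_algebraMap p x R (hf p hpf) hpx
      have hTSD : TraceSelfDualAt R C (algebraMap A R p) :=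
        traceSelfDualAt_of_tsdField (K := K) (L := L) x p (hf p hpf) hpx h1
      apply not_dvd_discr_of_traceSelfDualAt b hp' hTSD
      have hpa : p ∣ a := (Multiset.dvd_prod hpf).trans hfa.dvd
      have h2 : algebraMap A R p ∣ Algebra.discr R b * algebraMap A R t := by
        rw [hat]; exact map_dvd _ hpa
      exact (IsUnit.dvd_mul_right (IsLocalization.map_units R t)).mp h2
  -- each factor of `a` divides `a₀` in `R`
  have hprod : ∀ g : Multiset A, (∀ p ∈ g, p ∈ x → p ∣ a₀) →
      algebraMap A R g.prod ∣ algebraMap A R a₀ ^ Multiset.card g := by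
    intro g
    induction g using Multiset.induction_on with
    | empty => intro _; simp
    | cons p g ih =>
      intro hg
      rw [Multiset.prod_cons, Multiset.card_cons, map_mul, pow_succ, mul_comm]
      refine mul_dvd_mul (ih fun q hq => hg q (Multiset.mem_cons_of_mem hq)) ?_
      by_cases hpx : p ∈ x
      · exact map_dvd _ (hg p (Multiset.mem_cons_self p g) hpx)
      · exact (IsLocalization.map_units R (⟨p, hpx⟩ : x.primeCompl)).dvd
  refine ⟨Multiset.card f, ?_⟩
  have h3 : Algebra.discr R b ∣ algebraMap A R a :=
    ⟨algebraMap A R t, hat.symm⟩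
  exact h3.trans ((map_dvd (algebraMap A R) hfa.symm.dvd).trans (hprod f hfx))

/-- **Non-branch point**: if every prime element `p ∈ x` is a point of trace-self-duality, the
discriminant of the integral closure over `R = A_x` is a unit. -/
theorem isUnit_discr [UniqueFactorizationMonoid A] [Algebra.IsSeparable K L]
    (x : Ideal A) [x.IsPrime] [IsLocalization.AtPrime R x] (b : Module.Basis ι R C)
    (h : ∀ p : A, Prime p → p ∈ x → TSDField A K L p) :
    IsUnit (Algebra.discr R b) := by
  obtain ⟨n, hn⟩ := discr_dvd_pow (K := K) (L := L) x b (1 : A) fun p hp hpx => Or.inr (h p hp hpx)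
  rw [map_one, one_pow] at hn
  exact isUnit_of_dvd_one hn

end Fermat.Agent.S30.Model.LocalDisc
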