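import Mathlib
import Fermat.Agent.Lib.UnitDisc
import Fermat.Agent.S30.Model.DiscUnit
import Fermat.Agent.S30.Model.LocalDomain

/-!
# Model theorem: the local case at a closed point where the discriminant is a unit

Glue between `Lib.UnitDisc` (unit discriminant ⇒ reduced fibres + one component through each
closed point), `Model.DiscUnit` (trace-self-duality at prime elements ⇔ unit discriminant over a
UFD) and the hypothesis `LDAt` of `Model.GluePrime.prime_of_locally_domain` /
`Model.LocalDomain.ldAt_of_forall_localization`.

`R` is the local ring of the base at a closed point `x` of the special fibre (maximal ideal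
`(π, s)`), `C` a finite free `R`-algebra.

* `ldAt_of_isUnit_discr` : unit discriminant ⇒ `C` is locally a domain modulo `π` at every maximal
  ideal.
* `ldAt_of_traceSelfDualAt` : the same when `R` is a UFD and `C` is trace-self-dual at every prime
  element of `R` (the vertical prime `π`: hypothesis (i); the horizontal primes through `x`:
  hypothesis (ii) at a non-branch point).
-/

set_option autoImplicit false

namespace Fermat.Agent.S30.Model.UnramLocal

open Fermat.Agent.Lib Fermat.Agent.S30.Model

variable {R C : Type*} [CommRing R] [CommRing C] [Algebra R C]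

/-- **Unit discriminant ⇒ locally a domain modulo `π`.**  `R` Noetherian local with maximal ideal
`(π, s)`, `(π)` prime, `s ∉ (π)`; `C` finite free over `R` with a basis of unit discriminant. -/
theorem ldAt_of_isUnit_discr {ι : Type*} [Fintype ι] [DecidableEq ι] [IsNoetherianRing R]
    [IsLocalRing R] (b : Module.Basis ι R C)
    (hb : IsUnit (Algebra.discr R b)) {π s : R} (hπ : (Ideal.span {π}).IsPrime)
    (hs : s ∉ Ideal.span {π}) (hmax : IsLocalRing.maximalIdeal R = Ideal.span {π, s})
    (M : Ideal C) (hM : M.IsMaximal) (hπM : algebraMap R C π ∈ M) :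
    LocalDomain.LDAt (algebraMap R C π) M := by
  have hfin : Module.Finite R C := Module.Finite.of_basis b
  have hnoeth : IsNoetherianRing C := isNoetherian_of_tower R (inferInstance : IsNoetherian R C)
  have hmap : (Ideal.span {π}).map (algebraMap R C) = Ideal.span {algebraMap R C π} := by
    rw [Ideal.map_span, Set.image_singleton]
  intro a c hac
  refine GluePrime.locally_domain_of_minimalPrimes (algebraMap R C π) ?_ ?_ M hM hπM a c hac
  · intro x hx
    have h1 : x ^ 2 ∈ (Ideal.span {π}).map (algebraMap R C) := by
      rw [hmap]; exact Ideal.mem_span_singleton.2 hx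
    have h2 := UnitDisc.mem_map_of_pow_mem b hb hπ.isRadical h1
    rw [hmap] at h2
    exact Ideal.mem_span_singleton.1 h2
  · intro P Q hP hQ hPQ
    exact UnitDisc.sup_eq_top_of_ne b hb hπ hs hmax hP hQ hPQ

/-- **Trace-self-dual at every prime element ⇒ locally a domain modulo `π`.**  `R` a Noetherian
local UFD with maximal ideal `(π, s)`, `π` prime, `π ∤ s`; `C` finite free over `R` and
trace-self-dual at every prime element of `R`. -/
theorem ldAt_of_traceSelfDualAt [IsDomain R] [UniqueFactorizationMonoid R] [IsNoetherianRing R]
    [IsLocalRing R] [Module.Free R C] [Module.Finite R C] {π s : R} (hπ : Prime π)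
    (hs : ¬ π ∣ s) (hmax : IsLocalRing.maximalIdeal R = Ideal.span {π, s})
    (h : ∀ p : R, Prime p → DiscUnit.TraceSelfDualAt R C p)
    (M : Ideal C) (hM : M.IsMaximal) (hπM : algebraMap R C π ∈ M) :
    LocalDomain.LDAt (algebraMap R C π) M := by
  classical
  have h0 : Algebra.discr R (Module.Free.chooseBasis R C) ≠ 0 := fun h0 =>
    DiscUnit.not_dvd_discr_of_traceSelfDualAt (Module.Free.chooseBasis R C) hπ (h π hπ)
      (h0 ▸ dvd_zero π)
  have hb : IsUnit (Algebra.discr R (Module.Free.chooseBasis R C)) :=
    DiscUnit.isUnit_discr (Module.Free.chooseBasis R C) h0 h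
  exact ldAt_of_isUnit_discr (Module.Free.chooseBasis R C) hb
    ((Ideal.span_singleton_prime hπ.ne_zero).2 hπ)
    (fun hmem => hs (Ideal.mem_span_singleton.1 hmem)) hmax M hM hπM

end Fermat.Agent.S30.Model.UnramLocal
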