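import Mathlib
import Fermat.Agent.S30.Model.LocalDisc
import Fermat.Agent.S30.Model.UnramLocal

/-!
# MODEL THEOREM: the local theorem at a non-branch closed point, global form

`A` a Noetherian integrally closed UFD (a chart `O[u]` of the projective line over the DVR `O`),
`π` a prime element with `A ⧸ (π)` a principal ideal ring, `K = Frac A`, `L / K` finite separable,
`C₀ = integralClosure A L`.

* `ldAt_of_tsdField` : if `M` is a maximal ideal of `C₀` containing `π` and the integral closure
  is trace-self-dual (`LocalDisc.TSDField`) at every prime element of `A` lying in `M`, then `C₀`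
  is locally a domain modulo `π` at `M` (`LocalDomain.LDAt`, the hypothesis `hLD` of
  `GluePrime.prime_of_locally_domain`).
-/

set_option autoImplicit false

namespace Fermat.Agent.S30.Model.LocalNB

open Fermat.Agent.S30.Model Fermat.Agent.Lib

/-- The maximal ideal of a local ring `R` with `R ⧸ (π)` a principal ideal ring is generated by
`π` and one more element. -/
theorem exists_maximalIdeal_eq_span_pair {R : Type*} [CommRing R] [IsLocalRing R] (π : R)
    (hπ : π ∈ IsLocalRing.maximalIdeal R) [IsPrincipalIdealRing (R ⧸ Ideal.span {π})] :
    ∃ s : R, IsLocalRing.maximalIdeal R = Ideal.span {π, s} := by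
  obtain ⟨g, hg⟩ := (IsPrincipalIdealRing.principal
    ((IsLocalRing.maximalIdeal R).map (Ideal.Quotient.mk (Ideal.span {π})))).principal
  obtain ⟨s, rfl⟩ := Ideal.Quotient.mk_surjective g
  have hsm : s ∈ IsLocalRing.maximalIdeal R := by
    have h1 : Ideal.Quotient.mk (Ideal.span {π}) s ∈
        (IsLocalRing.maximalIdeal R).map (Ideal.Quotient.mk (Ideal.span {π})) := by
      rw [hg]; exact Submodule.mem_span_singleton_self _
    obtain ⟨m, hm, hms⟩ :=
      (Ideal.mem_map_iff_of_surjective _ Ideal.Quotient.mk_surjective).mp h1
    have h2 : m - s ∈ Ideal.span {π} := Ideal.Quotient.eq.mp hms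
    obtain ⟨c, hc⟩ := Ideal.mem_span_singleton.mp h2
    have : s = m - π * c := by rw [← hc]; ring
    rw [this]
    exact Ideal.sub_mem _ hm (Ideal.mul_mem_right c _ hπ)
  refine ⟨s, le_antisymm ?_ ?_⟩
  · intro m hm
    have h1 : Ideal.Quotient.mk (Ideal.span {π}) m ∈
        (IsLocalRing.maximalIdeal R).map (Ideal.Quotient.mk (Ideal.span {π})) :=
      Ideal.mem_map_of_mem _ hm
    rw [hg] at h1
    obtain ⟨c, hc⟩ := Submodule.mem_span_singleton.mp h1
    obtain ⟨c', rfl⟩ := Ideal.Quotient.mk_surjective c
    have h2 : m - c' * s ∈ Ideal.span {π} := by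
      rw [← Ideal.Quotient.eq, ← hc, smul_eq_mul, map_mul]
    obtain ⟨d, hd⟩ := Ideal.mem_span_singleton.mp h2
    rw [Ideal.mem_span_pair]
    exact ⟨d, c', by rw [mul_comm d π, ← hd]; ring⟩
  · rw [Ideal.span_le]
    rintro x (rfl | rfl)
    · exact hπ
    · exact hsm

universe u v

variable {A : Type u} {K : Type*} {L : Type v} [CommRing A] [IsDomain A] [IsNoetherianRing A]
  [IsIntegrallyClosed A] [UniqueFactorizationMonoid A]
  [Field K] [Algebra A K] [IsFractionRing A K] [Field L] [Algebra K L] [Algebra A L]
  [IsScalarTower A K L] [FiniteDimensional K L] [Algebra.IsSeparable K L]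

/-- **Local theorem at a non-branch point.** -/
theorem ldAt_of_tsdField (π : A) (hπ : Prime π) [IsPrincipalIdealRing (A ⧸ Ideal.span {π})]
    (M : Ideal (integralClosure A L)) (hM : M.IsMaximal)
    (hπM : algebraMap A (integralClosure A L) π ∈ M)
    (h : ∀ p : A, Prime p → algebraMap A (integralClosure A L) p ∈ M →
      LocalDisc.TSDField A K L p) :
    LocalDomain.LDAt (algebraMap A (integralClosure A L) π) M := by
  classical
  have hinjK : Function.Injective (algebraMap A K) := IsFractionRing.injective A K
  have hinj : Function.Injective (algebraMap A L) := by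
    rw [IsScalarTower.algebraMap_eq A K L]
    exact (algebraMap K L).injective.comp hinjK
  have hfs : FaithfulSMul A L := (faithfulSMul_iff_algebraMap_injective A L).mpr hinj
  set x : Ideal A := M.comap (algebraMap A (integralClosure A L)) with hx
  have hxmax : x.IsMaximal := Ideal.isMaximal_comap_of_isIntegral_of_isMaximal M
  have hπx : π ∈ x := Ideal.mem_comap.mpr hπM
  have hunitK : ∀ y : x.primeCompl, IsUnit (algebraMap A K y) := fun y =>
    IsUnit.mk0 _ ((map_ne_zero_iff _ hinjK).mpr (fun h0 => y.2 (h0 ▸ x.zero_mem)))
  have hunit : ∀ y : x.primeCompl, IsUnit (algebraMap A L y) := fun y =>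
    IsUnit.mk0 _ ((map_ne_zero_iff _ hinj).mpr (fun h0 => y.2 (h0 ▸ x.zero_mem)))
  let R := Localization.AtPrime x
  let algRK : Algebra R K := (IsLocalization.lift (M := x.primeCompl) hunitK).toAlgebra
  have towerARK : IsScalarTower A R K := IsScalarTower.of_algebraMap_eq fun a => by
    simp [RingHom.algebraMap_toAlgebra, R]
  have fracR : IsFractionRing R K :=
    IsFractionRing.isFractionRing_of_isDomain_of_isLocalization x.primeCompl R K
  let algRL : Algebra R L := ((algebraMap K L).comp (algebraMap R K)).toAlgebra
  have towerRKL : IsScalarTower R K L := IsScalarTower.of_algebraMap_eq fun a => rfl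
  have towerARL : IsScalarTower A R L := IsScalarTower.of_algebraMap_eq fun a => by
    rw [RingHom.algebraMap_toAlgebra, RingHom.comp_apply, ← IsScalarTower.algebraMap_apply A R K,
      ← IsScalarTower.algebraMap_apply A K L]
  have domR : IsDomain R := IsLocalization.isDomain_of_atPrime R x
  have locR : IsLocalRing R := IsLocalization.AtPrime.isLocalRing R x
  have noethR : IsNoetherianRing R := IsLocalization.isNoetherianRing x.primeCompl R inferInstance
  have icR : IsIntegrallyClosed R :=
    isIntegrallyClosed_of_isLocalization R x.primeCompl x.primeCompl_le_nonZeroDivisors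
  have pirR : IsPrincipalIdealRing (R ⧸ Ideal.span {algebraMap A R π}) :=
    RegLocal.isPrincipalIdealRing_quotient x.primeCompl R π
  have freeC : Module.Free R (integralClosure R L) :=
    RegLocal.free_integralClosure_of_isLocalization_atPrime hπ x hπx R K L
  have finC : Module.Finite R (integralClosure R L) :=
    IsIntegralClosure.finite R K L (integralClosure R L)
  have hπ' : Prime (algebraMap A R π) := RegLocal.prime_algebraMap π x R hπ hπx
  have hπmem : algebraMap A R π ∈ IsLocalRing.maximalIdeal R :=
    RegLocal.algebraMap_mem_maximalIdeal π x R hπx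
  -- the discriminant is a unit
  have hb : IsUnit (Algebra.discr R (Module.Free.chooseBasis R (integralClosure R L))) := by
    refine LocalDisc.isUnit_discr (K := K) (L := L) x _ fun p hp hpx => h p hp ?_
    exact Ideal.mem_comap.mp hpx
  -- the localisation of the integral closure
  let algCC : Algebra (integralClosure A L) (integralClosure R L) :=
    (RegLocal.integralClosureMap (A := A) (L := L) R).toAlgebra
  have tower2 : IsScalarTower (integralClosure A L) (integralClosure R L) L :=
    IsScalarTower.of_algebraMap_eq fun c => rfl
  have tower3 : IsScalarTower A (integralClosure A L) (integralClosure R L) :=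
    IsScalarTower.of_algebraMap_eq fun a => Subtype.ext rfl
  have hLL : IsLocalization (Algebra.algebraMapSubmonoid L x.primeCompl) L := by
    apply IsLocalization.self
    rintro _ ⟨y, hy, rfl⟩
    exact hunit ⟨y, hy⟩
  have hloc' : IsLocalization (Algebra.algebraMapSubmonoid (integralClosure A L) x.primeCompl)
      (integralClosure R L) :=
    IsLocalization.integralClosure (S := L) (Rf := R) (Sf := L) x.primeCompl
  have hπeq : algebraMap (integralClosure A L) (integralClosure R L)
      (algebraMap A (integralClosure A L) π) =
      algebraMap R (integralClosure R L) (algebraMap A R π) := by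
    apply Subtype.ext
    change algebraMap A L π = algebraMap R L (algebraMap A R π)
    rw [← IsScalarTower.algebraMap_apply]
  -- the local statement
  have hLD' : ∀ M' : Ideal (integralClosure R L), M'.IsMaximal →
      algebraMap (integralClosure A L) (integralClosure R L)
        (algebraMap A (integralClosure A L) π) ∈ M' →
      LocalDomain.LDAt (algebraMap (integralClosure A L) (integralClosure R L)
        (algebraMap A (integralClosure A L) π)) M' := by
    intro M' hM' hπM'
    rw [hπeq] at hπM' ⊢
    obtain ⟨s, hs⟩ := exists_maximalIdeal_eq_span_pair (algebraMap A R π) hπmem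
    have hπprime : (Ideal.span {algebraMap A R π}).IsPrime :=
      (Ideal.span_singleton_prime hπ'.ne_zero).2 hπ'
    by_cases hsπ : s ∈ Ideal.span {algebraMap A R π}
    · -- degenerate case: the maximal ideal is `(π)`
      have hmax : IsLocalRing.maximalIdeal R = Ideal.span {algebraMap A R π} := by
        rw [hs]
        refine le_antisymm ?_ (Ideal.span_mono (by simp))
        rw [Ideal.span_le]
        rintro y (rfl | rfl)
        · exact Ideal.mem_span_singleton_self _
        · exact hsπ
      have hnoeth : IsNoetherianRing (integralClosure R L) :=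
        isNoetherian_of_tower R (inferInstance : IsNoetherian R (integralClosure R L))
      have hmap : (Ideal.span {algebraMap A R π}).map (algebraMap R (integralClosure R L)) =
          Ideal.span {algebraMap R (integralClosure R L) (algebraMap A R π)} := by
        rw [Ideal.map_span, Set.image_singleton]
      intro a c hac
      refine GluePrime.locally_domain_of_minimalPrimes
        (algebraMap R (integralClosure R L) (algebraMap A R π)) ?_ ?_ M' hM' hπM' a c hac
      · intro y hy
        have h1 : y ^ 2 ∈ (Ideal.span {algebraMap A R π}).map
            (algebraMap R (integralClosure R L)) := by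
          rw [hmap]; exact Ideal.mem_span_singleton.2 hy
        have h2 := UnitDisc.mem_map_of_pow_mem _ hb hπprime.isRadical h1
        rw [hmap] at h2
        exact Ideal.mem_span_singleton.1 h2
      · intro P Q hP hQ hPQ
        have hmaxOf : ∀ P : Ideal (integralClosure R L),
            P ∈ (Ideal.span {algebraMap R (integralClosure R L)
              (algebraMap A R π)}).minimalPrimes → P.IsMaximal := by
          intro P hP
          have hPprime : P.IsPrime := hP.1.1
          have hle : IsLocalRing.maximalIdeal R ≤ P.comap (algebraMap R (integralClosure R L)) := by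
            rw [hmax, Ideal.span_le, Set.singleton_subset_iff]
            exact Ideal.mem_comap.mpr (hP.1.2 (Ideal.mem_span_singleton_self _))
          have hcm : (P.comap (algebraMap R (integralClosure R L))).IsMaximal := by
            have hne : P.comap (algebraMap R (integralClosure R L)) ≠ ⊤ :=
              (Ideal.comap_isPrime _ P).ne_top
            rw [← (IsLocalRing.maximalIdeal.isMaximal R).eq_of_le hne hle]
            exact IsLocalRing.maximalIdeal.isMaximal R
          exact Ideal.isMaximal_of_isIntegral_of_isMaximal_comap P hcm
        exact (hmaxOf P hP).coprime_of_ne (hmaxOf Q hQ) hPQ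
    · exact UnramLocal.ldAt_of_isUnit_discr _ hb hπprime hsπ hs M' hM' hπM'
  refine LocalDomain.ldAt_of_isLocalization (C' := integralClosure R L)
    (Algebra.algebraMapSubmonoid (integralClosure A L) x.primeCompl)
    (algebraMap A (integralClosure A L) π) hLD' M hM ?_ hπM
  rw [Set.disjoint_left]
  rintro _ ⟨y, hy, rfl⟩ hxM
  exact hy (Ideal.mem_comap.mpr hxM)

end Fermat.Agent.S30.Model.LocalNB
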