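import Mathlib
import Fermat.Agent.S30.Model.Defs
import Fermat.Agent.S30.Model.ChartInst
import Fermat.Agent.S30.Model.LocalNB
import Fermat.Agent.S30.Model.GlueChart

/-!
# MODEL THEOREM: the row `chart_ld` (final wiring of the local theorems on a chart)

`chart_ld_of_branch` is, verbatim, the row `Assembly.chart_ld` of `Model/Assembly.lean`, proved
from

* `LocalNB.ldAt_of_tsdField` at the maximal ideals `M` through no branch section, and
* `BranchStatement` : the branch-point local theorem in its consumer shape (the twin of
  `LocalNB.ldAt_of_tsdField` with one exceptional prime `τ`), taken as a hypothesis so that any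
  of its implementations can be plugged in.

Also: `tsdField_of_tsdAt`, the adapter from the elementwise `Model.TSDAt` on the chart
`A = Algebra.adjoin O {t}` to `LocalDisc.TSDField A K L`.
-/

set_option autoImplicit false

open Polynomial

namespace Fermat.Agent.S30.Model.ChartLD

open Fermat.Agent.S30.Model

universe w

/-- **The branch-point local theorem, consumer shape.**  (The hypotheses are the union of the
hypotheses of the announced implementations.) -/
def BranchStatement : Prop :=
  ∀ (A K L : Type w) [CommRing A] [IsDomain A] [IsNoetherianRing A] [IsIntegrallyClosed A]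
    [UniqueFactorizationMonoid A] [Field K] [Algebra A K] [IsFractionRing A K] [Field L]
    [Algebra K L] [Algebra A L] [IsScalarTower A K L] [FiniteDimensional K L]
    [Algebra.IsSeparable K L] [CharZero K]
    (π τ : A) (_ : Prime π) (_ : Prime τ) (_ : ¬ π ∣ τ)
    [IsPrincipalIdealRing (A ⧸ Ideal.span {π})]
    (_ : (Ideal.span {π, τ}).IsMaximal) (_ : ∀ n : ℕ, n ≠ 0 → ¬ τ ∣ (n : A))
    (M : Ideal (integralClosure A L)) (_ : M.IsMaximal)
    (_ : algebraMap A (integralClosure A L) π ∈ M)
    (_ : algebraMap A (integralClosure A L) τ ∈ M)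
    (_ : ∀ p : A, Prime p → algebraMap A (integralClosure A L) p ∈ M → ¬ Associated p τ →
      LocalDisc.TSDField A K L p),
    LocalDomain.LDAt (algebraMap A (integralClosure A L) π) M

section Adapter

variable {O E L : Type*} [CommRing O] [Field E] [Algebra O E] [Field L] [Algebra E L]
  [Algebra O L] [IsScalarTower O E L]

/-- **Adapter**: the elementwise `TSDAt` on the chart `A = O[t] ⊆ L` gives `LocalDisc.TSDField`
for the ring `A` with `K ∋ t` as an `A`-algebra through the inclusion. -/
theorem tsdField_of_tsdAt (t : L) (K : IntermediateField E L) (hwK : t ∈ K)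
    (p : Algebra.adjoin O {t}) (h : TSDAt K (Algebra.adjoin O {t}) (p : L)) :
    letI := (ChartInst.incl O t K hwK).toAlgebra
    LocalDisc.TSDField (Algebra.adjoin O {t}) K L p := by
  let _ := (ChartInst.incl O t K hwK).toAlgebra
  intro x hx hxy
  obtain ⟨z, hz, hxz⟩ := h x hx (fun y hy => by
    obtain ⟨w, hw⟩ := hxy y hy
    refine ⟨(w : L), w.2, ?_⟩
    rw [hw]
    rfl)
  exact ⟨z, hz, hxz⟩

end Adapter

section Poly

variable {O : Type*} [CommRing O]

/-- `(π, X - c)` is a maximal ideal of `O[X]` when `(π)` is a maximal ideal of `O`. -/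
theorem span_pair_isMaximal (π c : O) [hmax : (Ideal.span {π}).IsMaximal] :
    (Ideal.span {(C π : O[X]), X - C c}).IsMaximal := by
  let φ : O[X] →+* O ⧸ Ideal.span {π} := (Ideal.Quotient.mk (Ideal.span {π})).comp (evalRingHom c)
  have hφ : Function.Surjective φ := by
    intro y
    obtain ⟨a, rfl⟩ := Ideal.Quotient.mk_surjective y
    exact ⟨C a, by simp [φ]⟩
  have hker : Ideal.span {(C π : O[X]), X - C c} = RingHom.ker φ := by
    apply le_antisymm
    · rw [Ideal.span_le]
      rintro f (rfl | rfl)
      · rw [SetLike.mem_coe, RingHom.mem_ker]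
        simp only [φ, RingHom.comp_apply, coe_evalRingHom, eval_C]
        exact Ideal.Quotient.eq_zero_iff_mem.mpr (Ideal.mem_span_singleton_self π)
      · rw [SetLike.mem_coe, RingHom.mem_ker]
        simp [φ]
    · intro f hf
      rw [RingHom.mem_ker] at hf
      simp only [φ, RingHom.comp_apply, coe_evalRingHom] at hf
      obtain ⟨b, hb⟩ := Ideal.mem_span_singleton.mp (Ideal.Quotient.eq_zero_iff_mem.mp hf)
      have h1 : f = C π * C b + (X - C c) * (f /ₘ (X - C c)) := by
        conv_lhs => rw [← modByMonic_add_div f (X - C c), modByMonic_X_sub_C_eq_C_eval,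
          hb, C_mul]
      rw [h1]
      exact Ideal.add_mem _
        (Ideal.mul_mem_right _ _ (Ideal.subset_span (Set.mem_insert _ _)))
        (Ideal.mul_mem_right _ _ (Ideal.subset_span (Set.mem_insert_of_mem _ rfl)))
  rw [hker]
  let _ := Ideal.Quotient.field (Ideal.span {π})
  exact RingHom.ker_isMaximal_of_surjective φ hφ

end Poly

section Main

universe uO uE uL

variable {O : Type uO} {E : Type uE} {L : Type uL} [CommRing O] [IsDomain O]
  [IsDiscreteValuationRing O]
  [Field E] [CharZero E] [Algebra O E] [IsFractionRing O E]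
  [Field L] [Algebra E L] [Algebra O L] [IsScalarTower O E L]

/-- **ROW `chart_ld`** (verbatim the statement of `Assembly.chart_ld`), from the branch-point
local theorem in consumer shape. -/
theorem chart_ld_of_branch (hB : BranchStatement.{uL})
    (π : O) (hπ : Irreducible π) (t : L) (ht : Transcendental E t)
    [FiniteDimensional (IntermediateField.adjoin E {t}) L]
    (S : Finset O) (hS : ∀ c ∈ S, ∀ c' ∈ S, c ≠ c' → IsUnit (c - c'))
    (M : Ideal (integralClosure (Algebra.adjoin O {t}) L)) (hM : M.IsMaximal)
    (hπM : GlueChart.piElt (Algebra.adjoin O {t}) π ∈ M)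
    (h : ∀ f : O[X], Prime f → (∃ m ∈ M, (m : L) = aeval t f) →
      (∀ c ∈ S, ¬ Associated f (X - C c)) →
      TSDAt (IntermediateField.adjoin E {t}) (Algebra.adjoin O {t}) (aeval t f)) :
    LocalDomain.LDAt (GlueChart.piElt (Algebra.adjoin O {t}) π) M := by
  classical
  have hinjOE : Function.Injective (algebraMap O E) := IsFractionRing.injective O E
  have hinjOL : Function.Injective (algebraMap O L) := by
    rw [IsScalarTower.algebraMap_eq O E L]
    exact (algebraMap E L).injective.comp hinjOE
  have htO : Transcendental O t := ht.restrictScalars hinjOE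
  have hwK : t ∈ IntermediateField.adjoin E {t} := IntermediateField.mem_adjoin_simple_self E t
  let algAK : Algebra (Algebra.adjoin O {t}) (IntermediateField.adjoin E {t}) :=
    (ChartInst.incl O t (IntermediateField.adjoin E {t}) hwK).toAlgebra
  have towerAKL : IsScalarTower (Algebra.adjoin O {t}) (IntermediateField.adjoin E {t}) L :=
    ChartInst.isScalarTower_incl O t _ hwK
  have fracA : IsFractionRing (Algebra.adjoin O {t}) (IntermediateField.adjoin E {t}) :=
    ChartInst.isFractionRing_incl O t _ hwK le_rfl
  have noethA : IsNoetherianRing (Algebra.adjoin O {t}) :=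
    ChartInst.isNoetherianRing_adjoin O t htO
  have ufdA : UniqueFactorizationMonoid (Algebra.adjoin O {t}) :=
    ChartInst.uniqueFactorizationMonoid_adjoin O t htO
  have icA : IsIntegrallyClosed (Algebra.adjoin O {t}) :=
    ChartInst.isIntegrallyClosed_adjoin O t htO
  have hπA : Prime (algebraMap O (Algebra.adjoin O {t}) π) :=
    ChartInst.prime_algebraMap_adjoin O t htO hπ.prime
  have hmaxπ : (Ideal.span {π}).IsMaximal := by
    rw [← hπ.maximalIdeal_eq]
    exact IsLocalRing.maximalIdeal.isMaximal O
  have pirA : IsPrincipalIdealRing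
      (Algebra.adjoin O {t} ⧸ Ideal.span {algebraMap O (Algebra.adjoin O {t}) π}) :=
    ChartInst.isPrincipalIdealRing_quotient_adjoin O t htO π
  -- notation
  set e := ChartInst.polyEquiv O t htO with he
  set ι := algebraMap (Algebra.adjoin O {t}) (integralClosure (Algebra.adjoin O {t}) L) with hι
  -- associated polynomials give the same membership in `M`
  have hassoc : ∀ f g : O[X], Associated f g → ι (e f) ∈ M → ι (e g) ∈ M := by
    rintro f g ⟨u, rfl⟩ hf
    rw [map_mul, map_mul]
    exact M.mul_mem_right _ hf
  -- the coercion of `ι (e (X - C c))`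
  have hcoe : ∀ c : O, ((ι (e (X - C c)) : integralClosure (Algebra.adjoin O {t}) L) : L) =
      t - algebraMap O L c := by
    intro c
    change aeval t (X - C c : O[X]) = _
    rw [map_sub, aeval_X, aeval_C]
  -- trace-self-duality at the primes of `A` through `M`, away from the branch sections
  have key : ∀ p : Algebra.adjoin O {t}, Prime p → ι p ∈ M →
      (∀ c ∈ S, ¬ Associated (e.symm p) (X - C c)) →
      LocalDisc.TSDField (Algebra.adjoin O {t}) (IntermediateField.adjoin E {t}) L p := by
    intro p hp hpM hex
    have hfp : e (e.symm p) = p := AlgEquiv.apply_symm_apply e p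
    have hfprime : Prime (e.symm p) := (MulEquiv.prime_iff e).mp (by rw [hfp]; exact hp)
    have hcoep : (p : L) = aeval t (e.symm p) := by
      conv_lhs => rw [← hfp]
      rfl
    have h1 := h (e.symm p) hfprime ⟨ι p, hpM, hcoep⟩ hex
    rw [← hcoep] at h1
    exact tsdField_of_tsdAt t _ hwK p h1
  by_cases hbr : ∃ c ∈ S, ι (e (X - C c)) ∈ M
  · -- branch point
    obtain ⟨c, hc, hcM⟩ := hbr
    have hτ : Prime (e (X - C c)) := (MulEquiv.prime_iff e).mpr (prime_X_sub_C c)
    have hπe : algebraMap O (Algebra.adjoin O {t}) π = e (C π) :=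
      (ChartInst.polyEquiv_C O t htO π).symm
    have hπτ : ¬ algebraMap O (Algebra.adjoin O {t}) π ∣ e (X - C c) := by
      rw [hπe, map_dvd_iff, C_dvd_iff_dvd_coeff]
      intro hdvd
      have h1 := hdvd 1
      rw [coeff_sub, coeff_X_one, coeff_C_succ, sub_zero] at h1
      exact hπ.not_isUnit (isUnit_of_dvd_one h1)
    have hmax : (Ideal.span {algebraMap O (Algebra.adjoin O {t}) π, e (X - C c)}).IsMaximal := by
      have h1 := span_pair_isMaximal π c
      have h2 : Ideal.span {algebraMap O (Algebra.adjoin O {t}) π, e (X - C c)} =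
          Ideal.map e (Ideal.span {(C π : O[X]), X - C c}) := by
        rw [Ideal.map_span, Set.image_pair, hπe]
      rw [h2]
      exact Ideal.map_isMaximal_of_equiv e
    have hcharO : CharZero O := by
      refine ⟨fun m n hmn => ?_⟩
      have h2 : (m : E) = (n : E) := by simpa using congrArg (algebraMap O E) hmn
      exact Nat.cast_injective h2
    have hchar : ∀ n : ℕ, n ≠ 0 → ¬ e (X - C c) ∣ (n : Algebra.adjoin O {t}) := by
      intro n hn hdvd
      have h1 : (n : Algebra.adjoin O {t}) = e ((n : O[X])) := (map_natCast e n).symm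
      rw [h1, map_dvd_iff, dvd_iff_isRoot, IsRoot.def, eval_natCast] at hdvd
      exact hn (Nat.cast_eq_zero.mp hdvd)
    refine hB (Algebra.adjoin O {t}) (IntermediateField.adjoin E {t}) L
      (algebraMap O (Algebra.adjoin O {t}) π) (e (X - C c)) hπA hτ hπτ hmax hchar M hM hπM hcM ?_
    intro p hp hpM hpτ
    refine key p hp hpM (fun c' hc' hass => ?_)
    by_cases hcc' : c' = c
    · subst hcc'
      apply hpτ
      have h1 := hass.map e
      rwa [AlgEquiv.apply_symm_apply] at h1
    · -- two branch sections through `M`: their difference is a unit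
      have h1 : ι (e (X - C c')) ∈ M :=
        hassoc _ _ hass (by rw [AlgEquiv.apply_symm_apply]; exact hpM)
      have h2 : ι (e (X - C c)) - ι (e (X - C c')) ∈ M := M.sub_mem hcM h1
      have h3 : ι (e (X - C c)) - ι (e (X - C c')) =
          ι (algebraMap O (Algebra.adjoin O {t}) (c' - c)) := by
        rw [← map_sub, ← map_sub, ← ChartInst.polyEquiv_C O t htO (c' - c)]
        congr 2
        rw [C_sub]
        ring
      rw [h3] at h2
      have h4 : IsUnit (ι (algebraMap O (Algebra.adjoin O {t}) (c' - c))) :=
        ((hS c' hc' c hc hcc').map (algebraMap O (Algebra.adjoin O {t}))).map ι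
      exact hM.ne_top (Ideal.eq_top_of_isUnit_mem M h2 h4)
  · -- non-branch point
    refine LocalNB.ldAt_of_tsdField (K := IntermediateField.adjoin E {t})
      (algebraMap O (Algebra.adjoin O {t}) π) hπA M hM hπM (fun p hp hpM => ?_)
    refine key p hp hpM (fun c hc hass => hbr ⟨c, hc, ?_⟩)
    exact hassoc _ _ hass (by rw [AlgEquiv.apply_symm_apply]; exact hpM)

end Main

end Fermat.Agent.S30.Model.ChartLD
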