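import Mathlib
import Fermat.Agent.S30.Model.ChartInst
import Fermat.Agent.Lib.NormalFree

/-!
# MODEL THEOREM — the three `ChartProv` rows of `Model/Main.lean`

For a DVR `O` with fraction field `E` of characteristic zero, a field `L / E` and `t : L`
transcendental over `E`, with `A := O[t] = Algebra.adjoin O {t} ⊆ L`:

* `chart_finite`   : the integral closure of `A` in `L` is a finite `A`-module
  (when `L / E(t)` is finite).
* `chart_nzd`      : `t` is a non-zero-divisor modulo `π` on the integral closure.
* `chart_not_unit` : `π` is not a unit of the integral closure.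

These are verbatim the rows `chart_finite`, `chart_nzd`, `chart_not_unit` of the skeleton (the
providers of `GlueChart.prime_integralClosure`).
-/

set_option autoImplicit false

open Polynomial

namespace Fermat.Agent.S30.Model.ChartProv

theorem transcendental_base {O E L : Type*} [CommRing O] [Field E] [Algebra O E]
    [IsFractionRing O E] [Field L] [Algebra E L] [Algebra O L] [IsScalarTower O E L]
    (t : L) (ht : Transcendental E t) : Transcendental O t :=
  ht.restrictScalars (IsFractionRing.injective O E)

theorem algebraMap_injective_base (O E L : Type*) [CommRing O] [Field E] [Algebra O E]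
    [IsFractionRing O E] [Field L] [Algebra E L] [Algebra O L] [IsScalarTower O E L] :
    Function.Injective (algebraMap O L) := by
  rw [IsScalarTower.algebraMap_eq O E L]
  exact (algebraMap E L).injective.comp (IsFractionRing.injective O E)

variable {O E L : Type*} [CommRing O] [IsDomain O]
  [Field E] [Algebra O E] [IsFractionRing O E]
  [Field L] [Algebra E L] [Algebra O L] [IsScalarTower O E L]

omit [IsDomain O] in
/-- `π` does not divide `t` in `O[t]`. -/
theorem not_dvd_gen (π : O) (hπ : Irreducible π) (t : L) (ht : Transcendental E t) :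
    ¬ algebraMap O (Algebra.adjoin O {t}) π ∣
      (⟨t, Algebra.self_mem_adjoin_singleton O t⟩ : Algebra.adjoin O {t}) := by
  have htO : Transcendental O t := transcendental_base t ht
  rintro ⟨a, ha⟩
  obtain ⟨P, rfl⟩ := (ChartInst.polyEquiv O t htO).surjective a
  have h1 : (ChartInst.polyEquiv O t htO) (X : O[X]) =
      (ChartInst.polyEquiv O t htO) (C π * P) := by
    rw [map_mul, ChartInst.polyEquiv_C, ← ha]
    apply Subtype.ext
    rw [ChartInst.polyEquiv_X]
  have h2 : (X : O[X]) = C π * P := (ChartInst.polyEquiv O t htO).injective h1
  have h3 := congrArg (fun Q : O[X] => Q.coeff 1) h2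
  simp only [coeff_X_one, coeff_C_mul] at h3
  exact hπ.not_isUnit (IsUnit.of_mul_eq_one _ h3.symm)

/-- ROW `ChartProv.chart_finite`. -/
theorem chart_finite [IsDiscreteValuationRing O] [CharZero E] (t : L) (ht : Transcendental E t)
    [FiniteDimensional (IntermediateField.adjoin E {t}) L] :
    Module.Finite (Algebra.adjoin O {t}) (integralClosure (Algebra.adjoin O {t}) L) := by
  have htO : Transcendental O t := transcendental_base t ht
  have hwK : t ∈ IntermediateField.adjoin E {t} := IntermediateField.mem_adjoin_simple_self E t
  let _ := (ChartInst.incl O t (IntermediateField.adjoin E {t}) hwK).toAlgebra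
  have := ChartInst.isScalarTower_incl O t (IntermediateField.adjoin E {t}) hwK
  have := ChartInst.isFractionRing_incl O t (IntermediateField.adjoin E {t}) hwK le_rfl
  have := ChartInst.isIntegrallyClosed_adjoin O t htO
  have := ChartInst.isNoetherianRing_adjoin O t htO
  exact IsIntegralClosure.finite (Algebra.adjoin O {t}) (IntermediateField.adjoin E {t}) L
    (integralClosure (Algebra.adjoin O {t}) L)

/-- ROW `ChartProv.chart_nzd`: `t` is a non-zero-divisor modulo `π` on the integral closure. -/
theorem chart_nzd [IsDiscreteValuationRing O] (π : O) (hπ : Irreducible π) (t : L) (ht : Transcendental E t) (x : L)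
    (hx : IsIntegral (Algebra.adjoin O {t}) x)
    (h : IsIntegral (Algebra.adjoin O {t}) (t * x / algebraMap O L π)) :
    IsIntegral (Algebra.adjoin O {t}) (x / algebraMap O L π) := by
  have htO : Transcendental O t := transcendental_base t ht
  have hwK : t ∈ IntermediateField.adjoin E {t} := IntermediateField.mem_adjoin_simple_self E t
  let _ := (ChartInst.incl O t (IntermediateField.adjoin E {t}) hwK).toAlgebra
  have := ChartInst.isScalarTower_incl O t (IntermediateField.adjoin E {t}) hwK
  have := ChartInst.isFractionRing_incl O t (IntermediateField.adjoin E {t}) hwK le_rfl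
  have := ChartInst.isIntegrallyClosed_adjoin O t htO
  have hπL : algebraMap O L π ≠ 0 := fun h0 =>
    hπ.ne_zero (algebraMap_injective_base O E L (h0.trans (map_zero _).symm))
  have hπA : Prime (algebraMap O (Algebra.adjoin O {t}) π) :=
    ChartInst.prime_algebraMap_adjoin O t htO hπ.prime
  have hsm : (⟨t, Algebra.self_mem_adjoin_singleton O t⟩ : Algebra.adjoin O {t}) • x =
      algebraMap O (Algebra.adjoin O {t}) π • (t * x / algebraMap O L π) := by
    rw [Algebra.smul_def, Algebra.smul_def]
    change t * x = algebraMap O L π * (t * x / algebraMap O L π)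
    rw [mul_div_cancel₀ _ hπL]
  obtain ⟨y, hy, hxy⟩ := Fermat.Agent.Lib.NormalFree.exists_isIntegral_smul_eq
    (IntermediateField.adjoin E {t}) hπA (not_dvd_gen π hπ t ht) hx h hsm
  have hxy' : x = algebraMap O L π * y := by
    rw [hxy, Algebra.smul_def]
    rfl
  rw [hxy', mul_div_cancel_left₀ _ hπL]
  exact hy

/-- ROW `ChartProv.chart_not_unit`. -/
theorem chart_not_unit [IsDiscreteValuationRing O] (π : O) (hπ : Irreducible π) (t : L) (ht : Transcendental E t) :
    ¬ IsIntegral (Algebra.adjoin O {t}) (algebraMap O L π)⁻¹ := by
  have htO : Transcendental O t := transcendental_base t ht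
  have hwK : t ∈ IntermediateField.adjoin E {t} := IntermediateField.mem_adjoin_simple_self E t
  let _ := (ChartInst.incl O t (IntermediateField.adjoin E {t}) hwK).toAlgebra
  have := ChartInst.isScalarTower_incl O t (IntermediateField.adjoin E {t}) hwK
  have := ChartInst.isFractionRing_incl O t (IntermediateField.adjoin E {t}) hwK le_rfl
  have := ChartInst.isIntegrallyClosed_adjoin O t htO
  have hπL : algebraMap O L π ≠ 0 := fun h0 =>
    hπ.ne_zero (algebraMap_injective_base O E L (h0.trans (map_zero _).symm))
  have hπA : Prime (algebraMap O (Algebra.adjoin O {t}) π) :=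
    ChartInst.prime_algebraMap_adjoin O t htO hπ.prime
  intro hint
  -- `π⁻¹` lies in `K = E(t)`
  have hmemK : (algebraMap O L π)⁻¹ ∈ IntermediateField.adjoin E {t} := by
    apply inv_mem
    rw [IsScalarTower.algebraMap_apply O E L]
    exact (IntermediateField.adjoin E {t}).algebraMap_mem _
  have hintK : IsIntegral (Algebra.adjoin O {t})
      (⟨(algebraMap O L π)⁻¹, hmemK⟩ : IntermediateField.adjoin E {t}) := by
    rw [← isIntegral_algebraMap_iff
      (algebraMap (IntermediateField.adjoin E {t}) L).injective]
    exact hint
  obtain ⟨a, ha⟩ := IsIntegrallyClosed.isIntegral_iff.mp hintK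
  have haL : (a : L) = (algebraMap O L π)⁻¹ :=
    congrArg (fun z : IntermediateField.adjoin E {t} => (z : L)) ha
  apply hπA.not_isUnit
  refine IsUnit.of_mul_eq_one a (Subtype.ext ?_)
  change algebraMap O L π * (a : L) = 1
  rw [haL, mul_inv_cancel₀ hπL]

end Fermat.Agent.S30.Model.ChartProv
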