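import Mathlib
import Fermat.Agent.Lib.NormalFree
import Fermat.Agent.S30.Model.LocalDisc

/-!
# S30 / MODEL THEOREM: transfer of trace-self-duality between base rings

Glue between the frozen hypotheses of `Model/Main.lean` (stated over `O[u]` and `E[u]`) and the
chart-level local theorems (stated over `O[X]` acting through `u` resp. `u⁻¹`), in the
field-trace form `LocalDisc.TSDField`.

* `tsdField_of_isLocalization` (HT, "down"): `B = M⁻¹ A`, `p` prime in `A` dividing no element
  of `M`:  `TSDField B K L p → TSDField A K L p`   (e.g. `E[X] → O[X]`).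
* `tsdField_of_associated` : `TSDField` only depends on `p` up to associates.
* `tsdField_swap` (CI, chart at infinity): two base rings `A`, `A'` with the same fraction field
  `K`, `u ∈ A`, `u' ∈ A'`, `u u' = 1` in `L`, each element of `A` being `u^k ·` an element of
  `A'` and conversely; `p ∈ A`, `p' ∈ A'` prime with `p = u^j p'` in `L`, `p ∤ u^k`,
  `p' ∤ u'^k`:  `TSDField A K L p → TSDField A' K L p'`.
-/

set_option autoImplicit false

open Polynomial

namespace Fermat.Agent.S30.Model.ChartHyp

open Fermat.Agent.S30.Model.LocalDisc Fermat.Agent.Lib.NormalFree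

section Down

variable {A B K L : Type*} [CommRing A] [IsDomain A] [IsIntegrallyClosed A] [CommRing B]
  [Algebra A B] [Field K] [Field L] [Algebra A K] [IsFractionRing A K] [Algebra B K]
  [IsScalarTower A B K] [Algebra K L] [Algebra A L] [IsScalarTower A K L] [Algebra B L]
  [IsScalarTower A B L]

/-- **Horizontal transfer.**  Trace-self-duality at `p` descends from a localisation `B` of `A`
to `A`, provided the prime `p` divides no element of the multiplicative set. -/
theorem tsdField_of_isLocalization (M : Submonoid A) [IsLocalization M B] {p : A} (hp : Prime p)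
    (hpM : ∀ m ∈ M, ¬ p ∣ m) (h : TSDField B K L (algebraMap A B p)) : TSDField A K L p := by
  intro x hx hxy
  have hxB : IsIntegral B x := hx.tower_top
  have key : ∀ y : L, IsIntegral B y →
      ∃ w : B, Algebra.trace K L (x * y) = algebraMap B K (algebraMap A B p * w) := by
    intro y hy
    obtain ⟨⟨m, hm⟩, hmy⟩ := IsIntegral.exists_multiple_integral_of_isLocalization M y hy
    obtain ⟨w, hw⟩ := hxy _ hmy
    refine ⟨IsLocalization.mk' B w ⟨m, hm⟩, ?_⟩
    have h1 : x * ((⟨m, hm⟩ : M) • y) = algebraMap A K m • (x * y) := by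
      rw [Submonoid.smul_def, Algebra.smul_def, Algebra.smul_def,
        IsScalarTower.algebraMap_apply A K L]
      ring
    rw [h1, map_smul, smul_eq_mul] at hw
    have hm0 : algebraMap A K m ≠ 0 := by
      intro h0
      have : m = 0 := IsFractionRing.injective A K (by rw [h0, map_zero])
      exact hpM m hm (this ▸ dvd_zero p)
    have h2 : algebraMap B K (IsLocalization.mk' B w ⟨m, hm⟩) * algebraMap A K m =
        algebraMap A K w := by
      rw [IsScalarTower.algebraMap_apply A B K m, ← map_mul, IsLocalization.mk'_spec,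
        ← IsScalarTower.algebraMap_apply]
    apply mul_left_cancel₀ hm0
    rw [hw, map_mul, map_mul, ← IsScalarTower.algebraMap_apply A B K p, ← h2]
    ring
  obtain ⟨z, hz, hxz⟩ := h x hxB key
  obtain ⟨⟨m, hm⟩, hmz⟩ := IsIntegral.exists_multiple_integral_of_isLocalization M z hz
  have h3 : m • x = p • ((⟨m, hm⟩ : M) • z) := by
    rw [hxz, Submonoid.smul_def, Algebra.smul_def, Algebra.smul_def, Algebra.smul_def,
      ← IsScalarTower.algebraMap_apply A B L p]
    ring
  obtain ⟨y, hy, hxy'⟩ := exists_isIntegral_smul_eq K hp (hpM m hm) hx hmz h3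
  exact ⟨y, hy, by rw [hxy', Algebra.smul_def]⟩

end Down

section Assoc

variable {A K L : Type*} [CommRing A] [Field K] [Field L] [Algebra A K] [Algebra K L]
  [Algebra A L]

/-- `TSDField` only depends on the prime element up to a unit. -/
theorem tsdField_of_associated {p q : A} (hpq : Associated p q) (h : TSDField A K L p) :
    TSDField A K L q := by
  obtain ⟨v, rfl⟩ := hpq
  intro x hx hxy
  have key : ∀ y : L, IsIntegral A y →
      ∃ w : A, Algebra.trace K L (x * y) = algebraMap A K (p * w) := by
    intro y hy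
    obtain ⟨w, hw⟩ := hxy y hy
    exact ⟨(v : A) * w, by rw [hw, mul_assoc]⟩
  obtain ⟨z, hz, hxz⟩ := h x hx key
  refine ⟨algebraMap A L ((v⁻¹ : Aˣ) : A) * z, isIntegral_algebraMap.mul hz, ?_⟩
  rw [hxz, ← mul_assoc, ← map_mul, mul_assoc p, Units.mul_inv, mul_one]

end Assoc

section Swap

variable {A A' K L : Type*} [CommRing A] [IsDomain A] [IsIntegrallyClosed A]
  [CommRing A'] [IsDomain A'] [IsIntegrallyClosed A']
  [Field K] [Field L] [Algebra A K] [IsFractionRing A K] [Algebra A' K] [IsFractionRing A' K]
  [Algebra K L] [Algebra A L] [IsScalarTower A K L] [Algebra A' L] [IsScalarTower A' K L]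

omit [IsDomain A] [IsIntegrallyClosed A] [IsDomain A'] [IsIntegrallyClosed A']
  [IsFractionRing A K] [IsFractionRing A' K] in
/-- Integrality over `A'` becomes integrality over `A` after multiplication by a power of `u`,
when every element of `A'` is a power of `u' = u⁻¹` times an element of `A`. -/
theorem exists_pow_mul_isIntegral (u : A) (u' : A')
    (huu' : algebraMap A K u * algebraMap A' K u' = 1)
    (hA'A : ∀ a' : A', ∃ (k : ℕ) (a : A),
      algebraMap A' K a' = algebraMap A' K u' ^ k * algebraMap A K a)
    (x : L) (hx : IsIntegral A' x) :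
    ∃ m : ℕ, IsIntegral A (algebraMap A L u ^ m * x) := by
  classical
  obtain ⟨P, hP, hPx⟩ := hx
  choose k a hka using hA'A
  set r := P.natDegree with hr
  set m := (Finset.range r).sup (fun i => k (P.coeff i)) with hm
  refine ⟨m, ?_⟩
  set U : K := algebraMap A K u with hU
  set U' : K := algebraMap A' K u' with hU'
  -- the scaled polynomial over `K`
  set PK : K[X] := (P.map (algebraMap A' K)).scaleRoots (U ^ m) with hPK
  have hPKmonic : PK.Monic := (monic_scaleRoots_iff _).mpr (hP.map _)
  have hdeg : (P.map (algebraMap A' K)).natDegree = r := hP.natDegree_map _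
  have hcoeff : ∀ i, PK.coeff i ∈ Set.range (algebraMap A K) := by
    intro i
    rw [hPK, coeff_scaleRoots, hdeg, coeff_map]
    rcases lt_trichotomy i r with hi | hi | hi
    · have hki : k (P.coeff i) ≤ m * (r - i) := by
        have h1 : k (P.coeff i) ≤ m := Finset.le_sup (f := fun i => k (P.coeff i))
          (Finset.mem_range.mpr hi)
        have h2 : 1 ≤ r - i := by omega
        calc k (P.coeff i) ≤ m := h1
          _ = m * 1 := (mul_one m).symm
          _ ≤ m * (r - i) := Nat.mul_le_mul_left m h2
      refine ⟨u ^ (m * (r - i) - k (P.coeff i)) * a (P.coeff i), ?_⟩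
      rw [map_mul, map_pow, hka (P.coeff i), ← pow_mul]
      have h3 : U ^ (m * (r - i)) = U ^ (m * (r - i) - k (P.coeff i)) * U ^ k (P.coeff i) := by
        rw [← pow_add, Nat.sub_add_cancel hki]
      have h4 : U ^ k (P.coeff i) * U' ^ k (P.coeff i) = 1 := by
        rw [← mul_pow, huu', one_pow]
      rw [h3]
      linear_combination (-(U ^ (m * (r - i) - k (P.coeff i)) * (algebraMap A K) (a (P.coeff i)))) * h4
    · subst hi
      refine ⟨1, ?_⟩
      rw [map_one, Nat.sub_self, pow_zero, mul_one, hr, ← Polynomial.leadingCoeff,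
        hP.leadingCoeff, map_one]
    · refine ⟨0, ?_⟩
      rw [map_zero, Polynomial.coeff_eq_zero_of_natDegree_lt hi, map_zero, zero_mul]
  have hlift : PK ∈ Polynomial.lifts (algebraMap A K) :=
    (Polynomial.lifts_iff_coeff_lifts _).mpr hcoeff
  obtain ⟨Q, hQ, -, hQm⟩ := Polynomial.lifts_and_degree_eq_and_monic hlift hPKmonic
  refine ⟨Q, hQm, ?_⟩
  have h5 : aeval x (P.map (algebraMap A' K)) = 0 := by
    rw [aeval_map_algebraMap]; exact hPx
  have h6 : aeval (algebraMap K L (U ^ m) * x) PK = 0 := scaleRoots_aeval_eq_zero h5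
  have h7 : aeval (algebraMap A L u ^ m * x) (Q.map (algebraMap A K)) = 0 := by
    rw [hQ]
    have : algebraMap A L u ^ m = algebraMap K L (U ^ m) := by
      rw [map_pow, hU, ← IsScalarTower.algebraMap_apply]
    rw [this]
    exact h6
  rwa [aeval_map_algebraMap] at h7

omit [IsDomain A] in
/-- **Chart swap.**  `A`, `A'` two integrally closed domains with the same fraction field `K`,
`u ∈ A`, `u' ∈ A'` inverse to each other in `K`, every element of `A` being a power of `u` times
an element of `A'` and conversely (`A = O[X]` acting through `u`, `A' = O[X]` acting through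
`u⁻¹`).  If the prime elements `p ∈ A`, `p' ∈ A'` satisfy `p = u ^ j * p'` in `K` and do not
divide `u`, `u'`, then trace-self-duality at `p` over `A` implies trace-self-duality at `p'`
over `A'`. -/
theorem tsdField_swap [FiniteDimensional K L] (u : A) (u' : A')
    (huu' : algebraMap A K u * algebraMap A' K u' = 1)
    (hAA' : ∀ a : A, ∃ (k : ℕ) (a' : A'),
      algebraMap A K a = algebraMap A K u ^ k * algebraMap A' K a')
    (hA'A : ∀ a' : A', ∃ (k : ℕ) (a : A),
      algebraMap A' K a' = algebraMap A' K u' ^ k * algebraMap A K a)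
    {p : A} {p' : A'} (hp : Prime p) (hp' : Prime p') (j : ℕ)
    (hpp' : algebraMap A K p = algebraMap A K u ^ j * algebraMap A' K p')
    (hpu : ¬ p ∣ u) (hpu' : ¬ p' ∣ u') (h : TSDField A K L p) : TSDField A' K L p' := by
  intro x hx hxy
  have huu'' : algebraMap A' K u' * algebraMap A K u = 1 := by rw [mul_comm]; exact huu'
  have hUL : algebraMap A L u = algebraMap K L (algebraMap A K u) :=
    IsScalarTower.algebraMap_apply A K L u
  have hU'L : algebraMap A' L u' = algebraMap K L (algebraMap A' K u') :=
    IsScalarTower.algebraMap_apply A' K L u'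
  have hLL : algebraMap A L u * algebraMap A' L u' = 1 := by
    rw [hUL, hU'L, ← map_mul, huu', map_one]
  obtain ⟨m, hm⟩ := exists_pow_mul_isIntegral u u' huu' hA'A x hx
  -- step 1: the hypothesis of `TSDField A K L p` for `u ^ m * x`
  have key : ∀ y : L, IsIntegral A y → ∃ w : A,
      Algebra.trace K L (algebraMap A L u ^ m * x * y) = algebraMap A K (p * w) := by
    intro y hy
    obtain ⟨m', hm'⟩ := exists_pow_mul_isIntegral u' u huu'' hAA' y hy
    obtain ⟨w', hw'⟩ := hxy _ hm'
    have hT : IsIntegral A (Algebra.trace K L (algebraMap A L u ^ m * x * y)) :=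
      Algebra.isIntegral_trace (hm.mul hy)
    obtain ⟨t, ht⟩ := IsIntegrallyClosed.isIntegral_iff.mp hT
    obtain ⟨k, w, hkw⟩ := hA'A w'
    have e1 : Algebra.trace K L (algebraMap A L u ^ m * x * y) =
        algebraMap A K u ^ m * Algebra.trace K L (x * y) := by
      have : algebraMap A L u ^ m * x * y = (algebraMap A K u ^ m) • (x * y) := by
        rw [Algebra.smul_def, map_pow, ← hUL]; ring
      rw [this, map_smul, smul_eq_mul]
    have e2 : Algebra.trace K L (x * (algebraMap A' L u' ^ m' * y)) =
        algebraMap A' K u' ^ m' * Algebra.trace K L (x * y) := by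
      have : x * (algebraMap A' L u' ^ m' * y) = (algebraMap A' K u' ^ m') • (x * y) := by
        rw [Algebra.smul_def, map_pow, ← hU'L]; ring
      rw [this, map_smul, smul_eq_mul]
    have hm1 : algebraMap A K u ^ m' * algebraMap A' K u' ^ m' = 1 := by
      rw [← mul_pow, huu', one_pow]
    have hk1 : algebraMap A K u ^ k * algebraMap A' K u' ^ k = 1 := by
      rw [← mul_pow, huu', one_pow]
    have e4 : Algebra.trace K L (x * y) =
        algebraMap A K u ^ m' * (algebraMap A' K p' * algebraMap A' K w') := by
      rw [← map_mul, ← hw', e2, ← mul_assoc, hm1, one_mul]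
    have e3 : algebraMap A K (u ^ (j + k) * t) = algebraMap A K (u ^ (m + m') * (p * w)) := by
      simp only [map_mul, map_pow]
      rw [ht, e1, e4, hkw, hpp']
      linear_combination (algebraMap A K u ^ j * algebraMap A K u ^ m * algebraMap A K u ^ m' *
        algebraMap A' K p' * algebraMap A K w) * hk1
    have e5 : u ^ (j + k) * t = u ^ (m + m') * (p * w) := IsFractionRing.injective A K e3
    have hdvd : p ∣ u ^ (j + k) * t := ⟨u ^ (m + m') * w, by rw [e5]; ring⟩
    have hpt : p ∣ t :=
      (hp.dvd_or_dvd hdvd).resolve_left (fun hh => hpu (hp.dvd_of_dvd_pow hh))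
    obtain ⟨w₂, rfl⟩ := hpt
    exact ⟨w₂, ht.symm⟩
  obtain ⟨z, hz, hxz⟩ := h _ hm key
  obtain ⟨m'', hm''⟩ := exists_pow_mul_isIntegral u' u huu'' hAA' z hz
  have hz'' : IsIntegral A' (algebraMap A' L u' ^ m * (algebraMap A' L u' ^ m'' * z)) :=
    (isIntegral_algebraMap.pow m).mul hm''
  have hpL : algebraMap A L p = algebraMap A L u ^ j * algebraMap A' L p' := by
    rw [IsScalarTower.algebraMap_apply A K L p, hpp', map_mul, map_pow, ← hUL,
      ← IsScalarTower.algebraMap_apply]
  have hab_m : algebraMap A L u ^ m * algebraMap A' L u' ^ m = 1 := by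
    rw [← mul_pow, hLL, one_pow]
  have hab_j : algebraMap A L u ^ j * algebraMap A' L u' ^ j = 1 := by
    rw [← mul_pow, hLL, one_pow]
  have hxz' : algebraMap A L u ^ m * x = algebraMap A L u ^ j * algebraMap A' L p' * z := by
    rw [hxz, hpL]
  have h3 : (u' ^ (m'' + j)) • x =
      p' • (algebraMap A' L u' ^ m * (algebraMap A' L u' ^ m'' * z)) := by
    rw [Algebra.smul_def, Algebra.smul_def, map_pow]
    linear_combination (-(algebraMap A' L u' ^ (m'' + j) * x)) * hab_m +
      (algebraMap A' L u' ^ (m'' + j) * algebraMap A' L u' ^ m) * hxz' +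
      (algebraMap A' L u' ^ m'' * algebraMap A' L u' ^ m * algebraMap A' L p' * z) * hab_j
  obtain ⟨y, hy, hxy'⟩ := exists_isIntegral_smul_eq K hp'
    (fun hh => hpu' (hp'.dvd_of_dvd_pow hh)) hx hz'' h3
  exact ⟨y, hy, by rw [hxy', Algebra.smul_def]⟩

end Swap

end Fermat.Agent.S30.Model.ChartHyp
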