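import Mathlib

/-!
# S30 / MODEL THEOREM: prime elements of `O[X]` (Gauss dictionary) and the reciprocal polynomial

Pure polynomial algebra over a UFD `O` with fraction field `E`, used to translate the chart-level
hypothesis `Model.ChartUnram` (prime elements `f` of `O[X]`) into the frozen hypotheses
`GaussUnram` / `HorizUnram` (irreducible polynomials over `E`), on the chart `u` and on the chart
at infinity `u⁻¹` (reciprocal polynomial).
-/

set_option autoImplicit false

open Polynomial

namespace Fermat.Agent.S30.Model.ChartPoly

section Domain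

variable {O : Type*} [CommRing O] [IsDomain O]

/-- A prime polynomial of positive degree over a domain is primitive. -/
theorem isPrimitive_of_irreducible {f : O[X]} (hf : Irreducible f) (hdeg : f.natDegree ≠ 0) :
    f.IsPrimitive := by
  intro r hr
  obtain ⟨g, rfl⟩ := hr
  rcases hf.isUnit_or_isUnit rfl with h | h
  · exact isUnit_C.mp h
  · exfalso
    apply hdeg
    obtain ⟨v, hv⟩ := isUnit_iff.mp h
    rw [← hv.2, ← C_mul, natDegree_C]

/-- `X ∣ f` for an irreducible `f` means `f ~ X`. -/
theorem associated_X_of_coeff_zero_eq_zero {f : O[X]} (hf : Irreducible f)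
    (h0 : f.coeff 0 = 0) : Associated f X := by
  obtain ⟨g, rfl⟩ := X_dvd_iff.mpr h0
  rcases hf.isUnit_or_isUnit rfl with h | h
  · exact absurd h not_isUnit_X
  · exact (associated_mul_unit_right X g h).symm

omit [IsDomain O] in
theorem natTrailingDegree_eq_zero_of_coeff_zero_ne_zero {f : O[X]} (h0 : f.coeff 0 ≠ 0) :
    f.natTrailingDegree = 0 :=
  natTrailingDegree_eq_zero.mpr (Or.inr h0)

omit [IsDomain O] in
/-- The reciprocal polynomial has the same degree when the constant coefficient is nonzero. -/
theorem natDegree_reverse {f : O[X]} (h0 : f.coeff 0 ≠ 0) :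
    f.reverse.natDegree = f.natDegree := by
  rw [reverse_natDegree, natTrailingDegree_eq_zero_of_coeff_zero_ne_zero h0, Nat.sub_zero]

omit [IsDomain O] in
/-- Reversing twice gives back `f` when the constant coefficient is nonzero. -/
theorem reverse_reverse {f : O[X]} (h0 : f.coeff 0 ≠ 0) : f.reverse.reverse = f := by
  have h1 : f.mirror = f.reverse := by
    rw [mirror, natTrailingDegree_eq_zero_of_coeff_zero_ne_zero h0]
    ext n
    rw [coeff_reverse]
    simp [reverse, coeff_reflect]
  have h2 : f.reverse.mirror = f.reverse.reverse := by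
    rw [mirror, natTrailingDegree_reverse]
    ext n
    simp [reverse, coeff_reflect]
  rw [← h2, ← h1, mirror_mirror]

/-- The reciprocal polynomial of an irreducible polynomial with nonzero constant coefficient is
irreducible. -/
theorem irreducible_reverse {f : O[X]} (hf : Irreducible f) (h0 : f.coeff 0 ≠ 0) :
    Irreducible f.reverse := by
  have hf0 : f ≠ 0 := hf.ne_zero
  have hlc : f.reverse.coeff 0 ≠ 0 := by
    rw [coeff_zero_reverse]; exact leadingCoeff_ne_zero.mpr hf0
  refine ⟨fun hu => ?_, fun a b hab => ?_⟩
  · -- a unit is a constant; then `f = reverse (reverse f)` is a unit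
    obtain ⟨v, hv, hvf⟩ := isUnit_iff.mp hu
    have : f = C v := by
      rw [← reverse_reverse h0, ← hvf, reverse_C]
    exact hf.not_isUnit (this ▸ isUnit_C.mpr hv)
  · have ha0 : a.coeff 0 ≠ 0 := by
      intro h
      apply hlc
      rw [hab, mul_coeff_zero, h, zero_mul]
    have hb0 : b.coeff 0 ≠ 0 := by
      intro h
      apply hlc
      rw [hab, mul_coeff_zero, h, mul_zero]
    have hfab : f = a.reverse * b.reverse := by
      rw [← reverse_mul_of_domain, ← hab, reverse_reverse h0]
    rcases hf.isUnit_or_isUnit hfab with h | h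
    · left
      obtain ⟨v, hv, hva⟩ := isUnit_iff.mp h
      have : a = C v := by rw [← reverse_reverse ha0, ← hva, reverse_C]
      exact this ▸ isUnit_C.mpr hv
    · right
      obtain ⟨v, hv, hvb⟩ := isUnit_iff.mp h
      have : b = C v := by rw [← reverse_reverse hb0, ← hvb, reverse_C]
      exact this ▸ isUnit_C.mpr hv

omit [IsDomain O] in
/-- `f(u) = u ^ deg f * f^rev(u⁻¹)` in a field. -/
theorem aeval_eq_pow_mul_aeval_reverse {L : Type*} [Field L] [Algebra O L] (u : L) (hu : u ≠ 0)
    (f : O[X]) : aeval u f = u ^ f.natDegree * aeval u⁻¹ f.reverse := by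
  let _ : Invertible u := invertibleOfNonzero hu
  have h := eval₂_reverse_mul_pow (algebraMap O L) u f
  rw [invOf_eq_inv] at h
  rw [aeval_def, aeval_def, ← h, mul_comm]

/-- The reciprocal polynomial of `X - C c` is `1 - C c * X`. -/
theorem reverse_X_sub_C (c : O) : (X - C c : O[X]).reverse = 1 - C c * X := by
  have h : (X - C c : O[X]) = X + C (-c) := by rw [C_neg, sub_eq_add_neg]
  rw [h, reverse_add_C, natDegree_X, pow_one, C_neg, neg_mul, ← sub_eq_add_neg]
  congr 1
  have := reverse_mul_X (1 : O[X])
  rw [one_mul] at this
  rw [this, ← C_1, reverse_C]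

end Domain

section UFD

variable {O : Type*} [CommRing O] [IsDomain O] [UniqueFactorizationMonoid O]
variable (E : Type*) [Field E] [Algebra O E] [IsFractionRing O E]

/-- **Gauss dictionary, (P1).**  A prime element of `O[X]` is either a prime constant or a
primitive polynomial of positive degree which is irreducible over the fraction field. -/
theorem prime_cases {f : O[X]} (hf : Prime f) :
    (∃ q : O, Prime q ∧ f = C q) ∨
      (f.IsPrimitive ∧ 0 < f.natDegree ∧ Irreducible (f.map (algebraMap O E))) := by
  by_cases h : f.natDegree = 0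
  · left
    have hfC := eq_C_of_natDegree_eq_zero h
    refine ⟨f.coeff 0, ?_, hfC⟩
    rw [hfC] at hf
    exact prime_C_iff.mp hf
  · right
    have hprim := isPrimitive_of_irreducible hf.irreducible h
    exact ⟨hprim, Nat.pos_of_ne_zero h,
      (hprim.irreducible_iff_irreducible_map_fraction_map).mp hf.irreducible⟩

/-- **Gauss dictionary, (P2).**  Primitive polynomials associated over the fraction field are
associated over `O`. -/
theorem associated_of_map {f g : O[X]} (hf : f.IsPrimitive) (hg : g.IsPrimitive)
    (h : Associated (f.map (algebraMap O E)) (g.map (algebraMap O E))) : Associated f g :=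
  associated_of_dvd_dvd ((hf.dvd_iff_fraction_map_dvd_fraction_map E).mpr h.dvd)
    ((hg.dvd_iff_fraction_map_dvd_fraction_map E).mpr h.symm.dvd)

omit [IsDomain O] [UniqueFactorizationMonoid O] [IsFractionRing O E] in
theorem map_X_sub_C (c : O) :
    (X - C c : O[X]).map (algebraMap O E) = X - C (algebraMap O E c) := by
  rw [Polynomial.map_sub, map_X, map_C]

/-- A primitive `f` not associated to `X - c` over `O` is not associated to it over `E`. -/
theorem not_associated_map_X_sub_C {f : O[X]} (hf : f.IsPrimitive) (c : O)
    (h : ¬ Associated f (X - C c)) :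
    ¬ Associated (f.map (algebraMap O E)) (X - C (algebraMap O E c)) := by
  intro h'
  rw [← map_X_sub_C] at h'
  exact h (associated_of_map E hf (monic_X_sub_C c).isPrimitive h')

/-- The reciprocal polynomial of a prime polynomial with nonzero constant coefficient is prime. -/
theorem prime_reverse {f : O[X]} (hf : Prime f) (h0 : f.coeff 0 ≠ 0) : Prime f.reverse :=
  UniqueFactorizationMonoid.irreducible_iff_prime.mp (irreducible_reverse hf.irreducible h0)

/-- **Exclusions at infinity, (P4).**  Let `f` be a prime of `O[X]` of positive degree which is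
not a unit modulo `π` (`π` generating the unique maximal ideal) and not associated to `X`.  If `f`
is not associated to `X - c'` for any inverse `c'` of `c`, then the reciprocal polynomial of `f`
is not associated to `X - c` over the fraction field. -/
theorem not_associated_reverse_map {π : O} (hloc : ∀ c : O, ¬ IsUnit c → π ∣ c) {f : O[X]}
    (hf : Prime f) (hdeg : 0 < f.natDegree) (hnu : ∀ a b : O[X], f * a ≠ 1 + C π * b)
    (h0 : f.coeff 0 ≠ 0) (c : O) (hc : ∀ c' : O, c * c' = 1 → ¬ Associated f (X - C c')) :
    ¬ Associated (f.reverse.map (algebraMap O E)) (X - C (algebraMap O E c)) := by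
  intro h
  have hrev : Prime f.reverse := prime_reverse hf h0
  have hdeg' : f.reverse.natDegree ≠ 0 := by rw [natDegree_reverse h0]; exact hdeg.ne'
  have hprim : f.reverse.IsPrimitive := isPrimitive_of_irreducible hrev.irreducible hdeg'
  rw [← map_X_sub_C] at h
  have h1 : Associated f.reverse (X - C c) :=
    associated_of_map E hprim (monic_X_sub_C c).isPrimitive h
  obtain ⟨w, hw⟩ := h1.symm
  -- `f.reverse = (X - C c) * w`, `w` a unit, hence a constant
  obtain ⟨v, hv, hvw⟩ := isUnit_iff.mp w.isUnit
  have h2 : f = (1 - C c * X) * C v := by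
    rw [← reverse_reverse h0, ← hw, reverse_mul_of_domain, reverse_X_sub_C, ← hvw, reverse_C]
  by_cases hcu : IsUnit c
  · obtain ⟨c', hcc'⟩ := hcu.exists_right_inv
    apply hc c' hcc'
    refine ⟨(IsUnit.unit (isUnit_C.mpr (hv.neg.mul hcu) : IsUnit (C (-v * c) : O[X])))⁻¹, ?_⟩
    rw [Units.mul_inv_eq_iff_eq_mul, IsUnit.unit_spec, h2]
    have hC : (C c : O[X]) * C c' = 1 := by rw [← C_mul, hcc', C_1]
    rw [C_mul, C_neg]
    linear_combination (-(C v : O[X])) * hC
  · obtain ⟨d, rfl⟩ := hloc c hcu
    obtain ⟨v', hvv'⟩ := hv.exists_right_inv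
    apply hnu (C v') (-(C d * X))
    rw [h2]
    have hC : (C v : O[X]) * C v' = 1 := by rw [← C_mul, hvv', C_1]
    rw [C_mul]
    linear_combination (1 - C π * C d * X) * hC

end UFD

end Fermat.Agent.S30.Model.ChartPoly
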