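import Mathlib
import Fermat.Agent.Lib.NormalFree
import Fermat.Agent.S30.Model.LocalDisc

/-!
# Model theorem: from a family of integral elements with discriminant prime to `p`
to field-trace self-duality at `p`

Bridge between the frozen elementwise hypothesis `Model.UnramAt` (a family of `[L : K]` integral
elements whose trace discriminant is not divisible by the prime) and `LocalDisc.TSDField`
(field-trace self-duality of the integral closure at the prime), by Cramer's rule and the
minimal polynomial trick `Lib.NormalFree.exists_isIntegral_smul_eq`.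
-/

set_option autoImplicit false

namespace Fermat.Agent.S30.Model.UnramTSD

open Fermat.Agent.S30.Model Matrix

/-- **Cramer + minimal polynomial trick.**  `A` an integrally closed domain with fraction field
`K`, `L / K` finite, `p` a prime element of `A`.  If there is a family `b` of `[L : K]` elements
of `L`, integral over `A`, whose trace discriminant `d ∈ A` is not divisible by `p`, then the
integral closure of `A` in `L` is field-trace self-dual at `p`. -/
theorem tsdField_of_family {A K L : Type*} [CommRing A] [IsDomain A] [IsIntegrallyClosed A]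
    [Field K] [Field L] [Algebra A K] [IsFractionRing A K] [Algebra K L] [Algebra A L]
    [IsScalarTower A K L] [FiniteDimensional K L] {p : A} (hp : Prime p)
    (b : Fin (Module.finrank K L) → L) (hb : ∀ i, IsIntegral A (b i)) (d : A)
    (hd : algebraMap A K d = (Algebra.traceMatrix K b).det) (hpd : ¬ p ∣ d) :
    LocalDisc.TSDField A K L p := by
  classical
  have hinj : Function.Injective (algebraMap A K) := IsFractionRing.injective A K
  have hd0 : d ≠ 0 := fun h0 => hpd (h0 ▸ dvd_zero p)
  have hdet : (Algebra.traceMatrix K b).det ≠ 0 := by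
    rw [← hd]; exact (map_ne_zero_iff _ hinj).2 hd0
  -- `b` is a `K`-basis of `L`
  have hli : LinearIndependent K b := by
    by_contra hli
    exact hdet (Algebra.discr_zero_of_not_linearIndependent K hli)
  let B : Module.Basis (Fin (Module.finrank K L)) K L :=
    basisOfLinearIndependentOfCardEqFinrank' b hli (by simp)
  have hB : ⇑B = b := coe_basisOfLinearIndependentOfCardEqFinrank' b hli _
  -- the trace matrix has entries in `A`
  have hT : ∀ i j, ∃ t : A, algebraMap A K t = Algebra.traceMatrix K b i j := by
    intro i j
    have h1 : IsIntegral A (Algebra.trace K L (b i * b j)) :=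
      Algebra.isIntegral_trace ((hb i).mul (hb j))
    obtain ⟨t, ht⟩ := IsIntegrallyClosed.isIntegral_iff.1 h1
    exact ⟨t, ht⟩
  choose t ht using hT
  let M : Matrix (Fin (Module.finrank K L)) (Fin (Module.finrank K L)) A := Matrix.of t
  have hM : M.map (algebraMap A K) = Algebra.traceMatrix K b := by
    ext i j; simp [M, ht]
  intro x hx hxy
  -- coordinates of `x`
  have hxsum : x = ∑ i, B.equivFun x i • b i := by
    rw [← hB]; exact (B.sum_equivFun x).symm
  -- traces against the `b j`
  have hw : ∀ j, ∃ w : A, Algebra.trace K L (x * b j) = algebraMap A K (p * w) :=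
    fun j => hxy (b j) (hb j)
  choose w hw using hw
  have hcT : ∀ j, (B.equivFun x ᵥ* Algebra.traceMatrix K b) j = algebraMap A K (p * w j) := by
    intro j
    rw [← hw j]
    conv_rhs => rw [hxsum]
    rw [Finset.sum_mul, map_sum]
    simp only [Matrix.vecMul, dotProduct, Algebra.traceMatrix_apply, Algebra.traceForm_apply]
    apply Finset.sum_congr rfl
    intro i _
    rw [smul_mul_assoc, map_smul, smul_eq_mul]
  -- Cramer's rule
  have hcramer : ∀ i, algebraMap A K d * B.equivFun x i =
      algebraMap A K (p * ∑ j, w j * M.adjugate j i) := by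
    intro i
    have hv : B.equivFun x ᵥ* Algebra.traceMatrix K b = fun j => algebraMap A K (p * w j) :=
      funext hcT
    have h1 : (fun j => algebraMap A K (p * w j)) ᵥ* (Algebra.traceMatrix K b).adjugate =
        (Algebra.traceMatrix K b).det • B.equivFun x := by
      rw [← hv, Matrix.vecMul_vecMul, Matrix.mul_adjugate, Matrix.vecMul_smul, Matrix.vecMul_one]
    have h2 := congrFun h1 i
    rw [Pi.smul_apply, smul_eq_mul, ← hd] at h2
    rw [← h2]
    simp only [Matrix.vecMul, dotProduct]
    rw [map_mul, map_sum, Finset.mul_sum]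
    apply Finset.sum_congr rfl
    intro j _
    rw [← hM, ← RingHom.mapMatrix_apply, ← RingHom.map_adjugate, RingHom.mapMatrix_apply,
      Matrix.map_apply, map_mul, map_mul]
    ring
  -- the element `y` with `d • x = p • y`
  have hy : IsIntegral A (∑ i, (∑ j, w j * M.adjugate j i) • b i) :=
    IsIntegral.sum _ fun i _ => (hb i).smul _
  have hdx : d • x = p • ∑ i, (∑ j, w j * M.adjugate j i) • b i := by
    conv_lhs => rw [hxsum]
    rw [Finset.smul_sum, Finset.smul_sum]
    apply Finset.sum_congr rfl
    intro i _
    rw [← IsScalarTower.algebraMap_smul K d (B.equivFun x i • b i), smul_smul, hcramer i, map_mul,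
      mul_smul, IsScalarTower.algebraMap_smul, IsScalarTower.algebraMap_smul]
  obtain ⟨z, hz, hxz⟩ :=
    Fermat.Agent.Lib.NormalFree.exists_isIntegral_smul_eq K hp hpd hx hy hdx
  exact ⟨z, hz, by rw [hxz, Algebra.smul_def]⟩

/-- Integrality over a subalgebra `D ⊆ L` all of whose elements come from `A` implies integrality
over `A`. -/
theorem isIntegral_of_isIntegral_subalgebra {A₀ L A : Type*} [CommRing A₀] [Field L]
    [Algebra A₀ L] [CommRing A] [Algebra A L] (D : Subalgebra A₀ L)
    (hD : ∀ z : L, z ∈ D → z ∈ Set.range (algebraMap A L)) {z : L} (hz : IsIntegral D z) :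
    IsIntegral A z := by
  obtain ⟨P, hP, hPz⟩ := hz
  have hf : ∀ c : D, ∃ a : A, algebraMap A L a = (c : L) := fun c => hD c c.2
  choose f hf using hf
  refine ⟨Polynomial.X ^ P.natDegree +
    ∑ i ∈ Finset.range P.natDegree, Polynomial.C (f (P.coeff i)) * Polynomial.X ^ i, ?_, ?_⟩
  · apply Polynomial.monic_X_pow_add
    refine (Polynomial.degree_sum_le _ _).trans_lt ?_
    rw [Finset.sup_lt_iff (WithBot.bot_lt_coe _)]
    intro i hi
    exact (Polynomial.degree_C_mul_X_pow_le i _).trans_lt
      (by exact_mod_cast Finset.mem_range.1 hi)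
  · have h1 : Polynomial.eval₂ (algebraMap D L) z (Polynomial.X ^ P.natDegree +
        ∑ i ∈ Finset.range P.natDegree, Polynomial.C (P.coeff i) * Polynomial.X ^ i) = 0 := by
      rw [← hP.as_sum]; exact hPz
    rw [Polynomial.eval₂_add, Polynomial.eval₂_pow, Polynomial.eval₂_X,
      Polynomial.eval₂_finsetSum] at h1 ⊢
    rw [← h1]
    congr 1
    apply Finset.sum_congr rfl
    intro i _
    rw [Polynomial.eval₂_mul, Polynomial.eval₂_C, Polynomial.eval₂_pow, Polynomial.eval₂_X,
      Polynomial.eval₂_mul, Polynomial.eval₂_C, Polynomial.eval₂_pow, Polynomial.eval₂_X, hf]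
    rfl

/-- **From the frozen `UnramAt` to `TSDField`.**  The hypothesis `h` is, verbatim, the unfolding
of `Model.UnramAt K D q` of `Model/Main.lean` (so `h := (hUnram : UnramAt K D q)` typechecks; this
file does not import the skeleton).  `D ⊆ L` is the base ring, presented as the image of an
integrally closed domain `A` acting on `L`, with fraction field the intermediate field `K`; `q` is
the image of a prime element `p` of `A`. -/
theorem tsdField_of_unramAt {E L A₀ A : Type*} [Field E] [Field L] [Algebra E L] [CommRing A₀]
    [Algebra A₀ L] (K : IntermediateField E L) (D : Subalgebra A₀ L) (q : L)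
    [CommRing A] [IsDomain A] [IsIntegrallyClosed A] [Algebra A K] [IsFractionRing A K]
    [Algebra A L] [IsScalarTower A K L] [FiniteDimensional K L]
    (hD : ∀ z : L, z ∈ D ↔ z ∈ Set.range (algebraMap A L))
    {p : A} (hp : Prime p) (hq : algebraMap A L p = q)
    (h : ∃ b : Fin (Module.finrank K L) → L, (∀ i, IsIntegral D (b i)) ∧
      ∃ d : L, d ∈ D ∧ ((Algebra.traceMatrix K b).det : L) = d ∧ ∀ c : L, c ∈ D → d ≠ q * c) :
    LocalDisc.TSDField A K L p := by
  obtain ⟨b, hb, d, hdD, hdet, hnd⟩ := h
  obtain ⟨d₀, hd₀⟩ := (hD d).1 hdD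
  refine tsdField_of_family hp b
    (fun i => isIntegral_of_isIntegral_subalgebra D (fun z hz => (hD z).1 hz) (hb i)) d₀ ?_ ?_
  · apply (algebraMap K L).injective
    rw [← IsScalarTower.algebraMap_apply A K L, hd₀, ← hdet]
    rfl
  · rintro ⟨c, rfl⟩
    apply hnd (algebraMap A L c) ((hD _).2 ⟨c, rfl⟩)
    rw [← hd₀, map_mul, hq]

end Fermat.Agent.S30.Model.UnramTSD
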