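import Mathlib
import Fermat.Agent.Lib.NormalFree
import Fermat.Agent.S30.Model.Defs
import Fermat.Agent.S30.Model.LocalDisc
import Fermat.Agent.S30.Model.UnramTSD
import Fermat.Agent.S30.Model.ChartInst
import Fermat.Agent.S30.Model.ChartHyp
import Fermat.Agent.S30.Model.ChartPoly
import Fermat.Agent.S30.Model.GlueChart
import Fermat.Agent.S30.Model.ChartInf

/-!
# MODEL THEOREM — rows `chartUnram_of` and `chartUnram_inv`

From the frozen hypotheses (i) `GaussUnram π u` and (ii) `HorizUnram S u` (trace-self-duality at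
the Gauss prime over `O[u]`, and at the horizontal primes over `E[u]`) to the chart-level
hypothesis `ChartUnram` on the chart `u` and on the chart at infinity `u⁻¹`.

* `tsdAt_iff_tsdField`  : dictionary elementwise `TSDAt` ↔ `LocalDisc.TSDField` on a chart.
* `tsdAt_descent`       : `E[w] → O[w]` at a horizontal prime (clear denominators + normality).
* `tsdAt_swap`          : `O[u] → O[u⁻¹]` (reciprocal polynomial; `ChartHyp.tsdField_swap`).
* `chartUnram_of`, `chartUnram_inv` : the two rows of `Model/Main.lean`, verbatim.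
-/

set_option autoImplicit false

open Polynomial

namespace Fermat.Agent.S30.Model.ChartSwap

open Fermat.Agent.S30.Model Fermat.Agent.S30.Model.LocalDisc

section Elementwise

variable {E L : Type*} [Field E] [Field L] [Algebra E L]
variable {A₀ : Type*} [CommRing A₀] [Algebra A₀ L]

/-- `TSDAt` is insensitive to multiplying `q` by a unit of `D`. -/
theorem tsdAt_mul_unit (K : IntermediateField E L) (D : Subalgebra A₀ L) (q v v' : L)
    (hv : v ∈ D) (hv' : v' ∈ D) (hvv' : v * v' = 1) (h : TSDAt K D q) : TSDAt K D (q * v) := by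
  intro x hx hxy
  obtain ⟨z, hz, hxz⟩ := h x hx (fun y hy => by
    obtain ⟨w, hw, hT⟩ := hxy y hy
    exact ⟨v * w, D.mul_mem hv hw, by rw [hT, mul_assoc]⟩)
  refine ⟨v' * z, ?_, ?_⟩
  · have h1 : IsIntegral D (algebraMap D L ⟨v', hv'⟩) := isIntegral_algebraMap
    exact h1.mul hz
  · rw [hxz, mul_assoc, ← mul_assoc v, hvv', one_mul]

/-- Dictionary: the elementwise `TSDAt K D p` is `LocalDisc.TSDField D K L p`, for any algebra
structure of `D` over `K` compatible with the inclusions into `L`. -/
theorem tsdAt_iff_tsdField (K : IntermediateField E L) (D : Subalgebra A₀ L) [Algebra D K]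
    (hcoe : ∀ a : D, ((algebraMap D K a : K) : L) = (a : L)) (p : D) :
    TSDAt K D (p : L) ↔ TSDField D K L p := by
  constructor
  · intro h x hx hxy
    obtain ⟨z, hz, hxz⟩ := h x hx (fun y hy => by
      obtain ⟨w, hw⟩ := hxy y hy
      refine ⟨(w : L), w.2, ?_⟩
      rw [hw, hcoe]
      rfl)
    exact ⟨z, hz, hxz⟩
  · intro h x hx hxy
    obtain ⟨z, hz, hxz⟩ := h x hx (fun y hy => by
      obtain ⟨w, hw, hT⟩ := hxy y hy
      refine ⟨⟨w, hw⟩, ?_⟩
      apply Subtype.ext
      rw [hT, hcoe]
      rfl)
    exact ⟨z, hz, hxz⟩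

end Elementwise

section Chart

variable {O E L : Type*} [CommRing O] [IsDomain O] [Field E] [Algebra O E] [IsFractionRing O E]
  [Field L] [Algebra E L] [Algebra O L] [IsScalarTower O E L]

omit [IsDomain O] [IsFractionRing O E] in
theorem adjoin_le_adjoin (w : L) {z : L} (hz : z ∈ Algebra.adjoin O {w}) :
    z ∈ Algebra.adjoin E {w} := by
  have h1 : Algebra.adjoin O {w} ≤ (Algebra.adjoin E {w}).restrictScalars O :=
    Algebra.adjoin_le (Set.singleton_subset_iff.mpr (Algebra.self_mem_adjoin_singleton E w))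
  exact h1 hz

omit [IsDomain O] [IsFractionRing O E] in
theorem isIntegral_adjoin_of_isIntegral_adjoin (w : L) {x : L}
    (hx : IsIntegral (Algebra.adjoin O {w}) x) : IsIntegral (Algebra.adjoin E {w}) x :=
  UnramTSD.isIntegral_of_isIntegral_subalgebra (Algebra.adjoin O {w})
    (fun z hz => ⟨⟨z, adjoin_le_adjoin w hz⟩, rfl⟩) hx

/-- **Clearing denominators**: an element integral over `E[w]` becomes integral over `O[w]` after
multiplication by a nonzero constant of `O`. -/
theorem exists_smul_isIntegral_adjoin (w y : L) (hy : IsIntegral (Algebra.adjoin E {w}) y) :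
    ∃ m : O, m ≠ 0 ∧ m ∈ nonZeroDivisors O ∧
      IsIntegral (Algebra.adjoin O {w}) (algebraMap O L m * y) := by
  let _ : Algebra O[X] E[X] := Polynomial.algebra O E
  let _ : Algebra E[X] L := (aeval w : E[X] →ₐ[E] L).toRingHom.toAlgebra
  let _ : Algebra O[X] L := (aeval w : O[X] →ₐ[O] L).toRingHom.toAlgebra
  have : IsScalarTower O[X] E[X] L :=
    IsScalarTower.of_algebraMap_eq (fun P => by
      change aeval w P = aeval w (P.map (algebraMap O E))
      exact (aeval_map_algebraMap E w P).symm)
  have : IsLocalization ((nonZeroDivisors O).map (C : O →+* O[X])) E[X] :=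
    Polynomial.isLocalization (nonZeroDivisors O) E
  have hy' : IsIntegral E[X] y :=
    UnramTSD.isIntegral_of_isIntegral_subalgebra (Algebra.adjoin E {w}) (fun z hz => by
      rw [Algebra.adjoin_singleton_eq_range_aeval] at hz
      exact hz) hy
  obtain ⟨⟨m, hm⟩, hmy⟩ := IsIntegral.exists_multiple_integral_of_isLocalization
    ((nonZeroDivisors O).map (C : O →+* O[X])) y hy'
  obtain ⟨m₀, hm₀, rfl⟩ := Submonoid.mem_map.mp hm
  refine ⟨m₀, nonZeroDivisors.ne_zero hm₀, hm₀, ?_⟩
  have e1 : (⟨C m₀, hm⟩ : (nonZeroDivisors O).map (C : O →+* O[X])) • y =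
      algebraMap O L m₀ * y := by
    rw [Submonoid.smul_def, Algebra.smul_def]
    change aeval w (C m₀) * y = _
    rw [aeval_C]
  rw [e1] at hmy
  let φ : O[X] →ₐ[O] Algebra.adjoin O {w} :=
    (aeval w : O[X] →ₐ[O] L).codRestrict (Algebra.adjoin O {w}) (fun P => by
      rw [Algebra.adjoin_singleton_eq_range_aeval]; exact ⟨P, rfl⟩)
  have hφ : (algebraMap (Algebra.adjoin O {w}) L).comp φ.toRingHom =
      (RingHom.id L).comp (algebraMap O[X] L) := RingHom.ext fun P => rfl
  exact IsIntegral.map_of_comp_eq φ.toRingHom (RingHom.id L) hφ hmy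

variable [UniqueFactorizationMonoid O]

/-- **Descent `E[w] → O[w]`** of trace-self-duality at a horizontal prime `f(w)`, `f` a prime
element of `O[X]` of positive degree. -/
theorem tsdAt_descent (w : L) (hw : Transcendental O w) (K : IntermediateField E L)
    (hwK : w ∈ K) (hK : K ≤ IntermediateField.adjoin E {w}) (f : O[X]) (hf : Prime f)
    (hdeg : f.natDegree ≠ 0) (h : TSDAt K (Algebra.adjoin E {w}) (aeval w f)) :
    TSDAt K (Algebra.adjoin O {w}) (aeval w f) := by
  let _ := (ChartInst.incl O w K hwK).toAlgebra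
  have := ChartInst.isScalarTower_incl O w K hwK
  have := ChartInst.isFractionRing_incl O w K hwK hK
  have := ChartInst.isIntegrallyClosed_adjoin O w hw
  intro x hx hxy
  have hxE : IsIntegral (Algebra.adjoin E {w}) x := isIntegral_adjoin_of_isIntegral_adjoin w hx
  obtain ⟨z', hz', hxz'⟩ := h x hxE (fun y hy => by
    obtain ⟨m, hm0, -, hmy⟩ := exists_smul_isIntegral_adjoin (O := O) w y hy
    obtain ⟨c, hc, hT⟩ := hxy _ hmy
    have hmE : algebraMap O E m ≠ 0 := fun h0 =>
      hm0 (IsFractionRing.injective O E (by rw [h0, map_zero]))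
    refine ⟨algebraMap E L (algebraMap O E m)⁻¹ * c,
      (Algebra.adjoin E {w}).mul_mem (Subalgebra.algebraMap_mem _ _) (adjoin_le_adjoin w hc), ?_⟩
    have e1 : x * (algebraMap O L m * y) = (algebraMap E K (algebraMap O E m)) • (x * y) := by
      rw [Algebra.smul_def, IsScalarTower.algebraMap_apply O E L]
      change _ = algebraMap E L (algebraMap O E m) * (x * y)
      ring
    rw [e1, map_smul, smul_eq_mul] at hT
    have e2 : ((algebraMap E K (algebraMap O E m) * Algebra.trace K L (x * y) : K) : L) =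
        algebraMap E L (algebraMap O E m) * ((Algebra.trace K L (x * y) : K) : L) := rfl
    rw [e2] at hT
    have e3 : algebraMap E L (algebraMap O E m)⁻¹ * algebraMap E L (algebraMap O E m) = 1 := by
      rw [← map_mul, inv_mul_cancel₀ hmE, map_one]
    calc ((Algebra.trace K L (x * y) : K) : L)
        = algebraMap E L (algebraMap O E m)⁻¹ * (algebraMap E L (algebraMap O E m) *
            ((Algebra.trace K L (x * y) : K) : L)) := by rw [← mul_assoc, e3, one_mul]
      _ = aeval w f * (algebraMap E L (algebraMap O E m)⁻¹ * c) := by rw [hT]; ring)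
  obtain ⟨m, hm0, -, hmz⟩ := exists_smul_isIntegral_adjoin (O := O) w z' hz'
  set P : Algebra.adjoin O {w} := ChartInst.polyEquiv O w hw f with hPdef
  have hP : Prime P := (MulEquiv.prime_iff (ChartInst.polyEquiv O w hw)).mpr hf
  have hnd : ¬ P ∣ algebraMap O (Algebra.adjoin O {w}) m := by
    rw [← ChartInst.polyEquiv_C O w hw, hPdef, map_dvd_iff]
    intro hdvd
    have hC : (C m : O[X]) ≠ 0 := by rwa [Ne, C_eq_zero]
    have := natDegree_le_of_dvd hdvd hC
    rw [natDegree_C] at this
    omega
  have h3 : (algebraMap O (Algebra.adjoin O {w}) m) • x = P • (algebraMap O L m * z') := by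
    rw [Algebra.smul_def, Algebra.smul_def, hxz']
    change algebraMap O L m * (aeval w f * z') = aeval w f * (algebraMap O L m * z')
    ring
  obtain ⟨y, hy, hxy'⟩ :=
    Fermat.Agent.Lib.NormalFree.exists_isIntegral_smul_eq K hP hnd hx hmz h3
  exact ⟨y, hy, by rw [hxy', Algebra.smul_def]; rfl⟩

end Chart

section Swap

variable {O E L : Type*} [CommRing O] [IsDomain O] [UniqueFactorizationMonoid O] [Field E]
  [Algebra O E] [IsFractionRing O E] [Field L] [Algebra E L] [Algebra O L] [IsScalarTower O E L]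

/-- **Chart swap `O[u] → O[u⁻¹]`** of trace-self-duality: `g, f` prime elements of `O[X]`, not
dividing `X`, with `g(u) = u ^ j * f(u⁻¹)`. -/
theorem tsdAt_swap (u : L) (hu : Transcendental O u) (hu' : Transcendental O u⁻¹)
    (K : IntermediateField E L) (huK : u ∈ K) (hK : K ≤ IntermediateField.adjoin E {u})
    [FiniteDimensional K L] (g f : O[X]) (hg : Prime g) (hf : Prime f) (j : ℕ)
    (hgf : aeval u g = u ^ j * aeval u⁻¹ f) (hgX : ¬ g ∣ X) (hfX : ¬ f ∣ X)
    (h : TSDAt K (Algebra.adjoin O {u}) (aeval u g)) :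
    TSDAt K (Algebra.adjoin O {u⁻¹}) (aeval u⁻¹ f) := by
  have hu0 : u ≠ 0 := fun h0 => hu (h0 ▸ isAlgebraic_zero)
  have hu'K : u⁻¹ ∈ K := inv_mem huK
  have hK' : K ≤ IntermediateField.adjoin E {u⁻¹} := by
    refine hK.trans ?_
    rw [IntermediateField.adjoin_simple_le_iff]
    have := inv_mem (IntermediateField.mem_adjoin_simple_self E u⁻¹)
    simpa using this
  let _ := (ChartInst.incl O u K huK).toAlgebra
  have := ChartInst.isScalarTower_incl O u K huK
  have := ChartInst.isFractionRing_incl O u K huK hK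
  have := ChartInst.isIntegrallyClosed_adjoin O u hu
  let _ := (ChartInst.incl O u⁻¹ K hu'K).toAlgebra
  have := ChartInst.isScalarTower_incl O u⁻¹ K hu'K
  have := ChartInst.isFractionRing_incl O u⁻¹ K hu'K hK'
  have := ChartInst.isIntegrallyClosed_adjoin O u⁻¹ hu'
  set eA := ChartInst.polyEquiv O u hu with heA
  set eA' := ChartInst.polyEquiv O u⁻¹ hu' with heA'
  have hcoe : ∀ a : Algebra.adjoin O {u},
      ((algebraMap (Algebra.adjoin O {u}) K a : K) : L) = (a : L) := fun a => rfl
  have hcoe' : ∀ a : Algebra.adjoin O {u⁻¹},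
      ((algebraMap (Algebra.adjoin O {u⁻¹}) K a : K) : L) = (a : L) := fun a => rfl
  have h1 : TSDField (Algebra.adjoin O {u}) K L (eA g) :=
    (tsdAt_iff_tsdField K _ hcoe (eA g)).mp h
  have h2 : TSDField (Algebra.adjoin O {u⁻¹}) K L (eA' f) := by
    refine ChartHyp.tsdField_swap (eA X) (eA' X) ?_ ?_ ?_ ((MulEquiv.prime_iff eA).mpr hg)
      ((MulEquiv.prime_iff eA').mpr hf) j ?_ ?_ ?_ h1
    · apply Subtype.ext
      change aeval u (X : O[X]) * aeval u⁻¹ (X : O[X]) = 1
      rw [aeval_X, aeval_X, mul_inv_cancel₀ hu0]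
    · intro a
      obtain ⟨P, rfl⟩ := eA.surjective a
      refine ⟨P.natDegree, eA' P.reverse, ?_⟩
      apply Subtype.ext
      change aeval u P = aeval u (X : O[X]) ^ P.natDegree * aeval u⁻¹ P.reverse
      rw [aeval_X]
      exact ChartPoly.aeval_eq_pow_mul_aeval_reverse u hu0 P
    · intro a'
      obtain ⟨P, rfl⟩ := eA'.surjective a'
      refine ⟨P.natDegree, eA P.reverse, ?_⟩
      apply Subtype.ext
      change aeval u⁻¹ P = aeval u⁻¹ (X : O[X]) ^ P.natDegree * aeval u P.reverse
      rw [aeval_X]
      have := ChartPoly.aeval_eq_pow_mul_aeval_reverse u⁻¹ (inv_ne_zero hu0) P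
      rwa [inv_inv] at this
    · apply Subtype.ext
      change aeval u g = aeval u (X : O[X]) ^ j * aeval u⁻¹ f
      rw [aeval_X]
      exact hgf
    · rw [map_dvd_iff]
      exact hgX
    · rw [map_dvd_iff]
      exact hfX
  exact (tsdAt_iff_tsdField K _ hcoe' (eA' f)).mpr h2

end Swap

section Core

variable {O E L : Type*} [CommRing O] [IsDomain O] [IsDiscreteValuationRing O]
  [Field E] [Algebra O E] [IsFractionRing O E]
  [Field L] [Algebra E L] [Algebra O L] [IsScalarTower O E L]

/-- **The chart `u`**, unfolded form: trace-self-duality at the Gauss prime over `O[u]` and at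
the horizontal primes over `E[u]` (outside `S`) give trace-self-duality over `O[u]` at every
prime element `f` of `O[X]` which is not one of the `X - c`, `c ∈ S`. -/
theorem tsdAt_chart (π : O) (hπ : Irreducible π) (u : L) (hu : Transcendental E u)
    (S : Finset O)
    (hi : TSDAt (IntermediateField.adjoin E {u}) (Algebra.adjoin O {u}) (algebraMap O L π))
    (hii : ∀ f : E[X], Irreducible f → (∀ c ∈ S, ¬ Associated f (X - C (algebraMap O E c))) →
      TSDAt (IntermediateField.adjoin E {u}) (Algebra.adjoin E {u}) (aeval u f))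
    (f : O[X]) (hf : Prime f) (hS : ∀ c ∈ S, ¬ Associated f (X - C c)) :
    TSDAt (IntermediateField.adjoin E {u}) (Algebra.adjoin O {u}) (aeval u f) := by
  have huO : Transcendental O u := hu.restrictScalars (IsFractionRing.injective O E)
  rcases ChartInst.prime_cases (E := E) hπ hf with hass | ⟨hdeg, hprim, hirr⟩
  · obtain ⟨w, hw⟩ := hass.symm
    obtain ⟨v, hv, hvw⟩ := Polynomial.isUnit_iff.mp w.isUnit
    obtain ⟨v', hvv'⟩ := hv.exists_right_inv
    have hfe : aeval u f = algebraMap O L π * algebraMap O L v := by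
      rw [← hw, ← hvw, map_mul, aeval_C, aeval_C]
    rw [hfe]
    exact tsdAt_mul_unit _ _ _ _ (algebraMap O L v') (Subalgebra.algebraMap_mem _ v)
      (Subalgebra.algebraMap_mem _ v') (by rw [← map_mul, hvv', map_one]) hi
  · have h1 := hii (f.map (algebraMap O E)) hirr
      (fun c hc => ChartPoly.not_associated_map_X_sub_C E hprim c (hS c hc))
    rw [aeval_map_algebraMap] at h1
    exact tsdAt_descent u huO _ (IntermediateField.mem_adjoin_simple_self E u) le_rfl f hf hdeg h1

/-- **The chart at infinity**, unfolded form: under the same hypotheses on the chart `u`,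
trace-self-duality over `O[u⁻¹]` holds at every prime element `f` of `O[X]` passing through the
closed point `(π, u⁻¹)` (i.e. with non-unit constant coefficient) other than `X` itself. -/
theorem tsdAt_chart_inv (π : O) (hπ : Irreducible π) (u : L) (hu : Transcendental E u)
    [FiniteDimensional (IntermediateField.adjoin E {u}) L] (S : Finset O)
    (hi : TSDAt (IntermediateField.adjoin E {u}) (Algebra.adjoin O {u}) (algebraMap O L π))
    (hii : ∀ f : E[X], Irreducible f → (∀ c ∈ S, ¬ Associated f (X - C (algebraMap O E c))) →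
      TSDAt (IntermediateField.adjoin E {u}) (Algebra.adjoin E {u}) (aeval u f))
    (f : O[X]) (hf : Prime f) (hf0 : ¬ IsUnit (f.coeff 0)) (hfX : ¬ Associated f X) :
    TSDAt (IntermediateField.adjoin E {u⁻¹}) (Algebra.adjoin O {u⁻¹}) (aeval u⁻¹ f) := by
  have hu0 : u ≠ 0 := fun h => hu (h ▸ isAlgebraic_zero)
  have hu' : Transcendental E u⁻¹ := fun h => hu (by simpa using h.inv)
  have huO : Transcendental O u := hu.restrictScalars (IsFractionRing.injective O E)
  have hu'O : Transcendental O u⁻¹ := hu'.restrictScalars (IsFractionRing.injective O E)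
  have hKK : IntermediateField.adjoin E {u⁻¹} = IntermediateField.adjoin E {u} := by
    apply le_antisymm
    · rw [IntermediateField.adjoin_simple_le_iff]
      exact inv_mem (IntermediateField.mem_adjoin_simple_self E u)
    · rw [IntermediateField.adjoin_simple_le_iff]
      have := inv_mem (IntermediateField.mem_adjoin_simple_self E u⁻¹)
      simpa using this
  rw [hKK]
  have huK := IntermediateField.mem_adjoin_simple_self E u
  have hπp : Prime π := hπ.prime
  have hCπ : Prime (C π : O[X]) := prime_C_iff.mpr hπp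
  have hnX : ∀ g : O[X], Prime g → g ∣ X → Associated g X := fun g hg hd =>
    hg.irreducible.associated_of_dvd irreducible_X hd
  have hloc : ∀ c : O, ¬ IsUnit c → π ∣ c := by
    intro c hc
    have hmem : c ∈ IsLocalRing.maximalIdeal O := (IsLocalRing.mem_maximalIdeal c).mpr hc
    rw [hπ.maximalIdeal_eq] at hmem
    exact Ideal.mem_span_singleton.mp hmem
  rcases ChartInst.prime_cases (E := E) hπ hf with hass | ⟨hdeg, hprim, hirr⟩
  · obtain ⟨w, hw⟩ := hass.symm
    obtain ⟨v, hv, hvw⟩ := Polynomial.isUnit_iff.mp w.isUnit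
    obtain ⟨v', hvv'⟩ := hv.exists_right_inv
    have hfe : aeval u⁻¹ f = algebraMap O L π * algebraMap O L v := by
      rw [← hw, ← hvw, map_mul, aeval_C, aeval_C]
    rw [hfe]
    refine tsdAt_mul_unit _ _ _ _ (algebraMap O L v') (Subalgebra.algebraMap_mem _ v)
      (Subalgebra.algebraMap_mem _ v') (by rw [← map_mul, hvv', map_one]) ?_
    have hCX : ¬ (C π : O[X]) ∣ X := by
      intro hd
      have := degree_eq_degree_of_associated (hnX _ hCπ hd)
      rw [degree_C hπ.ne_zero, degree_X] at this
      exact absurd this (by norm_num)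
    have := tsdAt_swap u huO hu'O _ huK le_rfl (C π) (C π) hCπ hCπ 0
      (by rw [aeval_C, aeval_C, pow_zero, one_mul]) hCX hCX (by rw [aeval_C]; exact hi)
    rwa [aeval_C] at this
  · have hc0 : f.coeff 0 ≠ 0 := fun h00 =>
      hfX (ChartPoly.associated_X_of_coeff_zero_eq_zero hf.irreducible h00)
    -- `f` is not a unit modulo `π`
    have hnu : ∀ a b : O[X], f * a ≠ 1 + C π * b := by
      intro a b hab
      obtain ⟨d, hd⟩ := hloc _ hf0
      have h1 := congrArg (fun p : O[X] => p.coeff 0) hab
      simp only [mul_coeff_zero, coeff_add, coeff_one_zero, coeff_C_zero] at h1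
      rw [hd] at h1
      have h2 : π * (d * a.coeff 0 - b.coeff 0) = 1 := by linear_combination h1
      exact hπ.not_isUnit (IsUnit.of_mul_eq_one _ h2)
    -- `f` is not one of the `X - c'`, `c'` a unit
    have hnc : ∀ c c' : O, c * c' = 1 → ¬ Associated f (X - C c') := by
      intro c c' hcc' hass
      obtain ⟨w, hw⟩ := hass.symm
      obtain ⟨v, hv, hvw⟩ := Polynomial.isUnit_iff.mp w.isUnit
      apply hf0
      have h1 : f.coeff 0 = -c' * v := by
        rw [← hw, ← hvw, mul_coeff_zero, coeff_sub, coeff_X_zero, coeff_C_zero, coeff_C_zero,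
          zero_sub]
      rw [h1]
      exact ((IsUnit.of_mul_eq_one c (by rw [mul_comm]; exact hcc')).neg).mul hv
    have hrev : Prime f.reverse := ChartPoly.prime_reverse hf hc0
    have hdeg' : f.reverse.natDegree ≠ 0 := by
      rw [ChartPoly.natDegree_reverse hc0]; exact hdeg
    have hprim' := ChartInst.isPrimitive_of_irreducible hrev.irreducible hdeg'
    have hirr' : Irreducible (f.reverse.map (algebraMap O E)) :=
      (hprim'.irreducible_iff_irreducible_map_fraction_map).mp hrev.irreducible
    have h1 := hii (f.reverse.map (algebraMap O E)) hirr'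
      (fun c _ => ChartPoly.not_associated_reverse_map E hloc hf (Nat.pos_of_ne_zero hdeg) hnu
        hc0 c (fun c' hcc' => hnc c c' hcc'))
    rw [aeval_map_algebraMap] at h1
    have h2 := tsdAt_descent u huO _ huK le_rfl f.reverse hrev hdeg' h1
    have hrX : ¬ f.reverse ∣ X := by
      intro hd
      have h3 := (hnX _ hrev hd).symm.dvd
      rw [X_dvd_iff, coeff_zero_reverse] at h3
      exact hf.ne_zero (leadingCoeff_eq_zero.mp h3)
    have hfX' : ¬ f ∣ X := fun hd => hfX (hnX _ hf hd)
    exact tsdAt_swap u huO hu'O _ huK le_rfl f.reverse f hrev hf f.reverse.natDegree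
      (by
        have := ChartPoly.aeval_eq_pow_mul_aeval_reverse u hu0 f.reverse
        rwa [ChartPoly.reverse_reverse hc0] at this) hrX hfX' h2

omit [IsDomain O] [IsDiscreteValuationRing O] [IsFractionRing O E] in
/-- A polynomial whose value at `t` lies in a proper ideal `M ∋ t` of the integral closure of
`O[t]` has a non-unit constant coefficient. -/
theorem not_isUnit_coeff_zero_of_mem (t : L)
    (M : Ideal (integralClosure (Algebra.adjoin O {t}) L)) (hM : M ≠ ⊤)
    (htM : ∃ m ∈ M, (m : L) = t) (f : O[X]) (hfM : ∃ m ∈ M, (m : L) = aeval t f) :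
    ¬ IsUnit (f.coeff 0) := by
  intro hunit
  obtain ⟨v', hvv'⟩ := hunit.exists_right_inv
  obtain ⟨m, hm, hmf⟩ := hfM
  obtain ⟨τ, hτ, hτt⟩ := htM
  apply hM
  rw [Ideal.eq_top_iff_one]
  let g : integralClosure (Algebra.adjoin O {t}) L :=
    algebraMap (Algebra.adjoin O {t}) _ ⟨aeval t f.divX, aeval_mem_adjoin_singleton O t⟩
  let cv : integralClosure (Algebra.adjoin O {t}) L :=
    algebraMap (Algebra.adjoin O {t}) _ (algebraMap O (Algebra.adjoin O {t}) v')
  have h1 : (m - g * τ) * cv = 1 := by
    apply Subtype.ext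
    change ((m : L) - aeval t f.divX * (τ : L)) * algebraMap O L v' = 1
    rw [hmf, hτt]
    have h2 : aeval t f = aeval t f.divX * t + algebraMap O L (f.coeff 0) := by
      conv_lhs => rw [← divX_mul_X_add f]
      rw [map_add, map_mul, aeval_X, aeval_C]
    rw [h2, add_sub_cancel_left, ← map_mul, hvv', map_one]
  rw [← h1]
  exact M.mul_mem_right _ (M.sub_mem hm (M.mul_mem_left g hτ))

end Core

section Rows

variable {O E L : Type*} [CommRing O] [IsDomain O] [IsDiscreteValuationRing O]
  [Field E] [Algebra O E] [IsFractionRing O E]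
  [Field L] [Algebra E L] [Algebra O L] [IsScalarTower O E L]

/-- ROW `chartUnram_of` of `Model/Assembly.lean`: (i) + (ii) ⇒ `ChartUnram` on the `u`-chart. -/
theorem chartUnram_of (π : O) (hπ : Irreducible π) (u : L) (hu : Transcendental E u)
    [FiniteDimensional (IntermediateField.adjoin E {u}) L]
    (S : Finset O) (hi : GaussTSD (E := E) π u) (hii : HorizTSD (E := E) S u) :
    ChartUnram (E := E) S u :=
  fun f hf hS => tsdAt_chart π hπ u hu S hi hii f hf hS

/-- ROW `chartUnram_inf` of `Model/Assembly.lean` (verbatim): the chart at infinity.  At a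
maximal ideal `M` of the integral closure of `O[u⁻¹]` containing `π` and `u⁻¹`, every prime
element `f` of `O[X]` with `f(u⁻¹) ∈ M`, `f ≁ X`, is a point of trace-self-duality over
`O[u⁻¹]`. -/
theorem chartUnram_inf (π : O) (hπ : Irreducible π) (u : L) (hu : Transcendental E u)
    [FiniteDimensional (IntermediateField.adjoin E {u}) L]
    (S : Finset O) (hi : GaussTSD (E := E) π u) (hii : HorizTSD (E := E) S u)
    (M : Ideal (integralClosure (Algebra.adjoin O {u⁻¹}) L)) (hM : M.IsMaximal)
    (_hπM : GlueChart.piElt (Algebra.adjoin O {u⁻¹}) π ∈ M) (htM : ChartInf.tInf u ∈ M)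
    (f : O[X]) (hf : Prime f) (hfM : ∃ m ∈ M, (m : L) = aeval u⁻¹ f)
    (hfX : ¬ Associated f X) :
    TSDAt (IntermediateField.adjoin E {u⁻¹}) (Algebra.adjoin O {u⁻¹}) (aeval u⁻¹ f) :=
  tsdAt_chart_inv π hπ u hu S hi hii f hf
    (not_isUnit_coeff_zero_of_mem u⁻¹ M hM.ne_top ⟨_, htM, rfl⟩ f hfM) hfX

end Rows

end Fermat.Agent.S30.Model.ChartSwap
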