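import Mathlib

/-!
# Constant-field case of the MODEL THEOREM (b)  (S30 route, helper210 sec. 4; helper3 #1752 (3))

`E ⊆ L` fields with `E` algebraically closed in `L`, `ζ ∈ E` a primitive `p`-th root of unity,
`g ∈ Lˣ`, `L' = L(g^{1/p})`.  If `E` is **not** algebraically closed in `L'`, then
`g ∈ Eˣ · L^p`.

Proof: `σ` a generator of `Gal(L'/L)`, `σ θ = ζ θ` for `θ ^ p = g`.  For `γ ∈ L' ∖ L` algebraic
over `E` some isotypic component `y = ∑ₖ ζ^{ik} σ^k γ` (`0 < i < p`) is nonzero; it is algebraic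
over `E`, `y θ^i ∈ L`, and `y ^ p ∈ L` is algebraic over `E`, hence lies in `E`.
-/

set_option autoImplicit false

open Polynomial

namespace Fermat.Agent.S30.Model.ConstField

variable {E L L' : Type*} [Field E] [Field L] [Field L'] [Algebra E L] [Algebra L L']
  [Algebra E L'] [IsScalarTower E L L']

/-- `p` times the isotypic component of `γ` on which `σ` acts through `ζ'^(-i)`. -/
noncomputable def iso (p : ℕ) (ζ' : L') (σ : L' ≃ₐ[L] L') (γ : L') (i : ℕ) : L' :=
  ∑ k ∈ Finset.range p, ζ' ^ (i * k) * (σ ^ k) γ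

theorem map_iso_mul (p : ℕ) (ζ' : L') (σ : L' ≃ₐ[L] L') (γ : L') (i : ℕ)
    (hσζ : σ ζ' = ζ') (hζp : ζ' ^ p = 1) (hσp : (σ ^ p) γ = γ) :
    σ (iso p ζ' σ γ i) * ζ' ^ i = iso p ζ' σ γ i := by
  unfold iso
  set f : ℕ → L' := fun k => ζ' ^ (i * k) * (σ ^ k) γ with hf
  have h1 : σ (∑ k ∈ Finset.range p, f k) * ζ' ^ i = ∑ k ∈ Finset.range p, f (k + 1) := by
    rw [map_sum, Finset.sum_mul]
    refine Finset.sum_congr rfl fun k _ => ?_
    simp only [hf, map_mul, map_pow, hσζ]
    have : σ ((σ ^ k) γ) = (σ ^ (k + 1)) γ := by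
      rw [pow_succ', AlgEquiv.mul_apply]
    rw [this]
    ring
  have h2 : f p = f 0 := by
    simp only [hf, mul_zero, pow_zero, one_mul, hσp]
    rw [mul_comm i p, pow_mul, hζp, one_pow, one_mul]
    rfl
  rw [h1]
  have e1 := Finset.sum_range_succ' f p
  have e2 := Finset.sum_range_succ f p
  rw [e2, h2] at e1
  exact (add_right_cancel e1).symm

theorem sum_iso (p : ℕ) [Fact p.Prime] (ζ' : L') (hζ' : IsPrimitiveRoot ζ' p)
    (σ : L' ≃ₐ[L] L') (γ : L') :
    ∑ i ∈ Finset.range p, iso p ζ' σ γ i = (p : L') * γ := by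
  have hpp : p.Prime := Fact.out
  unfold iso
  rw [Finset.sum_comm]
  have key : ∀ k ∈ Finset.range p,
      ∑ i ∈ Finset.range p, ζ' ^ (i * k) * (σ ^ k) γ = if k = 0 then (p : L') * γ else 0 := by
    intro k hk
    rw [← Finset.sum_mul]
    split_ifs with h0
    · subst h0
      simp
    · have hk' : k < p := Finset.mem_range.mp hk
      have hcop : k.Coprime p :=
        (Nat.coprime_comm.mp ((Nat.Prime.coprime_iff_not_dvd hpp).mpr
          (Nat.not_dvd_of_pos_of_lt (Nat.pos_of_ne_zero h0) hk')))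
      have hprim : IsPrimitiveRoot (ζ' ^ k) p := hζ'.pow_of_coprime k hcop
      have hsum : ∑ i ∈ Finset.range p, ζ' ^ (i * k) = 0 := by
        have := hprim.geom_sum_eq_zero hpp.one_lt
        rw [← this]
        refine Finset.sum_congr rfl fun i _ => ?_
        rw [mul_comm i k, pow_mul]
      rw [hsum, zero_mul]
  rw [Finset.sum_congr rfl key, Finset.sum_ite_eq' (Finset.range p) 0]
  simp [hpp.pos]

/-- **Constant-field lemma, automorphism form.** -/
theorem exists_eq_const_mul_pow_of_aut (p : ℕ) [Fact p.Prime] (ζ : E) (hζ : IsPrimitiveRoot ζ p)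
    (hEL : ∀ x : L, IsAlgebraic E x → x ∈ Set.range (algebraMap E L))
    (g : L) (hg : g ≠ 0) (θ : L') (hθ : θ ^ p = algebraMap L L' g)
    (σ : L' ≃ₐ[L] L') (hσθ : σ θ = algebraMap E L' ζ * θ)
    (hσp : ∀ x : L', (σ ^ p) x = x)
    (hfix : ∀ x : L', σ x = x → x ∈ Set.range (algebraMap L L'))
    (γ : L') (hγ : IsAlgebraic E γ) (hγL : γ ∉ Set.range (algebraMap L L')) :
    ∃ (c : E) (h : L), g = algebraMap E L c * h ^ p := by
  classical
  have hpp : p.Prime := Fact.out
  set ζ' : L' := algebraMap E L' ζ with hζ'def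
  have hζ' : IsPrimitiveRoot ζ' p := hζ.map_of_injective (algebraMap E L').injective
  have hσζ : σ ζ' = ζ' := by
    rw [hζ'def, IsScalarTower.algebraMap_apply E L L', σ.commutes]
  have hζp : ζ' ^ p = 1 := hζ'.pow_eq_one
  have hp0 : (p : L) ≠ 0 := by
    have hζL : IsPrimitiveRoot (algebraMap E L ζ) p :=
      hζ.map_of_injective (algebraMap E L).injective
    have : NeZero p := ⟨hpp.ne_zero⟩
    exact (hζL.neZero').ne
  have hinjLL' : Function.Injective (algebraMap L L') := (algebraMap L L').injective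
  have hθ0 : θ ≠ 0 := by
    rintro rfl
    rw [zero_pow hpp.ne_zero] at hθ
    exact hg (hinjLL' (by rw [← hθ, map_zero]))
  -- all components are algebraic over `E`
  have hγint : IsIntegral E γ := hγ.isIntegral
  have hisoint : ∀ i, IsIntegral E (iso p ζ' σ γ i) := by
    intro i
    unfold iso
    refine IsIntegral.sum _ fun k _ => ?_
    refine IsIntegral.mul ?_ ?_
    · exact IsIntegral.pow isIntegral_algebraMap _
    · exact IsIntegral.map ((σ ^ k).restrictScalars E) hγint
  -- some nontrivial component is nonzero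
  have hex : ∃ i, 0 < i ∧ i < p ∧ iso p ζ' σ γ i ≠ 0 := by
    by_contra hcon
    push Not at hcon
    have hsum := sum_iso p ζ' hζ' σ γ
    have h0 : ∑ i ∈ Finset.range p, iso p ζ' σ γ i = iso p ζ' σ γ 0 := by
      refine Finset.sum_eq_single 0 (fun i hi hi0 => ?_) (fun h => ?_)
      · exact hcon i (Nat.pos_of_ne_zero hi0) (Finset.mem_range.mp hi)
      · exact absurd (Finset.mem_range.mpr hpp.pos) h
    rw [h0] at hsum
    have hfix0 : σ (iso p ζ' σ γ 0) = iso p ζ' σ γ 0 := by
      have := map_iso_mul p ζ' σ γ 0 hσζ hζp (hσp γ)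
      simpa using this
    obtain ⟨y0, hy0⟩ := hfix _ hfix0
    apply hγL
    refine ⟨y0 / p, ?_⟩
    have hp0' : (p : L') ≠ 0 := by
      have := hinjLL'.ne hp0
      simpa using this
    rw [map_div₀, hy0, hsum, map_natCast, mul_div_cancel_left₀ _ hp0']
  obtain ⟨i, hi0, hip, hy⟩ := hex
  set y := iso p ζ' σ γ i with hydef
  have hσy : σ y * ζ' ^ i = y := map_iso_mul p ζ' σ γ i hσζ hζp (hσp γ)
  -- `y * θ ^ i` is fixed by `σ`
  have hfixa : σ (y * θ ^ i) = y * θ ^ i := by
    rw [map_mul, map_pow, hσθ, mul_pow, ← mul_assoc, hσy]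
  obtain ⟨a, ha⟩ := hfix _ hfixa
  have ha0 : a ≠ 0 := by
    rintro rfl
    rw [map_zero] at ha
    exact mul_ne_zero hy (pow_ne_zero _ hθ0) ha.symm
  -- `y ^ p` lies in `L` and is algebraic over `E`
  have hyp : y ^ p = algebraMap L L' (a ^ p / g ^ i) := by
    have h1 : (y * θ ^ i) ^ p = y ^ p * algebraMap L L' (g ^ i) := by
      rw [mul_pow, ← pow_mul, mul_comm i p, pow_mul, hθ, map_pow]
    rw [← ha, ← map_pow] at h1
    have hgi : algebraMap L L' (g ^ i) ≠ 0 := by
      have := hinjLL'.ne (pow_ne_zero i hg)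
      simpa using this
    rw [map_div₀, h1, mul_div_cancel_right₀ _ hgi]
  have halg : IsAlgebraic E (a ^ p / g ^ i) := by
    rw [← isAlgebraic_algebraMap_iff (A := L') hinjLL', ← hyp]
    exact ((hisoint i).pow p).isAlgebraic
  obtain ⟨c, hc⟩ := hEL _ halg
  have hc0 : algebraMap E L c ≠ 0 := by
    rw [hc]
    exact div_ne_zero (pow_ne_zero _ ha0) (pow_ne_zero _ hg)
  -- Bezout
  have hcop : i.Coprime p :=
    Nat.coprime_comm.mp ((Nat.Prime.coprime_iff_not_dvd hpp).mpr
      (Nat.not_dvd_of_pos_of_lt hi0 hip))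
  obtain ⟨j, -, hj⟩ := Nat.exists_mul_mod_eq_one_of_coprime hcop hpp.one_lt
  set m := i * j / p with hm
  have hij : i * j = p * m + 1 := by
    have := Nat.div_add_mod (i * j) p
    rw [hj] at this
    exact this.symm
  have hap : a ^ p = algebraMap E L c * g ^ i := by
    rw [hc, div_mul_cancel₀ _ (pow_ne_zero _ hg)]
  have hkey : (a ^ j) ^ p = algebraMap E L c ^ j * ((g ^ m) ^ p * g) := by
    calc (a ^ j) ^ p = (a ^ p) ^ j := by rw [← pow_mul, ← pow_mul, mul_comm]
      _ = algebraMap E L c ^ j * g ^ (i * j) := by rw [hap, mul_pow, ← pow_mul]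
      _ = algebraMap E L c ^ j * ((g ^ m) ^ p * g) := by
          rw [hij, pow_succ, ← pow_mul, mul_comm m p]
  refine ⟨(c ^ j)⁻¹, a ^ j / g ^ m, ?_⟩
  rw [map_inv₀, map_pow, div_pow, hkey]
  have h1 : algebraMap E L c ^ j ≠ 0 := pow_ne_zero _ hc0
  have h2 : (g ^ m) ^ p ≠ 0 := pow_ne_zero _ (pow_ne_zero _ hg)
  field_simp

/-- **Constant-field lemma.** `E` algebraically closed in `L`, `ζ ∈ E` a primitive `p`-th root of
unity, `g ∈ L` nonzero, `L'` a splitting field of `X ^ p - g` over `L`.  If `E` is not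
algebraically closed in `L'`, then `g ∈ Eˣ · L ^ p`. -/
theorem exists_eq_const_mul_pow (p : ℕ) [Fact p.Prime] (ζ : E) (hζ : IsPrimitiveRoot ζ p)
    (hEL : ∀ x : L, IsAlgebraic E x → x ∈ Set.range (algebraMap E L))
    (g : L) (hg : g ≠ 0) [IsSplittingField L L' (X ^ p - C g)]
    (hEL' : ¬ ∀ x : L', IsAlgebraic E x → x ∈ Set.range (algebraMap E L')) :
    ∃ (c : E) (h : L), g = algebraMap E L c * h ^ p := by
  classical
  have hpp : p.Prime := Fact.out
  have : NeZero p := ⟨hpp.ne_zero⟩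
  by_cases hnp : ∃ w : L, w ^ p = g
  · obtain ⟨w, hw⟩ := hnp
    exact ⟨1, w, by rw [map_one, one_mul, hw]⟩
  push Not at hnp
  have H : Irreducible (X ^ p - C g) := X_pow_sub_C_irreducible_of_prime hpp hnp
  have hζL : IsPrimitiveRoot (algebraMap E L ζ) p :=
    hζ.map_of_injective (algebraMap E L).injective
  have hprim : (primitiveRoots p L).Nonempty :=
    ⟨algebraMap E L ζ, (mem_primitiveRoots hpp.pos).mpr hζL⟩
  have : FiniteDimensional L L' := Polynomial.IsSplittingField.finiteDimensional L' (X ^ p - C g)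
  have : IsGalois L L' := isGalois_of_isSplittingField_X_pow_sub_C hprim H L'
  have hθ := rootOfSplitsXPowSubC_pow g L' (n := p)
  set θ : L' := rootOfSplitsXPowSubC hpp.pos g L' with hθdef
  set e := autEquivZmod H L' hζL with hedef
  set σ : L' ≃ₐ[L] L' := e.symm (Multiplicative.ofAdd ((1 : ℕ) : ZMod p)) with hσdef
  have hσθ : σ θ = algebraMap E L' ζ * θ := by
    have := autEquivZmod_symm_apply_natCast H L' hθ hζL 1
    rw [pow_one, Algebra.smul_def, ← IsScalarTower.algebraMap_apply E L L'] at this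
    exact this
  have hpow : ∀ n : ℕ, e.symm (Multiplicative.ofAdd ((n : ℕ) : ZMod p)) = σ ^ n := by
    intro n
    rw [hσdef, ← map_pow, ← ofAdd_nsmul]
    congr 2
    simp
  have hσp : ∀ x : L', (σ ^ p) x = x := by
    intro x
    rw [← hpow p, ZMod.natCast_self, ofAdd_zero, map_one]
    rfl
  have hfix : ∀ x : L', σ x = x → x ∈ Set.range (algebraMap L L') := by
    intro x hx
    rw [IsGalois.mem_range_algebraMap_iff_fixed]
    intro τ
    have hτ : τ = σ ^ (Multiplicative.toAdd (e τ)).val := by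
      rw [← hpow, ZMod.natCast_zmod_val, ofAdd_toAdd, MulEquiv.symm_apply_apply]
    have hn : ∀ n : ℕ, (σ ^ n) x = x := by
      intro n
      induction n with
      | zero => rfl
      | succ n ih => rw [pow_succ, AlgEquiv.mul_apply, hx, ih]
    rw [hτ]
    exact hn _
  push Not at hEL'
  obtain ⟨γ, hγ, hγE⟩ := hEL'
  have hγL : γ ∉ Set.range (algebraMap L L') := by
    rintro ⟨x, rfl⟩
    have hx : IsAlgebraic E x :=
      (isAlgebraic_algebraMap_iff (A := L') (algebraMap L L').injective).mp hγ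
    obtain ⟨c, rfl⟩ := hEL x hx
    exact hγE ⟨c, by rw [IsScalarTower.algebraMap_apply E L L']⟩
  exact exists_eq_const_mul_pow_of_aut p ζ hζ hEL g hg θ hθ σ hσθ hσp hfix γ hγ hγL

end Fermat.Agent.S30.Model.ConstField
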