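import Mathlib

/-!
# MODEL THEOREM — frozen top statements (E1 skeleton, owner helper289)

`O` a DVR with uniformiser `π`, `E = Frac O` of characteristic zero, `L` a field over `E`,
`u : L` transcendental over `E` with `L / E(u)` finite, `E` algebraically closed in `L`.

* `UnramAt K D q` : THE canonical meaning of "unramified at the prime `q` of the base ring `D`":
  there is a family of `[L : K]` elements of `L`, integral over `D`, whose trace discriminant is an
  element of `D` not divisible by `q` in `D`.  (Elementwise; no localisation types, no places.)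
* `GaussUnram`  = hypothesis (i)  : `UnramAt` for `D = O[u]`, `q = π`.
* `HorizUnram`  = hypothesis (ii) : `UnramAt` for `D = E[u]`, `q = f(u)`, `f` irreducible, not one
  of the `u - c`, `c ∈ S` (`S ⊆ O` finite, pairwise differences units; `u = ∞` is always allowed
  to be a branch point).  NO tameness hypothesis, NO ramification indices.
* `main_a` : `π` is a prime element of the integral closure of `O[u]` in `L`.
* `kummer_persist` : (i), (ii), "E algebraically closed" pass to `L' = L(w)`, `w ^ p = g`.
* `main_b` : abstract (K1).
-/

set_option autoImplicit false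

open Polynomial

namespace Fermat.Agent.S30.Model

section Defs

variable {E L : Type*} [Field E] [Field L] [Algebra E L]

/-- **Canonical "unramified at `q`"** (elementwise trace-discriminant form).
`K` is the fraction field of the base ring `D ⊆ L` (an intermediate field of `L / E`),
`q ∈ D` the prime element. -/
def UnramAt {A : Type*} [CommRing A] [Algebra A L] (K : IntermediateField E L)
    (D : Subalgebra A L) (q : L) : Prop :=
  ∃ b : Fin (Module.finrank K L) → L, (∀ i, IsIntegral D (b i)) ∧
    ∃ d : L, d ∈ D ∧ ((Algebra.traceMatrix K b).det : L) = d ∧ ∀ c : L, c ∈ D → d ≠ q * c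

/-- Elementwise "integral at the prime `q` of `D`": integral over `D` after multiplication by an
element of `D` not divisible by `q`. -/
def IsIntegralAt {A : Type*} [CommRing A] [Algebra A L] (D : Subalgebra A L) (q z : L) : Prop :=
  ∃ s : L, s ∈ D ∧ (∀ c : L, c ∈ D → s ≠ q * c) ∧ IsIntegral D (s * z)

variable {O : Type*} [CommRing O] [Algebra O E] [Algebra O L] [IsScalarTower O E L]

/-- Hypothesis (i): the Gauss valuation of `E(t)` attached to `π` is unramified in `L`. -/
def GaussUnram (π : O) (t : L) : Prop :=
  UnramAt (IntermediateField.adjoin E {t}) (Algebra.adjoin O {t}) (algebraMap O L π)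

/-- Hypothesis (ii): `L / E(t)` is unramified at every closed point of the affine `t`-line over
`E` except possibly the points `t = c`, `c ∈ S`. -/
def HorizUnram (S : Finset O) (t : L) : Prop :=
  ∀ f : E[X], Irreducible f → (∀ c ∈ S, ¬ Associated f (X - C (algebraMap O E c))) →
    UnramAt (IntermediateField.adjoin E {t}) (Algebra.adjoin E {t}) (aeval t f)

/-- `E` is algebraically closed in `L`. -/
def AlgClosedIn (E L : Type*) [Field E] [Field L] [Algebra E L] : Prop :=
  ∀ x : L, IsAlgebraic E x → x ∈ (algebraMap E L).range

/-- "`v(g - 1) > 0` for the Gauss valuation", in the shape consumed by `KummerStep` and produced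
by `GaussBridge.kummer_shape`: `g = (b + π a) / b` with `a, b` integral over `O[t]`, `π ∤ b`. -/
def GaussOne (π : O) (t g : L) : Prop :=
  ∃ a b : L, IsIntegral (Algebra.adjoin O {t}) a ∧ IsIntegral (Algebra.adjoin O {t}) b ∧
    (∀ c : L, IsIntegral (Algebra.adjoin O {t}) c → b ≠ algebraMap O L π * c) ∧
    g * b = b + algebraMap O L π * a

/-- "`p ∣ ord_P(g)` at every closed point of the `t`-line": locally at every irreducible `f`,
`g` is a `p`-th power times a unit. -/
def LocPow (p : ℕ) (t g : L) : Prop :=
  ∀ f : E[X], Irreducible f → ∃ τ : L, τ ≠ 0 ∧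
    IsIntegralAt (Algebra.adjoin E {t}) (aeval t f) (g / τ ^ p) ∧
    IsIntegralAt (Algebra.adjoin E {t}) (aeval t f) (τ ^ p / g)

end Defs

section Main

variable {O E L : Type*} [CommRing O] [IsDomain O] [IsDiscreteValuationRing O]
  [Field E] [CharZero E] [Algebra O E] [IsFractionRing O E]
  [Field L] [Algebra E L] [Algebra O L] [IsScalarTower O E L]

/-- **MODEL THEOREM (a).**  `π` is a prime element of the integral closure of `O[u]` in `L`
(equivalently: the Gauss valuation has exactly one extension to `L`, and it is unramified). -/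
theorem main_a (π : O) (hπ : Irreducible π) (u : L) (hu : Transcendental E u)
    [FiniteDimensional (IntermediateField.adjoin E {u}) L] (halg : AlgClosedIn E L)
    (hi : GaussUnram (E := E) π u)
    (S : Finset O) (hS : ∀ c ∈ S, ∀ c' ∈ S, c ≠ c' → IsUnit (c - c'))
    (hii : HorizUnram (E := E) S u) :
    Prime (algebraMap (Algebra.adjoin O {u}) (integralClosure (Algebra.adjoin O {u}) L)
      (algebraMap O (Algebra.adjoin O {u}) π)) := by
  sorry

/-- **Persistence under a Kummer extension.**  `L' = L(w)`, `w ^ p = g`, where `g ≡ 1` at the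
Gauss valuation and `g` is locally a `p`-th power times a unit on both charts.  Then (i), (ii)
hold for `L'`, and `E` is algebraically closed in `L'` unless `g ∈ E^× · L^p`. -/
theorem kummer_persist (π : O) (hπ : Irreducible π) (u : L) (hu : Transcendental E u)
    [FiniteDimensional (IntermediateField.adjoin E {u}) L] (halg : AlgClosedIn E L)
    (hi : GaussUnram (E := E) π u)
    (S : Finset O) (hS : ∀ c ∈ S, ∀ c' ∈ S, c ≠ c' → IsUnit (c - c'))
    (hii : HorizUnram (E := E) S u)
    (p : ℕ) (hp : p.Prime) (hpO : IsUnit (p : O)) (ζ : O) (hζ : IsPrimitiveRoot ζ p)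
    (g : L) (hg1 : GaussOne π u g) (hgu : LocPow (E := E) p u g)
    (L' : Type*) [Field L'] [Algebra L L'] [Algebra E L'] [Algebra O L']
    [IsScalarTower E L L'] [IsScalarTower O E L'] [FiniteDimensional L L']
    (w : L') (hw : w ^ p = algebraMap L L' g) (hgen : Algebra.adjoin L {w} = ⊤) :
    FiniteDimensional (IntermediateField.adjoin E {algebraMap L L' u}) L' ∧
    GaussUnram (E := E) π (algebraMap L L' u) ∧
    HorizUnram (E := E) S (algebraMap L L' u) ∧
    (AlgClosedIn E L' ∨ ∃ (c : E) (h : L), g = algebraMap E L c * h ^ p) := by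
  sorry

/-- **MODEL THEOREM (b) = abstract (K1).** -/
theorem main_b (π : O) (hπ : Irreducible π) (u : L) (hu : Transcendental E u)
    [FiniteDimensional (IntermediateField.adjoin E {u}) L] (halg : AlgClosedIn E L)
    (hi : GaussUnram (E := E) π u)
    (S : Finset O) (hS : ∀ c ∈ S, ∀ c' ∈ S, c ≠ c' → IsUnit (c - c'))
    (hii : HorizUnram (E := E) S u)
    (p : ℕ) (hp : p.Prime) (hpO : IsUnit (p : O)) (ζ : O) (hζ : IsPrimitiveRoot ζ p)
    (g : L) (hg1 : GaussOne π u g) (hgu : LocPow (E := E) p u g) :
    ∃ (c : E) (h : L), g = algebraMap E L c * h ^ p := by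
  sorry

end Main

end Fermat.Agent.S30.Model
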