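import Mathlib
import Fermat.Agent.S30.Model.Defs
import Fermat.Agent.S30.Model.LocalDisc
import Fermat.Agent.S30.Model.ChartInst

/-!
# MODEL THEOREM: dictionary `TSDAt` (elementwise) ↔ `LocalDisc.TSDField` (chart package)

For a chart `A = Algebra.adjoin B {w} ⊆ L` (`B = O` or `B = E`) with the algebra structure
`A → K` of `ChartInst.incl`, the elementwise hypothesis `Model.TSDAt K A q` of `Model/Defs.lean`
is the field-trace self-duality `LocalDisc.TSDField A K L p` consumed by the local bricks.
-/

set_option autoImplicit false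

namespace Fermat.Agent.S30.Model.TSDAtIff

open Fermat.Agent.S30.Model

variable (B : Type*) {E L : Type*} [CommRing B] [Field E] [Algebra B E] [Field L] [Algebra E L]
  [Algebra B L] [IsScalarTower B E L]

/-- **Dictionary.** `TSDAt K (B[w]) p ↔ TSDField (B[w]) K L p`, the algebra structure
`B[w] → K` being `ChartInst.incl`. -/
theorem tsdAt_iff_tsdField (w : L) (K : IntermediateField E L) (hwK : w ∈ K)
    (p : Algebra.adjoin B {w}) :
    letI := (ChartInst.incl B w K hwK).toAlgebra
    TSDAt K (Algebra.adjoin B {w}) (p : L) ↔ LocalDisc.TSDField (Algebra.adjoin B {w}) K L p := by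
  letI := (ChartInst.incl B w K hwK).toAlgebra
  constructor
  · intro h x hx hxy
    refine h x hx (fun y hy => ?_)
    obtain ⟨a, ha⟩ := hxy y hy
    refine ⟨(a : L), a.2, ?_⟩
    rw [ha]
    rfl
  · intro h x hx hxy
    refine h x hx (fun y hy => ?_)
    obtain ⟨a, haD, ha⟩ := hxy y hy
    refine ⟨⟨a, haD⟩, ?_⟩
    apply Subtype.ext
    rw [ha]
    rfl

/-- The dictionary for an element `q : L` known to lie in the chart. -/
theorem tsdAt_iff_tsdField' (w : L) (K : IntermediateField E L) (hwK : w ∈ K)
    (q : L) (hq : q ∈ Algebra.adjoin B {w}) :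
    letI := (ChartInst.incl B w K hwK).toAlgebra
    TSDAt K (Algebra.adjoin B {w}) q ↔
      LocalDisc.TSDField (Algebra.adjoin B {w}) K L (⟨q, hq⟩ : Algebra.adjoin B {w}) :=
  tsdAt_iff_tsdField B w K hwK ⟨q, hq⟩

end Fermat.Agent.S30.Model.TSDAtIff
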