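import Mathlib
import Fermat.Agent.S30.Model.Main
import Fermat.Agent.S30.Model.Defs
import Fermat.Agent.S30.Model.ChartInst
import Fermat.Agent.S30.Model.UnramTSD
import Fermat.Agent.S30.Model.TSDAtIff

/-!
# MODEL THEOREM, rows `gaussTSD_of_gaussUnram`, `horizTSD_of_horizUnram`

Family form (`UnramAt`, the E2-facing contract of `Model/Main.lean`) ⇒ trace-self-dual form
(`TSDAt`, `Model/Defs.lean`) of the hypotheses (i), (ii).  The statements are, verbatim, the rows
of the same names of `Model/Assembly.lean`.
-/

set_option autoImplicit false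

open Polynomial

namespace Fermat.Agent.S30.Model.FamilyTSD

open Fermat.Agent.S30.Model

variable {O E L : Type*} [CommRing O] [IsDomain O] [IsDiscreteValuationRing O]
  [Field E] [CharZero E] [Algebra O E] [IsFractionRing O E]
  [Field L] [Algebra E L] [Algebra O L] [IsScalarTower O E L]

omit [IsDiscreteValuationRing O] [CharZero E] in
/-- A transcendental element over `E = Frac O` is transcendental over `O`. -/
theorem transcendental_base (t : L) (ht : Transcendental E t) : Transcendental O t := fun h =>
  ht (h.extendScalars (IsFractionRing.injective O E))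

omit [CharZero E] in
/-- **Family form ⇒ TSD form** for a chart `B[t]` (`B = O` or `B = E`) at a prime element. -/
theorem tsdAt_of_unramAt (B : Type*) [CommRing B] [IsDomain B] [UniqueFactorizationMonoid B]
    [Algebra B E] [IsFractionRing B E] [Algebra B L] [IsScalarTower B E L]
    (t : L) (ht : Transcendental B t)
    [FiniteDimensional (IntermediateField.adjoin E {t}) L]
    (p : Algebra.adjoin B {t}) (hp : Prime p)
    (h : UnramAt (IntermediateField.adjoin E {t}) (Algebra.adjoin B {t}) (p : L)) :
    TSDAt (IntermediateField.adjoin E {t}) (Algebra.adjoin B {t}) (p : L) := by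
  have htK : t ∈ IntermediateField.adjoin E {t} := IntermediateField.mem_adjoin_simple_self E t
  letI := (ChartInst.incl B t (IntermediateField.adjoin E {t}) htK).toAlgebra
  have := ChartInst.isScalarTower_incl B t (IntermediateField.adjoin E {t}) htK
  have := ChartInst.isFractionRing_incl B t (IntermediateField.adjoin E {t}) htK le_rfl
  have := ChartInst.isIntegrallyClosed_adjoin B t ht
  rw [TSDAtIff.tsdAt_iff_tsdField B t (IntermediateField.adjoin E {t}) htK p]
  refine UnramTSD.tsdField_of_unramAt (IntermediateField.adjoin E {t}) (Algebra.adjoin B {t})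
    (p : L) (fun z => ?_) hp rfl h
  constructor
  · intro hz
    exact ⟨⟨z, hz⟩, rfl⟩
  · rintro ⟨a, rfl⟩
    exact a.2

/-- ROW: family form ⇒ TSD form of (i). -/
theorem gaussTSD_of_gaussUnram (π : O) (hπ : Irreducible π) (t : L) (ht : Transcendental E t)
    [FiniteDimensional (IntermediateField.adjoin E {t}) L]
    (h : GaussUnram (E := E) π t) : GaussTSD (E := E) π t :=
  tsdAt_of_unramAt O t (transcendental_base t ht) (algebraMap O (Algebra.adjoin O {t}) π)
    (ChartInst.prime_algebraMap_adjoin O t (transcendental_base t ht) hπ.prime) h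

/-- ROW: family form ⇒ TSD form of (ii). -/
theorem horizTSD_of_horizUnram (t : L) (ht : Transcendental E t)
    [FiniteDimensional (IntermediateField.adjoin E {t}) L]
    (S : Finset O) (h : HorizUnram (E := E) S t) : HorizTSD (E := E) S t := by
  intro f hf hfS
  have hp : Prime (ChartInst.polyEquiv E t ht f) :=
    (MulEquiv.prime_iff (ChartInst.polyEquiv E t ht)).mpr hf.prime
  exact tsdAt_of_unramAt E t ht (ChartInst.polyEquiv E t ht f) hp (h f hf hfS)

end Fermat.Agent.S30.Model.FamilyTSD
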