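import Mathlib

set_option autoImplicit false

open Polynomial

namespace Fermat.Agent.S30.Model.KummerStep

/-- If a primitive `p`-th root of unity `η` (`1 < p`) lives in a domain, then `1 - η ∣ p`. -/
theorem one_sub_dvd_natCast {R : Type*} [CommRing R] [IsDomain R] {p : ℕ} (hp : 1 < p)
    {η : R} (hη : IsPrimitiveRoot η p) : (1 - η) ∣ (p : R) := by
  have h1 : (p : R) = ∑ k ∈ Finset.range p, (1 - η ^ k) := by
    rw [Finset.sum_sub_distrib, hη.geom_sum_eq_zero hp]
    simp
  rw [h1]
  exact Finset.dvd_sum fun k _ => one_sub_dvd_one_sub_pow η k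

variable {C L L' C' : Type*} [CommRing C] [IsDomain C] [IsIntegrallyClosed C]
  [Field L] [Algebra C L] [IsFractionRing C L]
  [Field L'] [Algebra L L'] [Algebra C L'] [IsScalarTower C L L']
  [CommRing C'] [Algebra C C'] [Algebra C' L'] [IsScalarTower C C' L'] [IsIntegralClosure C' C L']

/-- **Kummer step** (form with an explicit automorphism).
`C` an integrally closed domain with fraction field `L`, `C'` the integral closure of `C` in an
extension `L'` of `L`, `ζ ∈ C` a primitive `p`-th root of unity with `p` invertible in `C`.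
Let `g = (b + π a) / b = 1 + π a / b` with `π ∤ b` and let `θ ∈ L'` be a `p`-th root of `g`, moved
by an `L`-automorphism `σ` of `L'` to `ζ θ`. Then `π` is not a prime element of `C'`. -/
theorem not_prime_of_aut (p : ℕ) [Fact p.Prime] (ζ : C) (hζ : IsPrimitiveRoot ζ p)
    (hp : IsUnit ((p : ℕ) : C)) (π a b : C) (hb : ¬ π ∣ b) (θ : L')
    (hθ : algebraMap C L' b * θ ^ p = algebraMap C L' (b + π * a))
    (σ : L' ≃ₐ[L] L') (hσ : σ θ = algebraMap C L' ζ * θ) :
    ¬ Prime (algebraMap C C' π) := by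
  classical
  intro hprime
  have hpp : p.Prime := Fact.out
  have hp0 : 0 < p := hpp.pos
  set f : C →+* L' := algebraMap C L' with hf
  set ι : C' →+* L' := algebraMap C' L' with hι
  set j : C →+* C' := algebraMap C C' with hj
  have hιj : ∀ c : C, ι (j c) = f c := fun c =>
    (IsScalarTower.algebraMap_apply C C' L' c).symm
  have hιinj : Function.Injective ι := IsIntegralClosure.algebraMap_injective C' C L'
  have hLinj : Function.Injective (algebraMap L L') := (algebraMap L L').injective
  have hCLinj : Function.Injective (algebraMap C L) := IsFractionRing.injective C L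
  have hfL : ∀ c : C, f c = algebraMap L L' (algebraMap C L c) := fun c =>
    IsScalarTower.algebraMap_apply C L L' c
  have hfinj : Function.Injective f := by
    intro x y hxy
    rw [hfL, hfL] at hxy
    exact hCLinj (hLinj hxy)
  have hπ0 : π ≠ 0 := by
    rintro rfl
    exact hprime.ne_zero (map_zero j)
  -- `b θ` is integral
  have hbθ : IsIntegral C (f b * θ) := by
    refine IsIntegral.of_pow hp0 ?_
    have h1 : (f b * θ) ^ p = f (b ^ (p - 1) * (b + π * a)) := by
      rw [mul_pow, map_mul, map_pow, ← hθ, ← mul_assoc, ← pow_succ, Nat.sub_add_cancel hp0]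
    rw [h1]
    exact isIntegral_algebraMap
  obtain ⟨Θ, hΘ⟩ := (IsIntegralClosure.isIntegral_iff (A := C')).1 hbθ
  -- the elements `x_i = b (θ - ζ^i)`
  have hx : ∀ i : ℕ, ι (Θ - j (b * ζ ^ i)) = f b * (θ - f ζ ^ i) := by
    intro i
    rw [map_sub, hΘ, hιj, map_mul, map_pow]
    ring
  have hζ' : IsPrimitiveRoot (f ζ) p := hζ.map_of_injective hfinj
  have hprodθ : ∏ i ∈ Finset.range p, (θ - f ζ ^ i) = θ ^ p - 1 := by
    have h1 := X_pow_sub_C_eq_prod hζ' hp0 (one_pow p : (1 : L') ^ p = 1)
    have h2 := congrArg (Polynomial.eval θ) h1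
    simp only [eval_sub, eval_pow, eval_X, eval_C, eval_prod, mul_one] at h2
    exact h2.symm
  have hprod : ∏ i ∈ Finset.range p, (Θ - j (b * ζ ^ i)) = j (b ^ (p - 1) * a) * j π := by
    apply hιinj
    rw [map_prod, Finset.prod_congr rfl (fun i _ => hx i), Finset.prod_mul_distrib,
      Finset.prod_const, Finset.card_range, hprodθ, map_mul, hιj, hιj]
    have h3 : f b ^ p * (θ ^ p - 1) = f b ^ (p - 1) * (f b * θ ^ p - f b) := by
      have h4 : f b ^ p = f b ^ (p - 1) * f b := by
        rw [← pow_succ, Nat.sub_add_cancel hp0]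
      rw [h4]
      ring
    rw [h3, hθ, map_mul, map_pow, map_add, map_mul]
    ring
  -- `π` divides one of the factors
  have hdvd : j π ∣ ∏ i ∈ Finset.range p, (Θ - j (b * ζ ^ i)) := by
    rw [hprod]
    exact dvd_mul_left _ _
  obtain ⟨i, -, y, hy⟩ := (Prime.dvd_finsetProd_iff hprime _).1 hdvd
  -- transport `y` by `σ`
  have hint : ∀ z : C', IsIntegral C (ι z) := fun z =>
    (IsIntegralClosure.isIntegral_iff (A := C')).2 ⟨z, rfl⟩
  have hσint : IsIntegral C (σ (ι y)) :=
    (hint y).map (σ.restrictScalars C).toAlgHom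
  obtain ⟨y', hy'⟩ := (IsIntegralClosure.isIntegral_iff (A := C')).1 hσint
  have hσf : ∀ c : C, σ (f c) = f c := fun c => by rw [hfL, σ.commutes]
  -- the element `z = ζ y - y'` satisfies `π z = b ζ^i (ζ - 1)`... in `L'`
  have hkey : f π * ι (j ζ * y - y') = f (b * ζ ^ i * (1 - ζ)) := by
    have h1 : f π * ι y = f b * (θ - f ζ ^ i) := by
      rw [← hx i, hy, map_mul, hιj]
    have h2 : f π * σ (ι y) = f b * (f ζ * θ - f ζ ^ i) := by
      have := congrArg σ h1
      rw [map_mul, map_mul, hσf, hσf, map_sub, hσ, map_pow, hσf] at this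
      exact this
    rw [map_sub, map_mul, hιj, hy', mul_sub, ← mul_assoc, mul_comm (f π) (f ζ), mul_assoc, h1, h2,
      map_mul, map_mul, map_pow, map_sub, map_one]
    ring
  -- hence `z` comes from `L`, is integral over `C`, so lies in `C`
  have hfπ : algebraMap C L π ≠ 0 := fun h => hπ0 (hCLinj (by rw [h, map_zero]))
  have hw : ι (j ζ * y - y') =
      algebraMap L L' (algebraMap C L (b * ζ ^ i * (1 - ζ)) / algebraMap C L π) := by
    have hfπ' : f π ≠ 0 := by
      rw [hfL]
      exact fun h => hfπ (hLinj (by rw [h, map_zero]))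
    rw [map_div₀, ← hfL, ← hfL, eq_div_iff hfπ', mul_comm]
    exact hkey
  have hwint : IsIntegral C (algebraMap C L (b * ζ ^ i * (1 - ζ)) / algebraMap C L π) := by
    have h1 : IsIntegral C (ι (j ζ * y - y')) := hint _
    rw [hw] at h1
    exact (isIntegral_algHom_iff (IsScalarTower.toAlgHom C L L') hLinj).1 h1
  obtain ⟨c, hc⟩ := IsIntegrallyClosed.isIntegral_iff.1 hwint
  have hc' : π * c = b * ζ ^ i * (1 - ζ) := by
    apply hCLinj
    rw [map_mul, hc, mul_div_cancel₀ _ hfπ]
  -- `ζ^i (1 - ζ)` is a unit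
  have hu1 : IsUnit (1 - ζ) := isUnit_of_dvd_unit (one_sub_dvd_natCast hpp.one_lt hζ) hp
  have hu2 : IsUnit (ζ ^ i) := (hζ.isUnit hpp.ne_zero).pow i
  obtain ⟨u, hu⟩ := hu2.mul hu1
  apply hb
  refine ⟨c * ((u⁻¹ : Cˣ) : C), ?_⟩
  have h4 : b * (u : C) = π * c := by rw [hu, hc']; ring
  calc b = b * (u : C) * ((u⁻¹ : Cˣ) : C) := by rw [mul_assoc, Units.mul_inv, mul_one]
    _ = π * (c * ((u⁻¹ : Cˣ) : C)) := by rw [h4]; ring

/-- **Kummer step** (splitting-field form). Let `g = 1 + π a / b ∈ L` with `π ∤ b` (i.e. `g ≡ 1`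
modulo `π` in the localisation of `C` at `π`), not a `p`-th power in `L`, and let `L'` be a
splitting field of `X ^ p - g` over `L` (e.g. `AdjoinRoot (X ^ p - C g)`). Then `π` is not a prime
element of the integral closure `C'` of `C` in `L'`. -/
theorem not_prime_of_isSplittingField (p : ℕ) [Fact p.Prime] (ζ : C) (hζ : IsPrimitiveRoot ζ p)
    (hp : IsUnit ((p : ℕ) : C)) (π a b : C) (hb : ¬ π ∣ b) (g : L)
    (hg : algebraMap C L b * g = algebraMap C L (b + π * a))
    (hnp : ∀ w : L, w ^ p ≠ g) [IsSplittingField L L' (X ^ p - Polynomial.C g)] :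
    ¬ Prime (algebraMap C C' π) := by
  have hpp : p.Prime := Fact.out
  have H : Irreducible (X ^ p - Polynomial.C g) := X_pow_sub_C_irreducible_of_prime hpp hnp
  have hζL : IsPrimitiveRoot (algebraMap C L ζ) p :=
    hζ.map_of_injective (IsFractionRing.injective C L)
  have hθ := rootOfSplitsXPowSubC_pow g L' (n := p)
  have hσ := autEquivZmod_symm_apply_natCast H L' hθ hζL 1
  rw [pow_one, Algebra.smul_def, ← IsScalarTower.algebraMap_apply C L L'] at hσ
  refine not_prime_of_aut (C' := C') p ζ hζ hp π a b hb (rootOfSplitsXPowSubC hpp.pos g L') ?_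
    ((autEquivZmod H L' hζL).symm (Multiplicative.ofAdd ((1 : ℕ) : ZMod p))) hσ
  rw [hθ, IsScalarTower.algebraMap_apply C L L', ← map_mul, hg,
    ← IsScalarTower.algebraMap_apply C L L']

end Fermat.Agent.S30.Model.KummerStep
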