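import Mathlib
import Fermat.Agent.S30.Model.GlueChart
import Fermat.Agent.S30.Model.KummerStep

/-!
# MODEL THEOREM, row `kummer_contra` (helper92)

`KummerStep.not_prime_of_isSplittingField` on the concrete chart: `O` a DVR, `E = Frac O`,
`L / E(u)` finite.  If `g ≡ 1` at the Gauss valuation (`GaussOne π u g`) and `g` is not a `p`-th
power in `L`, then `π` is **not** a prime element of the integral closure of `O[u]` in
`L' = L(g^{1/p})`.

The hypothesis `hg1` is the literal body of `Model.GaussOne π u g` (so `hg1 := (h : GaussOne π u g)`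
typechecks; this file does not import the skeleton).
-/

set_option autoImplicit false
set_option linter.unusedSectionVars false
set_option linter.style.haveILetI false
set_option linter.unusedVariables false

open Polynomial

namespace Fermat.Agent.S30.Model.KummerContra

open Fermat.Agent.S30.Model

section Chart

variable {O E L : Type*} [CommRing O] [IsDomain O] [Field E] [Algebra O E] [IsFractionRing O E]
  [Field L] [Algebra E L] [Algebra O L] [IsScalarTower O E L]

/-- Clearing the denominators of a polynomial over `E = Frac O`. -/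
theorem exists_mul_aeval_eq (u : L) (r : E[X]) :
    ∃ (d : O) (r' : O[X]), d ≠ 0 ∧ algebraMap O L d * aeval u r = aeval u r' := by
  classical
  obtain ⟨b, hb⟩ := IsLocalization.integerNormalization_map_to_map (nonZeroDivisors O) r
  refine ⟨b, IsLocalization.integerNormalization (nonZeroDivisors O) r,
    nonZeroDivisors.ne_zero b.2, ?_⟩
  have h1 : aeval u (IsLocalization.integerNormalization (nonZeroDivisors O) r) =
      aeval u ((IsLocalization.integerNormalization (nonZeroDivisors O) r).map
        (algebraMap O E)) := (aeval_map_algebraMap E u _).symm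
  rw [h1, hb, Algebra.smul_def, map_mul]
  congr 1
  rw [IsScalarTower.algebraMap_apply O E E[X], Polynomial.algebraMap_apply, Algebra.algebraMap_self,
    RingHom.id_apply, aeval_C, ← IsScalarTower.algebraMap_apply]

theorem adjoin_le_adjoin (u : L) :
    Algebra.adjoin O {u} ≤ (IntermediateField.adjoin E {u}).toSubalgebra.restrictScalars O := by
  apply Algebra.adjoin_le
  rw [Set.singleton_subset_iff]
  exact IntermediateField.mem_adjoin_simple_self E u

/-- The inclusion `O[u] → E(u)`. -/
noncomputable def incl (u : L) :
    Algebra.adjoin O {u} →+* IntermediateField.adjoin E {u} where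
  toFun b := ⟨(b : L), (adjoin_le_adjoin (O := O) (E := E) u b.2 :
    (b : L) ∈ (IntermediateField.adjoin E {u}).toSubalgebra.restrictScalars O)⟩
  map_one' := rfl
  map_mul' _ _ := rfl
  map_zero' := rfl
  map_add' _ _ := rfl

theorem incl_injective (u : L) : Function.Injective (incl (O := O) (E := E) u) := by
  intro x y h
  exact Subtype.ext (congrArg (fun z : IntermediateField.adjoin E {u} => (z : L)) h)

/-- `E(u)` is the fraction field of `O[u]`. -/
theorem isFractionRing_adjoin (u : L) :
    letI : Algebra (Algebra.adjoin O {u}) (IntermediateField.adjoin E {u}) :=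
      (incl (O := O) (E := E) u).toAlgebra
    IsFractionRing (Algebra.adjoin O {u}) (IntermediateField.adjoin E {u}) := by
  letI : Algebra (Algebra.adjoin O {u}) (IntermediateField.adjoin E {u}) :=
    (incl (O := O) (E := E) u).toAlgebra
  haveI : FaithfulSMul (Algebra.adjoin O {u}) (IntermediateField.adjoin E {u}) :=
    (faithfulSMul_iff_algebraMap_injective _ _).mpr (incl_injective u)
  have hinj : Function.Injective (algebraMap O L) := by
    rw [IsScalarTower.algebraMap_eq O E L]
    exact (algebraMap E L).injective.comp (IsFractionRing.injective O E)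
  apply IsFractionRing.of_field
  intro z
  obtain ⟨r, s, hz⟩ := (IntermediateField.mem_adjoin_simple_iff E _).mp z.2
  obtain ⟨dr, r', hdr, hr⟩ := exists_mul_aeval_eq (O := O) u r
  obtain ⟨ds, s', hds, hs⟩ := exists_mul_aeval_eq (O := O) u s
  have hdrL : algebraMap O L dr ≠ 0 := fun h => hdr (hinj (by rw [h, map_zero]))
  have hdsL : algebraMap O L ds ≠ 0 := fun h => hds (hinj (by rw [h, map_zero]))
  have hmem : ∀ q : O[X], aeval u q ∈ Algebra.adjoin O {u} := fun q =>
    aeval_mem_adjoin_singleton O u
  refine ⟨algebraMap O _ ds * ⟨aeval u r', hmem r'⟩, algebraMap O _ dr * ⟨aeval u s', hmem s'⟩, ?_⟩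
  apply Subtype.ext
  show (z : L) = (algebraMap O L ds * aeval u r') / (algebraMap O L dr * aeval u s')
  rw [hz, ← hr, ← hs]
  by_cases hs0 : aeval u s = 0
  · rw [hs0]; simp
  · field_simp

end Chart

section Main

variable {O E L : Type*} [CommRing O] [IsDomain O] [IsDiscreteValuationRing O]
  [Field E] [CharZero E] [Algebra O E] [IsFractionRing O E]
  [Field L] [Algebra E L] [Algebra O L] [IsScalarTower O E L]

/-- ROW `KummerRows.kummer_contra`: `KummerStep.not_prime_of_isSplittingField` on the concrete
chart: if `g ≡ 1` at the Gauss valuation and `g` is not a `p`-th power, then `π` is not prime in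
the integral closure of `O[u]` in `L' = L(g^{1/p})`. -/
theorem kummer_contra (π : O) (hπ : Irreducible π) (u : L) (hu : Transcendental E u)
    [FiniteDimensional (IntermediateField.adjoin E {u}) L]
    (p : ℕ) (hp : p.Prime) (hpO : IsUnit (p : O)) (ζ : O) (hζ : IsPrimitiveRoot ζ p)
    (g : L)
    (hg1 : ∃ a b : L, IsIntegral (Algebra.adjoin O {u}) a ∧ IsIntegral (Algebra.adjoin O {u}) b ∧
      (∀ c : L, IsIntegral (Algebra.adjoin O {u}) c → b ≠ algebraMap O L π * c) ∧
      g * b = b + algebraMap O L π * a)
    (hnp : ∀ h : L, h ^ p ≠ g)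
    (L' : Type*) [Field L'] [Algebra L L'] [Algebra E L'] [Algebra O L']
    [IsScalarTower E L L'] [IsScalarTower O E L'] [IsSplittingField L L' (X ^ p - C g)] :
    ¬ Prime (GlueChart.piElt (Algebra.adjoin O {algebraMap L L' u}) π) := by
  classical
  haveI : Fact p.Prime := ⟨hp⟩
  -- towers
  haveI hOLL' : IsScalarTower O L L' := IsScalarTower.of_algebraMap_eq (fun x => by
    rw [IsScalarTower.algebraMap_apply O E L', IsScalarTower.algebraMap_apply E L L',
      ← IsScalarTower.algebraMap_apply O E L])
  have hinjOL : Function.Injective (algebraMap O L) := by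
    rw [IsScalarTower.algebraMap_eq O E L]
    exact (algebraMap E L).injective.comp (IsFractionRing.injective O E)
  -- the base chart and its fraction field
  set A : Subalgebra O L := Algebra.adjoin O {u} with hA
  set A' : Subalgebra O L' := Algebra.adjoin O {algebraMap L L' u} with hA'
  letI : Algebra A (IntermediateField.adjoin E {u}) := (incl (O := O) (E := E) u).toAlgebra
  haveI : IsFractionRing A (IntermediateField.adjoin E {u}) := isFractionRing_adjoin u
  haveI : IsScalarTower A (IntermediateField.adjoin E {u}) L :=
    IsScalarTower.of_algebraMap_eq (fun _ => rfl)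
  -- the integral closure `C` of `A` in `L`
  haveI : IsFractionRing (integralClosure A L) L :=
    integralClosure.isFractionRing_of_finite_extension (IntermediateField.adjoin E {u}) L
  haveI : IsIntegrallyClosed (integralClosure A L) :=
    integralClosure.isIntegrallyClosedOfFiniteExtension (IntermediateField.adjoin E {u})
  -- `A → A'`
  have hmapA : ∀ a : A, algebraMap L L' (a : L) ∈ A' := by
    intro a
    have h1 : A.map (IsScalarTower.toAlgHom O L L') = A' := by
      rw [hA, hA', AlgHom.map_adjoin, Set.image_singleton]
      rfl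
    rw [← h1]
    exact ⟨a, a.2, rfl⟩
  let φ : A →+* A' :=
    { toFun := fun a => ⟨algebraMap L L' (a : L), hmapA a⟩
      map_one' := Subtype.ext (map_one _)
      map_mul' := fun x y => Subtype.ext (map_mul _ _ _)
      map_zero' := Subtype.ext (map_zero _)
      map_add' := fun x y => Subtype.ext (map_add _ _ _) }
  have hφsurj : Function.Surjective φ := by
    rintro ⟨y, hy⟩
    have h1 : A.map (IsScalarTower.toAlgHom O L L') = A' := by
      rw [hA, hA', AlgHom.map_adjoin, Set.image_singleton]
      rfl
    rw [← h1] at hy
    obtain ⟨a, ha, rfl⟩ := hy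
    exact ⟨⟨a, ha⟩, rfl⟩
  letI : Algebra A A' := φ.toAlgebra
  haveI : IsScalarTower A A' L' := IsScalarTower.of_algebraMap_eq (fun _ => rfl)
  haveI : Algebra.IsIntegral A A' := Algebra.isIntegral_of_surjective hφsurj
  have hK1 : ∀ x : L', IsIntegral A' x ↔ IsIntegral A x := fun x =>
    ⟨fun h => isIntegral_trans x h, fun h => h.tower_top⟩
  -- `C → C'`
  haveI : IsScalarTower A (integralClosure A L) L' := IsScalarTower.of_algebraMap_eq (fun _ => rfl)
  haveI : IsScalarTower (integralClosure A L) L L' := IsScalarTower.of_algebraMap_eq (fun _ => rfl)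
  have hK2 : ∀ x : L', IsIntegral (integralClosure A L) x ↔ IsIntegral A' x := fun x =>
    ⟨fun h => (hK1 x).2 (isIntegral_trans x h), fun h => ((hK1 x).1 h).tower_top⟩
  have hmapC : ∀ c : integralClosure A L, IsIntegral A' (algebraMap L L' (c : L)) := by
    intro c
    rw [hK1]
    exact (c.2 : IsIntegral A (c : L)).map (IsScalarTower.toAlgHom A L L')
  let ψ : integralClosure A L →+* integralClosure A' L' :=
    { toFun := fun c => ⟨algebraMap L L' (c : L), hmapC c⟩
      map_one' := Subtype.ext (map_one _)
      map_mul' := fun x y => Subtype.ext (map_mul _ _ _)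
      map_zero' := Subtype.ext (map_zero _)
      map_add' := fun x y => Subtype.ext (map_add _ _ _) }
  letI : Algebra (integralClosure A L) (integralClosure A' L') := ψ.toAlgebra
  haveI : IsScalarTower (integralClosure A L) (integralClosure A' L') L' :=
    IsScalarTower.of_algebraMap_eq (fun _ => rfl)
  haveI : IsIntegralClosure (integralClosure A' L') (integralClosure A L) L' :=
    { algebraMap_injective := Subtype.val_injective
      isIntegral_iff := fun {x} =>
        ⟨fun h => ⟨⟨x, (hK2 x).1 h⟩, rfl⟩, fun ⟨y, hy⟩ => hy ▸ (hK2 _).2 y.2⟩ }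
  -- the data of `GaussOne`
  obtain ⟨a, b, ha, hb, hπb, hgb⟩ := hg1
  -- constants
  let κ : O →+* integralClosure A L := (algebraMap A (integralClosure A L)).comp (algebraMap O A)
  have hκ : ∀ r : O, ((κ r : integralClosure A L) : L) = algebraMap O L r := fun r => rfl
  have hκinj : Function.Injective κ := by
    intro x y h
    exact hinjOL (by rw [← hκ, ← hκ, h])
  have hζC : IsPrimitiveRoot (κ ζ) p := hζ.map_of_injective hκinj
  have hpC : IsUnit ((p : ℕ) : integralClosure A L) := by
    have := hpO.map κ
    rwa [map_natCast] at this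
  have hbC : ¬ κ π ∣ (⟨b, hb⟩ : integralClosure A L) := by
    intro hdvd
    obtain ⟨w, hw, hbw⟩ := (GlueChart.piElt_dvd_iff A π ⟨b, hb⟩).1 hdvd
    exact hπb w hw hbw
  have hg : algebraMap (integralClosure A L) L ⟨b, hb⟩ * g =
      algebraMap (integralClosure A L) L ((⟨b, hb⟩ : integralClosure A L) + κ π * ⟨a, ha⟩) := by
    show b * g = b + algebraMap O L π * a
    rw [mul_comm, hgb]
  have key := KummerStep.not_prime_of_isSplittingField (C := integralClosure A L) (L := L)
    (L' := L') (C' := integralClosure A' L') p (κ ζ) hζC hpC (κ π) ⟨a, ha⟩ ⟨b, hb⟩ hbC g hg hnp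
  intro hprime
  apply key
  have heq : algebraMap (integralClosure A L) (integralClosure A' L') (κ π) =
      GlueChart.piElt A' π := by
    apply Subtype.ext
    show algebraMap L L' (algebraMap O L π) = algebraMap O L' π
    rw [← IsScalarTower.algebraMap_apply O L L']
  rw [heq]
  exact hprime

end Main

end Fermat.Agent.S30.Model.KummerContra
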