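import Mathlib
import Fermat.Agent.S30.Model.ConstField

/-!
# Kummer persistence of trace-self-duality  (MODEL THEOREM (b), S30 route sec. 4)

`A` a commutative ring with a field of "fractions" `K`, `L / K` finite.  The integral closure of
`A` in `L` is *trace-self-dual at `π`* (`TSD A K L π`) if every integral `x` whose trace pairing
with all integral `y` takes values in `π A` is `π` times an integral element.  (For `A` a DVR /
the localisation `O[u]_(π)` this says that `L / K` is unramified at `π` with separable residue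
extensions; it is the field-trace form of `DiscUnit.TraceSelfDualAt`.)

Main theorem `tsd_kummer`: trace-self-duality persists from `L` to `L' = L(g^{1/p})`
when `g = d / b` with `b, d` integral and `t = p (b d)^(p-1)` is a non-zero-divisor modulo `π`
on the integral closure in `L'`.

Two corollaries cover the two uses in the Model Theorem:
* `tsd_kummer_of_unit` : `g` a unit of the integral closure, `p` invertible (horizontal primes,
  after rescaling `g` by a `p`-th power; also the Gauss prime when one works over `O[u]_(π)`);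
* `tsd_kummer` itself with `hNZD` from `NormalFree.exists_eq_smul_of_smul_eq_smul`
  (`π` prime in `C₀`, `π ∤ p b d`) for the global form over `O[u]`.
-/

set_option autoImplicit false

open Polynomial

namespace Fermat.Agent.S30.Model.KummerPersist

open Fermat.Agent.S30.Model.ConstField

/-- Field-trace form of trace-self-duality at `π` of the integral closure of `A` in `L`. -/
def TSD (A K L : Type*) [CommRing A] [Field K] [Field L] [Algebra A K] [Algebra K L]
    [Algebra A L] (π : A) : Prop :=
  ∀ x : L, IsIntegral A x →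
    (∀ y : L, IsIntegral A y → ∃ w : A, Algebra.trace K L (x * y) = algebraMap A K (π * w)) →
    ∃ z : L, IsIntegral A z ∧ x = algebraMap A L π * z

section Galois

variable {L L' : Type*} [Field L] [Field L'] [Algebra L L']

/-- In a cyclic extension `L'/L` of prime degree `p` generated by `θ` with `σ θ = ζ θ`, the
trace of `x θ^i` is the `i`-th isotypic sum of `x` times `θ^i`. -/
theorem sum_pow_apply (p : ℕ) (ζ' θ : L') (σ : L' ≃ₐ[L] L') (hσζ : σ ζ' = ζ')
    (hσθ : σ θ = ζ' * θ) (x : L') (i : ℕ) :
    ∑ k ∈ Finset.range p, (σ ^ k) (x * θ ^ i) = iso p ζ' σ x i * θ ^ i := by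
  have hk : ∀ k : ℕ, (σ ^ k) θ = ζ' ^ k * θ := by
    intro k
    induction k with
    | zero => simp
    | succ k ih =>
      rw [pow_succ', AlgEquiv.mul_apply, ih, map_mul, map_pow, hσζ, hσθ, pow_succ]
      ring
  unfold iso
  rw [Finset.sum_mul]
  refine Finset.sum_congr rfl fun k _ => ?_
  rw [map_mul, map_pow, hk k, mul_pow, ← pow_mul, mul_comm k i]
  ring

end Galois

variable {A K L L' : Type*} [CommRing A] [Field K] [Algebra A K]
  [Field L] [Algebra K L] [Algebra A L] [FiniteDimensional K L]
  [Field L'] [Algebra L L'] [Algebra K L'] [IsScalarTower K L L'] [Algebra A L']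
  [IsScalarTower A L L']

/-- **Kummer persistence of trace-self-duality.** -/
theorem tsd_kummer (p : ℕ) [Fact p.Prime] (ζ : L) (hζ : IsPrimitiveRoot ζ p) (π : A)
    (g : L) (hnp : ∀ w : L, w ^ p ≠ g) [IsSplittingField L L' (X ^ p - C g)]
    (b d : L) (hb : IsIntegral A b) (hd : IsIntegral A d) (hbd : d = b * g) (hb0 : b ≠ 0)
    (hd0 : d ≠ 0)
    (hNZD : ∀ x' y' : L', IsIntegral A x' → IsIntegral A y' →
      algebraMap L L' ((p : L) * (b * d) ^ (p - 1)) * x' = algebraMap A L' π * y' →
      ∃ z : L', IsIntegral A z ∧ x' = algebraMap A L' π * z)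
    (hL : TSD A K L π) : TSD A K L' π := by
  classical
  have hpp : p.Prime := Fact.out
  have : NeZero p := ⟨hpp.ne_zero⟩
  have hg0 : g ≠ 0 := by
    rintro rfl
    rw [mul_zero] at hbd
    exact hd0 hbd
  have H : Irreducible (X ^ p - C g) := X_pow_sub_C_irreducible_of_prime hpp hnp
  have hprim : (primitiveRoots p L).Nonempty := ⟨ζ, (mem_primitiveRoots hpp.pos).mpr hζ⟩
  have : FiniteDimensional L L' := Polynomial.IsSplittingField.finiteDimensional L' (X ^ p - C g)
  have : IsGalois L L' := isGalois_of_isSplittingField_X_pow_sub_C hprim H L'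
  have hθ := rootOfSplitsXPowSubC_pow g L' (n := p)
  set θ : L' := rootOfSplitsXPowSubC hpp.pos g L' with hθdef
  set e := autEquivZmod H L' hζ with hedef
  set σ : L' ≃ₐ[L] L' := e.symm (Multiplicative.ofAdd ((1 : ℕ) : ZMod p)) with hσdef
  set ζ' : L' := algebraMap L L' ζ with hζ'def
  have hζ' : IsPrimitiveRoot ζ' p := hζ.map_of_injective (algebraMap L L').injective
  have hσζ : σ ζ' = ζ' := σ.commutes ζ
  have hσθ : σ θ = ζ' * θ := by
    have := autEquivZmod_symm_apply_natCast H L' hθ hζ 1
    rw [pow_one, Algebra.smul_def] at this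
    exact this
  have hpow : ∀ n : ℕ, e.symm (Multiplicative.ofAdd ((n : ℕ) : ZMod p)) = σ ^ n := by
    intro n
    rw [hσdef, ← map_pow, ← ofAdd_nsmul]
    congr 2
    simp
  have hinj : Function.Injective (algebraMap L L') := (algebraMap L L').injective
  have hθ0 : θ ≠ 0 := by
    rintro h0
    rw [h0, zero_pow hpp.ne_zero] at hθ
    exact hg0 (hinj (by rw [← hθ, map_zero]))
  -- the trace as a sum over powers of `σ`
  have htr : ∀ w : L', algebraMap L L' (Algebra.trace L L' w)
      = ∑ k ∈ Finset.range p, (σ ^ k) w := by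
    intro w
    rw [trace_eq_sum_automorphisms]
    rw [Fintype.sum_equiv (e.toEquiv.trans Multiplicative.toAdd) (fun τ => τ w)
      (fun z : ZMod p => (e.symm (Multiplicative.ofAdd z)) w) (fun τ => by simp)]
    symm
    refine Finset.sum_nbij' (fun k : ℕ => (k : ZMod p)) (fun z : ZMod p => z.val) ?_ ?_ ?_ ?_ ?_
    · intro k _; exact Finset.mem_univ _
    · intro z _; exact Finset.mem_range.mpr (ZMod.val_lt z)
    · intro k hk; exact ZMod.val_natCast_of_lt (Finset.mem_range.mp hk)
    · intro z _; exact ZMod.natCast_zmod_val z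
    · intro k _; rw [hpow]
  -- key identity: `p x = ∑ Tr(x θ^i) θ^{-i}`
  have hid : ∀ x : L', (p : L') * x
      = ∑ i ∈ Finset.range p, algebraMap L L' (Algebra.trace L L' (x * θ ^ i)) * (θ⁻¹) ^ i := by
    intro x
    rw [← sum_iso p ζ' hζ' σ x]
    refine Finset.sum_congr rfl fun i _ => ?_
    rw [htr, sum_pow_apply p ζ' θ σ hσζ hσθ x i, mul_assoc, ← mul_pow,
      mul_inv_cancel₀ hθ0, one_pow, mul_one]
  -- integral elements `β = b θ` and `δ = d θ⁻¹`
  set β : L' := algebraMap L L' b * θ with hβ
  set δ : L' := algebraMap L L' d * θ⁻¹ with hδ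
  have hbL' : IsIntegral A (algebraMap L L' b) := hb.algebraMap
  have hdL' : IsIntegral A (algebraMap L L' d) := hd.algebraMap
  have hβint : IsIntegral A β := by
    refine IsIntegral.of_pow hpp.pos ?_
    have e1 : β ^ p = algebraMap L L' (b ^ (p - 1) * d) := by
      rw [hβ, mul_pow, hθ, ← map_pow, ← map_mul, hbd, ← mul_assoc, ← pow_succ,
        Nat.sub_add_cancel hpp.one_le]
    rw [e1]
    exact ((hb.pow _).mul hd).algebraMap
  have hδint : IsIntegral A δ := by
    refine IsIntegral.of_pow hpp.pos ?_
    have e1 : δ ^ p = algebraMap L L' (d ^ (p - 1) * b) := by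
      have hgL' : algebraMap L L' g ≠ 0 := by
        have := hinj.ne hg0
        simpa using this
      have hd' : d ^ p = d ^ (p - 1) * b * g := by
        rw [mul_assoc, ← hbd, ← pow_succ, Nat.sub_add_cancel hpp.one_le]
      rw [hδ, mul_pow, inv_pow, hθ, ← map_pow, hd', map_mul, mul_assoc,
        mul_inv_cancel₀ hgL', mul_one]
    rw [e1]
    exact ((hd.pow _).mul hb).algebraMap
  -- main argument
  intro x' hx' hx'tr
  -- `T i = Tr_{L'/L}(x' β^i)` is `π` times an integral element
  have hT : ∀ i : ℕ, ∃ z : L, IsIntegral A z ∧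
      Algebra.trace L L' (x' * β ^ i) = algebraMap A L π * z := by
    intro i
    refine hL _ (Algebra.isIntegral_trace (hx'.mul (hβint.pow i))) ?_
    intro y hy
    obtain ⟨w, hw⟩ := hx'tr (β ^ i * algebraMap L L' y) ((hβint.pow i).mul hy.algebraMap)
    refine ⟨w, ?_⟩
    have e1 : Algebra.trace L L' (x' * β ^ i) * y
        = Algebra.trace L L' (x' * (β ^ i * algebraMap L L' y)) := by
      have h1 := (Algebra.trace L L').map_smul y (x' * β ^ i)
      rw [smul_eq_mul, Algebra.smul_def] at h1
      rw [mul_comm _ y, ← h1]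
      congr 1
      ring
    rw [← hw, e1, Algebra.trace_trace]
  choose z hzint hz using hT
  -- relate `Tr(x' θ^i)` and `T i`
  have hTb : ∀ i : ℕ, Algebra.trace L L' (x' * β ^ i) = b ^ i * Algebra.trace L L' (x' * θ ^ i) := by
    intro i
    have h1 := (Algebra.trace L L').map_smul (b ^ i) (x' * θ ^ i)
    rw [smul_eq_mul, Algebra.smul_def] at h1
    rw [← h1, hβ, mul_pow, map_pow]
    congr 1
    ring
  set y' : L' := ∑ i ∈ Finset.range p,
    algebraMap L L' (z i) * (algebraMap L L' b ^ (p - 1 - i) * algebraMap L L' d ^ (p - 1 - i)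
      * δ ^ i) with hy'
  have hy'int : IsIntegral A y' := by
    refine IsIntegral.sum _ fun i _ => ?_
    exact (hzint i).algebraMap.mul (((hbL'.pow _).mul (hdL'.pow _)).mul (hδint.pow i))
  refine hNZD x' y' hx' hy'int ?_
  have hbL'0 : algebraMap L L' b ≠ 0 := by
    have := hinj.ne hb0
    simpa using this
  have hπ : algebraMap A L' π = algebraMap L L' (algebraMap A L π) :=
    IsScalarTower.algebraMap_apply A L L' π
  calc algebraMap L L' ((p : L) * (b * d) ^ (p - 1)) * x'
      = algebraMap L L' ((b * d) ^ (p - 1)) * ((p : L') * x') := by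
        rw [map_mul, map_natCast]; ring
    _ = ∑ i ∈ Finset.range p, algebraMap L L' ((b * d) ^ (p - 1)) *
          (algebraMap L L' (Algebra.trace L L' (x' * θ ^ i)) * (θ⁻¹) ^ i) := by
        rw [hid x', Finset.mul_sum]
    _ = ∑ i ∈ Finset.range p, algebraMap A L' π * (algebraMap L L' (z i) *
          (algebraMap L L' b ^ (p - 1 - i) * algebraMap L L' d ^ (p - 1 - i) * δ ^ i)) := by
        refine Finset.sum_congr rfl fun i hi => ?_
        have hi' : i ≤ p - 1 := Nat.le_pred_of_lt (Finset.mem_range.mp hi)
        have e1 : algebraMap L L' (algebraMap A L π) * algebraMap L L' (z i)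
            = algebraMap L L' b ^ i * algebraMap L L' (Algebra.trace L L' (x' * θ ^ i)) := by
          rw [← map_mul, ← hz i, hTb i, map_mul, map_pow]
        have e2 : algebraMap L L' b ^ (p - 1) = algebraMap L L' b ^ (p - 1 - i) * algebraMap L L' b ^ i := by
          rw [← pow_add, Nat.sub_add_cancel hi']
        have e3 : algebraMap L L' d ^ (p - 1) = algebraMap L L' d ^ (p - 1 - i) * algebraMap L L' d ^ i := by
          rw [← pow_add, Nat.sub_add_cancel hi']
        have e4 : algebraMap L L' ((b * d) ^ (p - 1))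
            = algebraMap L L' b ^ (p - 1 - i) * algebraMap L L' b ^ i
              * (algebraMap L L' d ^ (p - 1 - i) * algebraMap L L' d ^ i) := by
          rw [mul_pow, map_mul, map_pow, map_pow, e2, e3]
        rw [hπ, ← mul_assoc (algebraMap L L' (algebraMap A L π)), e1, hδ, e4, mul_pow]
        ring
    _ = algebraMap A L' π * y' := by rw [hy', Finset.mul_sum]

/-- **Unit case**: if `g` is a unit of the integral closure and `p` is invertible in it, no
further hypothesis is needed. -/
theorem tsd_kummer_of_unit (p : ℕ) [Fact p.Prime] (ζ : L) (hζ : IsPrimitiveRoot ζ p) (π : A)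
    (g : L) (hnp : ∀ w : L, w ^ p ≠ g) [IsSplittingField L L' (X ^ p - C g)]
    (hg : IsIntegral A g) (hg' : IsIntegral A g⁻¹) (hp : IsIntegral A ((p : L)⁻¹))
    (hL : TSD A K L π) : TSD A K L' π := by
  have hpp : p.Prime := Fact.out
  have hg0 : g ≠ 0 := by
    rintro rfl
    exact hnp 0 (zero_pow hpp.ne_zero)
  have hp0 : (p : L) ≠ 0 := by
    have : NeZero p := ⟨hpp.ne_zero⟩
    exact (hζ.neZero').ne
  refine tsd_kummer p ζ hζ π g hnp 1 g isIntegral_one hg (one_mul g).symm one_ne_zero hg0 ?_ hL
  intro x' y' _ hy' h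
  set t : L := (p : L) * (1 * g) ^ (p - 1) with ht
  have ht0 : t ≠ 0 := mul_ne_zero hp0 (pow_ne_zero _ (by rw [one_mul]; exact hg0))
  have htinv : IsIntegral A t⁻¹ := by
    rw [ht, one_mul, mul_inv, ← inv_pow]
    exact hp.mul (hg'.pow _)
  refine ⟨algebraMap L L' t⁻¹ * y', htinv.algebraMap.mul hy', ?_⟩
  have ht0' : algebraMap L L' t ≠ 0 := by
    have := (algebraMap L L').injective.ne ht0
    simpa using this
  calc x' = algebraMap L L' t⁻¹ * (algebraMap L L' t * x') := by
        rw [← mul_assoc, ← map_mul, inv_mul_cancel₀ ht0, map_one, one_mul]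
    _ = algebraMap A L' π * (algebraMap L L' t⁻¹ * y') := by rw [h]; ring

end Fermat.Agent.S30.Model.KummerPersist
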