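import Mathlib
import Fermat.Agent.S30.Model.Defs
import Fermat.Agent.S30.Model.GlueChart
import Fermat.Agent.S30.Model.KummerPersist
import Fermat.Agent.S30.Model.ChartInst
import Fermat.Agent.Lib.NormalFree

/-!
# MODEL THEOREM, row `kummer_persist` (helper101)

`O` a domain with fraction field `E` of characteristic zero, `L / E(u)` finite, `u` transcendental.
Hypotheses (i) `GaussTSD π u` and (ii) `HorizTSD S u` (trace-self-duality of the integral closure
of `O[u]` at `π`, resp. of `E[u]` at every irreducible `f(u)` outside `S`), and finiteness, pass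
to the Kummer extension `L' = L(g^{1/p})` when

* `g ≡ 1` at the Gauss valuation (`GaussOne π u g`: `g b = b + π a`, `π ∤ b`), `π` is prime in the
  integral closure of `O[u]` in `L` (`hprime` = Model Theorem (a) for `L`), `p` a unit of `O`;
* `g` is locally at every closed point `f` a `p`-th power times a unit (`LocPow`).

The hypotheses `hg1`, `hgu` are the LITERAL BODIES of `Model.GaussOne π u g` and
`Model.LocPow p u g` (so `(h : GaussOne π u g)` and `(h : LocPow p u g)` typecheck against them;
this file does not import the skeleton `Model/Main.lean`).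

* `kummer_persist`   : binders of the row `Assembly.kummer_persist` (`LocPow` at every `f`);
* `kummer_persist_S` : the same with `LocPow` only required at the `f` not of the form `X - c`,
  `c ∈ S` (weaker hypothesis), and without the unused hypotheses;
* `gaussTSD_kummer`, `horizTSD_kummer_at` : the two halves, separately;
* `tsd_of_tsdAt`, `tsdAt_of_tsd` : bridges `Model.TSDAt` ↔ `KummerPersist.TSD`.

Proof: `KummerPersist.tsd_kummer` (Galois descent of the trace form along the `p` eigenspaces)
with the non-zero-divisor hypothesis supplied by `NormalFree.exists_isIntegral_smul_eq`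
(Gauss prime: over the integral closure `C₀` of `O[u]` in `L`, where `π` is prime by `hprime`,
`t = p (b d)^(p-1)`; horizontal prime `f`: over `E[u]`, after replacing `g` by `ε = g / τ^p`).
-/

set_option autoImplicit false
set_option linter.style.haveILetI false

open Polynomial

namespace Fermat.Agent.S30.Model.KummerRows

open Fermat.Agent.S30.Model

section Bridge

variable {E L : Type*} [Field E] [Field L] [Algebra E L]

/-- `TSDAt` (elementwise form) implies `KummerPersist.TSD` (type form). -/
theorem tsd_of_tsdAt {A₀ : Type*} [CommRing A₀] [Algebra A₀ L]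
    (K : IntermediateField E L) (D : Subalgebra A₀ L) [Algebra D K] [IsScalarTower D K L]
    (q : D) (h : TSDAt K D (q : L)) : KummerPersist.TSD D K L q := by
  intro x hx H
  obtain ⟨z, hz, hxz⟩ := h x hx (fun y hy => by
    obtain ⟨w, hw⟩ := H y hy
    refine ⟨(w : L), w.2, ?_⟩
    rw [hw]
    exact (IsScalarTower.algebraMap_apply D K L (q * w)).symm)
  exact ⟨z, hz, hxz⟩

variable {L' : Type*} [Field L'] [Algebra L L'] [Algebra E L'] [IsScalarTower E L L']

/-- Finite-dimensionality over the image of an intermediate field. -/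
theorem finiteDimensional_map (K : IntermediateField E L) (K' : IntermediateField E L')
    (hK' : K.map (IsScalarTower.toAlgHom E L L') = K') [FiniteDimensional K L']:
    FiniteDimensional K' L' := by
  subst hK'
  exact Module.Finite.of_equiv_equiv
    (IntermediateField.equivMap K (IsScalarTower.toAlgHom E L L')).toRingEquiv (RingEquiv.refl L')
    (RingHom.ext fun k => rfl)

/-- `KummerPersist.TSD` over `D ⊆ L` for the big field `L'` gives `TSDAt` for the images of
`K` and `D` in `L'`. -/
theorem tsdAt_of_tsd {A₀ : Type*} [CommRing A₀] [Algebra A₀ L] [Algebra A₀ L']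
    [IsScalarTower A₀ L L']
    (K : IntermediateField E L) (D : Subalgebra A₀ L) [Algebra D K] [IsScalarTower D K L]
    (K' : IntermediateField E L') (D' : Subalgebra A₀ L')
    (hK' : K.map (IsScalarTower.toAlgHom E L L') = K')
    (hD' : D.map (IsScalarTower.toAlgHom A₀ L L') = D')
    (q : D) (h : KummerPersist.TSD D K L' q) : TSDAt K' D' (algebraMap L L' (q : L)) := by
  subst hK' hD'
  -- the surjection `D → D'`
  let φ : D →+* D.map (IsScalarTower.toAlgHom A₀ L L') :=
    { toFun := fun a => ⟨algebraMap L L' (a : L), ⟨a, a.2, rfl⟩⟩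
      map_one' := Subtype.ext (map_one _)
      map_mul' := fun x y => Subtype.ext (map_mul _ _ _)
      map_zero' := Subtype.ext (map_zero _)
      map_add' := fun x y => Subtype.ext (map_add _ _ _) }
  have hφsurj : Function.Surjective φ := by
    rintro ⟨y, a, ha, rfl⟩
    exact ⟨⟨a, ha⟩, rfl⟩
  letI : Algebra D (D.map (IsScalarTower.toAlgHom A₀ L L')) := φ.toAlgebra
  haveI : IsScalarTower D (D.map (IsScalarTower.toAlgHom A₀ L L')) L' :=
    IsScalarTower.of_algebraMap_eq (fun _ => rfl)
  haveI : Algebra.IsIntegral D (D.map (IsScalarTower.toAlgHom A₀ L L')) :=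
    Algebra.isIntegral_of_surjective hφsurj
  have hint : ∀ x : L', IsIntegral (D.map (IsScalarTower.toAlgHom A₀ L L')) x ↔ IsIntegral D x :=
    fun x => ⟨fun h => isIntegral_trans x h, fun h => h.tower_top⟩
  intro x' hx' H
  obtain ⟨z, hz, hxz⟩ := h x' ((hint x').1 hx') (fun y' hy' => by
    obtain ⟨w', ⟨w, hw, rfl⟩, hw'⟩ := H y' ((hint y').2 hy')
    refine ⟨⟨w, hw⟩, ?_⟩
    have htr := Algebra.trace_eq_of_ringEquiv (C := L')
      (IntermediateField.equivMap K (IsScalarTower.toAlgHom E L L')).toRingEquiv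
      (RingHom.ext fun k => rfl) (x' * y')
    apply Subtype.ext
    apply (algebraMap L L').injective
    have h1 : algebraMap L L' ((Algebra.trace K L' (x' * y') : K) : L) =
        ((Algebra.trace (K.map (IsScalarTower.toAlgHom E L L')) L' (x' * y') :
          K.map (IsScalarTower.toAlgHom E L L')) : L') := by
      rw [← htr]; rfl
    rw [h1, hw']
    have h2 : ((algebraMap D K (q * (⟨w, hw⟩ : D)) : K) : L) = (q : L) * w :=
      (IsScalarTower.algebraMap_apply D K L (q * (⟨w, hw⟩ : D))).symm
    rw [h2, map_mul]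
    rfl)
  exact ⟨z, (hint z).2 hz, hxz⟩

theorem map_adjoin_simple (u : L) :
    (IntermediateField.adjoin E {u}).map (IsScalarTower.toAlgHom E L L') =
      IntermediateField.adjoin E {algebraMap L L' u} := by
  rw [IntermediateField.adjoin_map, Set.image_singleton]
  rfl

theorem map_algebra_adjoin {A₀ : Type*} [CommRing A₀] [Algebra A₀ L] [Algebra A₀ L']
    [IsScalarTower A₀ L L'] (u : L) :
    (Algebra.adjoin A₀ {u}).map (IsScalarTower.toAlgHom A₀ L L') =
      Algebra.adjoin A₀ {algebraMap L L' u} := by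
  rw [AlgHom.map_adjoin, Set.image_singleton]
  rfl

end Bridge

section Gauss

variable {O E L : Type*} [CommRing O] [IsDomain O]
  [Field E] [Algebra O E] [IsFractionRing O E]
  [Field L] [Algebra E L] [Algebra O L] [IsScalarTower O E L]

/-- Persistence of hypothesis (i) (Gauss prime) under the Kummer extension. -/
theorem gaussTSD_kummer (π : O) (u : L)
    [FiniteDimensional (IntermediateField.adjoin E {u}) L]
    (hi : GaussTSD (E := E) π u)
    (hprime : Prime (GlueChart.piElt (Algebra.adjoin O {u}) π))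
    (p : ℕ) (hp : p.Prime) (hpO : IsUnit (p : O)) (ζ : O) (hζ : IsPrimitiveRoot ζ p)
    (g : L)
    (hg1 : ∃ a b : L, IsIntegral (Algebra.adjoin O {u}) a ∧ IsIntegral (Algebra.adjoin O {u}) b ∧
      (∀ c : L, IsIntegral (Algebra.adjoin O {u}) c → b ≠ algebraMap O L π * c) ∧
      g * b = b + algebraMap O L π * a)
    (hnp : ∀ h : L, h ^ p ≠ g)
    (L' : Type*) [Field L'] [Algebra L L'] [Algebra E L'] [Algebra O L']
    [IsScalarTower E L L'] [IsScalarTower O E L'] [IsSplittingField L L' (X ^ p - C g)] :
    GaussTSD (E := E) π (algebraMap L L' u) := by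
  classical
  haveI : Fact p.Prime := ⟨hp⟩
  haveI hOLL' : IsScalarTower O L L' := IsScalarTower.of_algebraMap_eq (fun x => by
    rw [IsScalarTower.algebraMap_apply O E L', IsScalarTower.algebraMap_apply E L L',
      ← IsScalarTower.algebraMap_apply O E L])
  have hinjOL : Function.Injective (algebraMap O L) := by
    rw [IsScalarTower.algebraMap_eq O E L]
    exact (algebraMap E L).injective.comp (IsFractionRing.injective O E)
  set K : IntermediateField E L := IntermediateField.adjoin E {u} with hK
  set D : Subalgebra O L := Algebra.adjoin O {u} with hD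
  have huK : u ∈ K := IntermediateField.mem_adjoin_simple_self E u
  letI : Algebra D K := (ChartInst.incl O u K huK).toAlgebra
  haveI : IsScalarTower D K L := ChartInst.isScalarTower_incl O u K huK
  haveI : IsFractionRing D K := ChartInst.isFractionRing_incl O u K huK le_rfl
  haveI : IsFractionRing (integralClosure D L) L :=
    integralClosure.isFractionRing_of_finite_extension K L
  haveI : IsIntegrallyClosed (integralClosure D L) :=
    integralClosure.isIntegrallyClosedOfFiniteExtension K
  haveI : IsScalarTower D (integralClosure D L) L' :=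
    IsScalarTower.of_algebraMap_eq (fun _ => rfl)
  haveI : IsScalarTower (integralClosure D L) L L' :=
    IsScalarTower.of_algebraMap_eq (fun _ => rfl)
  obtain ⟨a, b, ha, hb, hπb, hgb⟩ := hg1
  set q : D := algebraMap O D π with hq
  have hL : KummerPersist.TSD D K L q := tsd_of_tsdAt K D q hi
  have hg0 : g ≠ 0 := fun h0 => hnp 0 (by rw [h0, zero_pow hp.ne_zero])
  have hb0 : b ≠ 0 := fun h0 => hπb 0 isIntegral_zero (by rw [h0, mul_zero])
  have hπint : IsIntegral D (algebraMap O L π) :=
    (isIntegral_algebraMap : IsIntegral D (algebraMap D L q))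
  have hd : IsIntegral D (b + algebraMap O L π * a) := hb.add (hπint.mul ha)
  have hbd : b + algebraMap O L π * a = b * g := by rw [← hgb, mul_comm]
  have hd0 : b + algebraMap O L π * a ≠ 0 := by rw [hbd]; exact mul_ne_zero hb0 hg0
  have hζL : IsPrimitiveRoot (algebraMap O L ζ) p := hζ.map_of_injective hinjOL
  -- constants in `C₀`
  let κ : O →+* integralClosure D L :=
    (algebraMap D (integralClosure D L)).comp (algebraMap O D)
  have hpC : IsUnit ((p : ℕ) : integralClosure D L) := by
    have := hpO.map κ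
    rwa [map_natCast] at this
  have hbC : ¬ GlueChart.piElt D π ∣ (⟨b, hb⟩ : integralClosure D L) := by
    intro hdvd
    obtain ⟨w, hw, hbw⟩ := (GlueChart.piElt_dvd_iff D π ⟨b, hb⟩).1 hdvd
    exact hπb w hw hbw
  have hdC : ¬ GlueChart.piElt D π ∣
      (⟨b + algebraMap O L π * a, hd⟩ : integralClosure D L) := by
    intro hdvd
    apply hbC
    have e : (⟨b + algebraMap O L π * a, hd⟩ : integralClosure D L) =
        ⟨b, hb⟩ + GlueChart.piElt D π * ⟨a, ha⟩ := Subtype.ext rfl
    rw [e] at hdvd
    exact (dvd_add_left (dvd_mul_right _ _)).1 hdvd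
  set t : integralClosure D L :=
    (p : integralClosure D L) * (⟨b, hb⟩ * ⟨b + algebraMap O L π * a, hd⟩) ^ (p - 1) with ht
  have htC : ¬ GlueChart.piElt D π ∣ t := by
    intro hdvd
    rcases hprime.dvd_or_dvd hdvd with h1 | h1
    · exact hprime.not_isUnit (isUnit_of_dvd_unit h1 hpC)
    · rcases hprime.dvd_or_dvd (hprime.dvd_of_dvd_pow h1) with h2 | h2
      · exact hbC h2
      · exact hdC h2
  have htL : (t : L) = (p : L) * (b * (b + algebraMap O L π * a)) ^ (p - 1) := by
    rw [ht]
    push_cast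
    rfl
  have hNZD : ∀ x' y' : L', IsIntegral D x' → IsIntegral D y' →
      algebraMap L L' ((p : L) * (b * (b + algebraMap O L π * a)) ^ (p - 1)) * x' =
        algebraMap D L' q * y' →
      ∃ z : L', IsIntegral D z ∧ x' = algebraMap D L' q * z := by
    intro x' y' hx' hy' h
    have h' : t • x' = GlueChart.piElt D π • y' := by
      rw [Algebra.smul_def, Algebra.smul_def]
      show algebraMap L L' (t : L) * x' = algebraMap L L' (algebraMap O L π) * y'
      rw [htL]
      exact h
    obtain ⟨z, hz, hxz⟩ := Fermat.Agent.Lib.NormalFree.exists_isIntegral_smul_eq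
      (R := integralClosure D L) L hprime htC hx'.tower_top hy'.tower_top h'
    refine ⟨z, isIntegral_trans z hz, ?_⟩
    rw [hxz, Algebra.smul_def]
    rfl
  have hT : KummerPersist.TSD D K L' q :=
    KummerPersist.tsd_kummer p (algebraMap O L ζ) hζL q g hnp b (b + algebraMap O L π * a)
      hb hd hbd hb0 hd0 hNZD hL
  have key := tsdAt_of_tsd K D (IntermediateField.adjoin E {algebraMap L L' u})
    (Algebra.adjoin O {algebraMap L L' u}) (map_adjoin_simple u) (map_algebra_adjoin u) q hT
  have e : algebraMap L L' (q : L) = algebraMap O L' π :=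
    (IsScalarTower.algebraMap_apply O L L' π).symm
  rw [e] at key
  exact key

end Gauss

section Horiz

variable {E L : Type*} [Field E] [CharZero E] [Field L] [Algebra E L]

/-- Persistence of hypothesis (ii) at one closed point `f` of the affine `u`-line under the
Kummer extension, when `g` is locally at `f` a `p`-th power times a unit. -/
theorem horizTSD_kummer_at (u : L) (hu : Transcendental E u)
    [FiniteDimensional (IntermediateField.adjoin E {u}) L]
    (p : ℕ) (hp : p.Prime) (ζ : E) (hζ : IsPrimitiveRoot ζ p)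
    (g : L) (hnp : ∀ h : L, h ^ p ≠ g)
    (L' : Type*) [Field L'] [Algebra L L'] [Algebra E L']
    [IsScalarTower E L L'] [IsSplittingField L L' (X ^ p - C g)]
    (f : E[X]) (hf : Irreducible f)
    (hT : TSDAt (IntermediateField.adjoin E {u}) (Algebra.adjoin E {u}) (aeval u f))
    (hloc : ∃ τ : L, τ ≠ 0 ∧
      (∃ s : L, s ∈ Algebra.adjoin E {u} ∧ (∀ c : L, c ∈ Algebra.adjoin E {u} → s ≠ aeval u f * c) ∧
        IsIntegral (Algebra.adjoin E {u}) (s * (g / τ ^ p))) ∧
      (∃ s : L, s ∈ Algebra.adjoin E {u} ∧ (∀ c : L, c ∈ Algebra.adjoin E {u} → s ≠ aeval u f * c) ∧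
        IsIntegral (Algebra.adjoin E {u}) (s * (τ ^ p / g)))) :
    TSDAt (IntermediateField.adjoin E {algebraMap L L' u}) (Algebra.adjoin E {algebraMap L L' u})
      (aeval (algebraMap L L' u) f) := by
  classical
  haveI : Fact p.Prime := ⟨hp⟩
  set K : IntermediateField E L := IntermediateField.adjoin E {u} with hK
  set D : Subalgebra E L := Algebra.adjoin E {u} with hD
  have huK : u ∈ K := IntermediateField.mem_adjoin_simple_self E u
  letI : Algebra D K := (ChartInst.incl E u K huK).toAlgebra
  haveI : IsScalarTower D K L := ChartInst.isScalarTower_incl E u K huK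
  haveI : IsFractionRing D K := ChartInst.isFractionRing_incl E u K huK le_rfl
  haveI : IsIntegrallyClosed D := ChartInst.isIntegrallyClosed_adjoin E u hu
  haveI : IsScalarTower D K L' := IsScalarTower.of_algebraMap_eq (fun _ => rfl)
  set q : D := ChartInst.polyEquiv E u hu f with hq
  have hqL : (q : L) = aeval u f := rfl
  have hqprime : Prime q := (MulEquiv.prime_iff (ChartInst.polyEquiv E u hu)).mpr hf.prime
  have hL : KummerPersist.TSD D K L q := tsd_of_tsdAt K D q hT
  obtain ⟨τ, hτ0, ⟨s₁, hs₁D, hs₁q, hint₁⟩, ⟨s₂, hs₂D, hs₂q, hint₂⟩⟩ := hloc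
  have hg0 : g ≠ 0 := fun h0 => hnp 0 (by rw [h0, zero_pow hp.ne_zero])
  set ε : L := g / τ ^ p with hε
  have hε0 : ε ≠ 0 := div_ne_zero hg0 (pow_ne_zero _ hτ0)
  have hεinv : τ ^ p / g = ε⁻¹ := by rw [hε, inv_div]
  have hnpε : ∀ w : L, w ^ p ≠ ε := by
    intro w hw
    apply hnp (w * τ)
    rw [mul_pow, hw, hε, div_mul_cancel₀ _ (pow_ne_zero _ hτ0)]
  -- `L'` is also the splitting field of `X ^ p - ε`
  have hζL : IsPrimitiveRoot (algebraMap E L ζ) p :=
    hζ.map_of_injective (algebraMap E L).injective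
  have hprim : (primitiveRoots p L).Nonempty :=
    ⟨algebraMap E L ζ, (mem_primitiveRoots hp.pos).mpr hζL⟩
  have H : Irreducible (X ^ p - C g) := X_pow_sub_C_irreducible_of_prime hp hnp
  have hθ := rootOfSplitsXPowSubC_pow g L' (n := p)
  set θ : L' := rootOfSplitsXPowSubC hp.pos g L' with hθdef
  have hτ' : algebraMap L L' τ ≠ 0 := (_root_.map_ne_zero _).mpr hτ0
  have hθ₁ : (θ / algebraMap L L' τ) ^ p = algebraMap L L' ε := by
    rw [div_pow, hθ, hε, map_div₀, map_pow]
  haveI : IsSplittingField L L' (X ^ p - C ε) := by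
    constructor
    · rw [Polynomial.map_sub, Polynomial.map_pow, Polynomial.map_C, Polynomial.map_X]
      exact X_pow_sub_C_splits_of_isPrimitiveRoot
        (hζL.map_of_injective (algebraMap L L').injective) hθ₁
    · rw [eq_top_iff, ← Algebra.adjoin_root_eq_top_of_isSplittingField hprim H hθ]
      apply Algebra.adjoin_le
      rw [Set.singleton_subset_iff]
      have e : θ = algebraMap L L' τ * (θ / algebraMap L L' τ) := by field_simp
      rw [e]
      refine Subalgebra.mul_mem _ (Subalgebra.algebraMap_mem _ τ) (Algebra.subset_adjoin ?_)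
      rw [mem_rootSet_of_ne (X_pow_sub_C_ne_zero hp.pos ε), aeval_def, eval₂_sub, eval₂_X_pow,
        eval₂_C, hθ₁, sub_self]
  -- integrality data
  have hb : IsIntegral D s₁ :=
    (isIntegral_algebraMap : IsIntegral D (algebraMap D L ⟨s₁, hs₁D⟩))
  have hb0 : s₁ ≠ 0 := fun h0 => hs₁q 0 (zero_mem _) (by rw [h0, mul_zero])
  have hd0 : s₁ * ε ≠ 0 := mul_ne_zero hb0 hε0
  -- the multiplier `s = p s₁^(2(p-1)) s₂^(p-1)` is prime to `q`
  set s : D := algebraMap E D (p : E) *
    ((⟨s₁, hs₁D⟩ : D) ^ (2 * (p - 1)) * (⟨s₂, hs₂D⟩ : D) ^ (p - 1)) with hs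
  have hsL : (s : L) = (p : L) * (s₁ ^ (2 * (p - 1)) * s₂ ^ (p - 1)) := by
    rw [hs]
    show algebraMap E L (p : E) * (s₁ ^ (2 * (p - 1)) * s₂ ^ (p - 1)) = _
    rw [map_natCast]
  have hsq : ¬ q ∣ s := by
    intro hdvd
    rcases hqprime.dvd_or_dvd hdvd with h1 | h1
    · have hu' : IsUnit (algebraMap E D (p : E)) :=
        (IsUnit.mk0 _ (Nat.cast_ne_zero.mpr hp.ne_zero)).map _
      exact hqprime.not_isUnit (isUnit_of_dvd_unit h1 hu')
    · rcases hqprime.dvd_or_dvd h1 with h2 | h2
      · obtain ⟨c, hc⟩ := hqprime.dvd_of_dvd_pow h2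
        exact hs₁q c c.2 (congrArg Subtype.val hc)
      · obtain ⟨c, hc⟩ := hqprime.dvd_of_dvd_pow h2
        exact hs₂q c c.2 (congrArg Subtype.val hc)
  have hNZD : ∀ x' y' : L', IsIntegral D x' → IsIntegral D y' →
      algebraMap L L' ((p : L) * (s₁ * (s₁ * ε)) ^ (p - 1)) * x' = algebraMap D L' q * y' →
      ∃ z : L', IsIntegral D z ∧ x' = algebraMap D L' q * z := by
    intro x' y' hx' hy' h
    have hy'' : IsIntegral D (algebraMap L L' ((s₂ * (τ ^ p / g)) ^ (p - 1)) * y') :=
      ((hint₂.pow (p - 1)).algebraMap).mul hy'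
    have hεε : (ε⁻¹) ^ (p - 1) * ε ^ (p - 1) = 1 := by
      rw [← mul_pow, inv_mul_cancel₀ hε0, one_pow]
    have e0 : (s : L) = (s₂ * (τ ^ p / g)) ^ (p - 1) * ((p : L) * (s₁ * (s₁ * ε)) ^ (p - 1)) := by
      rw [hsL, hεinv]
      calc (p : L) * (s₁ ^ (2 * (p - 1)) * s₂ ^ (p - 1))
          = (p : L) * (s₁ ^ (2 * (p - 1)) * s₂ ^ (p - 1)) * ((ε⁻¹) ^ (p - 1) * ε ^ (p - 1)) := by
            rw [hεε, mul_one]
        _ = (s₂ * ε⁻¹) ^ (p - 1) * ((p : L) * (s₁ * (s₁ * ε)) ^ (p - 1)) := by ring
    have h' : s • x' = q • (algebraMap L L' ((s₂ * (τ ^ p / g)) ^ (p - 1)) * y') := by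
      rw [Algebra.smul_def, Algebra.smul_def]
      show algebraMap L L' (s : L) * x' = _
      rw [e0, map_mul, mul_assoc, h]
      ring
    obtain ⟨z, hz, hxz⟩ := Fermat.Agent.Lib.NormalFree.exists_isIntegral_smul_eq
      (R := D) K hqprime hsq hx' hy'' h'
    exact ⟨z, hz, by rw [hxz, Algebra.smul_def]⟩
  have hT' : KummerPersist.TSD D K L' q :=
    KummerPersist.tsd_kummer p (algebraMap E L ζ) hζL q ε hnpε s₁ (s₁ * ε) hb hint₁ rfl hb0 hd0
      hNZD hL
  have key := tsdAt_of_tsd K D (IntermediateField.adjoin E {algebraMap L L' u})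
    (Algebra.adjoin E {algebraMap L L' u}) (map_adjoin_simple u) (map_algebra_adjoin u) q hT'
  have e : algebraMap L L' (q : L) = aeval (algebraMap L L' u) f := by
    rw [hqL]
    exact (aeval_algebraMap_apply L' u f).symm
  rw [e] at key
  exact key

end Horiz

section Main

variable {O E L : Type*} [CommRing O] [IsDomain O]
  [Field E] [CharZero E] [Algebra O E] [IsFractionRing O E]
  [Field L] [Algebra E L] [Algebra O L] [IsScalarTower O E L]

/-- **ROW `kummer_persist`, general form**: (i), (ii) and finiteness pass to the Kummer extension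
`L' = L(g^{1/p})`; `LocPow` is only needed at the closed points outside `S`. -/
theorem kummer_persist_S (π : O) (u : L) (hu : Transcendental E u)
    [FiniteDimensional (IntermediateField.adjoin E {u}) L]
    (hi : GaussTSD (E := E) π u)
    (S : Finset O)
    (hii : HorizTSD (E := E) S u)
    (hprime : Prime (GlueChart.piElt (Algebra.adjoin O {u}) π))
    (p : ℕ) (hp : p.Prime) (hpO : IsUnit (p : O)) (ζ : O) (hζ : IsPrimitiveRoot ζ p)
    (g : L)
    (hg1 : ∃ a b : L, IsIntegral (Algebra.adjoin O {u}) a ∧ IsIntegral (Algebra.adjoin O {u}) b ∧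
      (∀ c : L, IsIntegral (Algebra.adjoin O {u}) c → b ≠ algebraMap O L π * c) ∧
      g * b = b + algebraMap O L π * a)
    (hgu : ∀ f : E[X], Irreducible f → (∀ c ∈ S, ¬ Associated f (X - C (algebraMap O E c))) →
      ∃ τ : L, τ ≠ 0 ∧
        (∃ s : L, s ∈ Algebra.adjoin E {u} ∧
          (∀ c : L, c ∈ Algebra.adjoin E {u} → s ≠ aeval u f * c) ∧
          IsIntegral (Algebra.adjoin E {u}) (s * (g / τ ^ p))) ∧
        (∃ s : L, s ∈ Algebra.adjoin E {u} ∧
          (∀ c : L, c ∈ Algebra.adjoin E {u} → s ≠ aeval u f * c) ∧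
          IsIntegral (Algebra.adjoin E {u}) (s * (τ ^ p / g))))
    (hnp : ∀ h : L, h ^ p ≠ g)
    (L' : Type*) [Field L'] [Algebra L L'] [Algebra E L'] [Algebra O L']
    [IsScalarTower E L L'] [IsScalarTower O E L'] [IsSplittingField L L' (X ^ p - C g)] :
    FiniteDimensional (IntermediateField.adjoin E {algebraMap L L' u}) L' ∧
    GaussTSD (E := E) π (algebraMap L L' u) ∧
    HorizTSD (E := E) S (algebraMap L L' u) := by
  refine ⟨?_, gaussTSD_kummer π u hi hprime p hp hpO ζ hζ g hg1 hnp L', fun f hf hfS =>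
    horizTSD_kummer_at u hu p hp (algebraMap O E ζ)
      (hζ.map_of_injective (IsFractionRing.injective O E)) g hnp L' f hf (hii f hf hfS)
      (hgu f hf hfS)⟩
  haveI : FiniteDimensional L L' := IsSplittingField.finiteDimensional L' (X ^ p - C g)
  haveI : FiniteDimensional (IntermediateField.adjoin E {u}) L' :=
    FiniteDimensional.trans (IntermediateField.adjoin E {u}) L L'
  exact finiteDimensional_map _ _ (map_adjoin_simple u)

/-- **ROW `Assembly.kummer_persist`** (same binders; `halg`, `hg1`, `hgu` are the literal bodies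
of `AlgClosedIn E L`, `GaussOne π u g`, `LocPow p u g` of `Model/Main.lean`). -/
theorem kummer_persist (π : O) (_hπ : Irreducible π) (u : L) (hu : Transcendental E u)
    [FiniteDimensional (IntermediateField.adjoin E {u}) L]
    (_halg : ∀ x : L, IsAlgebraic E x → x ∈ (algebraMap E L).range)
    (hi : GaussTSD (E := E) π u)
    (S : Finset O) (_hS : ∀ c ∈ S, ∀ c' ∈ S, c ≠ c' → IsUnit (c - c'))
    (hii : HorizTSD (E := E) S u)
    (hprime : Prime (GlueChart.piElt (Algebra.adjoin O {u}) π))
    (p : ℕ) (hp : p.Prime) (hpO : IsUnit (p : O)) (ζ : O) (hζ : IsPrimitiveRoot ζ p)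
    (g : L)
    (hg1 : ∃ a b : L, IsIntegral (Algebra.adjoin O {u}) a ∧ IsIntegral (Algebra.adjoin O {u}) b ∧
      (∀ c : L, IsIntegral (Algebra.adjoin O {u}) c → b ≠ algebraMap O L π * c) ∧
      g * b = b + algebraMap O L π * a)
    (hgu : ∀ f : E[X], Irreducible f →
      ∃ τ : L, τ ≠ 0 ∧
        (∃ s : L, s ∈ Algebra.adjoin E {u} ∧
          (∀ c : L, c ∈ Algebra.adjoin E {u} → s ≠ aeval u f * c) ∧
          IsIntegral (Algebra.adjoin E {u}) (s * (g / τ ^ p))) ∧
        (∃ s : L, s ∈ Algebra.adjoin E {u} ∧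
          (∀ c : L, c ∈ Algebra.adjoin E {u} → s ≠ aeval u f * c) ∧
          IsIntegral (Algebra.adjoin E {u}) (s * (τ ^ p / g))))
    (hnp : ∀ h : L, h ^ p ≠ g)
    (L' : Type*) [Field L'] [Algebra L L'] [Algebra E L'] [Algebra O L']
    [IsScalarTower E L L'] [IsScalarTower O E L'] [IsSplittingField L L' (X ^ p - C g)] :
    FiniteDimensional (IntermediateField.adjoin E {algebraMap L L' u}) L' ∧
    GaussTSD (E := E) π (algebraMap L L' u) ∧
    HorizTSD (E := E) S (algebraMap L L' u) :=
  kummer_persist_S π u hu hi S hii hprime p hp hpO ζ hζ g hg1 (fun f hf _ => hgu f hf) hnp L'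

end Main

end Fermat.Agent.S30.Model.KummerRows
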