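import Mathlib
import Fermat.Agent.S30.Model.LocalNB
import Fermat.Agent.S30.Model.ChartLD

/-!
# MODEL THEOREM, branch point: from the local ring `R = A_x` to the global chart form

`LocalBranchStatement` : the branch-point local theorem over a two-dimensional local base `R`
with maximal ideal `(π, τ)`, the discriminant of the integral closure dividing a power of `τ`.

`branchStatement_of_local` : `LocalBranchStatement → ChartLD.BranchStatement`, i.e. the passage
`A → R = A_x` (`x = M ∩ A = (π, τ)`): the localisation plumbing of `LocalNB.ldAt_of_tsdField`,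
`LocalDisc.discr_dvd_pow` with `a₀ = τ`, and `LocalDomain.ldAt_of_isLocalization`.
-/

set_option autoImplicit false

namespace Fermat.Agent.S30.Model.BranchGlue

open Fermat.Agent.S30.Model

universe u

/-- **The branch-point local theorem over the local ring `R`** (`R = A_x`, `𝔪_R = (π, τ)`). -/
def LocalBranchStatement : Prop :=
  ∀ (R K L : Type u) [CommRing R] [IsDomain R] [IsLocalRing R] [IsNoetherianRing R]
    [IsIntegrallyClosed R] [Field K] [Algebra R K] [IsFractionRing R K] [CharZero K]
    [Field L] [Algebra K L] [Algebra R L] [IsScalarTower R K L] [FiniteDimensional K L]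
    [Algebra.IsSeparable K L]
    [Module.Free R (integralClosure R L)] [Module.Finite R (integralClosure R L)]
    (π τ : R) (_ : Prime π) (_ : Prime τ) (_ : ¬ π ∣ τ)
    [IsPrincipalIdealRing (R ⧸ Ideal.span {π})]
    (_ : IsLocalRing.maximalIdeal R = Ideal.span {π, τ})
    (_ : ∀ n : ℕ, n ≠ 0 → ¬ τ ∣ (n : R))
    (_ : ∃ n : ℕ, Algebra.discr R (Module.Free.chooseBasis R (integralClosure R L)) ∣ τ ^ n)
    (M : Ideal (integralClosure R L)) (_ : M.IsMaximal)
    (_ : algebraMap R (integralClosure R L) π ∈ M),
    LocalDomain.LDAt (algebraMap R (integralClosure R L) π) M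

/-- Divisibility by a prime element of `x` is reflected by `A → A_x`. -/
theorem dvd_of_algebraMap_dvd {A R : Type*} [CommRing A] [IsDomain A] [CommRing R] [Algebra A R]
    (x : Ideal A) [x.IsPrime] [IsLocalization.AtPrime R x] {p a : A} (hp : Prime p)
    (hpx : p ∈ x) (h : algebraMap A R p ∣ algebraMap A R a) : p ∣ a := by
  obtain ⟨c, hc⟩ := h
  obtain ⟨⟨b, s⟩, hbs⟩ := IsLocalization.surj x.primeCompl c
  have h1 : algebraMap A R (a * s) = algebraMap A R (p * b) := by
    rw [map_mul, map_mul, hc, mul_assoc, hbs]
  have h2 : a * s = p * b := IsLocalization.injective R x.primeCompl_le_nonZeroDivisors h1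
  rcases hp.dvd_or_dvd (Dvd.intro b h2.symm) with h3 | h3
  · exact h3
  · exact absurd (x.mem_of_dvd h3 hpx) s.2

/-- **`A → A_x`**: the global chart form of the branch-point local theorem follows from the
statement over the local ring. -/
theorem branchStatement_of_local (hloc : LocalBranchStatement.{u}) :
    ChartLD.BranchStatement.{u} := by
  intro A K L _ _ _ _ _ _ _ _ _ _ _ _ _ _ _ π τ hπ hτ hπτ _ hmax hchar M hM hπM hτM h
  classical
  have hinjK : Function.Injective (algebraMap A K) := IsFractionRing.injective A K
  have hinj : Function.Injective (algebraMap A L) := by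
    rw [IsScalarTower.algebraMap_eq A K L]
    exact (algebraMap K L).injective.comp hinjK
  set x : Ideal A := M.comap (algebraMap A (integralClosure A L)) with hx
  have hxmax : x.IsMaximal := Ideal.isMaximal_comap_of_isIntegral_of_isMaximal M
  have hπx : π ∈ x := Ideal.mem_comap.mpr hπM
  have hτx : τ ∈ x := Ideal.mem_comap.mpr hτM
  have hxeq : Ideal.span {π, τ} = x := by
    refine hmax.eq_of_le hxmax.ne_top ?_
    rw [Ideal.span_le]
    rintro y (rfl | rfl)
    · exact hπx
    · exact hτx
  have hunitK : ∀ y : x.primeCompl, IsUnit (algebraMap A K y) := fun y =>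
    IsUnit.mk0 _ ((map_ne_zero_iff _ hinjK).mpr (fun h0 => y.2 (h0 ▸ x.zero_mem)))
  have hunit : ∀ y : x.primeCompl, IsUnit (algebraMap A L y) := fun y =>
    IsUnit.mk0 _ ((map_ne_zero_iff _ hinj).mpr (fun h0 => y.2 (h0 ▸ x.zero_mem)))
  let R := Localization.AtPrime x
  let algRK : Algebra R K := (IsLocalization.lift (M := x.primeCompl) hunitK).toAlgebra
  have towerARK : IsScalarTower A R K := IsScalarTower.of_algebraMap_eq fun a => by
    simp [RingHom.algebraMap_toAlgebra, R]
  have fracR : IsFractionRing R K :=
    IsFractionRing.isFractionRing_of_isDomain_of_isLocalization x.primeCompl R K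
  let algRL : Algebra R L := ((algebraMap K L).comp (algebraMap R K)).toAlgebra
  have towerRKL : IsScalarTower R K L := IsScalarTower.of_algebraMap_eq fun a => rfl
  have towerARL : IsScalarTower A R L := IsScalarTower.of_algebraMap_eq fun a => by
    rw [RingHom.algebraMap_toAlgebra, RingHom.comp_apply, ← IsScalarTower.algebraMap_apply A R K,
      ← IsScalarTower.algebraMap_apply A K L]
  have domR : IsDomain R := IsLocalization.isDomain_of_atPrime R x
  have locR : IsLocalRing R := IsLocalization.AtPrime.isLocalRing R x
  have noethR : IsNoetherianRing R := IsLocalization.isNoetherianRing x.primeCompl R inferInstance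
  have icR : IsIntegrallyClosed R :=
    isIntegrallyClosed_of_isLocalization R x.primeCompl x.primeCompl_le_nonZeroDivisors
  have pirR : IsPrincipalIdealRing (R ⧸ Ideal.span {algebraMap A R π}) :=
    RegLocal.isPrincipalIdealRing_quotient x.primeCompl R π
  have freeC : Module.Free R (integralClosure R L) :=
    RegLocal.free_integralClosure_of_isLocalization_atPrime hπ x hπx R K L
  have finC : Module.Finite R (integralClosure R L) :=
    IsIntegralClosure.finite R K L (integralClosure R L)
  have hπ' : Prime (algebraMap A R π) := RegLocal.prime_algebraMap π x R hπ hπx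
  have hτ' : Prime (algebraMap A R τ) := RegLocal.prime_algebraMap τ x R hτ hτx
  have hπτ' : ¬ algebraMap A R π ∣ algebraMap A R τ := fun hd =>
    hπτ (dvd_of_algebraMap_dvd (R := R) x hπ hπx hd)
  have hmax' : IsLocalRing.maximalIdeal R =
      Ideal.span {algebraMap A R π, algebraMap A R τ} := by
    have h1 : Ideal.map (algebraMap A R) x = IsLocalRing.maximalIdeal R :=
      IsLocalization.AtPrime.map_eq_maximalIdeal x R
    have h2 : Ideal.map (algebraMap A R) (Ideal.span {π, τ}) = Ideal.map (algebraMap A R) x :=
      congrArg (Ideal.map (algebraMap A R)) hxeq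
    rw [← h1, ← h2, Ideal.map_span, Set.image_pair]
  have hchar' : ∀ n : ℕ, n ≠ 0 → ¬ algebraMap A R τ ∣ (n : R) := by
    intro n hn hd
    rw [← map_natCast (algebraMap A R) n] at hd
    exact hchar n hn (dvd_of_algebraMap_dvd (R := R) x hτ hτx hd)
  -- the discriminant divides a power of `τ`
  have hdisc : ∃ n : ℕ,
      Algebra.discr R (Module.Free.chooseBasis R (integralClosure R L)) ∣
        algebraMap A R τ ^ n := by
    refine LocalDisc.discr_dvd_pow (K := K) (L := L) x _ τ fun p hp hpx => ?_
    by_cases hass : Associated p τ
    · exact Or.inl hass.dvd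
    · exact Or.inr (h p hp (Ideal.mem_comap.mp hpx) hass)
  -- the localisation of the integral closure
  let algCC : Algebra (integralClosure A L) (integralClosure R L) :=
    (RegLocal.integralClosureMap (A := A) (L := L) R).toAlgebra
  have tower2 : IsScalarTower (integralClosure A L) (integralClosure R L) L :=
    IsScalarTower.of_algebraMap_eq fun c => rfl
  have tower3 : IsScalarTower A (integralClosure A L) (integralClosure R L) :=
    IsScalarTower.of_algebraMap_eq fun a => Subtype.ext rfl
  have hLL : IsLocalization (Algebra.algebraMapSubmonoid L x.primeCompl) L := by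
    apply IsLocalization.self
    rintro _ ⟨y, hy, rfl⟩
    exact hunit ⟨y, hy⟩
  have hloc' : IsLocalization (Algebra.algebraMapSubmonoid (integralClosure A L) x.primeCompl)
      (integralClosure R L) :=
    IsLocalization.integralClosure (S := L) (Rf := R) (Sf := L) x.primeCompl
  have hπeq : algebraMap (integralClosure A L) (integralClosure R L)
      (algebraMap A (integralClosure A L) π) =
      algebraMap R (integralClosure R L) (algebraMap A R π) := by
    apply Subtype.ext
    change algebraMap A L π = algebraMap R L (algebraMap A R π)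
    rw [← IsScalarTower.algebraMap_apply]
  -- the local statement
  have hLD' : ∀ M' : Ideal (integralClosure R L), M'.IsMaximal →
      algebraMap (integralClosure A L) (integralClosure R L)
        (algebraMap A (integralClosure A L) π) ∈ M' →
      LocalDomain.LDAt (algebraMap (integralClosure A L) (integralClosure R L)
        (algebraMap A (integralClosure A L) π)) M' := by
    intro M' hM' hπM'
    rw [hπeq] at hπM' ⊢
    exact hloc R K L (algebraMap A R π) (algebraMap A R τ) hπ' hτ' hπτ' hmax' hchar' hdisc
      M' hM' hπM'
  refine LocalDomain.ldAt_of_isLocalization (C' := integralClosure R L)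
    (Algebra.algebraMapSubmonoid (integralClosure A L) x.primeCompl)
    (algebraMap A (integralClosure A L) π) hLD' M hM ?_ hπM
  rw [Set.disjoint_left]
  rintro _ ⟨y, hy, rfl⟩ hxM
  exact hy (Ideal.mem_comap.mpr hxM)

end Fermat.Agent.S30.Model.BranchGlue
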