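import Mathlib
import Fermat.Agent.Lib.LocalUFD

/-!
# MODEL THEOREM: the Kummer cover of a two-dimensional regular local ring

`R` a Noetherian local domain whose maximal ideal is generated by two prime elements `π`, `τ`
(`π ∤ τ`) with `R ⧸ (π)` a principal ideal ring  (`R = O[u]_(π, u - c)`, `τ = u - c`, or
`R = O[u⁻¹]_(π, u⁻¹)`, `τ = u⁻¹`).   For `e > 0` put `R' = R[s] / (s ^ e - τ)` (`Cover τ e`).
Then `R'` is again a ring of the same kind, with `s` in place of `τ`:

* free over `R` with basis `1, s, …, s ^ (e - 1)`, Noetherian, a domain, local with maximal ideal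
  `(π, s)`;
* `π` is prime in `R'` and `R' ⧸ (π)` is a principal ideal ring;
* `s` is prime in `R'` and `R' ⧸ (s) ≃ R ⧸ (τ)`;
* `R'` is a unique factorisation domain (hence integrally closed);
* `R'` embeds into every field containing `R` and an `e`-th root of `τ`.

This is the ring `R'` that the branch-point local theorems take as a hypothesis.
-/

set_option autoImplicit false
set_option linter.unusedSectionVars false

open Polynomial

namespace Fermat.Agent.S30.Model.KummerCover

section Lemmas

/-- In a Noetherian local ring with principal maximal ideal `(t)`, every nonzero element is a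
unit times a power of `t`. -/
theorem exists_eq_pow_mul_unit {D : Type*} [CommRing D] [IsLocalRing D] [IsNoetherianRing D]
    (t : D) (ht : IsLocalRing.maximalIdeal D = Ideal.span {t}) {a : D} (ha : a ≠ 0) :
    ∃ (n : ℕ) (v : D), IsUnit v ∧ a = t ^ n * v := by
  classical
  have hkrull : ⨅ i : ℕ, IsLocalRing.maximalIdeal D ^ i = ⊥ :=
    Ideal.iInf_pow_eq_bot_of_isLocalRing _ (IsLocalRing.maximalIdeal.isMaximal D).ne_top
  have hex : ∃ n : ℕ, a ∉ IsLocalRing.maximalIdeal D ^ n := by
    by_contra hcon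
    push Not at hcon
    have : a ∈ ⨅ i : ℕ, IsLocalRing.maximalIdeal D ^ i := (Ideal.mem_iInf).2 hcon
    rw [hkrull] at this
    exact ha ((Ideal.mem_bot).1 this)
  have hn0 : Nat.find hex ≠ 0 := by
    intro h0
    have := Nat.find_spec hex
    rw [h0, pow_zero, Ideal.one_eq_top] at this
    exact this Submodule.mem_top
  obtain ⟨m, hm⟩ := Nat.exists_eq_succ_of_ne_zero hn0
  have hmem : a ∈ IsLocalRing.maximalIdeal D ^ m := by
    by_contra hcon
    have := Nat.find_min' hex hcon
    omega
  have hnot : a ∉ IsLocalRing.maximalIdeal D ^ (m + 1) := by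
    have := Nat.find_spec hex
    rwa [hm] at this
  rw [ht, Ideal.span_singleton_pow] at hmem hnot
  obtain ⟨v, hv⟩ := Ideal.mem_span_singleton.1 hmem
  refine ⟨m, v, ?_, hv⟩
  by_contra hvu
  have hvm : v ∈ IsLocalRing.maximalIdeal D := (IsLocalRing.mem_maximalIdeal v).2 hvu
  rw [ht] at hvm
  obtain ⟨w, hw⟩ := Ideal.mem_span_singleton.1 hvm
  apply hnot
  rw [Ideal.mem_span_singleton]
  exact ⟨w, by rw [hv, hw, pow_succ, mul_assoc]⟩

/-- A Noetherian local ring whose maximal ideal is generated by a non-nilpotent element is a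
domain. -/
theorem isDomain_of_maximalIdeal_eq_span {D : Type*} [CommRing D] [IsLocalRing D]
    [IsNoetherianRing D] (t : D) (ht : IsLocalRing.maximalIdeal D = Ideal.span {t})
    (hnil : ∀ n : ℕ, t ^ n ≠ 0) : IsDomain D := by
  have : NoZeroDivisors D := by
    refine ⟨fun {a b} hab => ?_⟩
    by_contra hcon
    push Not at hcon
    obtain ⟨n, v, hv, rfl⟩ := exists_eq_pow_mul_unit t ht hcon.1
    obtain ⟨m, w, hw, rfl⟩ := exists_eq_pow_mul_unit t ht hcon.2
    have h1 : t ^ (n + m) * (v * w) = 0 := by rw [← hab, pow_add]; ring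
    exact hnil (n + m) ((hv.mul hw).mul_left_eq_zero.1 h1)
  exact NoZeroDivisors.to_isDomain D

/-- A Noetherian local domain with principal maximal ideal is a principal ideal ring. -/
theorem isPrincipalIdealRing_of_maximalIdeal_eq_span {D : Type*} [CommRing D] [IsDomain D]
    [IsLocalRing D] [IsNoetherianRing D] (t : D)
    (ht : IsLocalRing.maximalIdeal D = Ideal.span {t}) : IsPrincipalIdealRing D := by
  have h := (tfae_of_isNoetherianRing_of_isLocalRing_of_isDomain (R := D)).out 0 4
  exact h.mpr ⟨⟨t, ht⟩⟩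

end Lemmas

section Basic

variable {R : Type*} [CommRing R]

/-- The Kummer cover `R[s] / (s ^ e - τ)`. -/
abbrev Cover (τ : R) (e : ℕ) : Type _ := AdjoinRoot (X ^ e - C τ : R[X])

/-- The element `s` of the Kummer cover, `s ^ e = τ`. -/
noncomputable abbrev rt (τ : R) (e : ℕ) : Cover τ e := AdjoinRoot.root (X ^ e - C τ : R[X])

theorem rt_pow (τ : R) (e : ℕ) : rt τ e ^ e = algebraMap R (Cover τ e) τ := by
  have h := AdjoinRoot.eval₂_root (X ^ e - C τ : R[X])
  rw [eval₂_sub, eval₂_pow, eval₂_X, eval₂_C] at h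
  rw [AdjoinRoot.algebraMap_eq]
  exact sub_eq_zero.1 h

theorem kummer_monic [Nontrivial R] (τ : R) {e : ℕ} (he : 0 < e) :
    (X ^ e - C τ : R[X]).Monic := monic_X_pow_sub_C τ he.ne'

theorem free [Nontrivial R] (τ : R) {e : ℕ} (he : 0 < e) : Module.Free R (Cover τ e) :=
  Module.Free.of_basis (AdjoinRoot.powerBasis' (kummer_monic τ he)).basis

theorem finite [Nontrivial R] (τ : R) {e : ℕ} (he : 0 < e) : Module.Finite R (Cover τ e) :=
  (AdjoinRoot.powerBasis' (kummer_monic τ he)).finite

/-- The basis `1, s, …, s ^ (e - 1)`. -/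
noncomputable def basis [Nontrivial R] (τ : R) {e : ℕ} (he : 0 < e) :
    Module.Basis (Fin e) R (Cover τ e) :=
  (AdjoinRoot.powerBasis' (kummer_monic τ he)).basis.reindex
    (finCongr (by rw [AdjoinRoot.powerBasis'_dim, natDegree_X_pow_sub_C]))

theorem basis_apply [Nontrivial R] (τ : R) {e : ℕ} (he : 0 < e) (i : Fin e) :
    basis τ he i = rt τ e ^ (i : ℕ) := by
  rw [basis, Module.Basis.reindex_apply, PowerBasis.basis_eq_pow, AdjoinRoot.powerBasis'_gen]
  rfl

/-- Evaluation at `s = 0`, modulo an ideal containing `τ`. -/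
noncomputable def evalZero (τ : R) {e : ℕ} (he : 0 < e) (I : Ideal R) (hτ : τ ∈ I) :
    Cover τ e →+* R ⧸ I :=
  AdjoinRoot.lift (Ideal.Quotient.mk I) 0 (by
    rw [eval₂_sub, eval₂_pow, eval₂_X, eval₂_C, zero_pow he.ne',
      Ideal.Quotient.eq_zero_iff_mem.2 hτ, sub_zero])

theorem evalZero_algebraMap (τ : R) {e : ℕ} (he : 0 < e) (I : Ideal R) (hτ : τ ∈ I) (r : R) :
    evalZero τ he I hτ (algebraMap R (Cover τ e) r) = Ideal.Quotient.mk I r := by
  rw [AdjoinRoot.algebraMap_eq]
  exact AdjoinRoot.lift_of _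

theorem evalZero_rt (τ : R) {e : ℕ} (he : 0 < e) (I : Ideal R) (hτ : τ ∈ I) :
    evalZero τ he I hτ (rt τ e) = 0 :=
  AdjoinRoot.lift_root _

theorem evalZero_surjective (τ : R) {e : ℕ} (he : 0 < e) (I : Ideal R) (hτ : τ ∈ I) :
    Function.Surjective (evalZero τ he I hτ) := by
  intro y
  obtain ⟨r, rfl⟩ := Ideal.Quotient.mk_surjective y
  exact ⟨algebraMap R (Cover τ e) r, evalZero_algebraMap τ he I hτ r⟩

theorem ker_evalZero (τ : R) {e : ℕ} (he : 0 < e) (I : Ideal R) (hτ : τ ∈ I) :
    RingHom.ker (evalZero τ he I hτ) =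
      I.map (algebraMap R (Cover τ e)) ⊔ Ideal.span {rt τ e} := by
  apply le_antisymm
  · intro x hx
    rw [RingHom.mem_ker] at hx
    obtain ⟨g, rfl⟩ := AdjoinRoot.mk_surjective x
    have h1 : evalZero τ he I hτ (AdjoinRoot.mk _ g) = Ideal.Quotient.mk I (g.coeff 0) := by
      rw [evalZero, AdjoinRoot.lift_mk, eval₂_at_zero]
    rw [h1, Ideal.Quotient.eq_zero_iff_mem] at hx
    have h2 : AdjoinRoot.mk (X ^ e - C τ : R[X]) g =
        AdjoinRoot.mk _ (divX g) * rt τ e + algebraMap R (Cover τ e) (g.coeff 0) := by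
      conv_lhs => rw [← divX_mul_X_add g]
      rw [map_add, map_mul, AdjoinRoot.mk_X, AdjoinRoot.mk_C, AdjoinRoot.algebraMap_eq]
    rw [h2]
    refine Ideal.add_mem _ (Ideal.mem_sup_right ?_) (Ideal.mem_sup_left ?_)
    · exact Ideal.mul_mem_left _ _ (Ideal.mem_span_singleton_self _)
    · exact Ideal.mem_map_of_mem _ hx
  · rw [sup_le_iff, Ideal.map_le_iff_le_comap, Ideal.span_le, Set.singleton_subset_iff]
    refine ⟨fun r hr => ?_, ?_⟩
    · rw [Ideal.mem_comap, RingHom.mem_ker, evalZero_algebraMap, Ideal.Quotient.eq_zero_iff_mem]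
      exact hr
    · exact evalZero_rt τ he I hτ

theorem span_rt_eq_ker (τ : R) {e : ℕ} (he : 0 < e) :
    Ideal.span {rt τ e} =
      RingHom.ker (evalZero τ he (Ideal.span {τ}) (Ideal.mem_span_singleton_self τ)) := by
  rw [ker_evalZero, Ideal.map_span, Set.image_singleton]
  refine le_antisymm le_sup_right (sup_le ?_ le_rfl)
  rw [Ideal.span_le, Set.singleton_subset_iff, ← rt_pow, SetLike.mem_coe,
    ← pow_sub_one_mul he.ne' (rt τ e)]
  exact Ideal.mul_mem_left _ _ (Ideal.mem_span_singleton_self _)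

/-- `R' ⧸ (s) ≃ R ⧸ (τ)`. -/
noncomputable def quotRtEquiv (τ : R) {e : ℕ} (he : 0 < e) :
    (Cover τ e ⧸ Ideal.span {rt τ e}) ≃+* R ⧸ Ideal.span {τ} :=
  (Ideal.quotEquivOfEq (span_rt_eq_ker τ he)).trans
    (RingHom.quotientKerEquivOfSurjective (evalZero_surjective τ he _ _))

theorem not_rt_dvd_natCast (τ : R) {e : ℕ} (he : 0 < e)
    (hchar : ∀ n : ℕ, n ≠ 0 → ¬ τ ∣ (n : R)) (n : ℕ) (hn : n ≠ 0) :
    ¬ rt τ e ∣ (n : Cover τ e) := by
  intro hdvd
  have h1 : (n : Cover τ e) ∈ Ideal.span {rt τ e} := Ideal.mem_span_singleton.2 hdvd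
  rw [span_rt_eq_ker τ he, RingHom.mem_ker, map_natCast] at h1
  have h2 : Ideal.Quotient.mk (Ideal.span {τ}) (n : R) = 0 := by rw [map_natCast]; exact h1
  rw [Ideal.Quotient.eq_zero_iff_mem, Ideal.mem_span_singleton] at h2
  exact hchar n hn h2

end Basic

section Local

variable {R : Type*} [CommRing R] [IsDomain R] [IsLocalRing R] [IsNoetherianRing R]

theorem algebraMap_injective (τ : R) {e : ℕ} (he : 0 < e) :
    Function.Injective (algebraMap R (Cover τ e)) := by
  rw [AdjoinRoot.algebraMap_eq]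
  apply AdjoinRoot.of.injective_of_degree_ne_zero
  rw [degree_X_pow_sub_C he]
  exact_mod_cast he.ne'

theorem isNoetherianRing (τ : R) {e : ℕ} (he : 0 < e) : IsNoetherianRing (Cover τ e) := by
  have := finite τ he
  exact isNoetherian_of_tower R (inferInstance : IsNoetherian R (Cover τ e))

/-- `(π, s)` is a maximal ideal of the Kummer cover. -/
theorem isMaximal_span_pair (π τ : R) {e : ℕ} (he : 0 < e)
    (hmax : IsLocalRing.maximalIdeal R = Ideal.span {π, τ}) :
    (Ideal.span {algebraMap R (Cover τ e) π, rt τ e}).IsMaximal := by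
  have hτm : τ ∈ IsLocalRing.maximalIdeal R := by
    rw [hmax]; exact Ideal.subset_span (by simp)
  let _ : Field (R ⧸ IsLocalRing.maximalIdeal R) := Ideal.Quotient.field _
  have h1 : (RingHom.ker (evalZero τ he (IsLocalRing.maximalIdeal R) hτm)).IsMaximal :=
    RingHom.ker_isMaximal_of_surjective _ (evalZero_surjective τ he _ hτm)
  have h2 : RingHom.ker (evalZero τ he (IsLocalRing.maximalIdeal R) hτm) =
      Ideal.span {algebraMap R (Cover τ e) π, rt τ e} := by
    rw [ker_evalZero, hmax, Ideal.map_span, Set.image_pair]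
    apply le_antisymm
    · rw [sup_le_iff, Ideal.span_le, Ideal.span_le]
      refine ⟨?_, ?_⟩
      · rintro x (rfl | rfl)
        · exact Ideal.subset_span (by simp)
        · rw [← rt_pow, SetLike.mem_coe, ← pow_sub_one_mul he.ne' (rt τ e)]
          exact Ideal.mul_mem_left _ _ (Ideal.subset_span (by simp))
      · rw [Set.singleton_subset_iff]
        exact Ideal.subset_span (by simp)
    · rw [Ideal.span_le]
      rintro x (rfl | rfl)
      · exact Ideal.mem_sup_left (Ideal.subset_span (by simp))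
      · exact Ideal.mem_sup_right (Ideal.mem_span_singleton_self _)
  rw [← h2]
  exact h1

/-- The Kummer cover is a local ring. -/
theorem isLocalRing (π τ : R) {e : ℕ} (he : 0 < e)
    (hmax : IsLocalRing.maximalIdeal R = Ideal.span {π, τ}) : IsLocalRing (Cover τ e) := by
  have hN := isMaximal_span_pair π τ he hmax
  have hfin := finite τ he
  have hint : Algebra.IsIntegral R (Cover τ e) := Algebra.IsIntegral.of_finite R _
  refine IsLocalRing.of_unique_max_ideal ⟨_, hN, fun 𝔫 h𝔫 => ?_⟩
  have h1 : (𝔫.comap (algebraMap R (Cover τ e))).IsMaximal :=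
    Ideal.isMaximal_comap_of_isIntegral_of_isMaximal 𝔫
  have h2 := IsLocalRing.eq_maximalIdeal h1
  have hπ : algebraMap R (Cover τ e) π ∈ 𝔫 := by
    have : π ∈ 𝔫.comap (algebraMap R (Cover τ e)) := by
      rw [h2, hmax]; exact Ideal.subset_span (by simp)
    exact this
  have hτ : algebraMap R (Cover τ e) τ ∈ 𝔫 := by
    have : τ ∈ 𝔫.comap (algebraMap R (Cover τ e)) := by
      rw [h2, hmax]; exact Ideal.subset_span (by simp)
    exact this
  have hs : rt τ e ∈ 𝔫 := by
    rw [← rt_pow] at hτ
    exact h𝔫.isPrime.mem_of_pow_mem _ hτ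
  have hle : Ideal.span {algebraMap R (Cover τ e) π, rt τ e} ≤ 𝔫 := by
    rw [Ideal.span_le]
    rintro x (rfl | rfl)
    · exact hπ
    · exact hs
  exact (hN.eq_of_le h𝔫.ne_top hle).symm

theorem maximalIdeal_eq (π τ : R) {e : ℕ} (he : 0 < e)
    (hmax : IsLocalRing.maximalIdeal R = Ideal.span {π, τ}) [IsLocalRing (Cover τ e)] :
    IsLocalRing.maximalIdeal (Cover τ e) = Ideal.span {algebraMap R (Cover τ e) π, rt τ e} :=
  (IsLocalRing.eq_maximalIdeal (isMaximal_span_pair π τ he hmax)).symm

/-- `R → R'` is free, hence `π R' ∩ R = π R`. -/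
theorem dvd_of_algebraMap_dvd (τ : R) {e : ℕ} (he : 0 < e) {a b : R}
    (h : algebraMap R (Cover τ e) a ∣ algebraMap R (Cover τ e) b) : a ∣ b := by
  have := free τ he
  have hnt : Nontrivial (Cover τ e) := (algebraMap_injective τ he).nontrivial
  have h1 : b ∈ ((Ideal.span {a}).map (algebraMap R (Cover τ e))).comap
      (algebraMap R (Cover τ e)) := by
    rw [Ideal.mem_comap, Ideal.map_span, Set.image_singleton]
    exact Ideal.mem_span_singleton.2 h
  rw [Ideal.comap_map_eq_self_of_faithfullyFlat] at h1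
  exact Ideal.mem_span_singleton.1 h1

/-- The Kummer polynomial is irreducible (Eisenstein at `τ`). -/
theorem kummer_irreducible (τ : R) (hτ : Prime τ) {e : ℕ} (he : 0 < e) :
    Irreducible (X ^ e - C τ : R[X]) := by
  have hprime : (Ideal.span {τ}).IsPrime := (Ideal.span_singleton_prime hτ.ne_zero).2 hτ
  refine IsEisensteinAt.irreducible (𝓟 := Ideal.span {τ}) ⟨?_, ?_, ?_⟩ hprime
    (kummer_monic τ he).isPrimitive (by rw [natDegree_X_pow_sub_C]; exact he)
  · rw [(kummer_monic τ he).leadingCoeff]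
    exact fun h1 => hprime.ne_top ((Ideal.eq_top_iff_one _).2 h1)
  · intro n hn
    rw [natDegree_X_pow_sub_C] at hn
    rw [coeff_sub, coeff_X_pow, if_neg hn.ne, zero_sub, coeff_C]
    split_ifs
    · exact neg_mem (Ideal.mem_span_singleton_self τ)
    · rw [neg_zero]; exact zero_mem _
  · rw [coeff_sub, coeff_X_pow, if_neg he.ne, zero_sub, coeff_C_zero, Ideal.span_singleton_pow,
      Ideal.mem_span_singleton]
    rintro ⟨c, hc⟩
    apply hτ.not_isUnit
    have h2 : τ * (τ * (-c)) = τ * 1 := by rw [mul_one]; linear_combination hc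
    exact IsUnit.of_mul_eq_one _ (mul_left_cancel₀ hτ.ne_zero h2)

variable (π τ : R) {e : ℕ} (he : 0 < e)
  (hmax : IsLocalRing.maximalIdeal R = Ideal.span {π, τ})
  (hπ : Prime π) (hτ : Prime τ) (hπτ : ¬ π ∣ τ)

include hπ hτ in
/-- The Kummer cover is a domain. -/
theorem isDomain [IsPrincipalIdealRing (R ⧸ Ideal.span {π})] (he : 0 < e) :
    IsDomain (Cover τ e) := by
  have : UniqueFactorizationMonoid R := Fermat.Agent.Lib.LocalUFD.uniqueFactorizationMonoid π hπ
  exact AdjoinRoot.isDomain_of_prime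
    (UniqueFactorizationMonoid.irreducible_iff_prime.1 (kummer_irreducible τ hτ he))

include hmax hπ hπτ in
/-- `π` stays prime in the Kummer cover, and the quotient is a principal ideal ring
(a discrete valuation ring with uniformiser `s`). -/
theorem prime_and_isPrincipalIdealRing (he : 0 < e) :
    Prime (algebraMap R (Cover τ e) π) ∧
      IsPrincipalIdealRing (Cover τ e ⧸ Ideal.span {algebraMap R (Cover τ e) π}) := by
  have hloc := isLocalRing π τ he hmax
  have hnoeth := isNoetherianRing τ he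
  have hmax' := maximalIdeal_eq π τ he hmax
  set I : Ideal (Cover τ e) := Ideal.span {algebraMap R (Cover τ e) π} with hI
  have hIle : I ≤ IsLocalRing.maximalIdeal (Cover τ e) := by
    rw [hmax', hI, Ideal.span_le, Set.singleton_subset_iff]
    exact Ideal.subset_span (by simp)
  have hIne : I ≠ ⊤ := fun h => (IsLocalRing.maximalIdeal.isMaximal (Cover τ e)).ne_top
    (top_le_iff.1 (h ▸ hIle))
  have hnt : Nontrivial (Cover τ e ⧸ I) := Ideal.Quotient.nontrivial_iff.2 hIne
  have hlocD : IsLocalRing (Cover τ e ⧸ I) :=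
    IsLocalRing.of_surjective' (Ideal.Quotient.mk I) Ideal.Quotient.mk_surjective
  -- the maximal ideal of the quotient
  have hmaxD : IsLocalRing.maximalIdeal (Cover τ e ⧸ I) =
      Ideal.span {Ideal.Quotient.mk I (rt τ e)} := by
    have h1 : (Ideal.span {Ideal.Quotient.mk I (rt τ e)}).IsMaximal := by
      have h2 : Ideal.span {Ideal.Quotient.mk I (rt τ e)} =
          (IsLocalRing.maximalIdeal (Cover τ e)).map (Ideal.Quotient.mk I) := by
        rw [hmax', Ideal.map_span, Set.image_pair]
        have h3 : Ideal.Quotient.mk I (algebraMap R (Cover τ e) π) = 0 :=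
          Ideal.Quotient.eq_zero_iff_mem.2 (Ideal.mem_span_singleton_self _)
        rw [h3]
        apply le_antisymm
        · rw [Ideal.span_le, Set.singleton_subset_iff]
          exact Ideal.subset_span (by simp)
        · rw [Ideal.span_le]
          rintro x (rfl | rfl)
          · exact zero_mem _
          · exact Ideal.mem_span_singleton_self _
      rw [h2]
      rcases Ideal.map_eq_top_or_isMaximal_of_surjective (Ideal.Quotient.mk I)
        Ideal.Quotient.mk_surjective (IsLocalRing.maximalIdeal.isMaximal (Cover τ e)) with h | h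
      · exfalso
        have h4 : (1 : Cover τ e ⧸ I) ∈
            (IsLocalRing.maximalIdeal (Cover τ e)).map (Ideal.Quotient.mk I) := by
          rw [h]; exact Submodule.mem_top
        obtain ⟨m, hm, hm1⟩ :=
          (Ideal.mem_map_iff_of_surjective _ Ideal.Quotient.mk_surjective).1 h4
        have h5 : m - 1 ∈ I := by
          rw [← Ideal.Quotient.eq_zero_iff_mem, map_sub, hm1, map_one, sub_self]
        have h6 : (1 : Cover τ e) ∈ IsLocalRing.maximalIdeal (Cover τ e) := by
          have := Ideal.sub_mem _ hm (hIle h5)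
          rwa [sub_sub_cancel] at this
        exact (IsLocalRing.maximalIdeal.isMaximal (Cover τ e)).ne_top
          ((Ideal.eq_top_iff_one _).2 h6)
      · exact h
    exact (IsLocalRing.eq_maximalIdeal h1).symm
  -- `s` is not nilpotent modulo `π`
  have hnil : ∀ n : ℕ, Ideal.Quotient.mk I (rt τ e) ^ n ≠ 0 := by
    intro n h0
    rw [← map_pow, Ideal.Quotient.eq_zero_iff_mem, hI, Ideal.mem_span_singleton] at h0
    have h1 : algebraMap R (Cover τ e) π ∣ algebraMap R (Cover τ e) (τ ^ n) := by
      rw [map_pow, ← rt_pow, ← pow_mul, mul_comm, pow_mul]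
      exact dvd_pow h0 he.ne'
    exact hπτ (hπ.dvd_of_dvd_pow (dvd_of_algebraMap_dvd τ he h1))
  have hdomD : IsDomain (Cover τ e ⧸ I) :=
    isDomain_of_maximalIdeal_eq_span _ hmaxD hnil
  refine ⟨?_, isPrincipalIdealRing_of_maximalIdeal_eq_span _ hmaxD⟩
  have hne : algebraMap R (Cover τ e) π ≠ 0 :=
    (map_ne_zero_iff _ (algebraMap_injective τ he)).2 hπ.ne_zero
  exact (Ideal.span_singleton_prime hne).1 ((Ideal.Quotient.isDomain_iff_prime I).1 hdomD)

include hτ in
/-- `s` is a prime element of the Kummer cover. -/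
theorem prime_rt (he : 0 < e) : Prime (rt τ e) := by
  have hprime : (Ideal.span {τ}).IsPrime := (Ideal.span_singleton_prime hτ.ne_zero).2 hτ
  have hne : rt τ e ≠ 0 := by
    intro h0
    have h1 := rt_pow τ e
    rw [h0, zero_pow he.ne'] at h1
    exact hτ.ne_zero ((map_eq_zero_iff _ (algebraMap_injective τ he)).1 h1.symm)
  rw [← Ideal.span_singleton_prime hne, span_rt_eq_ker τ he]
  exact RingHom.ker_isPrime _

include hmax hπ hτ hπτ in
/-- The Kummer cover is a unique factorisation domain. -/
theorem uniqueFactorizationMonoid [IsPrincipalIdealRing (R ⧸ Ideal.span {π})] (he : 0 < e) :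
    UniqueFactorizationMonoid (Cover τ e) := by
  have hloc := isLocalRing π τ he hmax
  have hnoeth := isNoetherianRing τ he
  have hdom := isDomain π τ hπ hτ he
  obtain ⟨hπ', hpir⟩ := prime_and_isPrincipalIdealRing π τ hmax hπ hπτ he
  exact Fermat.Agent.Lib.LocalUFD.uniqueFactorizationMonoid _ hπ'

include hπ hτ in
/-- The Kummer cover embeds into every field containing `R` and an `e`-th root of `τ`. -/
theorem lift_injective [IsPrincipalIdealRing (R ⧸ Ideal.span {π})] (he : 0 < e)
    {L' : Type*} [Field L'] [Algebra R L'] (hinj : Function.Injective (algebraMap R L'))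
    (s' : L') (h : (X ^ e - C τ : R[X]).eval₂ (algebraMap R L') s' = 0) :
    Function.Injective (AdjoinRoot.lift (algebraMap R L') s' h) := by
  have hdom := isDomain π τ hπ hτ he
  have hfin := finite τ he
  have hint : Algebra.IsIntegral R (Cover τ e) := Algebra.IsIntegral.of_finite R _
  rw [RingHom.injective_iff_ker_eq_bot]
  apply Ideal.eq_bot_of_comap_eq_bot (R := R)
  rw [eq_bot_iff]
  intro r hr
  rw [Ideal.mem_comap, RingHom.mem_ker, AdjoinRoot.algebraMap_eq, AdjoinRoot.lift_of] at hr
  exact (Ideal.mem_bot).2 ((map_eq_zero_iff _ hinj).1 hr)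

include hπ hτ in
/-- The Kummer polynomial stays irreducible over the fraction field. -/
theorem kummer_irreducible_map [IsPrincipalIdealRing (R ⧸ Ideal.span {π})] (he : 0 < e)
    (K : Type*) [Field K] [Algebra R K] [IsFractionRing R K] :
    Irreducible ((X ^ e - C τ : R[X]).map (algebraMap R K)) := by
  have : UniqueFactorizationMonoid R := Fermat.Agent.Lib.LocalUFD.uniqueFactorizationMonoid π hπ
  exact (Monic.irreducible_iff_irreducible_map_fraction_map (kummer_monic τ he)).1
    (kummer_irreducible τ hτ he)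

end Local

end Fermat.Agent.S30.Model.KummerCover
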