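import Mathlib

/-!
# MODEL THEOREM, branch point: the Kummer field `L(s)`, `s ^ e = τ`, and the tame exponent

Mathlib only.

* `exists_tame_exponent` : in a Dedekind domain `B`, for `t ≠ 0` there is `e > 0` such that at
  every nonzero prime `P ∋ t` the exact exponent `k` of `P` in `t` divides `e`
  (literally the hypothesis `hram` of `Lib.TameKummer.isIntegral_div_of_pow_dedekind`).
* `KummerField τ e` : a field `L' = L(s)` with `s ^ e = τ` (`AdjoinRoot` of an irreducible factor
  of `X ^ e - C τ`), `kummerRoot τ e : KummerField τ e`, with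
  `kummerRoot_pow`, `adjoin_kummerRoot`, finiteness over `L`, and, when `τ` is transcendental
  over a subfield `E`: `transcendental_kummerRoot`, `finiteDimensional_adjoin_kummerRoot`.
* generic forms for any finite `L' / L` and `s : L'` with `s ^ e = τ`:
  `transcendental_of_pow_eq`, `mem_adjoin_of_pow_eq`, `finiteDimensional_adjoin_of_pow_eq`.
-/

set_option autoImplicit false

open Polynomial

namespace Fermat.Agent.S30.Model.KummerField

section Tame

variable {B : Type*} [CommRing B] [IsDedekindDomain B]

/-- **Tame exponent.**  For `t ≠ 0` in a Dedekind domain there is `e > 0` divisible by the exact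
exponent of every nonzero prime in `t`. -/
theorem exists_tame_exponent {t : B} (ht : t ≠ 0) :
    ∃ e : ℕ, 0 < e ∧ ∀ P : Ideal B, P.IsPrime → P ≠ ⊥ → t ∈ P →
      ∃ k, k ∣ e ∧ t ∈ P ^ k ∧ t ∉ P ^ (k + 1) := by
  classical
  have hI0 : Ideal.span {t} ≠ (0 : Ideal B) := by
    rw [Ne, Ideal.zero_eq_bot, Ideal.span_singleton_eq_bot]
    exact ht
  have hfin : {v : IsDedekindDomain.HeightOneSpectrum B | v.asIdeal ∣ Ideal.span {t}}.Finite :=
    Ideal.finite_factors hI0
  have hmult : ∀ P : Ideal B, P.IsPrime → P ≠ ⊥ → FiniteMultiplicity P (Ideal.span {t}) := by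
    intro P hP hP0
    exact FiniteMultiplicity.of_not_isUnit
      (fun hu => hP.ne_top (Ideal.isUnit_iff.mp hu)) hI0
  have hpos : ∀ v ∈ hfin.toFinset, 0 < multiplicity v.asIdeal (Ideal.span {t}) := by
    intro v hv
    have hdvd : v.asIdeal ∣ Ideal.span {t} := by
      rw [Set.Finite.mem_toFinset] at hv
      exact hv
    have hfm := hmult v.asIdeal v.isPrime v.ne_bot
    rw [Nat.pos_iff_ne_zero]
    intro h0
    have h1 : multiplicity v.asIdeal (Ideal.span {t}) < 1 := by rw [h0]; exact Nat.one_pos
    exact hfm.not_pow_dvd_of_multiplicity_lt h1 (by rwa [pow_one])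
  refine ⟨∏ v ∈ hfin.toFinset, multiplicity v.asIdeal (Ideal.span {t}), Finset.prod_pos hpos, ?_⟩
  intro P hP hP0 htP
  have hdvd : P ∣ Ideal.span {t} := by
    rw [Ideal.dvd_iff_le, Ideal.span_singleton_le_iff_mem]
    exact htP
  have hvF : (⟨P, hP, hP0⟩ : IsDedekindDomain.HeightOneSpectrum B) ∈ hfin.toFinset := by
    rw [Set.Finite.mem_toFinset]
    exact hdvd
  have hk : multiplicity P (Ideal.span {t}) ∣
      ∏ v ∈ hfin.toFinset, multiplicity v.asIdeal (Ideal.span {t}) := by
    have := Finset.dvd_prod_of_mem (fun v : IsDedekindDomain.HeightOneSpectrum B =>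
      multiplicity v.asIdeal (Ideal.span {t})) hvF
    exact this
  refine ⟨multiplicity P (Ideal.span {t}), hk, ?_, ?_⟩
  · have h1 : P ^ multiplicity P (Ideal.span {t}) ∣ Ideal.span {t} := pow_multiplicity_dvd P _
    have h2 : Ideal.span {t} ≤ P ^ multiplicity P (Ideal.span {t}) := Ideal.dvd_iff_le.mp h1
    exact h2 (Ideal.mem_span_singleton_self t)
  · intro hmem
    have h1 : P ^ (multiplicity P (Ideal.span {t}) + 1) ∣ Ideal.span {t} := by
      apply Ideal.dvd_iff_le.mpr
      rw [Ideal.span_singleton_le_iff_mem]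
      exact hmem
    exact (hmult P hP hP0).not_pow_dvd_of_multiplicity_lt (Nat.lt_succ_self _) h1

end Tame

section Generic

variable {E L L' : Type*} [Field E] [Field L] [Field L'] [Algebra E L] [Algebra L L']
  [Algebra E L'] [IsScalarTower E L L']

/-- `s` is transcendental over `E` when `τ = s ^ e` is. -/
theorem transcendental_of_pow_eq {τ : L} (hτ : Transcendental E τ) {s : L'} {e : ℕ}
    (hs : s ^ e = algebraMap L L' τ) : Transcendental E s := by
  intro halg
  have h1 : IsAlgebraic E (s ^ e) := halg.pow e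
  rw [hs] at h1
  exact hτ ((isAlgebraic_algebraMap_iff (algebraMap L L').injective).mp h1)

/-- `E(τ) ⊆ E(s)` inside `L'` when `s ^ e = τ`. -/
theorem mem_adjoin_of_pow_eq (τ : L) {s : L'} {e : ℕ} (hs : s ^ e = algebraMap L L' τ)
    {x : L} (hx : x ∈ IntermediateField.adjoin E {τ}) :
    algebraMap L L' x ∈ IntermediateField.adjoin E {s} := by
  have h1 : (IsScalarTower.toAlgHom E L L') x ∈
      (IntermediateField.adjoin E {τ}).map (IsScalarTower.toAlgHom E L L') :=
    (IntermediateField.mem_map _).mpr ⟨x, hx, rfl⟩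
  rw [IntermediateField.adjoin_map, Set.image_singleton] at h1
  have h2 : IntermediateField.adjoin E {(IsScalarTower.toAlgHom E L L') τ} ≤
      IntermediateField.adjoin E {s} := by
    rw [IntermediateField.adjoin_simple_le_iff]
    change algebraMap L L' τ ∈ _
    rw [← hs]
    exact pow_mem (IntermediateField.mem_adjoin_simple_self E s) e
  exact h2 h1

/-- `L'` is finite over `E(s)` when `L` is finite over `E(τ)`, `L'` is finite over `L` and
`s ^ e = τ`. -/
theorem finiteDimensional_adjoin_of_pow_eq (τ : L) {s : L'} {e : ℕ}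
    (hs : s ^ e = algebraMap L L' τ)
    [FiniteDimensional (IntermediateField.adjoin E {τ}) L] [FiniteDimensional L L'] :
    FiniteDimensional (IntermediateField.adjoin E {s}) L' := by
  have hfin : Module.Finite (IntermediateField.adjoin E {τ}) L' := Module.Finite.trans L L'
  obtain ⟨S, hS⟩ := hfin.fg_top
  refine ⟨⟨S, ?_⟩⟩
  rw [eq_top_iff]
  intro y hyT
  clear hyT
  have hy : y ∈ Submodule.span (IntermediateField.adjoin E {τ}) (S : Set L') := by
    rw [hS]; exact Submodule.mem_top
  induction hy using Submodule.span_induction with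
  | mem x hx => exact Submodule.subset_span hx
  | zero => exact zero_mem _
  | add x y _ _ hx hy => exact add_mem hx hy
  | smul a x _ hx =>
    have h1 : a • x = (⟨algebraMap L L' (a : L), mem_adjoin_of_pow_eq τ hs a.2⟩ :
        IntermediateField.adjoin E {s}) • x := by
      rw [Algebra.smul_def, Algebra.smul_def]
      rfl
    rw [h1]
    exact Submodule.smul_mem _ _ hx

end Generic

section Kummer

universe u

variable {L : Type u} [Field L]

/-- An irreducible factor of `X ^ e - C τ`. -/
noncomputable def kummerPoly (τ : L) (e : ℕ) : L[X] := (X ^ e - C τ : L[X]).factor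

instance (τ : L) (e : ℕ) : Fact (Irreducible (kummerPoly τ e)) :=
  fact_irreducible_factor _

theorem kummerPoly_dvd (τ : L) {e : ℕ} (he : 0 < e) : kummerPoly τ e ∣ X ^ e - C τ := by
  apply factor_dvd_of_natDegree_ne_zero
  rw [natDegree_X_pow_sub_C]
  exact he.ne'

/-- The Kummer field `L(s)`, `s ^ e = τ` (one factor of `L[X] / (X ^ e - τ)`). -/
abbrev KummerField (τ : L) (e : ℕ) : Type u := AdjoinRoot (kummerPoly τ e)

/-- The root `s` of `X ^ e - τ` in the Kummer field. -/
noncomputable def kummerRoot (τ : L) (e : ℕ) : KummerField τ e := AdjoinRoot.root (kummerPoly τ e)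

theorem kummerRoot_pow (τ : L) {e : ℕ} (he : 0 < e) :
    kummerRoot τ e ^ e = algebraMap L (KummerField τ e) τ := by
  obtain ⟨q, hq⟩ := kummerPoly_dvd τ he
  have h1 : aeval (kummerRoot τ e) (X ^ e - C τ : L[X]) = 0 := by
    rw [hq, map_mul, kummerRoot, AdjoinRoot.aeval_eq, AdjoinRoot.mk_self, zero_mul]
  simpa [sub_eq_zero] using h1

theorem adjoin_kummerRoot (τ : L) (e : ℕ) :
    Algebra.adjoin L ({kummerRoot τ e} : Set (KummerField τ e)) = ⊤ :=
  AdjoinRoot.adjoinRoot_eq_top

instance (τ : L) (e : ℕ) : FiniteDimensional L (KummerField τ e) :=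
  (AdjoinRoot.powerBasis (Fact.out : Irreducible (kummerPoly τ e)).ne_zero).finite

theorem kummerRoot_ne_zero {τ : L} (hτ : τ ≠ 0) {e : ℕ} (he : 0 < e) : kummerRoot τ e ≠ 0 := by
  intro h0
  have h1 := kummerRoot_pow τ he
  rw [h0, zero_pow he.ne'] at h1
  exact hτ ((map_eq_zero_iff _ (algebraMap L (KummerField τ e)).injective).mp h1.symm)

variable {E : Type*} [Field E] [Algebra E L]

/-- `s` is transcendental over `E` when `τ = s ^ e` is. -/
theorem transcendental_kummerRoot {τ : L} (hτ : Transcendental E τ) {e : ℕ} (he : 0 < e) :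
    Transcendental E (kummerRoot τ e) :=
  transcendental_of_pow_eq hτ (kummerRoot_pow τ he)

/-- `L(s)` is finite over `E(s)` when `L` is finite over `E(τ)`. -/
theorem finiteDimensional_adjoin_kummerRoot (τ : L) {e : ℕ} (he : 0 < e)
    [FiniteDimensional (IntermediateField.adjoin E {τ}) L] :
    FiniteDimensional (IntermediateField.adjoin E {kummerRoot τ e}) (KummerField τ e) :=
  finiteDimensional_adjoin_of_pow_eq τ (kummerRoot_pow τ he)

end Kummer

end Fermat.Agent.S30.Model.KummerField
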