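import Mathlib

/-!
# Descent of "distinct components of the special fibre do not meet"

Let `C ⊆ C'` be an integral extension of rings and `π : C`.  Assume that in `C'` any two
distinct primes minimal over `π` are comaximal.  Then the same holds in `C`, provided either

* `sup_eq_top_of_goingDown` : `C ⊆ C'` satisfies going-down (a Mathlib instance when `C` is an
  integrally closed domain and `C'` is a domain integral over `C`), or
* `sup_eq_top_of_isInvariant` : `C` is the ring of invariants of a finite group acting on `C'`.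

This is the descent step of the tame branch point case of the MODEL THEOREM
(`C` = integral closure of `O[u]_x` in `L`, `C'` = integral closure of `O[s]_(π,s)`, `s^e = u - c`,
in a compositum `L·E(s)`).
-/

set_option autoImplicit false

namespace Fermat.Agent.S30.Model.Descent

open scoped Pointwise

variable {C C' : Type*} [CommRing C] [CommRing C'] [Algebra C C']

/-- A minimal prime `Q₀` over `π` in `C'` lying inside a prime `Q` that contracts to a minimal
prime `P` over `π` in `C` also contracts to `P`. -/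
theorem comap_eq_of_le (π : C) {P : Ideal C} (hP : P ∈ (Ideal.span {π}).minimalPrimes)
    {Q Q₀ : Ideal C'} (hQ : Q.comap (algebraMap C C') = P)
    (hQ₀ : Q₀ ∈ (Ideal.span {algebraMap C C' π}).minimalPrimes) (hle : Q₀ ≤ Q) :
    Q₀.comap (algebraMap C C') = P := by
  have hprime : Q₀.IsPrime := hQ₀.1.1
  have hπ : Ideal.span {π} ≤ Q₀.comap (algebraMap C C') := by
    rw [Ideal.span_le, Set.singleton_subset_iff]
    exact hQ₀.1.2 (Ideal.subset_span rfl)
  have hle' : Q₀.comap (algebraMap C C') ≤ P := hQ ▸ Ideal.comap_mono hle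
  exact le_antisymm hle' (hP.2 ⟨Ideal.comap_isPrime _ _, hπ⟩ hle')

/-- Every prime `Q` of `C'` containing `π` contains a minimal prime over `π`. -/
theorem exists_minimal_le (π : C) {P : Ideal C} (hP : P ∈ (Ideal.span {π}).minimalPrimes)
    {Q : Ideal C'} [Q.IsPrime] (hQ : Q.comap (algebraMap C C') = P) :
    ∃ Q₀ ∈ (Ideal.span {algebraMap C C' π}).minimalPrimes,
      Q₀ ≤ Q ∧ Q₀.comap (algebraMap C C') = P := by
  have hπQ : Ideal.span {algebraMap C C' π} ≤ Q := by
    rw [Ideal.span_le, Set.singleton_subset_iff]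
    have : π ∈ Q.comap (algebraMap C C') := hQ ▸ hP.1.2 (Ideal.subset_span rfl)
    exact this
  obtain ⟨Q₀, hQ₀, hle⟩ := Ideal.exists_minimalPrimes_le hπQ
  exact ⟨Q₀, hQ₀, hle, comap_eq_of_le π hP hQ hQ₀ hle⟩

/-- **Descent by going-down.** -/
theorem sup_eq_top_of_goingDown [Algebra.IsIntegral C C'] [Algebra.HasGoingDown C C']
    (hinj : Function.Injective (algebraMap C C')) (π : C)
    (H' : ∀ Q Q' : Ideal C', Q ∈ (Ideal.span {algebraMap C C' π}).minimalPrimes →
      Q' ∈ (Ideal.span {algebraMap C C' π}).minimalPrimes → Q ≠ Q' → Q ⊔ Q' = ⊤)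
    {P P' : Ideal C} (hP : P ∈ (Ideal.span {π}).minimalPrimes)
    (hP' : P' ∈ (Ideal.span {π}).minimalPrimes) (hne : P ≠ P') : P ⊔ P' = ⊤ := by
  by_contra htop
  obtain ⟨M, hM, hle⟩ := Ideal.exists_le_maximal _ htop
  have : M.IsPrime := hM.isPrime
  have : P.IsPrime := hP.1.1
  have : P'.IsPrime := hP'.1.1
  have hker : RingHom.ker (algebraMap C C') ≤ M := by
    rw [(RingHom.injective_iff_ker_eq_bot _).mp hinj]; exact bot_le
  obtain ⟨M', -, hM'prime, hM'⟩ := Ideal.exists_ideal_over_prime_of_isIntegral M (⊥ : Ideal C')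
    (by rw [← RingHom.ker_eq_comap_bot]; exact hker)
  have : M'.IsPrime := hM'prime
  have : M'.LiesOver M := ⟨hM'.symm⟩
  obtain ⟨Q, hQle, hQprime, hQover⟩ :=
    Ideal.exists_ideal_le_liesOver_of_le (p := P) (q := M) M' (le_sup_left.trans hle)
  obtain ⟨Q', hQ'le, hQ'prime, hQ'over⟩ :=
    Ideal.exists_ideal_le_liesOver_of_le (p := P') (q := M) M' (le_sup_right.trans hle)
  have := hQprime
  have := hQ'prime
  have hQc : Q.comap (algebraMap C C') = P := (hQover.over).symm
  have hQ'c : Q'.comap (algebraMap C C') = P' := (hQ'over.over).symm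
  obtain ⟨Q₀, hQ₀, hQ₀le, hQ₀c⟩ := exists_minimal_le π hP hQc
  obtain ⟨Q₀', hQ₀', hQ₀'le, hQ₀'c⟩ := exists_minimal_le π hP' hQ'c
  have hne' : Q₀ ≠ Q₀' := by
    rintro rfl
    exact hne (hQ₀c.symm.trans hQ₀'c)
  have htop' := H' Q₀ Q₀' hQ₀ hQ₀' hne'
  have hleM' : Q₀ ⊔ Q₀' ≤ M' := sup_le (hQ₀le.trans hQle) (hQ₀'le.trans hQ'le)
  exact hM'prime.ne_top (top_le_iff.mp (htop' ▸ hleM'))

/-- Descent by going-down, domain form: `C` integrally closed domain, `C'` a domain integral
over `C`. -/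
theorem sup_eq_top_of_isIntegrallyClosed [IsDomain C'] [FaithfulSMul C C']
    [Algebra.IsIntegral C C'] [IsIntegrallyClosed C] (π : C)
    (H' : ∀ Q Q' : Ideal C', Q ∈ (Ideal.span {algebraMap C C' π}).minimalPrimes →
      Q' ∈ (Ideal.span {algebraMap C C' π}).minimalPrimes → Q ≠ Q' → Q ⊔ Q' = ⊤)
    {P P' : Ideal C} (hP : P ∈ (Ideal.span {π}).minimalPrimes)
    (hP' : P' ∈ (Ideal.span {π}).minimalPrimes) (hne : P ≠ P') : P ⊔ P' = ⊤ :=
  sup_eq_top_of_goingDown (FaithfulSMul.algebraMap_injective C C') π H' hP hP' hne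

/-- **Descent along invariants of a finite group.** -/
theorem sup_eq_top_of_isInvariant (G : Type*) [Group G] [Finite G] [MulSemiringAction G C']
    [SMulCommClass G C C'] [Algebra.IsInvariant C C' G]
    (hinj : Function.Injective (algebraMap C C')) (π : C)
    (H' : ∀ Q Q' : Ideal C', Q ∈ (Ideal.span {algebraMap C C' π}).minimalPrimes →
      Q' ∈ (Ideal.span {algebraMap C C' π}).minimalPrimes → Q ≠ Q' → Q ⊔ Q' = ⊤)
    {P P' : Ideal C} (hP : P ∈ (Ideal.span {π}).minimalPrimes)
    (hP' : P' ∈ (Ideal.span {π}).minimalPrimes) (hne : P ≠ P') : P ⊔ P' = ⊤ := by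
  have : Algebra.IsIntegral C C' := Algebra.IsInvariant.isIntegral C C' G
  by_contra htop
  obtain ⟨M, hM, hle⟩ := Ideal.exists_le_maximal _ htop
  have : M.IsPrime := hM.isPrime
  have : P.IsPrime := hP.1.1
  have : P'.IsPrime := hP'.1.1
  have hkerP : RingHom.ker (algebraMap C C') ≤ P := by
    rw [(RingHom.injective_iff_ker_eq_bot _).mp hinj]; exact bot_le
  have hkerP' : RingHom.ker (algebraMap C C') ≤ P' := by
    rw [(RingHom.injective_iff_ker_eq_bot _).mp hinj]; exact bot_le
  -- primes over `P`, `P'`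
  obtain ⟨Q, -, hQprime, hQc⟩ := Ideal.exists_ideal_over_prime_of_isIntegral P (⊥ : Ideal C')
    (by rw [← RingHom.ker_eq_comap_bot]; exact hkerP)
  obtain ⟨Q', -, hQ'prime, hQ'c⟩ := Ideal.exists_ideal_over_prime_of_isIntegral P' (⊥ : Ideal C')
    (by rw [← RingHom.ker_eq_comap_bot]; exact hkerP')
  have := hQprime
  have := hQ'prime
  obtain ⟨Q₀, hQ₀, hQ₀le, hQ₀c⟩ := exists_minimal_le π hP hQc
  obtain ⟨Q₀', hQ₀', hQ₀'le, hQ₀'c⟩ := exists_minimal_le π hP' hQ'c
  have : Q₀.IsPrime := hQ₀.1.1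
  have : Q₀'.IsPrime := hQ₀'.1.1
  -- going up to primes over `M`
  obtain ⟨M₁, hM₁ge, hM₁prime, hM₁c⟩ :=
    Ideal.exists_ideal_over_prime_of_isIntegral_of_isPrime M Q₀
      (hQ₀c.le.trans (le_sup_left.trans hle))
  obtain ⟨M₂, hM₂ge, hM₂prime, hM₂c⟩ :=
    Ideal.exists_ideal_over_prime_of_isIntegral_of_isPrime M Q₀'
      (hQ₀'c.le.trans (le_sup_right.trans hle))
  have := hM₁prime
  have := hM₂prime
  obtain ⟨g, hg⟩ := Algebra.IsInvariant.exists_smul_of_under_eq C C' G M₁ M₂
    (hM₁c.trans hM₂c.symm)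
  -- `g • Q₀` is a minimal prime over `π` inside `M₂` contracting to `P`
  have hgπ : g • algebraMap C C' π = algebraMap C C' π := smul_algebraMap g π
  have hgQ₀ : g • Q₀ ∈ (Ideal.span {algebraMap C C' π}).minimalPrimes := by
    refine ⟨⟨inferInstance, ?_⟩, ?_⟩
    · rw [Ideal.span_le, Set.singleton_subset_iff]
      have hmem : algebraMap C C' π ∈ Q₀ := hQ₀.1.2 (Ideal.subset_span rfl)
      have := Ideal.smul_mem_pointwise_smul g _ Q₀ hmem
      rwa [hgπ] at this
    · rintro b ⟨hbprime, hbπ⟩ hble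
      have := hbprime
      have h1 : g⁻¹ • b ≤ Q₀ := by
        rw [← Ideal.pointwise_smul_le_pointwise_smul_iff (a := g), smul_inv_smul]
        exact hble
      have h2 : Ideal.span {algebraMap C C' π} ≤ g⁻¹ • b := by
        rw [Ideal.span_le, Set.singleton_subset_iff]
        have hmem : algebraMap C C' π ∈ b := hbπ (Ideal.subset_span rfl)
        have := Ideal.smul_mem_pointwise_smul g⁻¹ _ b hmem
        rwa [smul_algebraMap] at this
      have h3 : Q₀ ≤ g⁻¹ • b := hQ₀.2 ⟨inferInstance, h2⟩ h1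
      rw [← Ideal.pointwise_smul_le_pointwise_smul_iff (a := g), smul_inv_smul] at h3
      exact h3
  have hgQ₀c : (g • Q₀).comap (algebraMap C C') = P := by
    rw [← hQ₀c]
    ext x
    simp only [Ideal.mem_comap]
    constructor
    · intro h
      have h' : g • algebraMap C C' x ∈ g • Q₀ := by rwa [smul_algebraMap]
      exact Ideal.smul_mem_pointwise_smul_iff.mp h'
    · intro h
      have h' := Ideal.smul_mem_pointwise_smul g _ Q₀ h
      rwa [smul_algebraMap] at h'
  have hgle : g • Q₀ ≤ M₂ := by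
    rw [hg]
    exact Ideal.pointwise_smul_le_pointwise_smul_iff.mpr hM₁ge
  have hne' : g • Q₀ ≠ Q₀' := by
    intro h
    exact hne (hgQ₀c.symm.trans (h ▸ hQ₀'c))
  have htop' := H' (g • Q₀) Q₀' hgQ₀ hQ₀' hne'
  have hleM' : g • Q₀ ⊔ Q₀' ≤ M₂ := sup_le hgle hM₂ge
  exact hM₂prime.ne_top (top_le_iff.mp (htop' ▸ hleM'))

end Fermat.Agent.S30.Model.Descent
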