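import Mathlib
import Fermat.Agent.Lib.UnitDisc
import Fermat.Agent.Lib.UnitDiscBC
import Fermat.Agent.Lib.NormalFree
import Fermat.Agent.Lib.TameKummerGlobal
import Fermat.Agent.Lib.TraceNil
import Fermat.Agent.S30.Model.DiscUnit
import Fermat.Agent.S30.Model.Descent
import Fermat.Agent.S30.Model.GluePrime
import Fermat.Agent.S30.Model.LocalDomain

/-!
# MODEL THEOREM: the abstract local theorem at a branch closed point

`R ⊆ R'` local rings (`R = O[τ]_(π,τ)`, `R' = O[s]_(π,s)`, `s ^ e = τ`), `L / K` and
`L' = L(s) / K'` the field extensions, `C`, `C'` the integral closures.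

* `ldAt_of_branch` : if the discriminant of `C / R` divides a power of `τ`, the residue
  characteristic along `s = 0` is zero and `(s)` is radical in `C'` (Abhyankar), then `C` is
  locally a domain modulo `π` at every maximal ideal containing `π`.
* `hrad_of_tame` : the radical hypothesis from the Dedekind-level tame data
  (`Lib.TameKummerGlobal`).
-/

set_option autoImplicit false

namespace Fermat.Agent.S30.Model.LocalBranch

open Fermat.Agent.S30.Model Fermat.Agent.Lib

/-- `d ∣ p ^ N`, `p` prime, `¬ p ∣ d` ⇒ `d` is a unit. -/
theorem isUnit_of_dvd_prime_pow {R : Type*} [CommRing R] [IsDomain R] {p d : R} (hp : Prime p)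
    {N : ℕ} (hd : d ∣ p ^ N) (hpd : ¬ p ∣ d) : IsUnit d := by
  obtain ⟨i, _, hi⟩ := (dvd_prime_pow hp N).mp hd
  rcases Nat.eq_zero_or_pos i with rfl | hi0
  · rw [pow_zero] at hi
    exact (associated_one_iff_isUnit).mp hi
  · exfalso
    apply hpd
    exact (dvd_pow_self p hi0.ne').trans hi.symm.dvd

/-- Provider of `hrad` from the Dedekind-level tame data (`TameKummerGlobal`). -/
theorem hrad_of_tame
    {B L R' L' : Type*} (K' : Type*) [CommRing B] [IsDedekindDomain B]
    [Field L] [Algebra B L] [IsFractionRing B L] [Field L'] [Algebra L L'] [Algebra B L']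
    [IsScalarTower B L L']
    [CommRing R'] [IsDomain R'] [IsIntegrallyClosed R'] [Field K'] [Algebra R' K']
    [IsFractionRing R' K'] [Algebra K' L'] [Algebra R' L'] [IsScalarTower R' K' L']
    {t : B} {e : ℕ} (he : 0 < e)
    (hram : ∀ P : Ideal B, P.IsPrime → P ≠ ⊥ → t ∈ P →
      ∃ k, k ∣ e ∧ t ∈ P ^ k ∧ t ∉ P ^ (k + 1))
    (hchar : ∀ P : Ideal B, P.IsPrime → P ≠ ⊥ → t ∈ P → (e : B) ∉ P)
    (s : R') (hs : Prime s) (hse : algebraMap R' L' s ^ e = algebraMap B L' t)
    (hgen : Algebra.adjoin L ({algebraMap R' L' s} : Set L') = ⊤)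
    (hCB : ∀ z : L', IsIntegral R' z → IsIntegral B z)
    (hBC : ∀ z : L', IsIntegral B z →
      ∃ r : R', ¬ s ∣ r ∧ IsIntegral R' (algebraMap R' L' r * z)) :
    ∀ x : L', IsIntegral R' x → ∀ n : ℕ,
      IsIntegral R' (x ^ n / algebraMap R' L' s) → IsIntegral R' (x / algebraMap R' L' s) := by
  intro x hx n hxn
  have hinj : Function.Injective (algebraMap R' L') := by
    rw [IsScalarTower.algebraMap_eq R' K' L']
    exact (algebraMap K' L').injective.comp (IsFractionRing.injective R' K')
  have hσ0 : algebraMap R' L' s ≠ 0 := (map_ne_zero_iff _ hinj).mpr hs.ne_zero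
  have hdivB : IsIntegral B (x / algebraMap R' L' s) :=
    TameKummer.isIntegral_div_of_pow_dedekind (L := L) he hram hchar hse hgen (hCB x hx)
      (hCB _ hxn)
  obtain ⟨r, hr, hrint⟩ := hBC _ hdivB
  have hrel : r • x = s • (algebraMap R' L' r * (x / algebraMap R' L' s)) := by
    rw [Algebra.smul_def, Algebra.smul_def]
    field_simp
  obtain ⟨y, hy, hxy⟩ := NormalFree.exists_isIntegral_smul_eq K' hs hr hx hrint hrel
  have : x / algebraMap R' L' s = y := by
    rw [hxy, Algebra.smul_def, mul_div_assoc, mul_comm, div_mul_cancel₀ _ hσ0]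
  rw [this]
  exact hy

/-- **Abstract branch-point local theorem.** -/
theorem ldAt_of_branch
    {R K L R' K' L' : Type*}
    [CommRing R] [IsDomain R] [IsIntegrallyClosed R] [IsNoetherianRing R]
    [Field K] [Algebra R K] [IsFractionRing R K]
    [Field L] [Algebra K L] [Algebra R L] [IsScalarTower R K L]
    [FiniteDimensional K L] [Algebra.IsSeparable K L]
    [Module.Free R (integralClosure R L)] [Module.Finite R (integralClosure R L)]
    [CommRing R'] [IsDomain R'] [IsIntegrallyClosed R'] [IsNoetherianRing R'] [IsLocalRing R']
    [Field K'] [Algebra R' K'] [IsFractionRing R' K']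
    [Field L'] [Algebra K' L'] [Algebra R' L'] [IsScalarTower R' K' L']
    [FiniteDimensional K' L'] [Algebra.IsSeparable K' L']
    [Module.Free R' (integralClosure R' L')] [Module.Finite R' (integralClosure R' L')]
    [Algebra R R'] [Algebra K K'] [Algebra R K'] [IsScalarTower R K K'] [IsScalarTower R R' K']
    [Algebra L L'] [Algebra K L'] [IsScalarTower K L L'] [IsScalarTower K K' L']
    [Algebra.IsIntegral R R']
    (hgen : Algebra.adjoin K' (Set.range (algebraMap L L')) = ⊤)
    (π τ : R) (s : R') (e : ℕ)
    (hπ' : Prime (algebraMap R R' π)) (hs : Prime s) (hsπ : ¬ algebraMap R R' π ∣ s)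
    (hmax : IsLocalRing.maximalIdeal R' = Ideal.span {algebraMap R R' π, s})
    (hse : s ^ e = algebraMap R R' τ)
    (hchar0 : ∀ n : ℕ, n ≠ 0 → ¬ s ∣ (n : R'))
    (hdisc : ∃ n : ℕ,
      Algebra.discr R (Module.Free.chooseBasis R (integralClosure R L)) ∣ τ ^ n)
    (hrad : ∀ x : L', IsIntegral R' x → ∀ n : ℕ,
      IsIntegral R' (x ^ n / algebraMap R' L' s) → IsIntegral R' (x / algebraMap R' L' s))
    (M : Ideal (integralClosure R L)) (hM : M.IsMaximal)
    (hπM : algebraMap R (integralClosure R L) π ∈ M) :
    LocalDomain.LDAt (algebraMap R (integralClosure R L) π) M := by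
  classical
  -- injectivity facts
  have hinjR' : Function.Injective (algebraMap R' L') := by
    rw [IsScalarTower.algebraMap_eq R' K' L']
    exact (algebraMap K' L').injective.comp (IsFractionRing.injective R' K')
  have hinjR : Function.Injective (algebraMap R L) := by
    rw [IsScalarTower.algebraMap_eq R K L]
    exact (algebraMap K L).injective.comp (IsFractionRing.injective R K)
  have hcomp : (algebraMap R' L').comp (algebraMap R R') =
      (algebraMap L L').comp (algebraMap R L) := UnitDiscBC.algebraMap_comp_eq R K L R' K' L'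
  have hσ0 : algebraMap R' L' s ≠ 0 := (map_ne_zero_iff _ hinjR').mpr hs.ne_zero
  have hπ0 : π ≠ 0 := fun h => hπ'.ne_zero (by rw [h, map_zero])
  have hπL0 : algebraMap R L π ≠ 0 := (map_ne_zero_iff _ hinjR).mpr hπ0
  -- bases
  set b := Module.Free.chooseBasis R (integralClosure R L) with hb
  set c := Module.Free.chooseBasis R' (integralClosure R' L') with hc
  -- Step 1: the discriminant upstairs divides a power of `s`
  obtain ⟨n, hn⟩ := hdisc
  have h1 : Algebra.discr R' c ∣ s ^ (e * n * (2 * Fintype.card
      (Module.Free.ChooseBasisIndex R' (integralClosure R' L')))) := by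
    have h2 := UnitDiscBC.discr_dvd_pow_of_baseChange K L K' L' hgen b c
    refine h2.trans ?_
    have h3 : algebraMap R R' (Algebra.discr R b) ∣ s ^ (e * n) := by
      rw [pow_mul, hse, ← map_pow]
      exact map_dvd _ hn
    rw [pow_mul s (e * n)]
    exact pow_dvd_pow_of_dvd h3 _
  -- Step 2: trace-self-duality at `s`
  have hrad' : ∀ x : integralClosure R' L',
      (∃ n : ℕ, algebraMap R' (integralClosure R' L') s ∣ x ^ n) →
      algebraMap R' (integralClosure R' L') s ∣ x := by
    rintro x ⟨m, w, hw⟩
    have hw' : (x : L') ^ m = algebraMap R' L' s * (w : L') := by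
      have := congrArg (Subtype.val) hw
      simpa using this
    have hint : IsIntegral R' ((x : L') ^ m / algebraMap R' L' s) := by
      rw [hw', mul_div_assoc, mul_comm, div_mul_cancel₀ _ hσ0]
      exact w.2
    have hz := hrad (x : L') x.2 m hint
    refine ⟨⟨(x : L') / algebraMap R' L' s, hz⟩, ?_⟩
    apply Subtype.ext
    show (x : L') = algebraMap R' L' s * ((x : L') / algebraMap R' L' s)
    rw [mul_div_assoc', mul_comm, mul_div_assoc, div_self hσ0, mul_one]
  have htsd : DiscUnit.TraceSelfDualAt R' (integralClosure R' L') s :=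
    TraceNil.traceSelfDualAt_of_isRadical c hs hchar0 hrad'
  -- Step 3: the discriminant upstairs is a unit
  have hunit : IsUnit (Algebra.discr R' c) :=
    isUnit_of_dvd_prime_pow hs h1 (DiscUnit.not_dvd_discr_of_traceSelfDualAt c hs htsd)
  -- Step 4: comaximality upstairs
  have hπprime : (Ideal.span {algebraMap R R' π}).IsPrime :=
    (Ideal.span_singleton_prime hπ'.ne_zero).mpr hπ'
  have hsnot : s ∉ Ideal.span {algebraMap R R' π} := fun h =>
    hsπ (Ideal.mem_span_singleton.mp h)
  have H' : ∀ Q Q' : Ideal (integralClosure R' L'),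
      Q ∈ (Ideal.span {algebraMap R' (integralClosure R' L')
        (algebraMap R R' π)}).minimalPrimes →
      Q' ∈ (Ideal.span {algebraMap R' (integralClosure R' L')
        (algebraMap R R' π)}).minimalPrimes → Q ≠ Q' → Q ⊔ Q' = ⊤ :=
    fun Q Q' hQ hQ' hne => UnitDisc.sup_eq_top_of_ne c hunit hπprime hsnot hmax hQ hQ' hne
  -- Step 5: the algebra structure `C → C'`
  have hintmap : ∀ x : integralClosure R L, IsIntegral R' (algebraMap L L' (x : L)) := by
    intro x
    obtain ⟨p0, hp0, hp0'⟩ := x.2
    refine ⟨p0.map (algebraMap R R'), hp0.map _, ?_⟩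
    rw [Polynomial.eval₂_map, hcomp, ← Polynomial.hom_eval₂, hp0', map_zero]
  let φ : integralClosure R L →+* integralClosure R' L' :=
    { toFun := fun x => ⟨algebraMap L L' (x : L), hintmap x⟩
      map_one' := Subtype.ext (by simp)
      map_mul' := fun x y => Subtype.ext (by simp)
      map_zero' := Subtype.ext (by simp)
      map_add' := fun x y => Subtype.ext (by simp) }
  let algCC : Algebra (integralClosure R L) (integralClosure R' L') := φ.toAlgebra
  have hφ : ∀ x : integralClosure R L,
      ((algebraMap (integralClosure R L) (integralClosure R' L') x : integralClosure R' L') : L')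
        = algebraMap L L' (x : L) := fun x => rfl
  have hφinj : Function.Injective (algebraMap (integralClosure R L) (integralClosure R' L')) := by
    intro x y hxy
    apply Subtype.ext
    apply (algebraMap L L').injective
    rw [← hφ, ← hφ, hxy]
  have hfaith : FaithfulSMul (integralClosure R L) (integralClosure R' L') :=
    (faithfulSMul_iff_algebraMap_injective _ _).mpr hφinj
  have hπeq : algebraMap (integralClosure R L) (integralClosure R' L')
      (algebraMap R (integralClosure R L) π) =
      algebraMap R' (integralClosure R' L') (algebraMap R R' π) := by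
    apply Subtype.ext
    show algebraMap L L' (algebraMap R L π) = algebraMap R' L' (algebraMap R R' π)
    have := congrArg (fun f => f π) hcomp
    simpa using this.symm
  -- `C'` is integral over `C`
  let algRL' : Algebra R L' := ((algebraMap L L').comp (algebraMap R L)).toAlgebra
  have towerRLL' : IsScalarTower R L L' := IsScalarTower.of_algebraMap_eq fun a => rfl
  have towerRR'L' : IsScalarTower R R' L' := IsScalarTower.of_algebraMap_eq fun a => by
    have := congrArg (fun f => f a) hcomp
    simpa [RingHom.algebraMap_toAlgebra] using this.symm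
  have hintR : ∀ z : L', IsIntegral R' z → IsIntegral R z := fun z hz =>
    isIntegral_trans (R := R) (A := R') z hz
  have hintCC : Algebra.IsIntegral (integralClosure R L) (integralClosure R' L') := by
    refine ⟨fun z => ?_⟩
    obtain ⟨p0, hp0, hp0'⟩ := hintR (z : L') z.2
    refine ⟨p0.map (algebraMap R (integralClosure R L)), hp0.map _, ?_⟩
    apply Subtype.ext
    rw [Polynomial.eval₂_map]
    have key : ∀ q : Polynomial R,
        ((Polynomial.eval₂ ((algebraMap (integralClosure R L) (integralClosure R' L')).comp
          (algebraMap R (integralClosure R L))) z q : integralClosure R' L') : L')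
        = Polynomial.eval₂ (algebraMap R L') (z : L') q := by
      intro q
      induction q using Polynomial.induction_on' with
      | add p q hp hq => simp only [Polynomial.eval₂_add, ← hp, ← hq]; rfl
      | monomial k a =>
        simp only [Polynomial.eval₂_monomial]
        rfl
    rw [key, hp0']
    rfl
  have hicC : IsIntegrallyClosed (integralClosure R L) :=
    integralClosure.isIntegrallyClosedOfFiniteExtension K
  -- Step 6: comaximality downstairs
  have hcomax : ∀ P Q : Ideal (integralClosure R L),
      P ∈ (Ideal.span {algebraMap R (integralClosure R L) π}).minimalPrimes →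
      Q ∈ (Ideal.span {algebraMap R (integralClosure R L) π}).minimalPrimes →
      P ≠ Q → P ⊔ Q = ⊤ := by
    intro P Q hP hQ hne
    refine Descent.sup_eq_top_of_isIntegrallyClosed (C' := integralClosure R' L')
      (algebraMap R (integralClosure R L) π) ?_ hP hQ hne
    rw [hπeq]
    exact H'
  -- Step 7: reducedness downstairs
  have hred : ∀ y : integralClosure R L,
      algebraMap R (integralClosure R L) π ∣ y ^ 2 → algebraMap R (integralClosure R L) π ∣ y := by
    intro y hy
    have hmapspan : (Ideal.span {algebraMap R R' π}).map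
        (algebraMap R' (integralClosure R' L')) =
        Ideal.span {algebraMap R' (integralClosure R' L') (algebraMap R R' π)} := by
      rw [Ideal.map_span, Set.image_singleton]
    have h2 : (algebraMap (integralClosure R L) (integralClosure R' L') y) ^ 2 ∈
        (Ideal.span {algebraMap R R' π}).map (algebraMap R' (integralClosure R' L')) := by
      rw [hmapspan, Ideal.mem_span_singleton, ← hπeq, ← map_pow]
      exact map_dvd _ hy
    have h3 := UnitDisc.mem_map_of_pow_mem c hunit hπprime.isRadical h2
    rw [hmapspan, Ideal.mem_span_singleton] at h3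
    obtain ⟨z', hz'⟩ := h3
    -- `y / π` is integral over `R`
    have hz'L : algebraMap L L' (y : L) = algebraMap L L' (algebraMap R L π) * (z' : L') := by
      have h4 := congrArg (Subtype.val) hz'
      have hπ2 : algebraMap R' L' (algebraMap R R' π) = algebraMap L L' (algebraMap R L π) := by
        have := congrArg (fun f => f π) hcomp
        simpa using this
      rw [← hπ2, ← hφ y]
      exact h4
    have hw : algebraMap L L' ((y : L) / algebraMap R L π) = (z' : L') := by
      rw [map_div₀, hz'L, mul_comm, mul_div_assoc, div_self ((map_ne_zero_iff _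
        (algebraMap L L').injective).mpr hπL0), mul_one]
    have hwint : IsIntegral R ((y : L) / algebraMap R L π) := by
      rw [← isIntegral_algebraMap_iff (B := L') (algebraMap L L').injective, hw]
      exact hintR _ z'.2
    refine ⟨⟨(y : L) / algebraMap R L π, hwint⟩, ?_⟩
    apply Subtype.ext
    show (y : L) = algebraMap R L π * ((y : L) / algebraMap R L π)
    rw [mul_div_assoc', mul_comm, mul_div_assoc, div_self hπL0, mul_one]
  -- Step 8: conclusion
  have hnoeth : IsNoetherianRing (integralClosure R L) :=
    isNoetherian_of_tower R (inferInstance : IsNoetherian R (integralClosure R L))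
  intro a b' hab
  exact GluePrime.locally_domain_of_minimalPrimes _ hred hcomax M hM hπM a b' hab

end Fermat.Agent.S30.Model.LocalBranch
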