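import Mathlib
import Fermat.Agent.S30.Model.KummerCover
import Fermat.Agent.S30.Model.KummerField
import Fermat.Agent.S30.Model.LocalBranch
import Fermat.Agent.S30.Model.LocalDisc
import Fermat.Agent.S30.Model.LocalDomain
import Fermat.Agent.S30.Model.RegLocal
import Fermat.Agent.Lib.NormalFree
import Fermat.Agent.S30.Model.BranchGlue

/-!
# MODEL THEOREM: the local theorem at a branch closed point, global chart form

`A` a Noetherian integrally closed UFD (a chart `O[w]`), `π`, `τ` prime elements with `(π, τ)`
maximal, `A ⧸ (π)` a principal ideal ring, `A ⧸ (τ)` of characteristic zero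
(`τ = w - c` a branch section).  `K = Frac A`, `L / K` finite, `C₀ = integralClosure A L`.

* `ldAt_local` : the LOCAL form (`R = A_x`, `x = (π, τ)`): if the discriminant of the integral
  closure of `R` in `L` divides a power of `τ`, then the integral closure is locally a domain
  modulo `π` at every maximal ideal containing `π`.
* `localBranchStatement` : the same in the one-universe consumer shape.
* `branchStatement : ChartLD.BranchStatement` : the chart form: if `M` is a maximal ideal of `C₀`
  containing `π` and `τ`, and the integral closure is trace-self-dual at every prime element of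
  `A` lying in `M` other than `τ`, then `C₀` is locally a domain modulo `π` at `M`
  (via the localisation glue `BranchGlue.branchStatement_of_local`).

Proof: localise at `x = (π, τ)`; Kummer cover `R' = R[s] / (s ^ e - τ)` (`KummerCover`), Kummer
field `L' = L(s)` (`KummerField`), tame exponent `e` (`KummerField.exists_tame_exponent` for the
Dedekind domain `B` = integral closure of the DVR `R_(τ)` in `L`), and the abstract branch-point
theorem `LocalBranch.ldAt_of_branch` with `LocalBranch.hrad_of_tame`.
-/

set_option autoImplicit false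
set_option linter.overlappingInstances false

open Polynomial

namespace Fermat.Agent.S30.Model.LdAtBranch

open Fermat.Agent.S30.Model Fermat.Agent.Lib

/-- Divisibility by a prime element descends from a localisation away from it. -/
theorem dvd_of_algebraMap_dvd_of_isLocalization {A : Type*} [CommRing A] [IsDomain A]
    (S : Submonoid A) (A' : Type*) [CommRing A'] [Algebra A A'] [IsLocalization S A'] {p a : A}
    (hp : Prime p) (hS : ∀ s ∈ S, ¬ p ∣ s) (h : algebraMap A A' p ∣ algebraMap A A' a) :
    p ∣ a := by
  have hS0 : S ≤ nonZeroDivisors A :=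
    le_nonZeroDivisors_of_noZeroDivisors fun h0 => hS 0 h0 (dvd_zero p)
  have hinj : Function.Injective (algebraMap A A') := IsLocalization.injective A' hS0
  obtain ⟨c, hc⟩ := h
  obtain ⟨⟨c0, s⟩, hcs⟩ := IsLocalization.surj S c
  have h1 : a * (s : A) = p * c0 := by
    apply hinj
    rw [map_mul, map_mul, hc, ← hcs]
    ring
  rcases hp.dvd_or_dvd (Dvd.intro c0 h1.symm) with h2 | h2
  · exact h2
  · exact absurd h2 (hS s s.2)

/-- In the Kummer cover, `s ∣ r` for `r` in the base ring only if `τ ∣ r`. -/
theorem dvd_of_rt_dvd_algebraMap {R : Type*} [CommRing R] (τ : R) {e : ℕ} (he : 0 < e) {r : R}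
    (h : KummerCover.rt τ e ∣ algebraMap R (KummerCover.Cover τ e) r) : τ ∣ r := by
  have h1 : algebraMap R (KummerCover.Cover τ e) r ∈ Ideal.span {KummerCover.rt τ e} :=
    Ideal.mem_span_singleton.2 h
  rw [KummerCover.span_rt_eq_ker τ he, RingHom.mem_ker, KummerCover.evalZero_algebraMap,
    Ideal.Quotient.eq_zero_iff_mem, Ideal.mem_span_singleton] at h1
  exact h1

section LocalForm

/-- **Branch point, local form.** -/
theorem ldAt_local {R : Type*} (K : Type*) {L : Type*} [CommRing R] [IsDomain R] [IsLocalRing R]
    [IsNoetherianRing R] [IsIntegrallyClosed R] [Field K] [CharZero K] [Algebra R K]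
    [IsFractionRing R K] [Field L] [Algebra K L] [Algebra R L] [IsScalarTower R K L]
    [FiniteDimensional K L]
    [Module.Free R (integralClosure R L)] [Module.Finite R (integralClosure R L)]
    (π τ : R) (hπ : Prime π) (hτ : Prime τ) (hπτ : ¬ π ∣ τ)
    [IsPrincipalIdealRing (R ⧸ Ideal.span {π})]
    (hmax : IsLocalRing.maximalIdeal R = Ideal.span {π, τ})
    (hchar : ∀ n : ℕ, n ≠ 0 → ¬ τ ∣ (n : R))
    (hdisc : ∃ n : ℕ,
      Algebra.discr R (Module.Free.chooseBasis R (integralClosure R L)) ∣ τ ^ n)
    (M : Ideal (integralClosure R L)) (hM : M.IsMaximal)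
    (hπM : algebraMap R (integralClosure R L) π ∈ M) :
    LocalDomain.LDAt (algebraMap R (integralClosure R L) π) M := by
  classical
  have hinjK : Function.Injective (algebraMap R K) := IsFractionRing.injective R K
  have hinjL : Function.Injective (algebraMap R L) := by
    rw [IsScalarTower.algebraMap_eq R K L]
    exact (algebraMap K L).injective.comp hinjK
  -- the discrete valuation ring `V = R_(τ)`
  have h𝔭 : (Ideal.span {τ}).IsPrime := (Ideal.span_singleton_prime hτ.ne_zero).2 hτ
  set 𝔭 : Ideal R := Ideal.span {τ} with h𝔭def
  have hunitK : ∀ y : 𝔭.primeCompl, IsUnit (algebraMap R K y) := fun y =>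
    IsUnit.mk0 _ ((map_ne_zero_iff _ hinjK).mpr (fun h0 => y.2 (h0 ▸ 𝔭.zero_mem)))
  let V := Localization.AtPrime 𝔭
  let algVK : Algebra V K := (IsLocalization.lift (M := 𝔭.primeCompl) hunitK).toAlgebra
  have towerRVK : IsScalarTower R V K := IsScalarTower.of_algebraMap_eq fun a => by
    simp [RingHom.algebraMap_toAlgebra, V]
  have fracV : IsFractionRing V K :=
    IsFractionRing.isFractionRing_of_isDomain_of_isLocalization 𝔭.primeCompl V K
  let algVL : Algebra V L := ((algebraMap K L).comp (algebraMap V K)).toAlgebra
  have towerVKL : IsScalarTower V K L := IsScalarTower.of_algebraMap_eq fun a => rfl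
  have towerRVL : IsScalarTower R V L := IsScalarTower.of_algebraMap_eq fun a => by
    rw [RingHom.algebraMap_toAlgebra, RingHom.comp_apply, ← IsScalarTower.algebraMap_apply R V K,
      ← IsScalarTower.algebraMap_apply R K L]
  have domV : IsDomain V := IsLocalization.isDomain_of_atPrime V 𝔭
  have locV : IsLocalRing V := IsLocalization.AtPrime.isLocalRing V 𝔭
  have noethV : IsNoetherianRing V := IsLocalization.isNoetherianRing 𝔭.primeCompl V inferInstance
  have hmaxV : IsLocalRing.maximalIdeal V = Ideal.span {algebraMap R V τ} := by
    rw [← IsLocalization.AtPrime.map_eq_maximalIdeal 𝔭 V]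
    change Ideal.map (algebraMap R V) (Ideal.span {τ}) = _
    rw [Ideal.map_span, Set.image_singleton]
  have pirV : IsPrincipalIdealRing V :=
    KummerCover.isPrincipalIdealRing_of_maximalIdeal_eq_span _ hmaxV
  have sepKL : Algebra.IsSeparable K L := inferInstance
  -- the Dedekind domain `B`
  let B := integralClosure V L
  have dedB : IsDedekindDomain B := integralClosure.isDedekindDomain V K L
  have fracB : IsFractionRing B L := integralClosure.isFractionRing_of_finite_extension K L
  have towerRBL : IsScalarTower R B L := IsScalarTower.of_algebraMap_eq fun a => rfl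
  let t : B := algebraMap R B τ
  have ht0 : t ≠ 0 := by
    intro h0
    have h1 : algebraMap B L t = 0 := by rw [h0, map_zero]
    rw [← IsScalarTower.algebraMap_apply R B L] at h1
    exact hτ.ne_zero ((map_eq_zero_iff _ hinjL).1 h1)
  obtain ⟨e, he, hram⟩ := KummerField.exists_tame_exponent (B := B) ht0
  -- the Kummer field and the Kummer cover
  let τL : L := algebraMap R L τ
  let L' := KummerField.KummerField τL e
  let s' : L' := KummerField.kummerRoot τL e
  have hs'pow : s' ^ e = algebraMap L L' τL := KummerField.kummerRoot_pow τL he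
  have hinjL' : Function.Injective (algebraMap R L') := by
    rw [IsScalarTower.algebraMap_eq R L L']
    exact (algebraMap L L').injective.comp hinjL
  let R' := KummerCover.Cover τ e
  have hroot : (X ^ e - C τ : R[X]).eval₂ (algebraMap R L') s' = 0 := by
    rw [eval₂_sub, eval₂_pow, eval₂_X, eval₂_C, hs'pow, ← IsScalarTower.algebraMap_apply R L L',
      sub_self]
  let φ : R' →+* L' := AdjoinRoot.lift (algebraMap R L') s' hroot
  have hφinj : Function.Injective φ := KummerCover.lift_injective π τ hπ hτ he hinjL' s' hroot
  let algR'L' : Algebra R' L' := φ.toAlgebra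
  have towerRR'L' : IsScalarTower R R' L' := IsScalarTower.of_algebraMap_eq fun r => by
    rw [RingHom.algebraMap_toAlgebra, AdjoinRoot.algebraMap_eq]
    exact (AdjoinRoot.lift_of hroot).symm
  have hφrt : algebraMap R' L' (KummerCover.rt τ e) = s' := AdjoinRoot.lift_root hroot
  -- structure of the Kummer cover
  have domR' : IsDomain R' := KummerCover.isDomain π τ hπ hτ he
  have locR' : IsLocalRing R' := KummerCover.isLocalRing π τ he hmax
  have noethR' : IsNoetherianRing R' := KummerCover.isNoetherianRing τ he
  have ufdR' : UniqueFactorizationMonoid R' :=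
    KummerCover.uniqueFactorizationMonoid π τ hmax hπ hτ hπτ he
  obtain ⟨hπ', pirR'⟩ := KummerCover.prime_and_isPrincipalIdealRing π τ hmax hπ hπτ he
  have hmaxR' := KummerCover.maximalIdeal_eq π τ he hmax
  have hsprime : Prime (KummerCover.rt τ e) := KummerCover.prime_rt τ hτ he
  have finR' : Module.Finite R R' := KummerCover.finite τ he
  have intR' : Algebra.IsIntegral R R' := Algebra.IsIntegral.of_finite R R'
  -- the fraction field of the Kummer cover
  let K' := FractionRing R'
  have faithR'L' : FaithfulSMul R' L' := (faithfulSMul_iff_algebraMap_injective R' L').2 hφinj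
  let algK'L' : Algebra K' L' := FractionRing.liftAlgebra R' L'
  have towerR'K'L' : IsScalarTower R' K' L' := FractionRing.isScalarTower_liftAlgebra R' L'
  have hinjRR' : Function.Injective (algebraMap R R') := KummerCover.algebraMap_injective τ he
  have hinjRK' : Function.Injective (algebraMap R K') := by
    rw [IsScalarTower.algebraMap_eq R R' K']
    exact (IsFractionRing.injective R' K').comp hinjRR'
  let algKK' : Algebra K K' := (IsFractionRing.lift hinjRK').toAlgebra
  have towerRKK' : IsScalarTower R K K' := IsScalarTower.of_algebraMap_eq fun r => by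
    rw [RingHom.algebraMap_toAlgebra]
    exact (IsFractionRing.lift_algebraMap hinjRK' r).symm
  have towerKK'L' : IsScalarTower K K' L' := by
    refine IsScalarTower.of_algebraMap_eq' ?_
    apply IsLocalization.ringHom_ext (nonZeroDivisors R)
    ext r
    rw [RingHom.comp_apply, RingHom.comp_apply, RingHom.comp_apply,
      ← IsScalarTower.algebraMap_apply R K K', IsScalarTower.algebraMap_apply R R' K',
      ← IsScalarTower.algebraMap_apply R' K' L', ← IsScalarTower.algebraMap_apply R R' L',
      ← IsScalarTower.algebraMap_apply R K L']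
  have finKL' : Module.Finite K L' := Module.Finite.trans L L'
  have finK'L' : FiniteDimensional K' L' := Module.Finite.of_restrictScalars_finite K K' L'
  have charK' : CharZero K' := charZero_of_injective_algebraMap (algebraMap K K').injective
  have sepK'L' : Algebra.IsSeparable K' L' := inferInstance
  have hgen : Algebra.adjoin K' (Set.range (algebraMap L L')) = ⊤ := by
    rw [eq_top_iff]
    have key : ∀ z ∈ Algebra.adjoin L ({s'} : Set L'),
        z ∈ Algebra.adjoin K' (Set.range (algebraMap L L')) := by
      intro z hz
      induction hz using Algebra.adjoin_induction with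
      | mem x hx =>
        rw [Set.mem_singleton_iff] at hx
        rw [hx, ← hφrt, IsScalarTower.algebraMap_apply R' K' L']
        exact Subalgebra.algebraMap_mem _ _
      | algebraMap r => exact Algebra.subset_adjoin ⟨r, rfl⟩
      | add x y _ _ hx hy => exact Subalgebra.add_mem _ hx hy
      | mul x y _ _ hx hy => exact Subalgebra.mul_mem _ hx hy
    intro z _
    exact key z (by rw [KummerField.adjoin_kummerRoot]; exact Algebra.mem_top)
  have hπ'm : algebraMap R R' π ∈ IsLocalRing.maximalIdeal R' := by
    rw [hmaxR']; exact Ideal.subset_span (Set.mem_insert _ _)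
  have icR' : IsIntegrallyClosed R' := inferInstance
  have freeC' : Module.Free R' (integralClosure R' L') :=
    NormalFree.free_integralClosure K' L' hπ' hπ'm
  have finC' : Module.Finite R' (integralClosure R' L') := NormalFree.finite_integralClosure K' L'
  -- the hypotheses of the abstract theorem
  have hsπ : ¬ algebraMap R R' π ∣ KummerCover.rt τ e := by
    intro hdvd
    have h1 : algebraMap R R' π ∣ algebraMap R R' τ := by
      rw [← KummerCover.rt_pow τ e]
      exact dvd_pow hdvd he.ne'
    exact hπτ (KummerCover.dvd_of_algebraMap_dvd τ he h1)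
  have hchar0 : ∀ n : ℕ, n ≠ 0 → ¬ KummerCover.rt τ e ∣ (n : R') :=
    KummerCover.not_rt_dvd_natCast τ he hchar
  have towerRBL' : IsScalarTower R B L' := IsScalarTower.of_algebraMap_eq fun r => by
    rw [IsScalarTower.algebraMap_apply R L L', IsScalarTower.algebraMap_apply B L L',
      ← IsScalarTower.algebraMap_apply R B L]
  have towerRVL' : IsScalarTower R V L' := IsScalarTower.of_algebraMap_eq fun r => by
    rw [IsScalarTower.algebraMap_apply R L L', IsScalarTower.algebraMap_apply V L L',
      ← IsScalarTower.algebraMap_apply R V L]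
  have towerVBL' : IsScalarTower V B L' := IsScalarTower.of_algebraMap_eq fun r => by
    rw [IsScalarTower.algebraMap_apply V L L', IsScalarTower.algebraMap_apply B L L',
      ← IsScalarTower.algebraMap_apply V B L]
  have hse : algebraMap R' L' (KummerCover.rt τ e) ^ e = algebraMap B L' t := by
    rw [hφrt, hs'pow, IsScalarTower.algebraMap_apply B L L',
      ← IsScalarTower.algebraMap_apply R B L]
  have hgen' : Algebra.adjoin L ({algebraMap R' L' (KummerCover.rt τ e)} : Set L') = ⊤ := by
    rw [hφrt]
    exact KummerField.adjoin_kummerRoot τL e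
  have hS𝔭 : ∀ y ∈ 𝔭.primeCompl, ¬ τ ∣ y := fun y hy hdvd =>
    hy (Ideal.mem_span_singleton.2 hdvd)
  have hCB : ∀ z : L', IsIntegral R' z → IsIntegral B z := by
    intro z hz
    have h1 : IsIntegral R z := isIntegral_trans (R := R) (A := R') z hz
    exact h1.tower_top
  have hBC : ∀ z : L', IsIntegral B z →
      ∃ r : R', ¬ KummerCover.rt τ e ∣ r ∧ IsIntegral R' (algebraMap R' L' r * z) := by
    intro z hz
    have h1 : IsIntegral V z := isIntegral_trans (R := V) (A := B) z hz
    obtain ⟨⟨m, hm⟩, hmz⟩ :=
      IsIntegral.exists_multiple_integral_of_isLocalization 𝔭.primeCompl z h1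
    refine ⟨algebraMap R R' m, fun hdvd => hS𝔭 m hm (dvd_of_rt_dvd_algebraMap τ he hdvd), ?_⟩
    have h2 : (⟨m, hm⟩ : 𝔭.primeCompl) • z = algebraMap R' L' (algebraMap R R' m) * z := by
      rw [Submonoid.smul_def, Algebra.smul_def, ← IsScalarTower.algebraMap_apply R R' L']
    rw [h2] at hmz
    exact hmz.tower_top
  have hcharB : ∀ P : Ideal B, P.IsPrime → P ≠ ⊥ → t ∈ P → ((e : ℕ) : B) ∉ P := by
    intro P hP _ htP heP
    have hprime : (P.comap (algebraMap V B)).IsPrime := Ideal.comap_isPrime _ P
    have h1 : algebraMap R V τ ∈ P.comap (algebraMap V B) := by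
      rw [Ideal.mem_comap, ← IsScalarTower.algebraMap_apply R V B]
      exact htP
    have h2 : P.comap (algebraMap V B) = IsLocalRing.maximalIdeal V := by
      refine le_antisymm (IsLocalRing.le_maximalIdeal hprime.ne_top) ?_
      rw [hmaxV, Ideal.span_le, Set.singleton_subset_iff]
      exact h1
    have h3 : ((e : ℕ) : V) ∈ P.comap (algebraMap V B) := by
      rw [Ideal.mem_comap, map_natCast]
      exact heP
    rw [h2, hmaxV, Ideal.mem_span_singleton, ← map_natCast (algebraMap R V)] at h3
    exact hchar e he.ne' (dvd_of_algebraMap_dvd_of_isLocalization 𝔭.primeCompl V hτ hS𝔭 h3)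
  have hrad := LocalBranch.hrad_of_tame (B := B) (L := L) (R' := R') (L' := L') K' he hram
    hcharB (KummerCover.rt τ e) hsprime hse hgen' hCB hBC
  exact LocalBranch.ldAt_of_branch (K := K) (K' := K') (L' := L') (R' := R') hgen π τ
    (KummerCover.rt τ e) e hπ' hsprime hsπ hmaxR' (KummerCover.rt_pow τ e) hchar0 hdisc hrad
    M hM hπM

end LocalForm

universe u

/-- `ldAt_local` in the literal shape of the `LocalBranchStatement` cut (one universe, with the
redundant `Algebra.IsSeparable K L` instance). -/
theorem localBranchStatement :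
    ∀ (R K L : Type u) [CommRing R] [IsDomain R] [IsLocalRing R] [IsNoetherianRing R]
      [IsIntegrallyClosed R] [Field K] [Algebra R K] [IsFractionRing R K] [CharZero K]
      [Field L] [Algebra K L] [Algebra R L] [IsScalarTower R K L] [FiniteDimensional K L]
      [Algebra.IsSeparable K L]
      [Module.Free R (integralClosure R L)] [Module.Finite R (integralClosure R L)]
      (π τ : R) (_ : Prime π) (_ : Prime τ) (_ : ¬ π ∣ τ)
      [IsPrincipalIdealRing (R ⧸ Ideal.span {π})]
      (_ : IsLocalRing.maximalIdeal R = Ideal.span {π, τ})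
      (_ : ∀ n : ℕ, n ≠ 0 → ¬ τ ∣ (n : R))
      (_ : ∃ n : ℕ,
        Algebra.discr R (Module.Free.chooseBasis R (integralClosure R L)) ∣ τ ^ n)
      (M : Ideal (integralClosure R L)) (_ : M.IsMaximal)
      (_ : algebraMap R (integralClosure R L) π ∈ M),
      LocalDomain.LDAt (algebraMap R (integralClosure R L) π) M :=
  fun _ K _ _ _ _ _ _ _ _ _ _ _ _ _ _ _ _ _ _ π τ hπ hτ hπτ _ hmax hchar hdisc M hM hπM =>
    ldAt_local K π τ hπ hτ hπτ hmax hchar hdisc M hM hπM

/-- **The branch-point local theorem in its consumer shape** (`ChartLD.BranchStatement`): the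
chart form follows from `localBranchStatement` by the localisation glue `BranchGlue`. -/
theorem branchStatement : ChartLD.BranchStatement.{u} :=
  BranchGlue.branchStatement_of_local localBranchStatement

end Fermat.Agent.S30.Model.LdAtBranch
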