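import Mathlib
import Fermat.Agent.S30.Model.Main
import Fermat.Agent.S30.Model.Defs
import Fermat.Agent.S30.Model.LocalDomain
import Fermat.Agent.S30.Model.GlueChart
import Fermat.Agent.S30.Model.ChartInf
import Fermat.Agent.S30.Model.ConstField
import Fermat.Agent.S30.Model.FamilyTSD
import Fermat.Agent.S30.Model.KummerContra
import Fermat.Agent.S30.Model.ChartProv
import Fermat.Agent.S30.Model.ChartSwap
import Fermat.Agent.S30.Model.ChartLD
import Fermat.Agent.S30.Model.KummerRows
import Fermat.Agent.S30.Model.LdAtBranch

/-!
# MODEL THEOREM — assembly (E1, owner helper289)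

`Assembly.main_a_tsd`, `Assembly.main_a`, `Assembly.main_b` are PROVED here from the ROWS below.
`Assembly.main_a` / `Assembly.main_b` are, verbatim, the statements `Model.main_a` /
`Model.main_b` of the contract `Model/Main.lean` (which only states them); consumers cite
`Fermat.Agent.S30.Model.Assembly.main_a` / `.main_b`.

Every row is proved in its owner's file (named in the row's docstring) and cited here; this file
and its import closure use the three standard axioms only.

Rows:
* `gaussTSD_of_gaussUnram`, `horizTSD_of_horizUnram` : family form ⇒ TSD form  (Cramer).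
* `chartUnram_of` : (i) + (ii) ⇒ `ChartUnram` on the `u`-chart.
* `chartUnram_inf` : (i) + (ii) ⇒ TSD at the primes of `O[u⁻¹]` through a point over `u = ∞`.
* `chart_ld` : the LOCAL THEOREM on a chart, pointwise at a maximal ideal `M ∋ π`
  (non-branch `M`: unit discriminant; branch `M ∋ t - c`: base change `s^e = t - c`, Abhyankar
  in residue characteristic `0`, descent).
* `chart_finite`, `chart_nzd`, `chart_not_unit` : providers of `ChartInf.prime_integralClosure`.
* `kummer_persist` : (i), (ii), finiteness pass to `L' = L(g^{1/p})`.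
* `kummer_contra` : `KummerStep.not_prime_of_isSplittingField` on the concrete chart.
-/

set_option autoImplicit false
set_option linter.unusedSectionVars false

open Polynomial

namespace Fermat.Agent.S30.Model.Assembly

open Fermat.Agent.S30.Model

universe w in
/-- ROW (DONE, `LdAtBranch`, helper271 on helper147's `LocalBranch`, helper173's `BranchGlue`):
**the branch-point local theorem** in its consumer shape
`ChartLD.BranchStatement` (abstract chart `A`, primes `π`, `τ` with `(π, τ)` maximal, residue
characteristic `0` along `τ`, trace-self-duality at every prime through `M` other than `τ`). -/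
theorem branchStatement : ChartLD.BranchStatement.{w} :=
  LdAtBranch.branchStatement

section Rows

variable {O E L : Type*} [CommRing O] [IsDomain O] [IsDiscreteValuationRing O]
  [Field E] [CharZero E] [Algebra O E] [IsFractionRing O E]
  [Field L] [Algebra E L] [Algebra O L] [IsScalarTower O E L]

/-- ROW (DONE, `FamilyTSD`): family form ⇒ TSD form of (i). -/
theorem gaussTSD_of_gaussUnram (π : O) (hπ : Irreducible π) (t : L) (ht : Transcendental E t)
    [FiniteDimensional (IntermediateField.adjoin E {t}) L]
    (h : GaussUnram (E := E) π t) : GaussTSD (E := E) π t :=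
  FamilyTSD.gaussTSD_of_gaussUnram π hπ t ht h

/-- ROW (DONE, `FamilyTSD`): family form ⇒ TSD form of (ii). -/
theorem horizTSD_of_horizUnram (t : L) (ht : Transcendental E t)
    [FiniteDimensional (IntermediateField.adjoin E {t}) L]
    (S : Finset O) (h : HorizUnram (E := E) S t) : HorizTSD (E := E) S t :=
  FamilyTSD.horizTSD_of_horizUnram t ht S h

/-- ROW (DONE, `ChartSwap`, helper74): (i) + (ii) ⇒ `ChartUnram` on the `u`-chart. -/
theorem chartUnram_of (π : O) (hπ : Irreducible π) (u : L) (hu : Transcendental E u)
    [FiniteDimensional (IntermediateField.adjoin E {u}) L]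
    (S : Finset O) (hi : GaussTSD (E := E) π u) (hii : HorizTSD (E := E) S u) :
    ChartUnram (E := E) S u :=
  ChartSwap.chartUnram_of π hπ u hu S hi hii

/-- ROW (DONE, `ChartSwap`, helper74): the chart at infinity.  At a maximal ideal `M` of the integral closure of `O[u⁻¹]`
containing `π` and `u⁻¹`, every prime element `f` of `O[X]` with `f(u⁻¹) ∈ M`, `f ≁ X`, is a
point of trace-self-duality over `O[u⁻¹]`. -/
theorem chartUnram_inf (π : O) (hπ : Irreducible π) (u : L) (hu : Transcendental E u)
    [FiniteDimensional (IntermediateField.adjoin E {u}) L]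
    (S : Finset O) (hi : GaussTSD (E := E) π u) (hii : HorizTSD (E := E) S u)
    (M : Ideal (integralClosure (Algebra.adjoin O {u⁻¹}) L)) (hM : M.IsMaximal)
    (hπM : GlueChart.piElt (Algebra.adjoin O {u⁻¹}) π ∈ M) (htM : ChartInf.tInf u ∈ M)
    (f : O[X]) (hf : Prime f) (hfM : ∃ m ∈ M, (m : L) = aeval u⁻¹ f)
    (hfX : ¬ Associated f X) :
    TSDAt (IntermediateField.adjoin E {u⁻¹}) (Algebra.adjoin O {u⁻¹}) (aeval u⁻¹ f) :=
  ChartSwap.chartUnram_inf π hπ u hu S hi hii M hM hπM htM f hf hfM hfX

/-- ROW (DONE modulo `branchStatement`; `ChartLD`, helper173 + `LocalNB`, helper31): the LOCAL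
THEOREM on the chart `Spec O[t]`, at a maximal ideal `M ∋ π` of the integral
closure: if every prime element `f` of `O[X]` with `f(t) ∈ M`, other than the branch sections
`X - c` (`c ∈ S`, pairwise distinct modulo `π`), is a point of trace-self-duality, then the
integral closure is locally a domain modulo `π` at `M`. -/
theorem chart_ld (π : O) (hπ : Irreducible π) (t : L) (ht : Transcendental E t)
    [FiniteDimensional (IntermediateField.adjoin E {t}) L]
    (S : Finset O) (hS : ∀ c ∈ S, ∀ c' ∈ S, c ≠ c' → IsUnit (c - c'))
    (M : Ideal (integralClosure (Algebra.adjoin O {t}) L)) (hM : M.IsMaximal)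
    (hπM : GlueChart.piElt (Algebra.adjoin O {t}) π ∈ M)
    (h : ∀ f : O[X], Prime f → (∃ m ∈ M, (m : L) = aeval t f) →
      (∀ c ∈ S, ¬ Associated f (X - C c)) →
      TSDAt (IntermediateField.adjoin E {t}) (Algebra.adjoin O {t}) (aeval t f)) :
    LocalDomain.LDAt (GlueChart.piElt (Algebra.adjoin O {t}) π) M :=
  ChartLD.chart_ld_of_branch branchStatement π hπ t ht S hS M hM hπM h

/-- ROW (DONE, `ChartProv`, helper161): the integral closure of a chart is a finite module. -/
theorem chart_finite (t : L) (ht : Transcendental E t)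
    [FiniteDimensional (IntermediateField.adjoin E {t}) L] :
    Module.Finite (Algebra.adjoin O {t}) (integralClosure (Algebra.adjoin O {t}) L) :=
  ChartProv.chart_finite (E := E) t ht

/-- ROW (DONE, `ChartProv`, helper161): `t` is a non-zero-divisor modulo `π` on the integral closure of `O[t]`. -/
theorem chart_nzd (π : O) (hπ : Irreducible π) (t : L) (ht : Transcendental E t) (x : L)
    (hx : IsIntegral (Algebra.adjoin O {t}) x)
    (h : IsIntegral (Algebra.adjoin O {t}) (t * x / algebraMap O L π)) :
    IsIntegral (Algebra.adjoin O {t}) (x / algebraMap O L π) :=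
  ChartProv.chart_nzd (E := E) π hπ t ht x hx h

/-- ROW (DONE, `ChartProv`, helper161): `π` is not a unit of the integral closure of `O[t]`. -/
theorem chart_not_unit (π : O) (hπ : Irreducible π) (t : L) (ht : Transcendental E t) :
    ¬ IsIntegral (Algebra.adjoin O {t}) (algebraMap O L π)⁻¹ :=
  ChartProv.chart_not_unit (E := E) π hπ t ht

/-- ROW (DONE, `KummerRows`, helper101): (i), (ii) and finiteness pass to the Kummer extension `L' = L(g^{1/p})`, when `g ≡ 1`
at the Gauss valuation and `g` is locally a `p`-th power times a unit on the affine `u`-line.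
(`hprime` = `main_a_tsd` for `L`.) -/
theorem kummer_persist (π : O) (hπ : Irreducible π) (u : L) (hu : Transcendental E u)
    [FiniteDimensional (IntermediateField.adjoin E {u}) L] (halg : AlgClosedIn E L)
    (hi : GaussTSD (E := E) π u)
    (S : Finset O) (hS : ∀ c ∈ S, ∀ c' ∈ S, c ≠ c' → IsUnit (c - c'))
    (hii : HorizTSD (E := E) S u)
    (hprime : Prime (GlueChart.piElt (Algebra.adjoin O {u}) π))
    (p : ℕ) (hp : p.Prime) (hpO : IsUnit (p : O)) (ζ : O) (hζ : IsPrimitiveRoot ζ p)
    (g : L) (hg1 : GaussOne π u g) (hgu : LocPow (E := E) p u g) (hnp : ∀ h : L, h ^ p ≠ g)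
    (L' : Type*) [Field L'] [Algebra L L'] [Algebra E L'] [Algebra O L']
    [IsScalarTower E L L'] [IsScalarTower O E L'] [IsSplittingField L L' (X ^ p - C g)] :
    FiniteDimensional (IntermediateField.adjoin E {algebraMap L L' u}) L' ∧
    GaussTSD (E := E) π (algebraMap L L' u) ∧
    HorizTSD (E := E) S (algebraMap L L' u) := by
  exact KummerRows.kummer_persist π hπ u hu halg hi S hS hii hprime p hp hpO ζ hζ g hg1 hgu hnp L'

/-- ROW (DONE, `KummerContra`, helper92): `KummerStep.not_prime_of_isSplittingField` on the concrete chart: if `g ≡ 1` at the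
Gauss valuation and `g` is not a `p`-th power, then `π` is not prime in the integral closure of
`O[u]` in `L' = L(g^{1/p})`. -/
theorem kummer_contra (π : O) (hπ : Irreducible π) (u : L) (hu : Transcendental E u)
    [FiniteDimensional (IntermediateField.adjoin E {u}) L]
    (p : ℕ) (hp : p.Prime) (hpO : IsUnit (p : O)) (ζ : O) (hζ : IsPrimitiveRoot ζ p)
    (g : L) (hg1 : GaussOne π u g) (hnp : ∀ h : L, h ^ p ≠ g)
    (L' : Type*) [Field L'] [Algebra L L'] [Algebra E L'] [Algebra O L']
    [IsScalarTower E L L'] [IsScalarTower O E L'] [IsSplittingField L L' (X ^ p - C g)] :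
    ¬ Prime (GlueChart.piElt (Algebra.adjoin O {algebraMap L L' u}) π) :=
  KummerContra.kummer_contra π hπ u hu p hp hpO ζ hζ g hg1 hnp L'

end Rows

section Main

variable {O E L : Type*} [CommRing O] [IsDomain O] [IsDiscreteValuationRing O]
  [Field E] [CharZero E] [Algebra O E] [IsFractionRing O E]
  [Field L] [Algebra E L] [Algebra O L] [IsScalarTower O E L]

omit [CharZero E] in
/-- `O` is integrally closed in `L` when `E` is algebraically closed in `L`. -/
theorem exists_of_isIntegral_of_algClosedIn (halg : AlgClosedIn E L) (x : L)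
    (hx : IsIntegral O x) : ∃ a : O, algebraMap O L a = x := by
  have hxE : IsAlgebraic E x := (hx.tower_top (A := E)).isAlgebraic
  obtain ⟨e, rfl⟩ := halg x hxE
  have he : IsIntegral O e :=
    (isIntegral_algebraMap_iff (algebraMap E L).injective).1 hx
  obtain ⟨a, rfl⟩ := IsIntegrallyClosed.isIntegral_iff.1 he
  exact ⟨a, (IsScalarTower.algebraMap_apply O E L a)⟩

/-- **MODEL THEOREM (a), TSD form.** -/
theorem main_a_tsd (π : O) (hπ : Irreducible π) (u : L) (hu : Transcendental E u)
    [FiniteDimensional (IntermediateField.adjoin E {u}) L] (halg : AlgClosedIn E L)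
    (hi : GaussTSD (E := E) π u)
    (S : Finset O) (hS : ∀ c ∈ S, ∀ c' ∈ S, c ≠ c' → IsUnit (c - c'))
    (hii : HorizTSD (E := E) S u) :
    Prime (algebraMap (Algebra.adjoin O {u}) (integralClosure (Algebra.adjoin O {u}) L)
      (algebraMap O (Algebra.adjoin O {u}) π)) := by
  classical
  have hinj : Function.Injective (algebraMap O L) := by
    rw [IsScalarTower.algebraMap_eq O E L]
    exact (algebraMap E L).injective.comp (IsFractionRing.injective O E)
  have hu0 : u ≠ 0 := fun h => hu (h ▸ isAlgebraic_zero)
  have hu' : Transcendental E u⁻¹ := fun h => hu (by simpa using h.inv)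
  have hK : IntermediateField.adjoin E {u⁻¹} = IntermediateField.adjoin E {u} := by
    apply le_antisymm
    · rw [IntermediateField.adjoin_simple_le_iff]
      exact inv_mem (IntermediateField.mem_adjoin_simple_self E u)
    · rw [IntermediateField.adjoin_simple_le_iff]
      have := inv_mem (IntermediateField.mem_adjoin_simple_self E u⁻¹)
      simpa using this
  have : FiniteDimensional (IntermediateField.adjoin E {u⁻¹}) L := by
    rw [hK]; infer_instance
  have := chart_finite (O := O) (E := E) u hu
  have := chart_finite (O := O) (E := E) u⁻¹ hu'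
  have hcu := chartUnram_of π hπ u hu S hi hii
  exact ChartInf.prime_integralClosure π hπ.prime hinj
    (exists_of_isIntegral_of_algClosedIn halg) u hu0
    (chart_not_unit (E := E) π hπ u hu)
    (fun x hx h => chart_nzd (E := E) π hπ u⁻¹ hu' x hx h)
    (fun M hM hπM => chart_ld (E := E) π hπ u hu S hS M hM hπM
      (fun f hf _ hfS => hcu f hf hfS))
    (fun M hM hπM htM => chart_ld (E := E) π hπ u⁻¹ hu' {0}
      (fun c hc c' hc' hne => absurd ((Finset.mem_singleton.1 hc).trans
        (Finset.mem_singleton.1 hc').symm) hne) M hM hπM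
      (fun f hf hfM hfS => chartUnram_inf π hπ u hu S hi hii M hM hπM htM f hf hfM
        (by simpa using hfS 0 (Finset.mem_singleton_self 0))))

/-- **MODEL THEOREM (a)** — verbatim the statement `Model.main_a` of `Model/Main.lean`. -/
theorem main_a (π : O) (hπ : Irreducible π) (u : L) (hu : Transcendental E u)
    [FiniteDimensional (IntermediateField.adjoin E {u}) L] (halg : AlgClosedIn E L)
    (hi : GaussUnram (E := E) π u)
    (S : Finset O) (hS : ∀ c ∈ S, ∀ c' ∈ S, c ≠ c' → IsUnit (c - c'))
    (hii : HorizUnram (E := E) S u) :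
    Prime (algebraMap (Algebra.adjoin O {u}) (integralClosure (Algebra.adjoin O {u}) L)
      (algebraMap O (Algebra.adjoin O {u}) π)) :=
  main_a_tsd π hπ u hu halg (gaussTSD_of_gaussUnram π hπ u hu hi) S hS
    (horizTSD_of_horizUnram u hu S hii)

/-- **MODEL THEOREM (b) = abstract (K1)** — verbatim the statement `Model.main_b` of
`Model/Main.lean`. -/
theorem main_b (π : O) (hπ : Irreducible π) (u : L) (hu : Transcendental E u)
    [FiniteDimensional (IntermediateField.adjoin E {u}) L] (halg : AlgClosedIn E L)
    (hi : GaussUnram (E := E) π u)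
    (S : Finset O) (hS : ∀ c ∈ S, ∀ c' ∈ S, c ≠ c' → IsUnit (c - c'))
    (hii : HorizUnram (E := E) S u)
    (p : ℕ) (hp : p.Prime) (hpO : IsUnit (p : O)) (ζ : O) (hζ : IsPrimitiveRoot ζ p)
    (g : L) (hg1 : GaussOne π u g) (hgu : LocPow (E := E) p u g) :
    ∃ (c : E) (h : L), g = algebraMap E L c * h ^ p := by
  classical
  by_contra hcon
  have : Fact p.Prime := ⟨hp⟩
  have hnp : ∀ h : L, h ^ p ≠ g := fun h hh => hcon ⟨1, h, by rw [map_one, one_mul, hh]⟩
  have hg0 : g ≠ 0 := fun h0 => hnp 0 (by rw [h0, zero_pow hp.ne_zero])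
  have hζE : IsPrimitiveRoot (algebraMap O E ζ) p :=
    hζ.map_of_injective (IsFractionRing.injective O E)
  have hiT := gaussTSD_of_gaussUnram π hπ u hu hi
  have hiiT := horizTSD_of_horizUnram u hu S hii
  -- the Kummer extension
  let L' := (X ^ p - C g : L[X]).SplittingField
  have : IsScalarTower O E L' := IsScalarTower.of_algebraMap_eq (fun x => by
    rw [IsScalarTower.algebraMap_apply O L L', IsScalarTower.algebraMap_apply O E L,
      ← IsScalarTower.algebraMap_apply E L L'])
  have halg' : AlgClosedIn E L' := by
    by_contra h'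
    exact hcon (ConstField.exists_eq_const_mul_pow (L' := L') p (algebraMap O E ζ) hζE
      (fun x hx => halg x hx) g hg0 (fun h'' => h' (fun x hx => h'' x hx)))
  have hprime := main_a_tsd π hπ u hu halg hiT S hS hiiT
  obtain ⟨hfd, hi', hii'⟩ := kummer_persist π hπ u hu halg hiT S hS hiiT hprime p hp hpO ζ hζ g
    hg1 hgu hnp L'
  have hu' : Transcendental E (algebraMap L L' u) :=
    (transcendental_algebraMap_iff (algebraMap L L').injective).2 hu
  have := hfd
  have hprime' := main_a_tsd π hπ (algebraMap L L' u) hu' halg' hi' S hS hii'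
  exact kummer_contra (E := E) π hπ u hu p hp hpO ζ hζ g hg1 hnp L' hprime'

end Main

end Fermat.Agent.S30.Model.Assembly
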