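import Mathlib
import Fermat.Agent.Lib.NormalFree

/-!
# Tame branch point case of the MODEL THEOREM: basic lemmas

General commutative algebra used by `Fermat.Agent.S30.Model.Tame*`:

* `isIntegral_of_forall_quotient` : in an Artinian ring, integrality can be tested in the residue
  fields;
* `isIntegral_of_smul` : the "minimal polynomial trick" (`p • x`, `t • x` integral, `p` prime,
  `p ∤ t` ⇒ `x` integral) inside an Artinian algebra which need not be a domain;
* `isIntegral_trace` : the trace of an integral element of a finite dimensional algebra over a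
  field is integral;
* `adjoinRoot_isRadical_unit`, `adjoinRoot_isRadical_root` : radical ideals in the two steps
  `A[z]/(z^k - ε)` (unramified) and `A[s]/(s^m - τ)` (Eisenstein) of the local Abhyankar
  computation;
* `mem_of_isIntegral_of_pow_mul_mem` : a subring `B` with `s • B` radical is integrally closed
  in `B[1/s]`.
-/

set_option autoImplicit false

open Polynomial

namespace Fermat.Agent.S30.Model.Tame

section Artinian

variable {A Λ : Type*} [CommRing A] [CommRing Λ] [Algebra A Λ] [IsArtinianRing Λ]

/-- **Field reduction principle.**  In an Artinian `A`-algebra `Λ`, an element is integral over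
`A` as soon as its image in every residue field `Λ ⧸ N` is. -/
theorem isIntegral_of_forall_quotient (x : Λ)
    (h : ∀ N : Ideal Λ, N.IsMaximal → IsIntegral A (Ideal.Quotient.mk N x)) :
    IsIntegral A x := by
  classical
  have hfin : {N : Ideal Λ | N.IsMaximal}.Finite := IsArtinianRing.setOfPred_isMaximal_finite Λ
  -- a monic polynomial for each maximal ideal
  have hex : ∀ N : Ideal Λ, ∃ g : A[X], g.Monic ∧ (N.IsMaximal → aeval x g ∈ N) := by
    intro N
    by_cases hN : N.IsMaximal
    · obtain ⟨g, hg, hg0⟩ := h N hN
      refine ⟨g, hg, fun _ => ?_⟩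
      rw [← Ideal.Quotient.eq_zero_iff_mem]
      have : Ideal.Quotient.mk N (aeval x g) = eval₂ (algebraMap A (Λ ⧸ N)) (Ideal.Quotient.mk N x) g := by
        rw [aeval_def, hom_eval₂]
        rfl
      rw [this]
      exact hg0
    · exact ⟨1, monic_one, fun h => absurd h hN⟩
  choose g hg hgN using hex
  set G : A[X] := ∏ N ∈ hfin.toFinset, g N with hG
  have hGm : G.Monic := monic_prod_of_monic _ _ (fun N _ => hg N)
  -- `G(x)` lies in every maximal ideal
  have hmem : aeval x G ∈ (⊥ : Ideal Λ).jacobson := by
    rw [Ideal.jacobson, Ideal.mem_sInf]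
    rintro N ⟨-, hN⟩
    have hNmem : N ∈ hfin.toFinset := by simpa using hN
    rw [hG, map_prod, ← Finset.mul_prod_erase _ _ hNmem]
    exact Ideal.mul_mem_right _ _ (hgN N hN)
  have hnil : IsNilpotent (aeval x G) := by
    have := IsArtinianRing.isNilpotent_jacobson_bot (R := Λ)
    obtain ⟨n, hn⟩ := this
    refine ⟨n, ?_⟩
    have h1 : aeval x G ^ n ∈ (⊥ : Ideal Λ).jacobson ^ n := Ideal.pow_mem_pow hmem n
    rw [hn] at h1
    simpa using h1
  obtain ⟨n, hn⟩ := hnil
  exact ⟨G ^ n, hGm.pow n, by rw [← aeval_def, map_pow, hn]⟩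

/-- **Minimal polynomial trick in an Artinian algebra.**  `A` an integrally closed domain which
injects into every residue field of the Artinian `A`-algebra `Λ`; `p` a prime element, `p ∤ t`.
If `p • x` and `t • x` are integral over `A` then so is `x`. -/
theorem isIntegral_of_smul [IsDomain A] [IsIntegrallyClosed A]
    (hinj : ∀ N : Ideal Λ, N.IsMaximal → Function.Injective (algebraMap A (Λ ⧸ N)))
    {p t : A} (hp : Prime p) (ht : ¬ p ∣ t) {x : Λ}
    (hpx : IsIntegral A (p • x)) (htx : IsIntegral A (t • x)) : IsIntegral A x := by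
  refine isIntegral_of_forall_quotient x (fun N hN => ?_)
  let : Field (Λ ⧸ N) := Ideal.Quotient.field N
  have : FaithfulSMul A (Λ ⧸ N) := (faithfulSMul_iff_algebraMap_injective A (Λ ⧸ N)).mpr (hinj N hN)
  let : Algebra (FractionRing A) (Λ ⧸ N) := FractionRing.liftAlgebra A (Λ ⧸ N)
  have : IsScalarTower A (FractionRing A) (Λ ⧸ N) :=
    FractionRing.isScalarTower_liftAlgebra A (Λ ⧸ N)
  set xb : Λ ⧸ N := Ideal.Quotient.mk N x with hxb
  have h1 : IsIntegral A (p • xb) := by
    have := hpx.map (Ideal.Quotient.mkₐ A N)
    simpa [hxb] using this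
  have h2 : IsIntegral A (t • xb) := by
    have := htx.map (Ideal.Quotient.mkₐ A N)
    simpa [hxb] using this
  obtain ⟨y, hy, hxy⟩ := Fermat.Agent.Lib.NormalFree.exists_isIntegral_smul_eq (FractionRing A)
    hp ht h1 h2 (smul_comm t p xb)
  have hp0 : algebraMap A (Λ ⧸ N) p ≠ 0 :=
    (map_ne_zero_iff _ (hinj N hN)).mpr hp.ne_zero
  have : xb = y := by
    rw [Algebra.smul_def, Algebra.smul_def] at hxy
    exact mul_left_cancel₀ hp0 hxy
  rw [this]
  exact hy

end Artinian

section Trace

variable {A L V : Type*} [CommRing A] [Field L] [Algebra A L] [AddCommGroup V] [Module L V]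
  [FiniteDimensional L V]

/-- The trace of an endomorphism of a finite dimensional vector space which is killed by a monic
polynomial with coefficients in `A` is integral over `A`. -/
theorem isIntegral_trace_end (f : Module.End L V) (g : A[X]) (hg : g.Monic)
    (hgf : aeval f (g.map (algebraMap A L)) = 0) : IsIntegral A (LinearMap.trace L V f) := by
  classical
  let Kb := AlgebraicClosure L
  let fb : Module.End Kb (TensorProduct L Kb V) := f.baseChange Kb
  have htr : LinearMap.trace Kb _ fb = algebraMap L Kb (LinearMap.trace L V f) :=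
    LinearMap.trace_baseChange f Kb
  rw [← isIntegral_algebraMap_iff (algebraMap L Kb).injective, ← htr,
    Module.End.trace_eq_sum_roots_charpoly_of_splits (IsAlgClosed.splits _)]
  refine IsIntegral.multiset_sum (fun μ hμ => ?_)
  have hroot : fb.charpoly.IsRoot μ := (mem_roots (LinearMap.charpoly_monic fb).ne_zero).mp hμ
  have hev : fb.HasEigenvalue μ := (Module.End.hasEigenvalue_iff_isRoot_charpoly fb μ).mpr hroot
  obtain ⟨v, hv⟩ := hev.exists_hasEigenvector
  -- `g(fb) = 0`
  have hgfb : aeval fb ((g.map (algebraMap A L)).map (algebraMap L Kb)) = 0 := by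
    rw [aeval_map_algebraMap]
    have h1 : aeval fb (g.map (algebraMap A L)) =
        (Module.End.baseChangeHom L Kb V) (aeval f (g.map (algebraMap A L))) := by
      rw [← aeval_algHom_apply]
      rfl
    rw [h1, hgf, map_zero]
  have h2 := Module.End.aeval_apply_of_hasEigenvector (p := (g.map (algebraMap A L)).map
    (algebraMap L Kb)) hv
  rw [hgfb, LinearMap.zero_apply] at h2
  have h3 : ((g.map (algebraMap A L)).map (algebraMap L Kb)).eval μ = 0 := by
    rcases smul_eq_zero.mp h2.symm with h | h
    · exact h
    · exact absurd h hv.2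
  refine ⟨g, hg, ?_⟩
  rw [← h3, eval_map, eval₂_map, ← IsScalarTower.algebraMap_eq]

end Trace

section TraceAlg

variable {A L Λ : Type*} [CommRing A] [Field L] [Algebra A L] [CommRing Λ] [Algebra L Λ]
  [Algebra A Λ] [IsScalarTower A L Λ] [FiniteDimensional L Λ]

/-- The trace of an element of a finite dimensional `L`-algebra which is integral over `A`
is integral over `A`. -/
theorem isIntegral_trace {x : Λ} (hx : IsIntegral A x) : IsIntegral A (Algebra.trace L Λ x) := by
  obtain ⟨g, hg, hg0⟩ := hx
  rw [Algebra.trace_apply]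
  refine isIntegral_trace_end (Algebra.lmul L Λ x) g hg ?_
  have h1 : aeval (Algebra.lmul L Λ x) (g.map (algebraMap A L)) =
      Algebra.lmul L Λ (aeval x (g.map (algebraMap A L))) := by
    rw [← aeval_algHom_apply]
  rw [h1]
  have h2 : aeval x (g.map (algebraMap A L)) = 0 := by
    rw [aeval_map_algebraMap, aeval_def, hg0]
  rw [h2, map_zero]

end TraceAlg

end Fermat.Agent.S30.Model.Tame
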