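import Mathlib
import Fermat.Agent.S30.Model.TameBasic

/-!
# Tame branch point case of the MODEL THEOREM: coordinates in `Λ = L[s]`, `s^e = u`

`Λ` an `L`-algebra with `L`-basis `1, s, …, s^(e-1)` and `s^e = u ∈ L`.

* `trace_pow_lt` : `Tr_{Λ/L}(s^n) = e` for `n = 0` and `0` for `0 < n < e`;
* `trace_mul_pow` : `Tr_{Λ/L}(x s^(e - r)) = e u x_r` for `0 < r < e`, `Tr_{Λ/L}(x) = e x_0`;
* `coord_mem` : if `x` is integral over `R` (with integral closure `C` in `L`), then
  `e u x_r ∈ C` for every coordinate `x_r` of `x`.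
-/

set_option autoImplicit false
set_option linter.unusedSectionVars false

namespace Fermat.Agent.S30.Model.Tame

section Coord

variable {L Λ : Type*} [Field L] [CommRing Λ] [Algebra L Λ] {e : ℕ}
  (bs : Module.Basis (Fin e) L Λ) (s : Λ) (hbs : ∀ r : Fin e, bs r = s ^ (r : ℕ))
  (u : L) (hs : s ^ e = algebraMap L Λ u)

include hbs in
theorem repr_pow_lt {n : ℕ} (hn : n < e) (i : Fin e) :
    bs.repr (s ^ n) i = if (i : ℕ) = n then 1 else 0 := by
  classical
  have h1 : s ^ n = bs ⟨n, hn⟩ := (hbs ⟨n, hn⟩).symm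
  rw [h1, Module.Basis.repr_self, Finsupp.single_apply]
  by_cases h : (i : ℕ) = n
  · rw [if_pos h, if_pos (Fin.ext h.symm)]
  · rw [if_neg h, if_neg (fun h' => h (by rw [← h']))]

include hbs hs in
theorem repr_pow_add {n : ℕ} (hn : n < e) (i : Fin e) :
    bs.repr (s ^ (e + n)) i = if (i : ℕ) = n then u else 0 := by
  have h1 : s ^ (e + n) = u • s ^ n := by
    rw [pow_add, hs, Algebra.smul_def]
  rw [h1, map_smul, Finsupp.smul_apply, repr_pow_lt bs s hbs hn i, smul_eq_mul]
  split_ifs <;> simp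

include hbs hs in
/-- The trace of `s^n`, `n < e`. -/
theorem trace_pow_lt {n : ℕ} (hn : n < e) :
    Algebra.trace L Λ (s ^ n) = if n = 0 then (e : L) else 0 := by
  classical
  rw [Algebra.trace_eq_matrix_trace bs, Matrix.trace]
  simp only [Matrix.diag_apply, Algebra.leftMulMatrix_eq_repr_mul]
  have key : ∀ i : Fin e, bs.repr (s ^ n * bs i) i = if n = 0 then 1 else 0 := by
    intro i
    rw [hbs i, ← pow_add]
    by_cases hlt : n + (i : ℕ) < e
    · rw [repr_pow_lt bs s hbs hlt i]
      by_cases h0 : n = 0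
      · rw [if_pos h0, if_pos (by omega)]
      · rw [if_neg h0, if_neg (by omega)]
    · have h1 : n + (i : ℕ) = e + (n + (i : ℕ) - e) := by omega
      have h2 : n + (i : ℕ) - e < e := by have := i.2; omega
      rw [h1, repr_pow_add bs s hbs u hs h2 i]
      have h3 : ¬ ((i : ℕ) = n + (i : ℕ) - e) := by omega
      rw [if_neg h3]
      have h0 : n ≠ 0 := by have := i.2; omega
      rw [if_neg h0]
  rw [Finset.sum_congr rfl (fun i _ => key i)]
  by_cases h0 : n = 0
  · simp [h0]
  · simp [h0]

include hbs hs in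
/-- The trace of `x` is `e` times its constant coordinate. -/
theorem trace_eq_coord_zero (he : 0 < e) (x : Λ) :
    Algebra.trace L Λ x = (e : L) * bs.repr x ⟨0, he⟩ := by
  classical
  conv_lhs => rw [← bs.sum_repr x]
  rw [map_sum]
  simp only [map_smul, hbs, smul_eq_mul]
  rw [Finset.sum_eq_single (⟨0, he⟩ : Fin e)]
  · rw [trace_pow_lt bs s hbs u hs he]
    simp [mul_comm]
  · intro r _ hr
    have hr' : (r : ℕ) ≠ 0 := fun h => hr (Fin.ext h)
    rw [trace_pow_lt bs s hbs u hs r.2, if_neg hr', mul_zero]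
  · intro h; exact absurd (Finset.mem_univ _) h

include hbs hs in
/-- The trace of `x s^(e - r)` is `e u` times the `r`-th coordinate of `x`, `0 < r < e`. -/
theorem trace_mul_pow (r : Fin e) (hr : 0 < (r : ℕ)) (x : Λ) :
    Algebra.trace L Λ (x * s ^ (e - (r : ℕ))) = (e : L) * u * bs.repr x r := by
  classical
  have he : 0 < e := lt_of_le_of_lt (Nat.zero_le _) r.2
  conv_lhs => rw [← bs.sum_repr x]
  rw [Finset.sum_mul, map_sum]
  simp only [hbs, smul_mul_assoc, map_smul, smul_eq_mul, ← pow_add]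
  rw [Finset.sum_eq_single r]
  · have h1 : (r : ℕ) + (e - (r : ℕ)) = e + 0 := by have := r.2; omega
    rw [h1]
    have h2 : s ^ (e + 0) = u • s ^ 0 := by rw [pow_add, hs, Algebra.smul_def]
    rw [h2, map_smul, trace_pow_lt bs s hbs u hs he, if_pos rfl, smul_eq_mul]
    ring
  · intro i _ hi
    have hi' : (i : ℕ) ≠ (r : ℕ) := fun h => hi (Fin.ext h)
    by_cases hlt : (i : ℕ) + (e - (r : ℕ)) < e
    · rw [trace_pow_lt bs s hbs u hs hlt, if_neg (by have := r.2; omega), mul_zero]
    · have h1 : (i : ℕ) + (e - (r : ℕ)) = e + ((i : ℕ) - (r : ℕ)) := by have := r.2; omega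
      have h3 : (i : ℕ) - (r : ℕ) < e := by have := i.2; omega
      have h2 : s ^ (e + ((i : ℕ) - (r : ℕ))) = u • s ^ ((i : ℕ) - (r : ℕ)) := by
        rw [pow_add, hs, Algebra.smul_def]
      rw [h1, h2, map_smul, trace_pow_lt bs s hbs u hs h3, if_neg (by omega), smul_zero, mul_zero]
  · intro h; exact absurd (Finset.mem_univ _) h

end Coord

section Integral

variable {R C L Λ : Type*} [CommRing R] [CommRing C] [Algebra R C]
  [Field L] [Algebra R L] [Algebra C L] [IsScalarTower R C L] [IsIntegralClosure C R L]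
  [CommRing Λ] [Algebra L Λ] [Algebra R Λ] [IsScalarTower R L Λ] {e : ℕ}
  (bs : Module.Basis (Fin e) L Λ) (s : Λ) (hbs : ∀ r : Fin e, bs r = s ^ (r : ℕ))
  (u : R) (hs : s ^ e = algebraMap R Λ u)

include hs in
theorem isIntegral_s (he : 0 < e) : IsIntegral R s := by
  refine IsIntegral.of_pow he ?_
  rw [hs]
  exact isIntegral_algebraMap

include hbs hs in
/-- **Bounded denominators.**  If `x ∈ Λ` is integral over `R` then `e u x_r` lies in the
integral closure `C` of `R` in `L`, for every coordinate `x_r` of `x`. -/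
theorem coord_mem (he : 0 < e) (x : Λ) (hx : IsIntegral R x) (r : Fin e) :
    ∃ c : C, algebraMap C L c = (e : L) * algebraMap R L u * bs.repr x r := by
  have : FiniteDimensional L Λ := Module.Finite.of_basis bs
  have hs' : s ^ e = algebraMap L Λ (algebraMap R L u) := by
    rw [hs, IsScalarTower.algebraMap_apply R L Λ]
  have hsint : IsIntegral R s := isIntegral_s s u hs he
  by_cases hr : (r : ℕ) = 0
  · have h1 : IsIntegral R (Algebra.trace L Λ x) := isIntegral_trace hx
    rw [trace_eq_coord_zero bs s hbs _ hs' he x] at h1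
    have h2 : IsIntegral R ((e : L) * algebraMap R L u * bs.repr x r) := by
      have hr' : r = ⟨0, he⟩ := Fin.ext hr
      have : (e : L) * algebraMap R L u * bs.repr x r =
          algebraMap R L u * ((e : L) * bs.repr x ⟨0, he⟩) := by rw [hr']; ring
      rw [this]
      exact isIntegral_algebraMap.mul h1
    exact (IsIntegralClosure.isIntegral_iff (A := C)).mp h2
  · have h1 : IsIntegral R (Algebra.trace L Λ (x * s ^ (e - (r : ℕ)))) :=
      isIntegral_trace (hx.mul (hsint.pow _))
    rw [trace_mul_pow bs s hbs _ hs' r (Nat.pos_of_ne_zero hr) x] at h1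
    exact (IsIntegralClosure.isIntegral_iff (A := C)).mp h1

end Integral

end Fermat.Agent.S30.Model.Tame
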