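import Mathlib

/-!
# Tame branch point case of the MODEL THEOREM: the two `AdjoinRoot` steps

* `adjoinRoot_unit_radical` : `A₀ ⧸ (t)` a field in which `k ε ≠ 0`; then `t` generates a radical
  ideal of `A₀[Z]/(Z^k - ε)` (unramified step);
* `adjoinRoot_root_radical` : `τ` generating a radical ideal of `A₁`; then the root `s` generates
  a radical ideal of `A₁[S]/(S^m - τ)` (Eisenstein step);
* `adjoinRoot_lift_injective` : injectivity criterion for `AdjoinRoot.lift`;
* `mem_of_monic_of_pow_mul_mem` : a subring `B` of `Λ` such that `s B` is radical is integrally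
  closed in `B[1/s]`.
-/

set_option autoImplicit false

open Polynomial

namespace Fermat.Agent.S30.Model.Tame

/-- A polynomial all of whose coefficients are multiples of `t` is a multiple of `C t`. -/
theorem exists_eq_C_mul_of_map_eq_zero {A₀ : Type*} [CommRing A₀] (t : A₀) (d : A₀[X])
    (hd : d.map (Ideal.Quotient.mk (Ideal.span {t})) = 0) : ∃ p' : A₀[X], d = C t * p' := by
  have h1 : d ∈ Ideal.map (C : A₀ →+* A₀[X]) (Ideal.span {t}) := by
    rw [Ideal.mem_map_C_iff]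
    intro i
    have := congrArg (fun q => q.coeff i) hd
    simpa [Ideal.Quotient.eq_zero_iff_mem] using this
  rw [Ideal.map_span, Set.image_singleton, Ideal.mem_span_singleton'] at h1
  obtain ⟨a, ha⟩ := h1
  exact ⟨a, by rw [← ha, mul_comm]⟩

/-- **Unramified step.**  If `A₀ ⧸ (t)` is a field in which `k` and `ε` are nonzero, then `t`
generates a radical ideal in `A₀[Z]/(Z^k - ε)`. -/
theorem adjoinRoot_unit_radical {A₀ : Type*} [CommRing A₀] (t ε : A₀) (k : ℕ)
    (hmax : (Ideal.span {t}).IsMaximal) (hk : (k : A₀) ∉ Ideal.span {t})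
    (hε : ε ∉ Ideal.span {t})
    (y w : AdjoinRoot (X ^ k - C ε : A₀[X])) (n : ℕ)
    (h : y ^ n = AdjoinRoot.of (X ^ k - C ε : A₀[X]) t * w) :
    ∃ y', y = AdjoinRoot.of (X ^ k - C ε : A₀[X]) t * y' := by
  classical
  let F := A₀ ⧸ Ideal.span {t}
  let _ : Field F := Ideal.Quotient.field (Ideal.span {t})
  let φ : A₀ →+* F := Ideal.Quotient.mk (Ideal.span {t})
  obtain ⟨p, rfl⟩ := AdjoinRoot.mk_surjective y
  obtain ⟨q, rfl⟩ := AdjoinRoot.mk_surjective w
  have h1 : AdjoinRoot.mk (X ^ k - C ε : A₀[X]) (p ^ n - C t * q) = 0 := by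
    rw [map_sub, map_pow, map_mul, AdjoinRoot.mk_C, h, sub_self]
  rw [AdjoinRoot.mk_eq_zero] at h1
  have h2 : (X ^ k - C (φ ε) : F[X]) ∣ (p.map φ) ^ n := by
    have := Polynomial.map_dvd φ h1
    have hφt : φ t = 0 := Ideal.Quotient.eq_zero_iff_mem.mpr (Ideal.mem_span_singleton_self t)
    simpa [Polynomial.map_sub, Polynomial.map_pow, Polynomial.map_mul, hφt] using this
  have hkF : ((k : ℕ) : F) ≠ 0 := by
    have : ((k : ℕ) : F) = φ (k : A₀) := by simp
    rw [this]
    exact fun h0 => hk (Ideal.Quotient.eq_zero_iff_mem.mp h0)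
  have hεF : φ ε ≠ 0 := fun h0 => hε (Ideal.Quotient.eq_zero_iff_mem.mp h0)
  have hsep : (X ^ k - C (φ ε) : F[X]).Separable := separable_X_pow_sub_C (φ ε) hkF hεF
  have h3 : (X ^ k - C (φ ε) : F[X]) ∣ p.map φ := hsep.squarefree.isRadical n _ h2
  obtain ⟨rb, hrb⟩ := h3
  obtain ⟨r, rfl⟩ := Polynomial.map_surjective φ Ideal.Quotient.mk_surjective rb
  have h4 : (p - (X ^ k - C ε) * r).map φ = 0 := by
    rw [Polynomial.map_sub, Polynomial.map_mul, hrb]
    simp
  obtain ⟨p', hp'⟩ := exists_eq_C_mul_of_map_eq_zero t _ h4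
  refine ⟨AdjoinRoot.mk _ p', ?_⟩
  have h5 : p = (X ^ k - C ε) * r + C t * p' := by rw [← hp']; ring
  rw [h5, map_add, map_mul, AdjoinRoot.mk_self, zero_mul, zero_add, map_mul, AdjoinRoot.mk_C]

/-- **Eisenstein step.**  If `τ` generates a radical ideal of `A₁` then the root `s` of
`S^m - τ` generates a radical ideal of `A₁[S]/(S^m - τ)`. -/
theorem adjoinRoot_root_radical {A₁ : Type*} [CommRing A₁] (τ : A₁) (m : ℕ) (hm : 0 < m)
    (hτ : ∀ (x w : A₁) (n : ℕ), x ^ n = τ * w → ∃ x', x = τ * x')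
    (y w : AdjoinRoot (X ^ m - C τ : A₁[X])) (n : ℕ)
    (h : y ^ n = AdjoinRoot.root (X ^ m - C τ : A₁[X]) * w) :
    ∃ y', y = AdjoinRoot.root (X ^ m - C τ : A₁[X]) * y' := by
  obtain ⟨p, rfl⟩ := AdjoinRoot.mk_surjective y
  obtain ⟨q, rfl⟩ := AdjoinRoot.mk_surjective w
  have h1 : AdjoinRoot.mk (X ^ m - C τ : A₁[X]) (p ^ n - X * q) = 0 := by
    rw [map_sub, map_pow, map_mul, AdjoinRoot.mk_X, h, sub_self]
  rw [AdjoinRoot.mk_eq_zero] at h1
  obtain ⟨g, hg⟩ := h1
  have h2 : p.coeff 0 ^ n = τ * (- g.coeff 0) := by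
    have := congrArg (fun f => f.eval 0) hg
    simp only [eval_sub, eval_pow, eval_mul, eval_X, zero_mul, sub_zero, eval_C,
      zero_pow hm.ne'] at this
    rw [← coeff_zero_eq_eval_zero, ← coeff_zero_eq_eval_zero] at this
    rw [this]; ring
  obtain ⟨c, hc⟩ := hτ _ _ n h2
  have hroot : AdjoinRoot.root (X ^ m - C τ : A₁[X]) ^ m = AdjoinRoot.of _ τ := by
    have := AdjoinRoot.mk_self (f := (X ^ m - C τ : A₁[X]))
    rw [map_sub, map_pow, AdjoinRoot.mk_X, AdjoinRoot.mk_C, sub_eq_zero] at this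
    exact this
  refine ⟨AdjoinRoot.mk _ p.divX + AdjoinRoot.root _ ^ (m - 1) * AdjoinRoot.of _ c, ?_⟩
  have h3 : p = p.divX * X + C (p.coeff 0) := (divX_mul_X_add p).symm
  have h4 : AdjoinRoot.root (X ^ m - C τ : A₁[X]) * AdjoinRoot.root _ ^ (m - 1) =
      AdjoinRoot.of _ τ := by
    rw [← pow_succ', Nat.sub_add_cancel hm, hroot]
  conv_lhs => rw [h3]
  rw [map_add, map_mul, AdjoinRoot.mk_X, AdjoinRoot.mk_C, hc, map_mul, mul_add, ← mul_assoc, h4]
  ring

/-- Injectivity criterion for `AdjoinRoot.lift`: the powers of `x` below the degree of the monic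
polynomial `f` are linearly independent. -/
theorem adjoinRoot_lift_injective {B₀ B : Type*} [CommRing B₀] [CommRing B] (i : B₀ →+* B)
    (f : B₀[X]) (hf : f.Monic) (x : B) (hx : f.eval₂ i x = 0)
    (hind : ∀ p : B₀[X], p.natDegree < f.natDegree → p.eval₂ i x = 0 → p = 0) :
    Function.Injective (AdjoinRoot.lift i x hx) := by
  rw [injective_iff_map_eq_zero]
  intro η hη
  obtain ⟨p, rfl⟩ := AdjoinRoot.mk_surjective η
  rw [AdjoinRoot.mk_eq_zero]
  by_cases hf1 : f = 1
  · rw [hf1]; exact one_dvd _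
  rw [AdjoinRoot.lift_mk] at hη
  have h1 : (p %ₘ f).eval₂ i x = 0 := by
    have h2 : p = p %ₘ f + f * (p /ₘ f) := (modByMonic_add_div p f).symm
    rw [h2, eval₂_add, eval₂_mul, hx, zero_mul, add_zero] at hη
    exact hη
  have h3 : p %ₘ f = 0 := hind _ (natDegree_modByMonic_lt p hf hf1) h1
  exact (modByMonic_eq_zero_iff_dvd hf).mp h3

/-- A subring `B` of `Λ` such that `s B` is a radical ideal of `B` (with `s` regular) is
integrally closed in `B[1/s]`: if `s ^ j * x ∈ B` and `x` satisfies a monic equation with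
coefficients in `B`, then `x ∈ B`. -/
theorem mem_of_monic_of_pow_mul_mem {Λ : Type*} [CommRing Λ] (B : Subring Λ) (s : Λ)
    (hs : s ∈ B) (hsreg : ∀ a b : Λ, s * a = s * b → a = b)
    (hrad : ∀ y ∈ B, ∀ n : ℕ, (∃ w ∈ B, y ^ n = s * w) → ∃ y' ∈ B, y = s * y')
    (x : Λ) (d : ℕ) (c : ℕ → Λ) (hc : ∀ i, c i ∈ B)
    (hx : x ^ d + ∑ i ∈ Finset.range d, c i * x ^ i = 0) (j : ℕ) (hj : s ^ j * x ∈ B) :
    x ∈ B := by
  induction j with
  | zero => simpa using hj
  | succ j ih =>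
    apply ih
    set y := s ^ (j + 1) * x with hy
    have hyd : y ^ d = s * (- ∑ i ∈ Finset.range d, c i * s ^ ((j + 1) * (d - i) - 1) * y ^ i) := by
      have h1 : x ^ d = - ∑ i ∈ Finset.range d, c i * x ^ i := eq_neg_of_add_eq_zero_left hx
      rw [hy, mul_pow, h1, mul_neg, mul_neg, neg_inj, Finset.mul_sum, Finset.mul_sum]
      refine Finset.sum_congr rfl (fun i hi => ?_)
      have hi' : i < d := Finset.mem_range.mp hi
      have h2 : (j + 1) * d = (j + 1) * (d - i) - 1 + 1 + (j + 1) * i := by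
        have h3 : 1 ≤ (j + 1) * (d - i) := Nat.mul_pos (Nat.succ_pos j) (Nat.sub_pos_of_lt hi')
        rw [Nat.sub_add_cancel h3, ← Nat.mul_add, Nat.sub_add_cancel hi'.le]
      rw [← pow_mul, h2, mul_pow, ← pow_mul]
      ring
    have hmem : (- ∑ i ∈ Finset.range d, c i * s ^ ((j + 1) * (d - i) - 1) * y ^ i) ∈ B := by
      refine B.neg_mem (B.sum_mem (fun i _ => ?_))
      exact B.mul_mem (B.mul_mem (hc i) (B.pow_mem hs _)) (B.pow_mem hj _)
    obtain ⟨y', hy', hyy'⟩ := hrad y hj d ⟨_, hmem, hyd⟩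
    have : s ^ j * x = y' := by
      apply hsreg
      rw [← hyy', hy, pow_succ']
      ring
    rw [this]
    exact hy'

end Fermat.Agent.S30.Model.Tame
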