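import Mathlib
import Fermat.Agent.S30.Model.TameAdjoin

/-!
# Tame branch point case of the MODEL THEOREM: the local Abhyankar computation

`L` a field, `Λ` an `L`-algebra with `L`-basis `1, s, …, s^(e-1)`, `s^e = u ∈ L`, `e = k * m`.
`A₀ ⊆ L` a subring (a discrete valuation ring in the application) with an element `t` such that
every element of `A₀` is a multiple of `t` or a unit, `u = ε t^k` with `ε` a unit of `A₀`,
and `k` is not a multiple of `t`.  Put `z = s^m / t` (so `z^k = ε`, `s^m = z t`).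
Then the subring `A₀[s, z]` of `Λ` (`tameRing`) has the property that `s` generates a radical
ideal (`tameRing_radical`): this is Abhyankar's lemma in ring form.
-/

set_option autoImplicit false

open Polynomial

namespace Fermat.Agent.S30.Model.Tame

variable {L Λ : Type*} [Field L] [CommRing Λ] [Algebra L Λ]

/-- The subring `A₀[s, z]` of `Λ`. -/
def tameRing (A₀ : Subring L) (s z : Λ) : Subring Λ :=
  Subring.closure ((algebraMap L Λ) '' (A₀ : Set L) ∪ {s, z})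

theorem algebraMap_mem_tameRing (A₀ : Subring L) (s z : Λ) {a : L} (ha : a ∈ A₀) :
    algebraMap L Λ a ∈ tameRing A₀ s z :=
  Subring.subset_closure (Or.inl ⟨a, ha, rfl⟩)

theorem self_mem_tameRing (A₀ : Subring L) (s z : Λ) : s ∈ tameRing A₀ s z :=
  Subring.subset_closure (Or.inr (Or.inl rfl))

theorem z_mem_tameRing (A₀ : Subring L) (s z : Λ) : z ∈ tameRing A₀ s z :=
  Subring.subset_closure (Or.inr (Or.inr rfl))

/-- Linear independence of the monomials `s^(m i + j)`. -/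
theorem double_indep {e k m : ℕ} (hkm : e = k * m) (s : Λ)
    (hli : LinearIndependent L (fun r : Fin e => s ^ (r : ℕ)))
    (a : Fin m → Fin k → L)
    (h : ∑ j : Fin m, ∑ i : Fin k, algebraMap L Λ (a j i) * s ^ (m * (i : ℕ) + (j : ℕ)) = 0) :
    ∀ j i, a j i = 0 := by
  classical
  have hlt : ∀ p : Fin m × Fin k, m * (p.2 : ℕ) + (p.1 : ℕ) < e := by
    rintro ⟨j, i⟩
    rw [hkm]
    calc m * (i : ℕ) + (j : ℕ) < m * (i : ℕ) + m := Nat.add_lt_add_left j.2 _
      _ = m * ((i : ℕ) + 1) := by ring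
      _ ≤ m * k := Nat.mul_le_mul_left m i.2
      _ = k * m := Nat.mul_comm m k
  let φ : Fin m × Fin k → Fin e := fun p => ⟨m * (p.2 : ℕ) + (p.1 : ℕ), hlt p⟩
  have hφ : Function.Injective φ := by
    rintro ⟨j, i⟩ ⟨j', i'⟩ h
    have h1 : m * (i : ℕ) + (j : ℕ) = m * (i' : ℕ) + (j' : ℕ) := by
      simpa [φ] using congrArg Fin.val h
    have hm : 0 < m := Nat.pos_of_ne_zero (fun h0 => by subst h0; exact j.elim0)
    have h2 : (i : ℕ) = i' := by
      have e1 := congrArg (· / m) h1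
      simp only [Nat.mul_add_div hm, Nat.div_eq_of_lt j.2, Nat.div_eq_of_lt j'.2, add_zero] at e1
      exact e1
    have h3 : (j : ℕ) = j' := by
      rw [h2] at h1
      exact Nat.add_left_cancel h1
    exact Prod.ext (Fin.ext h3) (Fin.ext h2)
  have hli' := hli.comp φ hφ
  have hsum : ∑ p : Fin m × Fin k, (a p.1 p.2) • ((fun r : Fin e => s ^ (r : ℕ)) ∘ φ) p = 0 := by
    rw [Fintype.sum_prod_type]
    simpa [Algebra.smul_def, φ] using h
  intro j i
  exact Fintype.linearIndependent_iff.mp hli' (fun p => a p.1 p.2) hsum (j, i)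

section Construction

variable (A₀ : Subring L) (s : Λ) {e k m : ℕ} (hkm : e = k * m) (hk : 0 < k) (hm : 0 < m)
  (u t ε εi : L) (ht : t ∈ A₀) (hε : ε ∈ A₀) (hεi : εi ∈ A₀) (hεε : ε * εi = 1)
  (hu : u = ε * t ^ k) (ht0 : t ≠ 0)
  (hs : s ^ e = algebraMap L Λ u)
  (hli : LinearIndependent L (fun r : Fin e => s ^ (r : ℕ)))
  (hdich : ∀ x ∈ A₀, (∃ y ∈ A₀, x = t * y) ∨ (x ≠ 0 ∧ x⁻¹ ∈ A₀))
  (htinv : t⁻¹ ∉ A₀)
  (hkt : ¬ ∃ y ∈ A₀, (k : L) = t * y)

include hkm hk hm ht hε hεi hεε hu ht0 hs hli hdich htinv hkt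

/-- **Abhyankar's lemma, ring form.**  In `A₀[s, z]`, `z = s^m / t`, the element `s` generates
a radical ideal. -/
theorem tameRing_radical :
    ∀ y ∈ tameRing A₀ s (algebraMap L Λ t⁻¹ * s ^ m), ∀ n : ℕ,
      (∃ w ∈ tameRing A₀ s (algebraMap L Λ t⁻¹ * s ^ m), y ^ n = s * w) →
      ∃ y' ∈ tameRing A₀ s (algebraMap L Λ t⁻¹ * s ^ m), y = s * y' := by
  classical
  set z : Λ := algebraMap L Λ t⁻¹ * s ^ m with hz
  -- the base ring and its elements
  let t₀ : A₀ := ⟨t, ht⟩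
  let ε₀ : A₀ := ⟨ε, hε⟩
  let εi₀ : A₀ := ⟨εi, hεi⟩
  have hεε₀ : ε₀ * εi₀ = 1 := Subtype.ext hεε
  let i₀ : A₀ →+* Λ := (algebraMap L Λ).comp A₀.subtype
  have hi₀ : ∀ a : A₀, i₀ a = algebraMap L Λ (a : L) := fun a => rfl
  -- first step
  let f₁ : (A₀)[X] := X ^ k - C ε₀
  have hf₁m : f₁.Monic := monic_X_pow_sub_C ε₀ hk.ne'
  have hf₁d : f₁.natDegree = k := natDegree_X_pow_sub_C
  have hzk : z ^ k = algebraMap L Λ ε := by
    rw [hz, mul_pow, ← pow_mul, Nat.mul_comm m k, ← hkm, hs, ← map_pow, ← map_mul, hu]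
    congr 1
    rw [inv_pow]
    field_simp
  have hz₁ : f₁.eval₂ i₀ z = 0 := by
    simp only [f₁, eval₂_sub, eval₂_pow, eval₂_X, eval₂_C]
    rw [hzk, hi₀]
    exact sub_self _
  let Ψ₁ : AdjoinRoot f₁ →+* Λ := AdjoinRoot.lift i₀ z hz₁
  let τ : AdjoinRoot f₁ := AdjoinRoot.root f₁ * AdjoinRoot.of f₁ t₀
  have hΨ₁τ : Ψ₁ τ = s ^ m := by
    simp only [Ψ₁, τ, map_mul, AdjoinRoot.lift_root, AdjoinRoot.lift_of, hi₀]
    rw [hz]
    have : algebraMap L Λ t⁻¹ * s ^ m * algebraMap L Λ t =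
        algebraMap L Λ (t⁻¹ * t) * s ^ m := by rw [map_mul]; ring
    rw [this, inv_mul_cancel₀ ht0, map_one, one_mul]
  -- second step
  let f₂ : (AdjoinRoot f₁)[X] := X ^ m - C τ
  have hnt₁ : Nontrivial (AdjoinRoot f₁) := by
    refine ⟨⟨0, 1, fun h01 => ?_⟩⟩
    have h1 : (AdjoinRoot.mk f₁) 1 = 0 := by rw [map_one]; exact h01.symm
    rw [AdjoinRoot.mk_eq_zero] at h1
    have h2 := natDegree_le_of_dvd h1 one_ne_zero
    rw [hf₁d, natDegree_one] at h2
    omega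
  have hf₂m : f₂.Monic := monic_X_pow_sub_C τ hm.ne'
  have hf₂d : f₂.natDegree = m := natDegree_X_pow_sub_C
  have hs₂ : f₂.eval₂ Ψ₁ s = 0 := by
    simp only [f₂, eval₂_sub, eval₂_pow, eval₂_X, eval₂_C]
    rw [hΨ₁τ]
    exact sub_self _
  let Ψ : AdjoinRoot f₂ →+* Λ := AdjoinRoot.lift Ψ₁ s hs₂
  -- expansions of `Ψ₁` on polynomials of degree `< k`
  have hzpow : ∀ i : ℕ, z ^ i = algebraMap L Λ (t⁻¹ ^ i) * s ^ (m * i) := by
    intro i
    rw [hz, mul_pow, ← map_pow, ← pow_mul]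
  have hΨ₁exp : ∀ p : (A₀)[X], p.natDegree < k →
      Ψ₁ (AdjoinRoot.mk f₁ p) =
        ∑ i : Fin k, algebraMap L Λ ((p.coeff i : L) * t⁻¹ ^ (i : ℕ)) * s ^ (m * (i : ℕ)) := by
    intro p hp
    simp only [Ψ₁, AdjoinRoot.lift_mk]
    rw [eval₂_eq_sum_range' i₀ hp z, Finset.sum_range]
    refine Finset.sum_congr rfl (fun i _ => ?_)
    rw [hzpow, hi₀, map_mul]
    ring
  -- injectivity of `Ψ₁`
  have hinj₁ : Function.Injective Ψ₁ := by
    refine adjoinRoot_lift_injective i₀ f₁ hf₁m z hz₁ (fun p hp hp0 => ?_)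
    rw [hf₁d] at hp
    have h1 := hΨ₁exp p hp
    simp only [Ψ₁, AdjoinRoot.lift_mk] at h1
    rw [hp0] at h1
    -- use `double_indep` with `m`-index `0`
    have h2 : ∑ j : Fin m, ∑ i : Fin k, algebraMap L Λ
        (if (j : ℕ) = 0 then (p.coeff i : L) * t⁻¹ ^ (i : ℕ) else 0) *
          s ^ (m * (i : ℕ) + (j : ℕ)) = 0 := by
      rw [Finset.sum_eq_single (⟨0, hm⟩ : Fin m)]
      · simpa using h1.symm
      · intro j _ hj
        have hj' : (j : ℕ) ≠ 0 := fun h0 => hj (Fin.ext h0)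
        simp [hj']
      · intro h; exact absurd (Finset.mem_univ _) h
    have h3 := double_indep hkm s hli _ h2 ⟨0, hm⟩
    ext i
    by_cases hi : i < k
    · have h4 := h3 ⟨i, hi⟩
      simp only [if_true] at h4
      have h5 : (p.coeff i : L) = 0 := by
        rcases mul_eq_zero.mp h4 with h | h
        · exact h
        · exact absurd h (pow_ne_zero _ (inv_ne_zero ht0))
      simpa using h5
    · rw [coeff_eq_zero_of_natDegree_lt (lt_of_lt_of_le hp (not_lt.mp hi))]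
      simp
  -- injectivity of `Ψ`
  have hf₁ne : f₁ ≠ 1 := by
    intro h1
    have := hf₁d
    rw [h1, natDegree_one] at this
    omega
  have hinj : Function.Injective Ψ := by
    refine adjoinRoot_lift_injective Ψ₁ f₂ hf₂m s hs₂ (fun P hP hP0 => ?_)
    rw [hf₂d] at hP
    -- representatives of the coefficients
    have hrep : ∀ j : ℕ, ∃ p : (A₀)[X], p.natDegree < k ∧ AdjoinRoot.mk f₁ p = P.coeff j := by
      intro j
      obtain ⟨p, hp⟩ := AdjoinRoot.mk_surjective (P.coeff j)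
      refine ⟨p %ₘ f₁, ?_, ?_⟩
      · have := natDegree_modByMonic_lt p hf₁m hf₁ne
        rwa [hf₁d] at this
      · rw [← hp]
        have h2 : p = p %ₘ f₁ + f₁ * (p /ₘ f₁) := (modByMonic_add_div p f₁).symm
        conv_rhs => rw [h2]
        rw [map_add, map_mul, AdjoinRoot.mk_self, zero_mul, add_zero]
    choose pj hpjd hpj using hrep
    have h1 : ∑ j : Fin m, ∑ i : Fin k, algebraMap L Λ
        (((pj j).coeff i : L) * t⁻¹ ^ (i : ℕ)) * s ^ (m * (i : ℕ) + (j : ℕ)) = 0 := by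
      rw [← hP0, eval₂_eq_sum_range' Ψ₁ hP s, Finset.sum_range]
      refine Finset.sum_congr rfl (fun j _ => ?_)
      rw [← hpj j, hΨ₁exp (pj j) (hpjd j), Finset.sum_mul]
      refine Finset.sum_congr rfl (fun i _ => ?_)
      rw [pow_add]
      ring
    have h2 := double_indep hkm s hli _ h1
    ext j
    by_cases hj : j < m
    · rw [← hpj j]
      have h3 : pj j = 0 := by
        ext i
        by_cases hi : i < k
        · have h4 := h2 ⟨j, hj⟩ ⟨i, hi⟩
          have h5 : ((pj j).coeff i : L) = 0 := by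
            rcases mul_eq_zero.mp h4 with h | h
            · exact h
            · exact absurd h (pow_ne_zero _ (inv_ne_zero ht0))
          simpa using h5
        · rw [coeff_eq_zero_of_natDegree_lt (lt_of_lt_of_le (hpjd j) (not_lt.mp hi))]
          simp
      rw [h3, map_zero]
      simp
    · rw [coeff_eq_zero_of_natDegree_lt (lt_of_lt_of_le hP (not_lt.mp hj))]
      simp
  -- radical ideal downstairs
  have hmax : (Ideal.span {t₀}).IsMaximal := by
    rw [Ideal.isMaximal_iff]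
    refine ⟨fun h1 => ?_, fun J x hJ hx hxJ => ?_⟩
    · rw [Ideal.mem_span_singleton'] at h1
      obtain ⟨y, hy⟩ := h1
      apply htinv
      have : (y : L) * t = 1 := congrArg Subtype.val hy
      rw [← one_mul t⁻¹, ← this, mul_assoc, mul_inv_cancel₀ ht0, mul_one]
      exact y.2
    · rcases hdich x x.2 with ⟨y, hy, hxy⟩ | ⟨hx0, hxi⟩
      · exfalso
        apply hx
        rw [Ideal.mem_span_singleton']
        exact ⟨⟨y, hy⟩, Subtype.ext (by rw [mul_comm] at hxy; exact hxy.symm)⟩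
      · have : (⟨(x : L)⁻¹, hxi⟩ : A₀) * x = 1 := Subtype.ext (inv_mul_cancel₀ hx0)
        rw [← this]
        exact J.mul_mem_left _ hxJ
  have hk₀ : ((k : ℕ) : A₀) ∉ Ideal.span {t₀} := by
    intro h1
    rw [Ideal.mem_span_singleton'] at h1
    obtain ⟨y, hy⟩ := h1
    apply hkt
    refine ⟨y, y.2, ?_⟩
    have := congrArg Subtype.val hy
    simp only [Subring.coe_mul, Subring.coe_natCast] at this
    rw [← this, mul_comm]
  have hε₀ : ε₀ ∉ Ideal.span {t₀} := by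
    intro h1
    have h2 : (1 : A₀) ∈ Ideal.span {t₀} := by
      rw [← hεε₀]
      exact Ideal.mul_mem_right _ _ h1
    exact hmax.ne_top ((Ideal.eq_top_iff_one _).mpr h2)
  have hrad₁ := adjoinRoot_unit_radical t₀ ε₀ k hmax hk₀ hε₀
  -- the root `z₁` is a unit of `A₁`
  have hroot₁ : AdjoinRoot.root f₁ ^ k = AdjoinRoot.of f₁ ε₀ := by
    have := AdjoinRoot.mk_self (f := f₁)
    simp only [f₁, map_sub, map_pow, AdjoinRoot.mk_X, AdjoinRoot.mk_C, sub_eq_zero] at this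
    exact this
  have hunit : AdjoinRoot.root f₁ * (AdjoinRoot.root f₁ ^ (k - 1) * AdjoinRoot.of f₁ εi₀) = 1 := by
    rw [← mul_assoc, ← pow_succ', Nat.sub_add_cancel hk, hroot₁, ← map_mul, hεε₀, map_one]
  have hτ : ∀ (x w : AdjoinRoot f₁) (n : ℕ), x ^ n = τ * w → ∃ x', x = τ * x' := by
    intro x w n hxw
    have h1 : x ^ n = AdjoinRoot.of f₁ t₀ * (AdjoinRoot.root f₁ * w) := by rw [hxw]; ring
    obtain ⟨x', hx'⟩ := hrad₁ x _ n h1
    refine ⟨AdjoinRoot.root f₁ ^ (k - 1) * AdjoinRoot.of f₁ εi₀ * x', ?_⟩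
    calc x = AdjoinRoot.of f₁ t₀ * x' := hx'
      _ = (AdjoinRoot.root f₁ * (AdjoinRoot.root f₁ ^ (k - 1) * AdjoinRoot.of f₁ εi₀)) *
          (AdjoinRoot.of f₁ t₀ * x') := by rw [hunit, one_mul]
      _ = τ * (AdjoinRoot.root f₁ ^ (k - 1) * AdjoinRoot.of f₁ εi₀ * x') := by ring
  have hrad₂ := adjoinRoot_root_radical τ m hm hτ
  -- the range of `Ψ` is the tame ring
  have hΨs : Ψ (AdjoinRoot.root f₂) = s := AdjoinRoot.lift_root hs₂
  have hrange_le : ∀ η : AdjoinRoot f₂, Ψ η ∈ tameRing A₀ s z := by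
    intro η
    obtain ⟨P, rfl⟩ := AdjoinRoot.mk_surjective η
    simp only [Ψ, AdjoinRoot.lift_mk]
    rw [eval₂_eq_sum_range]
    refine Subring.sum_mem _ (fun j _ => ?_)
    refine Subring.mul_mem _ ?_ (Subring.pow_mem _ (self_mem_tameRing A₀ s z) _)
    obtain ⟨p, hp⟩ := AdjoinRoot.mk_surjective (P.coeff j)
    rw [← hp]
    simp only [Ψ₁, AdjoinRoot.lift_mk]
    rw [eval₂_eq_sum_range]
    refine Subring.sum_mem _ (fun i _ => ?_)
    refine Subring.mul_mem _ ?_ (Subring.pow_mem _ (z_mem_tameRing A₀ s z) _)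
    rw [hi₀]
    exact algebraMap_mem_tameRing A₀ s z (p.coeff i).2
  have hle_range : tameRing A₀ s z ≤ Ψ.range := by
    refine (Subring.closure_le).mpr ?_
    rintro x (⟨a, ha, rfl⟩ | rfl | rfl)
    · refine ⟨AdjoinRoot.of f₂ (AdjoinRoot.of f₁ ⟨a, ha⟩), ?_⟩
      simp only [Ψ, Ψ₁, AdjoinRoot.lift_of, hi₀]
    · exact ⟨AdjoinRoot.root f₂, hΨs⟩
    · refine ⟨AdjoinRoot.of f₂ (AdjoinRoot.root f₁), ?_⟩
      simp only [Ψ, Ψ₁, AdjoinRoot.lift_of, AdjoinRoot.lift_root]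
  -- conclusion
  rintro y hy n ⟨w, hw, hyw⟩
  obtain ⟨η, rfl⟩ := hle_range hy
  obtain ⟨ω, rfl⟩ := hle_range hw
  have h1 : η ^ n = AdjoinRoot.root f₂ * ω := by
    apply hinj
    rw [map_pow, map_mul, hΨs, hyw]
  obtain ⟨η', hη'⟩ := hrad₂ η ω n h1
  exact ⟨Ψ η', hrange_le η', by rw [hη', map_mul, hΨs]⟩

end Construction

end Fermat.Agent.S30.Model.Tame
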