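import Mathlib
import Fermat.Agent.S30.Model.TameBasic
import Fermat.Agent.S30.Model.TameLocal
import Fermat.Agent.S30.Model.TameCoord

/-!
# Tame branch point case of the MODEL THEOREM: `s` generates a radical ideal upstairs

`R` an integrally closed domain, `u ∈ R` a prime element with `R ⧸ u` of characteristic zero,
`C` the integral closure of `R` in a field `L`; `Λ` an `L`-algebra with `L`-basis
`1, s, …, s^(e-1)`, `s^e = u`.  Assume that at every prime `Q` of `C` above `(u)` the ring `C_Q`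
has a uniformiser `t` with `u = unit · t^k`, `k ∣ e` (explicit form `TameAt`).  Then
the integral closure of `R` in `Λ` has the property: `y^n ∈ s · (integral)` ⇒ `y ∈ s · (integral)`
(`smul_radical`).  This is Abhyankar's lemma for the two-dimensional ring `C`.
-/

set_option autoImplicit false
set_option linter.unusedSectionVars false

open Polynomial

namespace Fermat.Agent.S30.Model.Tame

section Loc

variable {C L : Type*} [CommRing C] [Field L] [Algebra C L]

/-- The localisation of `C` at the prime `Q`, as a subring of `L`. -/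
def locSubring (Q : Ideal C) [hQ : Q.IsPrime] : Subring L where
  carrier := {x | ∃ a : C, a ∉ Q ∧ ∃ c : C, algebraMap C L a * x = algebraMap C L c}
  mul_mem' := by
    rintro x y ⟨a, ha, c, hc⟩ ⟨a', ha', c', hc'⟩
    refine ⟨a * a', fun h => (hQ.mem_or_mem h).elim ha ha', c * c', ?_⟩
    rw [map_mul, map_mul, ← hc, ← hc']; ring
  one_mem' := ⟨1, fun h => hQ.ne_top ((Ideal.eq_top_iff_one _).mpr h), 1, by simp⟩
  add_mem' := by
    rintro x y ⟨a, ha, c, hc⟩ ⟨a', ha', c', hc'⟩
    refine ⟨a * a', fun h => (hQ.mem_or_mem h).elim ha ha', a' * c + a * c', ?_⟩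
    simp only [map_mul, map_add]; rw [← hc, ← hc']; ring
  zero_mem' := ⟨1, fun h => hQ.ne_top ((Ideal.eq_top_iff_one _).mpr h), 0, by simp⟩
  neg_mem' := by
    rintro x ⟨a, ha, c, hc⟩
    exact ⟨a, ha, -c, by rw [map_neg, ← hc]; ring⟩

theorem mem_locSubring (Q : Ideal C) [Q.IsPrime] {x : L} :
    x ∈ locSubring (L := L) Q ↔
      ∃ a : C, a ∉ Q ∧ ∃ c : C, algebraMap C L a * x = algebraMap C L c := Iff.rfl

theorem algebraMap_mem_locSubring (Q : Ideal C) [hQ : Q.IsPrime] (c : C) :
    algebraMap C L c ∈ locSubring (L := L) Q :=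
  ⟨1, fun h => hQ.ne_top ((Ideal.eq_top_iff_one _).mpr h), c, by simp⟩

end Loc

section Int

variable (R : Type*) {C L Λ : Type*} [CommRing R] [CommRing C] [Algebra R C]
  [Field L] [Algebra R L] [Algebra C L] [IsScalarTower R C L] [IsIntegralClosure C R L]
  [CommRing Λ] [Algebra L Λ] [Algebra R Λ] [IsScalarTower R L Λ]

theorem isIntegral_algebraMap_C (c : C) :
    IsIntegral R (algebraMap L Λ (algebraMap C L c)) :=
  ((IsIntegralClosure.isIntegral R L c).algebraMap (B := L)).map (IsScalarTower.toAlgHom R L Λ)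

/-- The elements of `Λ` which become integral over `R` after multiplication by an element of
`C ∖ Q`. -/
def intSubring (Q : Ideal C) [hQ : Q.IsPrime] : Subring Λ where
  carrier := {x | ∃ a : C, a ∉ Q ∧ IsIntegral R (algebraMap L Λ (algebraMap C L a) * x)}
  mul_mem' := by
    rintro x y ⟨a, ha, hx⟩ ⟨a', ha', hy⟩
    refine ⟨a * a', fun h => (hQ.mem_or_mem h).elim ha ha', ?_⟩
    have : algebraMap L Λ (algebraMap C L (a * a')) * (x * y) =
        (algebraMap L Λ (algebraMap C L a) * x) * (algebraMap L Λ (algebraMap C L a') * y) := by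
      simp only [map_mul]; ring
    rw [this]
    exact hx.mul hy
  one_mem' := ⟨1, fun h => hQ.ne_top ((Ideal.eq_top_iff_one _).mpr h), by
    simpa using isIntegral_one⟩
  add_mem' := by
    rintro x y ⟨a, ha, hx⟩ ⟨a', ha', hy⟩
    refine ⟨a * a', fun h => (hQ.mem_or_mem h).elim ha ha', ?_⟩
    have : algebraMap L Λ (algebraMap C L (a * a')) * (x + y) =
        algebraMap L Λ (algebraMap C L a') * (algebraMap L Λ (algebraMap C L a) * x) +
        algebraMap L Λ (algebraMap C L a) * (algebraMap L Λ (algebraMap C L a') * y) := by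
      simp only [map_mul]; ring
    rw [this]
    exact ((isIntegral_algebraMap_C R a').mul hx).add ((isIntegral_algebraMap_C R a).mul hy)
  zero_mem' := ⟨1, fun h => hQ.ne_top ((Ideal.eq_top_iff_one _).mpr h), by
    simpa using isIntegral_zero⟩
  neg_mem' := by
    rintro x ⟨a, ha, hx⟩
    exact ⟨a, ha, by rw [mul_neg]; exact hx.neg⟩

end Int

/-- **Explicit tameness data** at a prime `Q` of `C`: `Q C_Q` is generated by `t` and
`u = (ε / a) t ^ k` with `a, ε ∉ Q`, `k ∣ e`. -/
def TameAt {C : Type*} [CommRing C] (u : C) (e : ℕ) (Q : Ideal C) : Prop :=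
  ∃ (k : ℕ) (t a ε : C), k ∣ e ∧ t ∈ Q ∧ a ∉ Q ∧ ε ∉ Q ∧ a * u = ε * t ^ k ∧
    ∀ x ∈ Q, ∃ c, c ∉ Q ∧ ∃ y, c * x = t * y

section Main

variable {R C L Λ : Type*} [CommRing R] [IsDomain R] [IsIntegrallyClosed R]
  [CommRing C] [Algebra R C]
  [Field L] [Algebra R L] [Algebra C L] [IsScalarTower R C L] [IsIntegralClosure C R L]
  [CommRing Λ] [Algebra L Λ] [Algebra R Λ] [IsScalarTower R L Λ] {e : ℕ}
  (bs : Module.Basis (Fin e) L Λ) (s : Λ) (hbs : ∀ r : Fin e, bs r = s ^ (r : ℕ))
  (u : R) (hs : s ^ e = algebraMap R Λ u)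
  (hRL : Function.Injective (algebraMap R L)) (he : 0 < e) (hu : Prime u)
  (hchar : ∀ n : ℕ, n ≠ 0 → ¬ u ∣ (n : R))

local notation "ιCL" => algebraMap C L

include hbs hs hRL he hu in
theorem s_regular : ∀ a b : Λ, s * a = s * b → a = b := by
  intro a b hab
  have huL : algebraMap R L u ≠ 0 := (map_ne_zero_iff _ hRL).mpr hu.ne_zero
  have h1 : s ^ e * a = s ^ e * b := by
    obtain ⟨e', rfl⟩ : ∃ e', e = e' + 1 := ⟨e - 1, by omega⟩
    rw [pow_succ, mul_assoc, mul_assoc, hab]
  rw [hs, IsScalarTower.algebraMap_apply R L Λ, ← Algebra.smul_def, ← Algebra.smul_def] at h1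
  exact smul_right_injective Λ huL h1

include hbs hs hRL he hu hchar in
/-- **Local Abhyankar at a prime `Q` above `(u)`.** -/
theorem exists_smul_isIntegral_div (Q : Ideal C) [hQp : Q.IsPrime]
    (hQ : Q.comap (algebraMap R C) = Ideal.span {u}) (hT : TameAt (algebraMap R C u) e Q)
    (y w : Λ) (hy : IsIntegral R y) (hw : IsIntegral R w) (n : ℕ) (hyw : y ^ n = s * w) :
    ∃ a' : C, a' ∉ Q ∧ ∃ y' : Λ, y = s * y' ∧
      IsIntegral R (algebraMap L Λ (algebraMap C L a') * y') := by
  classical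
  obtain ⟨k, t, a, ε, hk, ht, ha, hε, hrel, hgen⟩ := hT
  have hCL : Function.Injective (algebraMap C L) := IsIntegralClosure.algebraMap_injective C R L
  have huQ : algebraMap R C u ∈ Q := by
    have : u ∈ Q.comap (algebraMap R C) := by rw [hQ]; exact Ideal.mem_span_singleton_self u
    exact this
  have h0Q : ∀ c : C, c ∉ Q → algebraMap C L c ≠ 0 := by
    intro c hc h0
    apply hc
    have : c = 0 := hCL (by rw [h0, map_zero])
    rw [this]; exact Q.zero_mem
  have hk0 : 0 < k := by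
    rcases Nat.eq_zero_or_pos k with h | h
    · exfalso
      rw [h, pow_zero, mul_one] at hrel
      exact hε (hrel ▸ Q.mul_mem_left a huQ)
    · exact h
  obtain ⟨m, hkm⟩ := hk
  have hm0 : 0 < m := by
    rcases Nat.eq_zero_or_pos m with h | h
    · rw [h, Nat.mul_zero] at hkm; omega
    · exact h
  set uL : L := algebraMap R L u with huL
  have huLC : uL = ιCL (algebraMap R C u) := by rw [huL, ← IsScalarTower.algebraMap_apply]
  have huL0 : uL ≠ 0 := (map_ne_zero_iff _ hRL).mpr hu.ne_zero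
  have ha0 : ιCL a ≠ 0 := h0Q a ha
  have hε0 : ιCL ε ≠ 0 := h0Q ε hε
  have ht0 : ιCL t ≠ 0 := by
    intro h0
    have h1 : ιCL a * uL = ιCL ε * ιCL t ^ k := by rw [huLC, ← map_mul, hrel, map_mul, map_pow]
    rw [h0, zero_pow hk0.ne', mul_zero] at h1
    exact (mul_ne_zero ha0 huL0) h1
  set A₀ : Subring L := locSubring (L := L) Q with hA₀
  have htA : ιCL t ∈ A₀ := algebraMap_mem_locSubring Q t
  have hε₁A : ιCL ε / ιCL a ∈ A₀ := ⟨a, ha, ε, by field_simp⟩
  have hεiA : ιCL a / ιCL ε ∈ A₀ := ⟨ε, hε, a, by field_simp⟩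
  have hεε : ιCL ε / ιCL a * (ιCL a / ιCL ε) = 1 := by field_simp
  have hu' : uL = ιCL ε / ιCL a * ιCL t ^ k := by
    have h1 : ιCL a * uL = ιCL ε * ιCL t ^ k := by rw [huLC, ← map_mul, hrel, map_mul, map_pow]
    field_simp
    linear_combination h1
  have hs' : s ^ e = algebraMap L Λ uL := by rw [hs, IsScalarTower.algebraMap_apply R L Λ]
  have hli : LinearIndependent L (fun r : Fin e => s ^ (r : ℕ)) := by
    have := bs.linearIndependent
    have h2 : (⇑bs : Fin e → Λ) = fun r : Fin e => s ^ (r : ℕ) := funext hbs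
    rwa [h2] at this
  have hdich : ∀ x ∈ A₀, (∃ y ∈ A₀, x = ιCL t * y) ∨ (x ≠ 0 ∧ x⁻¹ ∈ A₀) := by
    rintro x ⟨a₁, ha₁, c₁, hc₁⟩
    have ha₁0 : ιCL a₁ ≠ 0 := h0Q a₁ ha₁
    by_cases hc₁Q : c₁ ∈ Q
    · left
      obtain ⟨c₂, hc₂, y₀, hy₀⟩ := hgen c₁ hc₁Q
      have hc₂0 : ιCL c₂ ≠ 0 := h0Q c₂ hc₂
      refine ⟨ιCL y₀ / (ιCL a₁ * ιCL c₂), ⟨a₁ * c₂, fun h => (hQp.mem_or_mem h).elim ha₁ hc₂, y₀, ?_⟩, ?_⟩
      · rw [map_mul]; field_simp
      · have h1 : ιCL c₂ * ιCL c₁ = ιCL t * ιCL y₀ := by rw [← map_mul, hy₀, map_mul]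
        have h2 : ιCL a₁ * ιCL c₂ ≠ 0 := mul_ne_zero ha₁0 hc₂0
        rw [mul_div_assoc', eq_div_iff h2]
        linear_combination (ιCL c₂) * hc₁ + h1
    · right
      have hc₁0 : ιCL c₁ ≠ 0 := h0Q c₁ hc₁Q
      have hx0 : x ≠ 0 := by
        rintro rfl
        rw [mul_zero] at hc₁
        exact hc₁0 hc₁.symm
      refine ⟨hx0, ⟨c₁, hc₁Q, a₁, ?_⟩⟩
      rw [← hc₁]
      field_simp
  have htinv : (ιCL t)⁻¹ ∉ A₀ := by
    rintro ⟨a₁, ha₁, c₁, hc₁⟩
    apply ha₁
    have h1 : ιCL a₁ = ιCL (c₁ * t) := by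
      rw [map_mul, ← hc₁]; field_simp
    rw [hCL h1]
    exact Q.mul_mem_left _ ht
  have hkt : ¬ ∃ y ∈ A₀, (k : L) = ιCL t * y := by
    rintro ⟨y₁, ⟨a₁, ha₁, c₁, hc₁⟩, hky⟩
    have h1 : ιCL (a₁ * (k : C)) = ιCL (t * c₁) := by
      rw [map_mul, map_mul, map_natCast, hky, ← hc₁]; ring
    have h2 : a₁ * (k : C) ∈ Q := by rw [hCL h1]; exact Q.mul_mem_right _ ht
    have h3 : (k : C) ∈ Q := (hQp.mem_or_mem h2).resolve_left ha₁
    have h4 : (k : R) ∈ Q.comap (algebraMap R C) := by
      rw [Ideal.mem_comap, map_natCast]; exact h3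
    rw [hQ, Ideal.mem_span_singleton] at h4
    exact hchar k hk0.ne' h4
  set z : Λ := algebraMap L Λ (ιCL t)⁻¹ * s ^ m with hz
  have hrad := tameRing_radical A₀ s hkm hk0 hm0 uL (ιCL t) (ιCL ε / ιCL a) (ιCL a / ιCL ε) htA hε₁A hεiA
    hεε hu' ht0 hs' hli hdich htinv hkt
  set A' : Subring Λ := tameRing A₀ s z with hA'
  have hsA' : s ∈ A' := self_mem_tameRing A₀ s z
  have hCA' : ∀ c : C, algebraMap L Λ (ιCL c) ∈ A' := fun c =>
    algebraMap_mem_tameRing A₀ s z (algebraMap_mem_locSubring Q c)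
  have hRA' : ∀ r : R, algebraMap R Λ r ∈ A' := by
    intro r
    rw [IsScalarTower.algebraMap_apply R L Λ, IsScalarTower.algebraMap_apply R C L]
    exact hCA' _
  have hsreg := s_regular bs s hbs u hs hRL he hu
  have heQ : (e : C) ∉ Q := by
    intro h3
    have h4 : (e : R) ∈ Q.comap (algebraMap R C) := by
      rw [Ideal.mem_comap, map_natCast]; exact h3
    rw [hQ, Ideal.mem_span_singleton] at h4
    exact hchar e he.ne' h4
  have heL0 : (e : L) ≠ 0 := by
    have := h0Q _ heQ
    rwa [map_natCast] at this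
  -- integral elements lie in `A'`
  have hmemA' : ∀ x : Λ, IsIntegral R x → x ∈ A' := by
    intro x hx
    obtain ⟨p, hp, hp0⟩ := hx
    have hx' : IsIntegral R x := ⟨p, hp, hp0⟩
    have heq : x ^ p.natDegree +
        ∑ i ∈ Finset.range p.natDegree, algebraMap R Λ (p.coeff i) * x ^ i = 0 := by
      have h1 := hp0
      rw [hp.as_sum] at h1
      simpa [eval₂_add, eval₂_pow, eval₂_X, eval₂_finsetSum, eval₂_mul, eval₂_C] using h1
    have hj : s ^ e * x ∈ A' := by
      have hcoord : ∀ r : Fin e, ∃ c : C, ιCL c = (e : L) * uL * bs.repr x r :=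
        coord_mem bs s hbs u hs he x hx'
      choose c hc using hcoord
      have h1 : s ^ e * x = ∑ r : Fin e, algebraMap L Λ ((e : L)⁻¹ * ιCL (c r)) * s ^ (r : ℕ) := by
        rw [hs']
        conv_lhs => rw [← bs.sum_repr x]
        rw [Finset.mul_sum]
        refine Finset.sum_congr rfl (fun r _ => ?_)
        rw [hbs r, hc r, Algebra.smul_def, ← mul_assoc, ← map_mul]
        congr 2
        field_simp
      rw [h1]
      refine Subring.sum_mem _ (fun r _ => Subring.mul_mem _ ?_ (Subring.pow_mem _ hsA' _))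
      refine algebraMap_mem_tameRing A₀ s z ⟨(e : C), heQ, c r, ?_⟩
      rw [map_natCast]
      field_simp
    exact mem_of_monic_of_pow_mul_mem A' s hsA' hsreg hrad x p.natDegree
      (fun i => algebraMap R Λ (p.coeff i)) (fun i => hRA' _) heq e hj
  obtain ⟨y', hy'A, hyy'⟩ := hrad y (hmemA' y hy) n ⟨w, hmemA' w hw, hyw⟩
  -- `A'` is contained in `intSubring`
  have hle : A' ≤ intSubring R (L := L) (Λ := Λ) Q := by
    refine Subring.closure_le.mpr ?_
    rintro x (⟨x₀, ⟨a₁, ha₁, c₁, hc₁⟩, rfl⟩ | hx | hx)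
    · refine ⟨a₁, ha₁, ?_⟩
      rw [← map_mul, hc₁]
      exact isIntegral_algebraMap_C R c₁
    · rw [hx]
      refine ⟨1, fun h => hQp.ne_top ((Ideal.eq_top_iff_one _).mpr h), ?_⟩
      have h1 : IsIntegral R s := isIntegral_s s u hs he
      simpa using h1
    · rw [Set.mem_singleton_iff] at hx
      rw [hx]
      refine ⟨a, ha, ?_⟩
      refine IsIntegral.of_pow hk0 ?_
      have h1 : (algebraMap L Λ (ιCL a) * (algebraMap L Λ (ιCL t)⁻¹ * s ^ m)) ^ k =
          algebraMap L Λ (ιCL (a ^ (k - 1) * ε)) := by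
        have h2 : (s ^ m) ^ k = algebraMap L Λ uL := by
          rw [← pow_mul, Nat.mul_comm m k, ← hkm, hs']
        have h3 : ιCL a ^ k = ιCL a ^ (k - 1) * ιCL a := by
          rw [← pow_succ, Nat.sub_add_cancel hk0]
        have h4 : (ιCL a * (ιCL t)⁻¹) ^ k * uL = ιCL (a ^ (k - 1) * ε) := by
          rw [map_mul, map_pow, hu', mul_pow, h3, inv_pow]
          field_simp
        rw [← h4, map_mul, map_pow, map_mul, ← h2]
        ring
      rw [h1]
      exact isIntegral_algebraMap_C R _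
  obtain ⟨a', ha', hint⟩ := hle hy'A
  exact ⟨a', ha', y', hyy', hint⟩

include hbs hs hRL he hu hchar in
/-- **Abhyankar's lemma over the two-dimensional base.**  Under the tameness hypothesis at every
prime of `C` above `(u)`, `s` generates a radical ideal of the integral closure of `R` in `Λ`. -/
theorem smul_radical
    (htame : ∀ Q : Ideal C, Q.IsPrime → Q.comap (algebraMap R C) = Ideal.span {u} →
      TameAt (algebraMap R C u) e Q)
    (y w : Λ) (hy : IsIntegral R y) (hw : IsIntegral R w) (n : ℕ) (hyw : y ^ n = s * w) :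
    ∃ y' : Λ, IsIntegral R y' ∧ y = s * y' := by
  classical
  have hfin : Module.Finite L Λ := Module.Finite.of_basis bs
  have hart : IsArtinianRing Λ := IsArtinianRing.of_finite L Λ
  have hsreg := s_regular bs s hbs u hs hRL he hu
  have hsint : IsIntegral R s := isIntegral_s s u hs he
  have huL0 : algebraMap R L u ≠ 0 := (map_ne_zero_iff _ hRL).mpr hu.ne_zero
  have hs' : s ^ e = algebraMap L Λ (algebraMap R L u) := by
    rw [hs, IsScalarTower.algebraMap_apply R L Λ]
  have hRC : ∀ r : R, algebraMap R Λ r = algebraMap L Λ (algebraMap C L (algebraMap R C r)) := by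
    intro r
    rw [IsScalarTower.algebraMap_apply R L Λ, IsScalarTower.algebraMap_apply R C L]
  set y' : Λ := algebraMap L Λ (algebraMap R L u)⁻¹ * s ^ (e - 1) * y with hy'
  have hsy' : y = s * y' := by
    have h1 : s * s ^ (e - 1) = algebraMap L Λ (algebraMap R L u) := by
      rw [← pow_succ', Nat.sub_add_cancel he, hs']
    calc y = algebraMap L Λ ((algebraMap R L u)⁻¹ * algebraMap R L u) * y := by
          rw [inv_mul_cancel₀ huL0, map_one, one_mul]
      _ = algebraMap L Λ (algebraMap R L u)⁻¹ * (s * s ^ (e - 1)) * y := by rw [h1, map_mul]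
      _ = s * y' := by rw [hy']; ring
  refine ⟨y', ?_, hsy'⟩
  have huy' : algebraMap R Λ u * y' = s ^ (e - 1) * y := by
    rw [hy', IsScalarTower.algebraMap_apply R L Λ, ← mul_assoc, ← mul_assoc, ← map_mul,
      mul_inv_cancel₀ huL0, map_one, one_mul]
  have huint : IsIntegral R (u • y') := by
    rw [Algebra.smul_def, huy']
    exact (hsint.pow _).mul hy
  -- the ideal of denominators
  let J : Ideal C :=
    { carrier := {a | IsIntegral R (algebraMap L Λ (algebraMap C L a) * y')}
      add_mem' := by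
        intro a b ha hb
        show IsIntegral R (algebraMap L Λ (algebraMap C L (a + b)) * y')
        rw [map_add, map_add, add_mul]
        exact IsIntegral.add ha hb
      zero_mem' := by
        show IsIntegral R (algebraMap L Λ (algebraMap C L 0) * y')
        rw [map_zero, map_zero, zero_mul]
        exact isIntegral_zero
      smul_mem' := by
        intro c x hx
        show IsIntegral R (algebraMap L Λ (algebraMap C L (c • x)) * y')
        rw [smul_eq_mul, map_mul, map_mul, mul_assoc]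
        exact (isIntegral_algebraMap_C R c).mul hx }
  have hJ : ∀ a : C, a ∈ J ↔ IsIntegral R (algebraMap L Λ (algebraMap C L a) * y') :=
    fun a => Iff.rfl
  have hex : ∃ a₀ : R, ¬ u ∣ a₀ ∧ algebraMap R C a₀ ∈ J := by
    by_contra hcon
    push Not at hcon
    have hle : J.comap (algebraMap R C) ≤ Ideal.span {u} := by
      intro a₀ ha₀
      rw [Ideal.mem_span_singleton]
      by_contra hnd
      exact hcon a₀ hnd ha₀
    have : Algebra.IsIntegral R C := IsIntegralClosure.isIntegral_algebra R L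
    have hup : (Ideal.span {u} : Ideal R).IsPrime :=
      (Ideal.span_singleton_prime hu.ne_zero).mpr hu
    obtain ⟨Q, hJQ, hQp, hQ⟩ := Ideal.exists_ideal_over_prime_of_isIntegral (Ideal.span {u}) J hle
    obtain ⟨a', ha', y'', hyy'', hint⟩ := exists_smul_isIntegral_div bs s hbs u hs hRL he hu hchar
      Q hQ (htame Q hQp hQ) y w hy hw n hyw
    have h1 : y'' = y' := hsreg _ _ (by rw [← hyy'', ← hsy'])
    rw [h1] at hint
    exact ha' (hJQ hint)
  obtain ⟨a₀, ha₀, ha₀J⟩ := hex
  have ha₀int : IsIntegral R (a₀ • y') := by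
    rw [Algebra.smul_def, hRC]
    exact ha₀J
  refine isIntegral_of_smul (A := R) (Λ := Λ) ?_ hu ha₀ huint ha₀int
  intro N hN
  have h1 : algebraMap R (Λ ⧸ N) = ((Ideal.Quotient.mk N).comp (algebraMap L Λ)).comp
      (algebraMap R L) := by
    ext r
    simp only [RingHom.comp_apply, ← IsScalarTower.algebraMap_apply R L Λ]
    rfl
  rw [h1]
  have : Nontrivial (Λ ⧸ N) := Ideal.Quotient.nontrivial_iff.mpr hN.ne_top
  exact ((Ideal.Quotient.mk N).comp (algebraMap L Λ)).injective.comp hRL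

end Main

end Fermat.Agent.S30.Model.Tame
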