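/-
S30 / Model theorem, bridge brick (helper70).

`rank`-many pairwise distinct embeddings of a normal finite free `R`-algebra `C` into a power
series ring `K⟦X⟧` (char `K` = 0), in which a prime element `P` of `R` becomes a uniformiser,
force the trace discriminant of `C / R` to be prime to `P`.

This is the bridge between "expansions" (Taylor expansions of modular functions at points of the
upper half plane, `q`-expansions at cusps) and the purely algebraic unramifiedness statement
consumed by the model theorem.
-/
import Mathlib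

set_option autoImplicit false

namespace Fermat.Agent.S30.Model.EmbDisc

/-! ### Part 0: a coefficient lemma -/

section Coeff

variable {K : Type*} [CommRing K]

theorem coeff_mul_of_forall_lt (f g : PowerSeries K) (r : ℕ)
    (hg : ∀ m < r, PowerSeries.coeff m g = 0) :
    PowerSeries.coeff r (f * g) = PowerSeries.constantCoeff f * PowerSeries.coeff r g := by
  classical
  rw [PowerSeries.coeff_mul]
  rw [Finset.sum_eq_single (0, r)]
  · simp
  · rintro ⟨i, j⟩ hij hne
    have hij' : i + j = r := Finset.HasAntidiagonal.mem_antidiagonal.mp hij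
    have hj : j < r := by
      rcases Nat.eq_zero_or_pos i with hi | hi
      · exfalso
        apply hne
        subst hi
        rw [zero_add] at hij'
        rw [hij']
      · omega
    simp [hg j hj]
  · intro h
    exact absurd (Finset.HasAntidiagonal.mem_antidiagonal.mpr (zero_add r)) h

end Coeff

/-! ### Part 1: derivations along a ring homomorphism -/

section Der

variable {R C K : Type*} [CommRing R] [CommRing C] [Algebra R C] [Field K]

/-- `D` is a derivation `C → K` along the ring homomorphism `c : C →+* K`. -/
structure IsDer (c : C →+* K) (D : C → K) : Prop where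
  add : ∀ x y, D (x + y) = D x + D y
  mul : ∀ x y, D (x * y) = c x * D y + D x * c y

namespace IsDer

variable {c : C →+* K} {D : C → K}

theorem map_zero (h : IsDer c D) : D 0 = 0 := by
  have := h.add 0 0
  simpa using this

theorem map_one (h : IsDer c D) : D 1 = 0 := by
  have := h.mul 1 1
  simp at this
  exact this

theorem map_sum (h : IsDer c D) {α : Type*} (s : Finset α) (f : α → C) :
    D (∑ i ∈ s, f i) = ∑ i ∈ s, D (f i) := by
  classical
  induction s using Finset.induction_on with
  | empty => simpa using h.map_zero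
  | insert a s ha ih => rw [Finset.sum_insert ha, Finset.sum_insert ha, h.add, ih]

theorem map_pow (h : IsDer c D) (x : C) (n : ℕ) :
    D (x ^ n) = (n : K) * c x ^ (n - 1) * D x := by
  induction n with
  | zero => simp [h.map_one]
  | succ n ih =>
    rw [pow_succ, h.mul, ih, _root_.map_pow]
    cases n with
    | zero => simp
    | succ k =>
      simp only [Nat.add_sub_cancel]
      push_cast
      ring

/-- The chain rule for polynomial expressions with coefficients killed by `D`. -/
theorem map_aeval (h : IsDer c D) (hR : ∀ a : R, D (algebraMap R C a) = 0) (x : C)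
    (m : Polynomial R) :
    D (Polynomial.aeval x m) =
      (Polynomial.derivative (m.map (c.comp (algebraMap R C)))).eval (c x) * D x := by
  induction m using Polynomial.induction_on' with
  | add p q hp hq =>
    rw [map_add, h.add, hp, hq, Polynomial.map_add, Polynomial.derivative_add,
      Polynomial.eval_add, add_mul]
  | monomial n a =>
    rw [Polynomial.aeval_monomial, h.mul, hR, zero_mul, add_zero, h.map_pow,
      Polynomial.map_monomial, Polynomial.derivative_monomial, Polynomial.eval_monomial]
    simp only [RingHom.comp_apply]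
    ring

end IsDer

end Der

/-! ### Part 2: the derivation attached to two embeddings with the same reduction -/

section Diff

variable {C K : Type*} [CommRing C] [Field K]

/-- Two distinct ring homomorphisms into `K⟦X⟧` with the same reduction modulo `X` give a nonzero
derivation along the common reduction, vanishing wherever the two homomorphisms agree. -/
theorem exists_isDer_of_ne (σ τ : C →+* PowerSeries K)
    (hc : ∀ x, PowerSeries.constantCoeff (σ x) = PowerSeries.constantCoeff (τ x))
    (hne : σ ≠ τ) :
    ∃ D : C → K, IsDer ((PowerSeries.constantCoeff (R := K)).comp σ) D ∧ (∃ x, D x ≠ 0) ∧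
      ∀ x, σ x = τ x → D x = 0 := by
  classical
  have hex : ∃ r : ℕ, ∃ x, PowerSeries.coeff r (σ x) ≠ PowerSeries.coeff r (τ x) := by
    by_contra hcon
    apply hne
    ext x n
    by_contra hxn
    exact hcon ⟨n, x, hxn⟩
  have hr : ∃ x, PowerSeries.coeff (Nat.find hex) (σ x) ≠ PowerSeries.coeff (Nat.find hex) (τ x) :=
    Nat.find_spec hex
  have hlow : ∀ m < Nat.find hex, ∀ x, PowerSeries.coeff m (σ x) = PowerSeries.coeff m (τ x) := by
    intro m hm x
    by_contra h
    exact Nat.find_min hex hm ⟨x, h⟩
  generalize Nat.find hex = r at hr hlow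
  refine ⟨fun x => PowerSeries.coeff r (σ x) - PowerSeries.coeff r (τ x), ⟨?_, ?_⟩, ?_, ?_⟩
  · intro x y
    simp only [map_add]
    ring
  · intro x y
    have h1 : σ (x * y) - τ (x * y) = σ x * (σ y - τ y) + τ y * (σ x - τ x) := by
      simp only [map_mul]
      ring
    have e1 : PowerSeries.coeff r (σ x * (σ y - τ y)) =
        PowerSeries.constantCoeff (σ x) * PowerSeries.coeff r (σ y - τ y) :=
      coeff_mul_of_forall_lt _ _ r (fun m hm => by rw [map_sub, hlow m hm y, sub_self])
    have e2 : PowerSeries.coeff r (τ y * (σ x - τ x)) =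
        PowerSeries.constantCoeff (τ y) * PowerSeries.coeff r (σ x - τ x) :=
      coeff_mul_of_forall_lt _ _ r (fun m hm => by rw [map_sub, hlow m hm x, sub_self])
    have e3 : PowerSeries.coeff r (σ (x * y)) - PowerSeries.coeff r (τ (x * y)) =
        PowerSeries.coeff r (σ (x * y) - τ (x * y)) := by rw [map_sub]
    show PowerSeries.coeff r (σ (x * y)) - PowerSeries.coeff r (τ (x * y)) = _
    rw [e3, h1, map_add, e1, e2, map_sub, map_sub, ← hc y]
    simp only [RingHom.comp_apply]
    ring
  · obtain ⟨x, hx⟩ := hr
    exact ⟨x, sub_ne_zero.mpr hx⟩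
  · intro x hx
    simp [hx]

end Diff

/-! ### Part 3: a derivation killing the base ring and the kernel of the reduction vanishes -/

section Vanish

variable {R C K : Type*} [CommRing R] [CommRing C] [Algebra R C] [Field K] [CharZero K]

theorem IsDer.eq_zero_of_isIntegral {c : C →+* K} {D : C → K} (h : IsDer c D)
    (hR : ∀ a : R, D (algebraMap R C a) = 0) (hQ : ∀ x, c x = 0 → D x = 0)
    (x : C) (hx : IsIntegral R x) : D x = 0 := by
  obtain ⟨g, hg, hgx⟩ := hx
  have hev : ∀ m : Polynomial R,
      c (Polynomial.aeval x m) = (m.map (c.comp (algebraMap R C))).eval (c x) := by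
    intro m
    rw [Polynomial.eval_map, Polynomial.aeval_def, Polynomial.hom_eval₂]
  have hgb0 : g.map (c.comp (algebraMap R C)) ≠ 0 := (hg.map _).ne_zero
  have hroot : (g.map (c.comp (algebraMap R C))).IsRoot (c x) := by
    show (g.map (c.comp (algebraMap R C))).eval (c x) = 0
    rw [← hev, Polynomial.aeval_def, hgx, _root_.map_zero]
  have hμ : 0 < (g.map (c.comp (algebraMap R C))).rootMultiplicity (c x) :=
    (Polynomial.rootMultiplicity_pos hgb0).mpr hroot
  generalize hμdef : (g.map (c.comp (algebraMap R C))).rootMultiplicity (c x) = μ at hμ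
  have h1 : ∀ m ≤ μ - 1,
      (Polynomial.derivative^[m] (g.map (c.comp (algebraMap R C)))).IsRoot (c x) :=
    (Polynomial.lt_rootMultiplicity_iff_isRoot_iterate_derivative hgb0).mp (by omega)
  have h2 : ¬ (Polynomial.derivative^[μ] (g.map (c.comp (algebraMap R C)))).IsRoot (c x) := by
    intro h'
    have hlt : μ < (g.map (c.comp (algebraMap R C))).rootMultiplicity (c x) := by
      refine (Polynomial.lt_rootMultiplicity_iff_isRoot_iterate_derivative hgb0).mpr
        (fun m hm => ?_)
      rcases Nat.lt_or_ge m μ with hlt | hge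
      · exact h1 m (by omega)
      · have : m = μ := le_antisymm hm hge
        subst this
        exact h'
    omega
  have hmx : c (Polynomial.aeval x (Polynomial.derivative^[μ - 1] g)) = 0 := by
    rw [hev, ← Polynomial.iterate_derivative_map]
    exact h1 (μ - 1) le_rfl
  have key := h.map_aeval hR x (Polynomial.derivative^[μ - 1] g)
  rw [hQ _ hmx, ← Polynomial.iterate_derivative_map, ← Function.iterate_succ_apply'
    (f := (Polynomial.derivative : Polynomial K → Polynomial K)),
    show (μ - 1).succ = μ by omega] at key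
  rcases mul_eq_zero.mp key.symm with h0 | h0
  · exact absurd h0 h2
  · exact h0

end Vanish

/-! ### Part 4: the local ring at the centre of an embedding is a DVR with uniformiser `P` -/

section DVR

variable {R C K : Type*} [CommRing R] [IsDomain R] [CommRing C] [IsDomain C]
  [IsNoetherianRing C] [IsIntegrallyClosed C] [Algebra R C]
  [Algebra.IsIntegral R C] [Field K]

/-- If `σ : C →+* K⟦X⟧` maps the prime element `P` of `R` (generating a height one prime, equal
to the kernel of the reduction of `σ` on `R`) to a series of order one, then every element of `C`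
with vanishing reduction is, up to an element with nonvanishing reduction, a multiple of `P`. -/
theorem exists_mul_eq_mul (P : R)
    (hht : ∀ 𝔮 : Ideal R, 𝔮.IsPrime → 𝔮 ≤ Ideal.span {P} → 𝔮 = ⊥ ∨ 𝔮 = Ideal.span {P})
    (σ : C →+* PowerSeries K)
    (hord : (σ (algebraMap R C P)).order = 1)
    (hker : ∀ r : R, PowerSeries.constantCoeff (σ (algebraMap R C r)) = 0 → P ∣ r)
    (x : C) (hx : PowerSeries.constantCoeff (σ x) = 0) :
    ∃ t z : C, PowerSeries.constantCoeff (σ t) ≠ 0 ∧ t * x = algebraMap R C P * z := by
  classical
  obtain ⟨hP1, hP0⟩ := PowerSeries.order_eq_nat.mp (show (σ (algebraMap R C P)).order = (1 : ℕ) by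
    rw [hord]; rfl)
  have hP0' : PowerSeries.constantCoeff (σ (algebraMap R C P)) = 0 := by
    have := hP0 0 Nat.one_pos
    simpa using this
  set c : C →+* K := (PowerSeries.constantCoeff (R := K)).comp σ with hcdef
  have hc : ∀ y, c y = PowerSeries.constantCoeff (σ y) := fun y => rfl
  set Q : Ideal C := RingHom.ker c with hQdef
  have hmemQ : ∀ y, y ∈ Q ↔ PowerSeries.constantCoeff (σ y) = 0 := fun y => by
    rw [hQdef, RingHom.mem_ker, hc]
  have hQprime : Q.IsPrime := RingHom.ker_isPrime c
  have hPQ : algebraMap R C P ∈ Q := (hmemQ _).mpr hP0'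
  have hcomap : Q.comap (algebraMap R C) = Ideal.span {P} := by
    apply le_antisymm
    · intro r hr
      rw [Ideal.mem_comap, hmemQ] at hr
      exact Ideal.mem_span_singleton.mpr (hker r hr)
    · rw [Ideal.span_singleton_le_iff_mem]
      exact hPQ
  have hinj : Function.Injective (algebraMap C (Localization.AtPrime Q)) :=
    IsLocalization.injective _ Q.primeCompl_le_nonZeroDivisors
  have : IsNoetherianRing (Localization.AtPrime Q) :=
    IsLocalization.isNoetherianRing Q.primeCompl _ inferInstance
  have : IsIntegrallyClosed (Localization.AtPrime Q) :=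
    isIntegrallyClosed_of_isLocalization _ Q.primeCompl Q.primeCompl_le_nonZeroDivisors
  -- uniqueness of the nonzero prime of the localization
  have huniq : ∀ P' : Ideal (Localization.AtPrime Q), P' ≠ ⊥ → P'.IsPrime →
      P' = IsLocalRing.maximalIdeal (Localization.AtPrime Q) := by
    intro P' hP'0 hP'prime
    have hmap : (P'.comap (algebraMap C (Localization.AtPrime Q))).map
        (algebraMap C (Localization.AtPrime Q)) = P' :=
      IsLocalization.map_under Q.primeCompl _ P'
    have hQ'prime : (P'.comap (algebraMap C (Localization.AtPrime Q))).IsPrime :=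
      Ideal.comap_isPrime _ _
    have hQ'le : P'.comap (algebraMap C (Localization.AtPrime Q)) ≤ Q := by
      have h1 := IsLocalRing.le_maximalIdeal hP'prime.ne_top
      have h2 := Ideal.comap_mono (f := algebraMap C (Localization.AtPrime Q)) h1
      have h3 : (IsLocalRing.maximalIdeal (Localization.AtPrime Q)).comap
          (algebraMap C (Localization.AtPrime Q)) = Q :=
        IsLocalization.AtPrime.under_maximalIdeal (Localization.AtPrime Q) Q
      rwa [h3] at h2
    have hQ'0 : P'.comap (algebraMap C (Localization.AtPrime Q)) ≠ ⊥ := by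
      intro h
      apply hP'0
      rw [← hmap, h, Ideal.map_bot]
    have hq0 : (P'.comap (algebraMap C (Localization.AtPrime Q))).comap (algebraMap R C) ≠ ⊥ :=
      fun h => hQ'0 (Ideal.eq_bot_of_comap_eq_bot h)
    have hqle : (P'.comap (algebraMap C (Localization.AtPrime Q))).comap (algebraMap R C) ≤
        Ideal.span {P} := by
      rw [← hcomap]
      exact Ideal.comap_mono hQ'le
    have hqeq : (P'.comap (algebraMap C (Localization.AtPrime Q))).comap (algebraMap R C) =
        Ideal.span {P} :=
      (hht _ (Ideal.comap_isPrime _ _) hqle).resolve_left hq0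
    have hQ'eq : P'.comap (algebraMap C (Localization.AtPrime Q)) = Q := by
      by_contra hne
      have hlt : P'.comap (algebraMap C (Localization.AtPrime Q)) < Q := lt_of_le_of_ne hQ'le hne
      obtain ⟨y, hyQ, hyQ'⟩ := SetLike.exists_of_lt hlt
      have := Ideal.comap_lt_comap_of_integral_mem_sdiff hQ'le ⟨hyQ, hyQ'⟩
        (Algebra.IsIntegral.isIntegral (R := R) y)
      rw [hqeq, hcomap] at this
      exact lt_irrefl _ this
    rw [← hmap, hQ'eq]
    exact IsLocalization.AtPrime.map_eq_maximalIdeal Q (Localization.AtPrime Q)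
  have h34 : (IsIntegrallyClosed (Localization.AtPrime Q) ∧
      ∀ P' : Ideal (Localization.AtPrime Q), P' ≠ ⊥ → P'.IsPrime →
        P' = IsLocalRing.maximalIdeal (Localization.AtPrime Q)) →
      (IsLocalRing.maximalIdeal (Localization.AtPrime Q)).IsPrincipal :=
    ((tfae_of_isNoetherianRing_of_isLocalRing_of_isDomain
      (R := Localization.AtPrime Q)).out 3 4).mp
  have hprinc : (IsLocalRing.maximalIdeal (Localization.AtPrime Q)).IsPrincipal :=
    h34 ⟨inferInstance, huniq⟩
  obtain ⟨ϖ, hϖ⟩ := hprinc.principal
  obtain ⟨⟨q, s⟩, hqs⟩ := IsLocalization.surj Q.primeCompl ϖ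
  simp only at hqs
  obtain ⟨u, hu⟩ := IsLocalization.map_units (Localization.AtPrime Q) s
  have hqQ : q ∈ Q := by
    rw [← IsLocalization.AtPrime.to_map_mem_maximal_iff (Localization.AtPrime Q) Q q, ← hqs]
    exact Ideal.mul_mem_right _ _ (by rw [hϖ]; exact Submodule.mem_span_singleton_self ϖ)
  have hgen : ∀ y ∈ IsLocalRing.maximalIdeal (Localization.AtPrime Q),
      ∃ w, y = algebraMap C (Localization.AtPrime Q) q * w := by
    intro y hy
    rw [hϖ, Submodule.mem_span_singleton] at hy
    obtain ⟨a, rfl⟩ := hy
    refine ⟨a * ↑u⁻¹, ?_⟩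
    rw [← hqs, ← hu, smul_eq_mul]
    calc a * ϖ = ϖ * (↑u * ↑u⁻¹) * a := by rw [Units.mul_inv]; ring
      _ = ϖ * ↑u * (a * ↑u⁻¹) := by ring
  have hkey : ∀ y ∈ Q, ∃ t z : C, t ∉ Q ∧ t * y = q * z := by
    intro y hy
    obtain ⟨w, hw⟩ := hgen (algebraMap C (Localization.AtPrime Q) y)
      ((IsLocalization.AtPrime.to_map_mem_maximal_iff (Localization.AtPrime Q) Q y).mpr hy)
    obtain ⟨⟨z, t⟩, hzt⟩ := IsLocalization.surj Q.primeCompl w
    simp only at hzt
    refine ⟨t, z, t.2, hinj ?_⟩
    rw [map_mul, map_mul, hw, ← hzt]
    ring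
  obtain ⟨t, z, ht, htz⟩ := hkey _ hPQ
  have htc : PowerSeries.constantCoeff (σ t) ≠ 0 := fun h => ht ((hmemQ t).mpr h)
  have hzQ : z ∉ Q := by
    intro hz
    have e := congrArg (fun y => PowerSeries.coeff 1 (σ y)) htz
    simp only [map_mul] at e
    rw [coeff_mul_of_forall_lt (σ t) (σ (algebraMap R C P)) 1 (fun m hm => hP0 m hm),
      mul_comm (σ q) (σ z), coeff_mul_of_forall_lt (σ z) (σ q) 1 (fun m hm => by
        have hm0 : m = 0 := by omega
        subst hm0
        have := (hmemQ q).mp hqQ
        simpa using this), (hmemQ z).mp hz, zero_mul] at e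
    exact (mul_ne_zero htc hP1) e
  obtain ⟨t2, z2, ht2, htz2⟩ := hkey x ((hmemQ x).mpr hx)
  refine ⟨z * t2, t * z2, ?_, ?_⟩
  · intro h
    rcases hQprime.mem_or_mem ((hmemQ _).mpr h) with h' | h'
    · exact hzQ h'
    · exact ht2 h'
  · calc z * t2 * x = z * (t2 * x) := by ring
      _ = z * (q * z2) := by rw [htz2]
      _ = (q * z) * z2 := by ring
      _ = (t * algebraMap R C P) * z2 := by rw [htz]
      _ = algebraMap R C P * (t * z2) := by ring

end DVR

/-! ### Part 5: distinct embeddings have distinct reductions -/

section Reduction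

variable {R C K : Type*} [CommRing R] [IsDomain R] [CommRing C] [IsDomain C]
  [IsNoetherianRing C] [IsIntegrallyClosed C] [Algebra R C]
  [Algebra.IsIntegral R C] [Field K] [CharZero K]

/-- Two `R`-embeddings of the normal domain `C` into `K⟦X⟧` (in which the prime element `P`
becomes a uniformiser) with the same reduction modulo `X` are equal. -/
theorem eq_of_constantCoeff_eq (P : R)
    (hht : ∀ 𝔮 : Ideal R, 𝔮.IsPrime → 𝔮 ≤ Ideal.span {P} → 𝔮 = ⊥ ∨ 𝔮 = Ideal.span {P})
    (φ : R →+* PowerSeries K) (hord : (φ P).order = 1)
    (hker : ∀ r : R, PowerSeries.constantCoeff (φ r) = 0 → P ∣ r)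
    (σ τ : C →+* PowerSeries K) (hσ : σ.comp (algebraMap R C) = φ)
    (hτ : τ.comp (algebraMap R C) = φ)
    (hc : ∀ x, PowerSeries.constantCoeff (σ x) = PowerSeries.constantCoeff (τ x)) : σ = τ := by
  by_contra hne
  obtain ⟨D, hD, ⟨x0, hx0⟩, hDagree⟩ := exists_isDer_of_ne σ τ hc hne
  have hσφ : ∀ r, σ (algebraMap R C r) = φ r := fun r => by rw [← hσ]; rfl
  have hτφ : ∀ r, τ (algebraMap R C r) = φ r := fun r => by rw [← hτ]; rfl
  have hR : ∀ a : R, D (algebraMap R C a) = 0 := fun a => hDagree _ (by rw [hσφ, hτφ])
  have hP0 : PowerSeries.constantCoeff (σ (algebraMap R C P)) = 0 := by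
    rw [hσφ]
    have := PowerSeries.coeff_of_lt_order (φ := φ P) 0 (by rw [hord]; exact zero_lt_one)
    simpa using this
  have hQ : ∀ x, ((PowerSeries.constantCoeff (R := K)).comp σ) x = 0 → D x = 0 := by
    intro x hx
    obtain ⟨t, z, ht, htz⟩ := exists_mul_eq_mul P hht σ (by rw [hσφ]; exact hord)
      (fun r hr => hker r (by rw [← hσφ]; exact hr)) x hx
    have e := congrArg D htz
    rw [hD.mul, hD.mul, hR, zero_mul, add_zero] at e
    simp only [RingHom.comp_apply] at e hx
    rw [hx, mul_zero, add_zero, hP0, zero_mul] at e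
    exact (mul_eq_zero.mp e).resolve_left ht
  exact hx0 (hD.eq_zero_of_isIntegral hR hQ x0 (Algebra.IsIntegral.isIntegral x0))

end Reduction

/-! ### Part 6: the discriminant -/

section Discr

variable {R C K : Type*} [CommRing R] [CommRing C] [Algebra R C] [Field K]
  {ι : Type*} [Fintype ι] [DecidableEq ι]

/-- Linear algebra: if the reductions of rank-many `R`-embeddings `C →+* K⟦X⟧` are pairwise
distinct then the image of the discriminant is a unit. -/
theorem isUnit_map_discr_of_injective_reduction (b : Module.Basis ι R C)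
    (φ : R →+* PowerSeries K) (σ : ι → C →+* PowerSeries K)
    (hσ : ∀ i, (σ i).comp (algebraMap R C) = φ)
    (hinj : Function.Injective fun i => (PowerSeries.constantCoeff (R := K)).comp (σ i)) :
    IsUnit (φ (Algebra.discr R b)) := by
  classical
  have hσφ : ∀ i r, σ i (algebraMap R C r) = φ r := fun i r => by rw [← hσ i]; rfl
  have hsmul : ∀ i (r : R) (y : C), σ i (r • y) = φ r * σ i y := fun i r y => by
    rw [Algebra.smul_def, map_mul, hσφ]
  -- the matrix of the embeddings
  set S : Matrix ι ι (PowerSeries K) := fun k i => σ k (b i) with hS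
  -- Step 1: its reduction is nonsingular
  have hdet0 : (S.map (PowerSeries.constantCoeff (R := K))).det ≠ 0 := by
    intro h0
    obtain ⟨v, hv0, hv⟩ := Matrix.exists_vecMul_eq_zero_iff.mpr h0
    have hli : LinearIndependent K
        (fun k : ι => (((PowerSeries.constantCoeff (R := K)).comp (σ k) : C →+* K) : C → K)) := by
      have h1 := linearIndependent_monoidHom C K
      have h2 : Function.Injective
          (fun k : ι => (((PowerSeries.constantCoeff (R := K)).comp (σ k) : C →+* K) : C →* K)) := by
        intro k l hkl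
        apply hinj
        ext x
        exact congrArg (fun f : C →* K => f x) hkl
      exact h1.comp _ h2
    have hzero : ∑ k, v k • (((PowerSeries.constantCoeff (R := K)).comp (σ k) : C →+* K) : C → K)
        = 0 := by
      funext x
      simp only [Finset.sum_apply, Pi.smul_apply, smul_eq_mul, Pi.zero_apply, RingHom.comp_apply]
      have hx : x = ∑ i, b.repr x i • b i := (b.sum_repr x).symm
      have hcoef : ∀ k, PowerSeries.constantCoeff (σ k x) =
          ∑ i, PowerSeries.constantCoeff (φ (b.repr x i)) *
            PowerSeries.constantCoeff (σ k (b i)) := by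
        intro k
        conv_lhs => rw [hx]
        rw [map_sum, map_sum]
        refine Finset.sum_congr rfl (fun i _ => ?_)
        rw [hsmul, map_mul]
      calc ∑ k, v k * PowerSeries.constantCoeff (σ k x)
          = ∑ k, ∑ i, PowerSeries.constantCoeff (φ (b.repr x i)) *
              (v k * PowerSeries.constantCoeff (σ k (b i))) := by
            refine Finset.sum_congr rfl (fun k _ => ?_)
            rw [hcoef, Finset.mul_sum]
            refine Finset.sum_congr rfl (fun i _ => ?_)
            ring
        _ = ∑ i, PowerSeries.constantCoeff (φ (b.repr x i)) *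
              ∑ k, v k * PowerSeries.constantCoeff (σ k (b i)) := by
            rw [Finset.sum_comm]
            refine Finset.sum_congr rfl (fun i _ => ?_)
            rw [Finset.mul_sum]
        _ = 0 := by
            refine Finset.sum_eq_zero (fun i _ => ?_)
            have := congrFun hv i
            simp only [Matrix.vecMul, dotProduct, Matrix.map_apply, Pi.zero_apply] at this
            rw [this, mul_zero]
    have := Fintype.linearIndependent_iff.mp hli v hzero
    exact hv0 (funext this)
  -- Step 2: the determinant is a unit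
  have hdetU : IsUnit S.det := by
    rw [PowerSeries.isUnit_iff_constantCoeff, RingHom.map_det]
    exact isUnit_iff_ne_zero.mpr hdet0
  have hSU : IsUnit S := (Matrix.isUnit_iff_isUnit_det S).mpr hdetU
  -- Step 3: the trace formula
  have htrace : ∀ x : C, φ (Algebra.trace R C x) = ∑ k, σ k x := by
    intro x
    rw [Algebra.trace_eq_matrix_trace b x]
    have hrel : Matrix.diagonal (fun k => σ k x) * S =
        S * (Algebra.leftMulMatrix b x).map φ := by
      apply Matrix.ext
      intro k j
      rw [Matrix.diagonal_mul, Matrix.mul_apply]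
      have hx : x * b j = ∑ i, b.repr (x * b j) i • b i := (b.sum_repr (x * b j)).symm
      calc σ k x * S k j = σ k (x * b j) := by rw [hS, map_mul]
        _ = ∑ i, φ (b.repr (x * b j) i) * σ k (b i) := by
            conv_lhs => rw [hx]
            rw [map_sum]
            exact Finset.sum_congr rfl (fun i _ => hsmul k _ _)
        _ = ∑ i, S k i * ((Algebra.leftMulMatrix b x).map φ) i j := by
            refine Finset.sum_congr rfl (fun i _ => ?_)
            rw [Matrix.map_apply, Algebra.leftMulMatrix_eq_repr_mul, hS, mul_comm]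
    have h1 : ((Algebra.leftMulMatrix b x).map φ).trace = (Matrix.diagonal (fun k => σ k x)).trace := by
      have e1 : (Algebra.leftMulMatrix b x).map φ = S⁻¹ * (Matrix.diagonal (fun k => σ k x) * S) := by
        rw [hrel, ← Matrix.mul_assoc, Matrix.nonsing_inv_mul S hdetU, Matrix.one_mul]
      rw [e1, Matrix.trace_mul_comm, Matrix.mul_assoc, Matrix.mul_nonsing_inv S hdetU,
        Matrix.mul_one]
    have h2 : φ (Matrix.trace (Algebra.leftMulMatrix b x)) =
        ((Algebra.leftMulMatrix b x).map φ).trace := by
      simp [Matrix.trace, map_sum]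
    rw [h2, h1, Matrix.trace_diagonal]
  -- Step 4: the discriminant is the square of the determinant
  have hdisc : φ (Algebra.discr R b) = S.det * S.det := by
    have hmat : (Algebra.traceMatrix R b).map φ = S.transpose * S := by
      apply Matrix.ext
      intro i j
      rw [Matrix.map_apply, Algebra.traceMatrix_apply, Algebra.traceForm_apply, htrace,
        Matrix.mul_apply]
      refine Finset.sum_congr rfl (fun k _ => ?_)
      rw [Matrix.transpose_apply, map_mul]
    rw [Algebra.discr_def, RingHom.map_det, RingHom.mapMatrix_apply, hmat, Matrix.det_mul,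
      Matrix.det_transpose]
  rw [hdisc]
  exact hdetU.mul hdetU

end Discr

/-! ### Part 7: the main statements -/

section Main

variable {R C K : Type*} [CommRing R] [IsDomain R] [IsNoetherianRing R] [CommRing C] [IsDomain C]
  [IsIntegrallyClosed C] [Algebra R C] [Field K] [CharZero K]
  {ι : Type*} [Fintype ι] [DecidableEq ι]

omit [DecidableEq ι] in
/-- **Distinct embeddings have distinct reductions** (finite free normal case). -/
theorem constantCoeff_comp_injective (b : Module.Basis ι R C) (P : R)
    (hht : ∀ 𝔮 : Ideal R, 𝔮.IsPrime → 𝔮 ≤ Ideal.span {P} → 𝔮 = ⊥ ∨ 𝔮 = Ideal.span {P})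
    (φ : R →+* PowerSeries K) (hord : (φ P).order = 1)
    (hker : ∀ r : R, PowerSeries.constantCoeff (φ r) = 0 → P ∣ r)
    {κ : Type*} (σ : κ → C →+* PowerSeries K) (hσ : ∀ i, (σ i).comp (algebraMap R C) = φ)
    (hinj : Function.Injective σ) :
    Function.Injective fun i => (PowerSeries.constantCoeff (R := K)).comp (σ i) := by
  have : Module.Finite R C := Module.Finite.of_basis b
  have : Algebra.IsIntegral R C := Algebra.IsIntegral.of_finite R C
  have : IsNoetherianRing C := Algebra.FiniteType.isNoetherianRing R C
  intro i j hij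
  apply hinj
  exact eq_of_constantCoeff_eq P hht φ hord hker (σ i) (σ j) (hσ i) (hσ j)
    (fun x => congrArg (fun f : C →+* K => f x) hij)

/-- **Main theorem.** Let `C` be a normal domain, finite free over the Noetherian domain `R`
with basis `b`, let `P` generate a height-one prime of `R`, and let `φ : R →+* K⟦X⟧`
(`char K = 0`) make `P` a uniformiser, with `ker (R → K) = (P)`. If there are rank-many pairwise
distinct ring homomorphisms `σ i : C →+* K⟦X⟧` extending `φ`, then the image of the trace
discriminant of `b` is a unit: `C / R` is unramified at `(P)`. -/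
theorem isUnit_map_discr (b : Module.Basis ι R C) (P : R)
    (hht : ∀ 𝔮 : Ideal R, 𝔮.IsPrime → 𝔮 ≤ Ideal.span {P} → 𝔮 = ⊥ ∨ 𝔮 = Ideal.span {P})
    (φ : R →+* PowerSeries K) (hord : (φ P).order = 1)
    (hker : ∀ r : R, PowerSeries.constantCoeff (φ r) = 0 → P ∣ r)
    (σ : ι → C →+* PowerSeries K) (hσ : ∀ i, (σ i).comp (algebraMap R C) = φ)
    (hinj : Function.Injective σ) : IsUnit (φ (Algebra.discr R b)) :=
  isUnit_map_discr_of_injective_reduction b φ σ hσ
    (constantCoeff_comp_injective b P hht φ hord hker σ hσ hinj)

/-- The trace discriminant is not divisible by `P`. -/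
theorem not_dvd_discr (b : Module.Basis ι R C) (P : R)
    (hht : ∀ 𝔮 : Ideal R, 𝔮.IsPrime → 𝔮 ≤ Ideal.span {P} → 𝔮 = ⊥ ∨ 𝔮 = Ideal.span {P})
    (φ : R →+* PowerSeries K) (hord : (φ P).order = 1)
    (hker : ∀ r : R, PowerSeries.constantCoeff (φ r) = 0 → P ∣ r)
    (σ : ι → C →+* PowerSeries K) (hσ : ∀ i, (σ i).comp (algebraMap R C) = φ)
    (hinj : Function.Injective σ) : ¬ P ∣ Algebra.discr R b := by
  intro hdvd
  have hU := isUnit_map_discr b P hht φ hord hker σ hσ hinj
  obtain ⟨d, hd⟩ := hdvd
  rw [hd, map_mul] at hU
  have hPU : IsUnit (φ P) := isUnit_of_mul_isUnit_left hU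
  have h0 := PowerSeries.order_zero_of_unit hPU
  rw [hord] at h0
  exact one_ne_zero h0

end Main

/-! ### Part 8: helpers for consumers -/

section Helpers

/-- In a UFD a prime element generates a height-one prime (the hypothesis `hht` above). -/
theorem height_one_of_ufd {R : Type*} [CommRing R] [IsDomain R] [UniqueFactorizationMonoid R]
    (P : R) (hP : Prime P) :
    ∀ 𝔮 : Ideal R, 𝔮.IsPrime → 𝔮 ≤ Ideal.span {P} → 𝔮 = ⊥ ∨ 𝔮 = Ideal.span {P} := by
  intro 𝔮 h𝔮 hle
  by_cases h0 : 𝔮 = ⊥
  · exact Or.inl h0
  · right
    obtain ⟨x, hx, hxp⟩ := h𝔮.exists_mem_prime_of_ne_bot h0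
    apply le_antisymm hle
    rw [Ideal.span_singleton_le_iff_mem]
    obtain ⟨u, hu⟩ := Ideal.mem_span_singleton.mp (hle hx)
    have hirr := hxp.irreducible
    rcases hirr.isUnit_or_isUnit hu with h | h
    · exact absurd h hP.not_isUnit
    · obtain ⟨v, rfl⟩ := h
      have hPx : P = x * ↑v⁻¹ := by rw [hu, mul_assoc, Units.mul_inv, mul_one]
      rw [hPx]
      exact Ideal.mul_mem_right _ _ hx

variable {R C K : Type*} [CommRing R] [CommRing C] [Algebra R C] [Algebra.IsIntegral R C]
  [Field K]

/-- A ring homomorphism from an integral extension `C` of `R` into Laurent series which maps `R`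
into power series maps `C` into power series. -/
theorem exists_powerSeries_lift (φ : R →+* PowerSeries K) (σ' : C →+* LaurentSeries K)
    (h : ∀ r, σ' (algebraMap R C r) = HahnSeries.ofPowerSeries ℤ K (φ r)) :
    ∃ σ : C →+* PowerSeries K, (∀ x, HahnSeries.ofPowerSeries ℤ K (σ x) = σ' x) ∧
      σ.comp (algebraMap R C) = φ := by
  classical
  have hinj : Function.Injective (HahnSeries.ofPowerSeries ℤ K) :=
    HahnSeries.ofPowerSeries_injective
  have hex : ∀ x : C, ∃ y : PowerSeries K, HahnSeries.ofPowerSeries ℤ K y = σ' x := by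
    intro x
    have hint : IsIntegral (PowerSeries K) (σ' x) := by
      obtain ⟨g, hg, hgx⟩ := Algebra.IsIntegral.isIntegral (R := R) x
      refine ⟨g.map φ, hg.map φ, ?_⟩
      have hcomp : (algebraMap (PowerSeries K) (LaurentSeries K)).comp φ =
          σ'.comp (algebraMap R C) := by
        ext r : 1
        simp only [RingHom.comp_apply]
        rw [h r, LaurentSeries.coe_algebraMap]
      rw [Polynomial.eval₂_map, hcomp, ← Polynomial.hom_eval₂, hgx, map_zero]
    obtain ⟨y, hy⟩ := IsIntegrallyClosed.isIntegral_iff.mp hint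
    exact ⟨y, by rw [← hy, LaurentSeries.coe_algebraMap]⟩
  choose f hf using hex
  refine ⟨{ toFun := f
            map_one' := hinj (by rw [hf, map_one, map_one])
            map_mul' := fun x y => hinj (by rw [hf, map_mul, map_mul, hf, hf])
            map_zero' := hinj (by rw [hf, map_zero, map_zero])
            map_add' := fun x y => hinj (by rw [hf, map_add, map_add, hf, hf]) }, hf, ?_⟩
  ext r : 1
  apply hinj
  simp only [RingHom.comp_apply, RingHom.coe_mk, MonoidHom.coe_mk, OneHom.coe_mk]
  rw [hf, h]

end Helpers

end Fermat.Agent.S30.Model.EmbDisc
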