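/-
S30 / Model theorem, modular input (i) bridge (helper148).

"Embeddings with pairwise distinct reductions ⇒ the discriminant is nonzero modulo the vertical
prime."  This is the companion of `Fermat.Agent.S30.Model.EmbDisc` (helper70, horizontal primes,
target `K⟦X⟧`): here the target `Λ` is an arbitrary domain with a "reduction" `red : Λ →+* k` to a
field (e.g. a Gauss valuation ring inside `E((t))` with its coefficientwise reduction), and the
reductions of the embeddings are *assumed* pairwise distinct.  The linear algebra follows
helper70's `isUnit_map_discr_of_injective_reduction`.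
-/
import Mathlib

set_option autoImplicit false

namespace Fermat.Agent.S30.Model.EmbDiscVert

open Matrix

section Discr

variable {R C Λ k : Type*} [CommRing R] [CommRing C] [Algebra R C] [CommRing Λ] [IsDomain Λ]
  [Field k] {ι : Type*} [Fintype ι] [DecidableEq ι]

omit [IsDomain Λ] in
/-- The reduced matrix of the embeddings is nonsingular (Dedekind independence). -/
theorem det_map_red_ne_zero (b : Module.Basis ι R C) (φ : R →+* Λ) (red : Λ →+* k)
    (σ : ι → C →+* Λ) (hσ : ∀ i, (σ i).comp (algebraMap R C) = φ)
    (hinj : Function.Injective fun i => red.comp (σ i)) :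
    ((Matrix.of fun l i => σ l (b i)).map red).det ≠ 0 := by
  classical
  have hσφ : ∀ i r, σ i (algebraMap R C r) = φ r := fun i r => by rw [← hσ i]; rfl
  have hsmul : ∀ i (r : R) (y : C), σ i (r • y) = φ r * σ i y := fun i r y => by
    rw [Algebra.smul_def, map_mul, hσφ]
  intro h0
  obtain ⟨v, hv0, hv⟩ := Matrix.exists_vecMul_eq_zero_iff.mpr h0
  have hli : LinearIndependent k (fun l : ι => ((red.comp (σ l) : C →+* k) : C → k)) := by
    have h1 := linearIndependent_monoidHom C k
    have h2 : Function.Injective (fun l : ι => ((red.comp (σ l) : C →+* k) : C →* k)) := by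
      intro l l' hll
      apply hinj
      ext x
      exact congrArg (fun f : C →* k => f x) hll
    exact h1.comp _ h2
  have hzero : ∑ l, v l • ((red.comp (σ l) : C →+* k) : C → k) = 0 := by
    funext x
    simp only [Finset.sum_apply, Pi.smul_apply, smul_eq_mul, Pi.zero_apply, RingHom.comp_apply]
    have hx : x = ∑ i, b.repr x i • b i := (b.sum_repr x).symm
    have hcoef : ∀ l, red (σ l x) = ∑ i, red (φ (b.repr x i)) * red (σ l (b i)) := by
      intro l
      conv_lhs => rw [hx]
      rw [map_sum, map_sum]
      refine Finset.sum_congr rfl (fun i _ => ?_)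
      rw [hsmul, map_mul]
    calc ∑ l, v l * red (σ l x)
        = ∑ l, ∑ i, red (φ (b.repr x i)) * (v l * red (σ l (b i))) := by
          refine Finset.sum_congr rfl (fun l _ => ?_)
          rw [hcoef, Finset.mul_sum]
          refine Finset.sum_congr rfl (fun i _ => ?_)
          ring
      _ = ∑ i, red (φ (b.repr x i)) * ∑ l, v l * red (σ l (b i)) := by
          rw [Finset.sum_comm]
          refine Finset.sum_congr rfl (fun i _ => ?_)
          rw [Finset.mul_sum]
      _ = 0 := by
          refine Finset.sum_eq_zero (fun i _ => ?_)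
          have := congrFun hv i
          simp only [Matrix.vecMul, dotProduct, Matrix.map_apply, Matrix.of_apply,
            Pi.zero_apply] at this
          rw [this, mul_zero]
  have := Fintype.linearIndependent_iff.mp hli v hzero
  exact hv0 (funext this)

/-- The trace formula: `φ (Tr x) = ∑ σ_l x`. -/
theorem map_trace_eq_sum (b : Module.Basis ι R C) (φ : R →+* Λ) (red : Λ →+* k)
    (σ : ι → C →+* Λ) (hσ : ∀ i, (σ i).comp (algebraMap R C) = φ)
    (hinj : Function.Injective fun i => red.comp (σ i)) (x : C) :
    φ (Algebra.trace R C x) = ∑ l, σ l x := by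
  classical
  have hσφ : ∀ i r, σ i (algebraMap R C r) = φ r := fun i r => by rw [← hσ i]; rfl
  have hsmul : ∀ i (r : R) (y : C), σ i (r • y) = φ r * σ i y := fun i r y => by
    rw [Algebra.smul_def, map_mul, hσφ]
  set S : Matrix ι ι Λ := Matrix.of fun l i => σ l (b i) with hS
  have hdet0 : S.det ≠ 0 := by
    intro h
    have h1 := det_map_red_ne_zero b φ red σ hσ hinj
    apply h1
    have h2 : (S.map red).det = red S.det := by
      rw [RingHom.map_det]; rfl
    rw [h2, h, map_zero]
  rw [Algebra.trace_eq_matrix_trace b x]
  have hrel : Matrix.diagonal (fun l => σ l x) * S =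
      S * (Algebra.leftMulMatrix b x).map φ := by
    apply Matrix.ext
    intro l j
    rw [Matrix.diagonal_mul, Matrix.mul_apply]
    have hx : x * b j = ∑ i, b.repr (x * b j) i • b i := (b.sum_repr (x * b j)).symm
    calc σ l x * S l j = σ l (x * b j) := by rw [hS, Matrix.of_apply, map_mul]
      _ = ∑ i, φ (b.repr (x * b j) i) * σ l (b i) := by
          conv_lhs => rw [hx]
          rw [map_sum]
          exact Finset.sum_congr rfl (fun i _ => hsmul l _ _)
      _ = ∑ i, S l i * ((Algebra.leftMulMatrix b x).map φ) i j := by
          refine Finset.sum_congr rfl (fun i _ => ?_)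
          rw [Matrix.map_apply, Algebra.leftMulMatrix_eq_repr_mul, hS, Matrix.of_apply, mul_comm]
  -- cancel `det S` using the adjugate
  have h2 : φ (Matrix.trace (Algebra.leftMulMatrix b x)) =
      ((Algebra.leftMulMatrix b x).map φ).trace := by
    simp [Matrix.trace, map_sum]
  rw [h2]
  have h3 : S.det * ((Algebra.leftMulMatrix b x).map φ).trace =
      S.det * (Matrix.diagonal (fun l => σ l x)).trace := by
    have e1 : S.det • (Algebra.leftMulMatrix b x).map φ =
        S.adjugate * (Matrix.diagonal (fun l => σ l x) * S) := by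
      rw [hrel, ← Matrix.mul_assoc, Matrix.adjugate_mul, Matrix.smul_mul, Matrix.one_mul]
    have e2 : (S.det • (Algebra.leftMulMatrix b x).map φ).trace =
        S.det * ((Algebra.leftMulMatrix b x).map φ).trace := by
      rw [Matrix.trace_smul, smul_eq_mul]
    rw [← e2, e1, Matrix.trace_mul_comm, Matrix.mul_assoc, Matrix.mul_adjugate, Matrix.mul_smul,
      Matrix.mul_one, Matrix.trace_smul, smul_eq_mul]
  have h4 := mul_left_cancel₀ hdet0 h3
  rw [h4, Matrix.trace_diagonal]

/-- The image of the discriminant is the square of the determinant of the embedding matrix. -/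
theorem map_discr_eq (b : Module.Basis ι R C) (φ : R →+* Λ) (red : Λ →+* k)
    (σ : ι → C →+* Λ) (hσ : ∀ i, (σ i).comp (algebraMap R C) = φ)
    (hinj : Function.Injective fun i => red.comp (σ i)) :
    φ (Algebra.discr R b) = (Matrix.of fun l i => σ l (b i)).det *
      (Matrix.of fun l i => σ l (b i)).det := by
  classical
  set S : Matrix ι ι Λ := Matrix.of fun l i => σ l (b i) with hS
  have hmat : (Algebra.traceMatrix R b).map φ = S.transpose * S := by
    apply Matrix.ext
    intro i j
    rw [Matrix.map_apply, Algebra.traceMatrix_apply, Algebra.traceForm_apply,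
      map_trace_eq_sum b φ red σ hσ hinj, Matrix.mul_apply]
    refine Finset.sum_congr rfl (fun l _ => ?_)
    rw [Matrix.transpose_apply, hS, Matrix.of_apply, Matrix.of_apply, map_mul]
  rw [Algebra.discr_def, RingHom.map_det, RingHom.mapMatrix_apply, hmat, Matrix.det_mul,
    Matrix.det_transpose]

/-- **Main statement**: rank-many `R`-embeddings `C →+* Λ` with pairwise distinct reductions
force the reduction of the discriminant to be nonzero. -/
theorem red_map_discr_ne_zero (b : Module.Basis ι R C) (φ : R →+* Λ) (red : Λ →+* k)
    (σ : ι → C →+* Λ) (hσ : ∀ i, (σ i).comp (algebraMap R C) = φ)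
    (hinj : Function.Injective fun i => red.comp (σ i)) :
    red (φ (Algebra.discr R b)) ≠ 0 := by
  classical
  rw [map_discr_eq b φ red σ hσ hinj, map_mul]
  have h1 := det_map_red_ne_zero b φ red σ hσ hinj
  have h2 : ((Matrix.of fun l i => σ l (b i)).map red).det =
      red (Matrix.of fun l i => σ l (b i)).det := by
    rw [RingHom.map_det]; rfl
  rw [h2] at h1
  exact mul_ne_zero h1 h1

/-- **Vertical-prime form**, in the shape of `EmbDisc.not_dvd_discr`: if `π` dies under `red ∘ φ`
then `π` does not divide the discriminant. -/
theorem not_dvd_discr (b : Module.Basis ι R C) (π : R) (φ : R →+* Λ) (red : Λ →+* k)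
    (hπ : red (φ π) = 0) (σ : ι → C →+* Λ) (hσ : ∀ i, (σ i).comp (algebraMap R C) = φ)
    (hinj : Function.Injective fun i => red.comp (σ i)) :
    ¬ π ∣ Algebra.discr R b := by
  rintro ⟨c, hc⟩
  apply red_map_discr_ne_zero b φ red σ hσ hinj
  rw [hc, map_mul, map_mul, hπ, zero_mul]

/-- If moreover `red` detects units, the image of the discriminant is a unit. -/
theorem isUnit_map_discr (b : Module.Basis ι R C) (φ : R →+* Λ) (red : Λ →+* k)
    (hunit : ∀ x : Λ, red x ≠ 0 → IsUnit x)
    (σ : ι → C →+* Λ) (hσ : ∀ i, (σ i).comp (algebraMap R C) = φ)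
    (hinj : Function.Injective fun i => red.comp (σ i)) :
    IsUnit (φ (Algebra.discr R b)) :=
  hunit _ (red_map_discr_ne_zero b φ red σ hσ hinj)

end Discr

end Fermat.Agent.S30.Model.EmbDiscVert
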