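import Mathlib
import Fermat.Agent.S30.Model.GlueChart
import Fermat.Agent.S30.Model.ChartInf
import Fermat.Agent.S30.Model.ChartProv

/-!
# MODEL THEOREM (a) on the chart at infinity

`C0`, `Cinf` the integral closures of `O[u]`, `O[u⁻¹]` in the field `L`.

* `prime_piElt_inv_of_prime` (generic, no hypotheses on `O`): if `π` is a prime element of `C0`,
  `π` is not a unit of `Cinf` and `u⁻¹` is a non-zero-divisor modulo `π` on `Cinf`, then `π` is a
  prime element of `Cinf`.  (`Cinf / π` embeds into `(C0 / π)[1/u]`.)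
* `prime_piElt_inv` : the same on a chart of the line over a DVR `O` (`u` transcendental over
  `E = Frac O`): the two side conditions are `ChartProv.chart_not_unit`, `ChartProv.chart_nzd`
  at `t = u⁻¹`.  So the conclusion of `Model.main_a` (`π` prime in `C0`) gives `π` prime in
  `Cinf` with no further hypothesis.
* `prime_piElt_of_inv` : the converse direction (from the chart at infinity to `C0`).
-/

set_option autoImplicit false

namespace Fermat.Agent.S30.Model.MainInf

open Fermat.Agent.S30.Model Fermat.Agent.S30.Model.GlueChart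

section Generic

variable {O L : Type*} [CommRing O] [Field L] [Algebra O L]

/-- An element integral over `O[u⁻¹]` becomes integral over `O[u]` after multiplication by all
high powers of `u`. -/
theorem exists_forall_ge_isIntegral_of_inv (u : L) (hu : u ≠ 0) (x : L)
    (hx : IsIntegral (Algebra.adjoin O ({u⁻¹} : Set L)) x) :
    ∃ m : ℕ, ∀ n, m ≤ n → IsIntegral (Algebra.adjoin O ({u} : Set L)) (u ^ n * x) :=
  ChartInf.exists_forall_ge_isIntegral u hu x (ChartInf.isIntegral_overlap_of_inf u hx)

/-- Divisibility by `π` descends from the chart `C0` to the chart at infinity, when `u⁻¹` is a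
non-zero-divisor modulo `π` there. -/
theorem isIntegral_div_of_pow_mul_eq (π : O) (u : L) (hu : u ≠ 0)
    (hnzd : ∀ x : L, IsIntegral (Algebra.adjoin O ({u⁻¹} : Set L)) x →
      IsIntegral (Algebra.adjoin O ({u⁻¹} : Set L)) (u⁻¹ * x / algebraMap O L π) →
      IsIntegral (Algebra.adjoin O ({u⁻¹} : Set L)) (x / algebraMap O L π))
    (a : L) (ha : IsIntegral (Algebra.adjoin O ({u⁻¹} : Set L)) a) (n : ℕ) (d : L)
    (hd : IsIntegral (Algebra.adjoin O ({u} : Set L)) d)
    (hnd : u ^ n * a = algebraMap O L π * d) :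
    IsIntegral (Algebra.adjoin O ({u⁻¹} : Set L)) (a / algebraMap O L π) := by
  have huinv_int : IsIntegral (Algebra.adjoin O ({u⁻¹} : Set L)) u⁻¹ :=
    CechP1.isIntegral_adjoin_of_mem (Algebra.subset_adjoin (Set.mem_singleton _))
  obtain ⟨j, hj⟩ := ChartInf.exists_forall_ge_isIntegral_inv u hu d
    (ChartInf.isIntegral_overlap_of_zero u hd)
  by_cases hπL : algebraMap O L π = 0
  · rw [hπL, div_zero]
    exact isIntegral_zero
  apply isIntegral_div_of_pow_mul u⁻¹ (algebraMap O L π) huinv_int hnzd j a ha
  have ha' : a = u⁻¹ ^ n * (algebraMap O L π * d) := by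
    rw [← hnd, ← mul_assoc, ← mul_pow, inv_mul_cancel₀ hu, one_pow, one_mul]
  have e : u⁻¹ ^ j * a / algebraMap O L π = u⁻¹ ^ (j + n) * d := by
    rw [ha', pow_add, div_eq_iff hπL]
    ring
  rw [e]
  exact hj (j + n) (Nat.le_add_right j n)

/-- **`π` prime in `C0` ⇒ `π` prime in `Cinf`** (generic form). -/
theorem prime_piElt_inv_of_prime (π : O) (hπL : algebraMap O L π ≠ 0) (u : L) (hu : u ≠ 0)
    (hnu : ¬ IsIntegral (Algebra.adjoin O ({u⁻¹} : Set L)) (algebraMap O L π)⁻¹)
    (hnzd : ∀ x : L, IsIntegral (Algebra.adjoin O ({u⁻¹} : Set L)) x →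
      IsIntegral (Algebra.adjoin O ({u⁻¹} : Set L)) (u⁻¹ * x / algebraMap O L π) →
      IsIntegral (Algebra.adjoin O ({u⁻¹} : Set L)) (x / algebraMap O L π))
    (hprime : Prime (piElt (Algebra.adjoin O ({u} : Set L)) π)) :
    Prime (piElt (Algebra.adjoin O ({u⁻¹} : Set L)) π) := by
  refine ⟨?_, ?_, ?_⟩
  · intro h
    apply hπL
    rw [← coe_piElt (Algebra.adjoin O ({u⁻¹} : Set L)) π, h, ZeroMemClass.coe_zero]
  · intro h
    obtain ⟨v, hv⟩ := h.exists_right_inv
    have hv' : algebraMap O L π * (v : L) = 1 := by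
      have := congrArg Subtype.val hv
      rw [Subalgebra.coe_mul, coe_piElt, Subalgebra.coe_one] at this
      exact this
    have : (v : L) = (algebraMap O L π)⁻¹ := eq_inv_of_mul_eq_one_right hv'
    exact hnu (this ▸ v.2)
  · intro a b hab
    obtain ⟨c, hc⟩ := hab
    have habc : (a : L) * (b : L) = algebraMap O L π * (c : L) := by
      have := congrArg Subtype.val hc
      rwa [Subalgebra.coe_mul, Subalgebra.coe_mul, coe_piElt] at this
    obtain ⟨na, hna⟩ := exists_forall_ge_isIntegral_of_inv u hu (a : L) a.2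
    obtain ⟨nb, hnb⟩ := exists_forall_ge_isIntegral_of_inv u hu (b : L) b.2
    obtain ⟨nc, hnc⟩ := exists_forall_ge_isIntegral_of_inv u hu (c : L) c.2
    obtain ⟨n, h1, h2, h3⟩ : ∃ n : ℕ, na ≤ n ∧ nb ≤ n ∧ nc ≤ n + n :=
      ⟨max na (max nb nc), le_max_left _ _, (le_max_left _ _).trans (le_max_right _ _),
        ((le_max_right _ _).trans (le_max_right _ _)).trans (Nat.le_add_left _ _)⟩
    let a0 : integralClosure (Algebra.adjoin O ({u} : Set L)) L := ⟨u ^ n * a, hna n h1⟩
    let b0 : integralClosure (Algebra.adjoin O ({u} : Set L)) L := ⟨u ^ n * b, hnb n h2⟩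
    have h0 : piElt (Algebra.adjoin O ({u} : Set L)) π ∣ a0 * b0 := by
      rw [piElt_dvd_iff]
      refine ⟨u ^ (n + n) * c, hnc (n + n) h3, ?_⟩
      rw [Subalgebra.coe_mul]
      show u ^ n * (a : L) * (u ^ n * (b : L)) = _
      rw [pow_add]
      linear_combination (u ^ n * u ^ n) * habc
    rcases hprime.dvd_or_dvd h0 with h | h
    · left
      rw [piElt_dvd_iff] at h ⊢
      obtain ⟨d, hd, hdeq⟩ := h
      exact ⟨(a : L) / algebraMap O L π,
        isIntegral_div_of_pow_mul_eq π u hu hnzd (a : L) a.2 n d hd hdeq,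
        (mul_div_cancel₀ _ hπL).symm⟩
    · right
      rw [piElt_dvd_iff] at h ⊢
      obtain ⟨d, hd, hdeq⟩ := h
      exact ⟨(b : L) / algebraMap O L π,
        isIntegral_div_of_pow_mul_eq π u hu hnzd (b : L) b.2 n d hd hdeq,
        (mul_div_cancel₀ _ hπL).symm⟩

end Generic

section Model

variable {O E L : Type*} [CommRing O] [IsDomain O] [IsDiscreteValuationRing O]
  [Field E] [Algebra O E] [IsFractionRing O E]
  [Field L] [Algebra E L] [Algebra O L] [IsScalarTower O E L]

/-- **MODEL THEOREM (a) on the chart at infinity**: on a chart of the line over the DVR `O`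
(`u` transcendental over `E = Frac O`), if `π` is a prime element of the integral closure of
`O[u]` in `L` (the conclusion of `Model.main_a`), then `π` is a prime element of the integral
closure of `O[u⁻¹]` in `L`. -/
theorem prime_piElt_inv (π : O) (hπ : Irreducible π) (u : L) (hu : Transcendental E u)
    (hprime : Prime (GlueChart.piElt (Algebra.adjoin O ({u} : Set L)) π)) :
    Prime (GlueChart.piElt (Algebra.adjoin O ({u⁻¹} : Set L)) π) := by
  have hinj : Function.Injective (algebraMap O L) := ChartProv.algebraMap_injective_base O E L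
  have hu0 : u ≠ 0 := fun h => hu (h ▸ isAlgebraic_zero)
  have hu' : Transcendental E u⁻¹ := fun h => hu (by simpa using h.inv)
  have hπL : algebraMap O L π ≠ 0 := fun h => hπ.ne_zero (hinj (by rw [h, map_zero]))
  exact prime_piElt_inv_of_prime π hπL u hu0 (ChartProv.chart_not_unit (E := E) π hπ u⁻¹ hu')
    (fun x hx h => ChartProv.chart_nzd (E := E) π hπ u⁻¹ hu' x hx h) hprime

/-- The converse direction: `π` prime on the chart at infinity ⇒ `π` prime on the chart `O[u]`. -/
theorem prime_piElt_of_inv (π : O) (hπ : Irreducible π) (u : L) (hu : Transcendental E u)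
    (hprime : Prime (GlueChart.piElt (Algebra.adjoin O ({u⁻¹} : Set L)) π)) :
    Prime (GlueChart.piElt (Algebra.adjoin O ({u} : Set L)) π) := by
  have hu' : Transcendental E u⁻¹ := fun h => hu (by simpa using h.inv)
  have key : ∀ w : L, w = u →
      Prime (GlueChart.piElt (Algebra.adjoin O ({w} : Set L)) π) := by
    intro w hw
    have h1 := prime_piElt_inv (E := E) π hπ u⁻¹ hu' hprime
    rw [inv_inv] at h1
    rw [hw]
    exact h1
  exact key u rfl

/-- The statement in the unfolded form of the conclusion of `Model.main_a`. -/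
theorem prime_algebraMap_inv (π : O) (hπ : Irreducible π) (u : L) (hu : Transcendental E u)
    (hprime : Prime (algebraMap (Algebra.adjoin O {u}) (integralClosure (Algebra.adjoin O {u}) L)
      (algebraMap O (Algebra.adjoin O {u}) π))) :
    Prime (algebraMap (Algebra.adjoin O {u⁻¹}) (integralClosure (Algebra.adjoin O {u⁻¹}) L)
      (algebraMap O (Algebra.adjoin O {u⁻¹}) π)) :=
  prime_piElt_inv (E := E) π hπ u hu hprime

end Model

end Fermat.Agent.S30.Model.MainInf
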