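import Mathlib
import Fermat.Agent.S30.Model.Assembly
import Fermat.Agent.S30.Model.MainInf

/-!
# MODEL THEOREM (a) on the chart at infinity, under the hypotheses of `Model.main_a`

`main_a_inf` / `main_a_inf_tsd` : under the hypotheses of `Model.main_a` (family form) resp.
`Assembly.main_a_tsd` (TSD form), `π` is a prime element of the integral closure of `O[u⁻¹]` in
`L`.  One line each from `Assembly.main_a` / `Assembly.main_a_tsd` and `MainInf.prime_piElt_inv`.
-/

set_option autoImplicit false

open Polynomial

namespace Fermat.Agent.S30.Model.MainInf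

open Fermat.Agent.S30.Model

variable {O E L : Type*} [CommRing O] [IsDomain O] [IsDiscreteValuationRing O]
  [Field E] [CharZero E] [Algebra O E] [IsFractionRing O E]
  [Field L] [Algebra E L] [Algebra O L] [IsScalarTower O E L]

/-- **MODEL THEOREM (a) at infinity**, TSD form of the hypotheses. -/
theorem main_a_inf_tsd (π : O) (hπ : Irreducible π) (u : L) (hu : Transcendental E u)
    [FiniteDimensional (IntermediateField.adjoin E {u}) L] (halg : AlgClosedIn E L)
    (hi : GaussTSD (E := E) π u)
    (S : Finset O) (hS : ∀ c ∈ S, ∀ c' ∈ S, c ≠ c' → IsUnit (c - c'))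
    (hii : HorizTSD (E := E) S u) :
    Prime (GlueChart.piElt (Algebra.adjoin O {u⁻¹}) π) :=
  prime_piElt_inv (E := E) π hπ u hu (Assembly.main_a_tsd π hπ u hu halg hi S hS hii)

/-- **MODEL THEOREM (a) at infinity**, under the hypotheses of `Model.main_a`, verbatim. -/
theorem main_a_inf (π : O) (hπ : Irreducible π) (u : L) (hu : Transcendental E u)
    [FiniteDimensional (IntermediateField.adjoin E {u}) L] (halg : AlgClosedIn E L)
    (hi : GaussUnram (E := E) π u)
    (S : Finset O) (hS : ∀ c ∈ S, ∀ c' ∈ S, c ≠ c' → IsUnit (c - c'))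
    (hii : HorizUnram (E := E) S u) :
    Prime (GlueChart.piElt (Algebra.adjoin O {u⁻¹}) π) :=
  prime_piElt_inv (E := E) π hπ u hu (Assembly.main_a π hπ u hu halg hi S hS hii)

/-- The same in the unfolded form of the conclusion of `Model.main_a`. -/
theorem main_a_inf' (π : O) (hπ : Irreducible π) (u : L) (hu : Transcendental E u)
    [FiniteDimensional (IntermediateField.adjoin E {u}) L] (halg : AlgClosedIn E L)
    (hi : GaussUnram (E := E) π u)
    (S : Finset O) (hS : ∀ c ∈ S, ∀ c' ∈ S, c ≠ c' → IsUnit (c - c'))
    (hii : HorizUnram (E := E) S u) :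
    Prime (algebraMap (Algebra.adjoin O {u⁻¹}) (integralClosure (Algebra.adjoin O {u⁻¹}) L)
      (algebraMap O (Algebra.adjoin O {u⁻¹}) π)) :=
  main_a_inf π hπ u hu halg hi S hS hii

end Fermat.Agent.S30.Model.MainInf
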