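import Mathlib
import Fermat.Agent.S30.Model.LocalNB

/-!
# MODEL THEOREM, add-on export: the special fibre is REGULAR at a non-branch closed point

Same setting and vocabulary as `LocalNB` (elementwise, no localisation types in the statements):
`A` a Noetherian integrally closed UFD (a chart `O[u]`), `π` a prime element with `A ⧸ (π)` a
principal ideal ring, `K = Frac A`, `L / K` finite separable, `C₀ = integralClosure A L`.

* `RegAt p M` : "`M` is locally generated by `p` and one more element":
  `∃ z ∈ M, ∀ m ∈ M, ∃ s ∉ M, s * m ∈ (p, z)`.  Together with `LocalDomain.LDAt p M` this says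
  that `(C / p)_M` is a local domain with principal maximal ideal, i.e. a discrete valuation ring
  (or a field): the special fibre is regular at `M`.
* `regAt_of_isLocalization` : `RegAt` descends from a localisation (twin of
  `LocalDomain.ldAt_of_isLocalization`).
* `regAt_of_isUnit_discr` : the local statement, from a unit discriminant
  (`Lib.UnitDisc.exists_not_mem_forall_mul_mem`: the closed fibre is a product of fields).
* `regAt_of_tsdField` : **the export**, exact twin of `LocalNB.ldAt_of_tsdField`.
-/

set_option autoImplicit false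

namespace Fermat.Agent.S30.Model.RegNB

open Fermat.Agent.S30.Model Fermat.Agent.Lib

/-- The elementwise "regular modulo `p`" property at a maximal ideal: `M` is locally generated
by `p` and one more element. -/
def RegAt {C : Type*} [CommRing C] (p : C) (M : Ideal C) : Prop :=
  ∃ z ∈ M, ∀ m ∈ M, ∃ s, s ∉ M ∧ s * m ∈ Ideal.span {p, z}

/-- `RegAt` descends from a localisation. -/
theorem regAt_of_isLocalization {C C' : Type*} [CommRing C] [CommRing C'] [Algebra C C']
    (S : Submonoid C) [IsLocalization S C'] (p : C)
    (hR' : ∀ M' : Ideal C', M'.IsMaximal → algebraMap C C' p ∈ M' →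
      RegAt (algebraMap C C' p) M')
    (M : Ideal C) (hM : M.IsMaximal) (hMS : Disjoint (S : Set C) (M : Set C)) (hpM : p ∈ M) :
    RegAt p M := by
  classical
  have hMp : M.IsPrime := hM.isPrime
  set M' : Ideal C' := M.map (algebraMap C C') with hM'
  have hM'prime : M'.IsPrime := IsLocalization.isPrime_of_isPrime_disjoint S C' M hMp hMS
  have hcomap : M'.comap (algebraMap C C') = M :=
    IsLocalization.under_map_of_isPrime_disjoint S C' hMp hMS
  have hM'max : M'.IsMaximal := by
    refine Ideal.isMaximal_iff.mpr ⟨?_, ?_⟩
    · intro h1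
      exact hM'prime.ne_top ((Ideal.eq_top_iff_one _).mpr h1)
    · intro J x hMJ hxM hxJ
      by_contra h1
      have hJne : J ≠ ⊤ := fun h => h1 (by rw [h]; exact Submodule.mem_top)
      have hle : M ≤ J.comap (algebraMap C C') := by
        rw [← hcomap]; exact Ideal.comap_mono hMJ
      have hne : J.comap (algebraMap C C') ≠ ⊤ := by
        intro h
        apply hJne
        rw [Ideal.eq_top_iff_one] at h ⊢
        rw [Ideal.mem_comap, map_one] at h
        exact h
      have heq : J.comap (algebraMap C C') = M := (hM.eq_of_le hne hle).symm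
      have : J = M' := by
        rw [hM', ← heq]
        exact (IsLocalization.map_under S (S := C') J).symm
      rw [this] at hxJ
      exact hxM hxJ
  obtain ⟨z', hz', hgen⟩ := hR' M' hM'max (Ideal.mem_map_of_mem _ hpM)
  obtain ⟨z, t, rfl⟩ := IsLocalization.exists_mk'_eq S z'
  have ez : IsLocalization.mk' C' z t * algebraMap C C' t = algebraMap C C' z :=
    IsLocalization.mk'_spec C' z t
  have hzM : z ∈ M := by
    have h2 : algebraMap C C' z ∈ M' := by
      rw [← ez]; exact Ideal.mul_mem_right _ _ hz'
    rw [← hcomap]; exact Ideal.mem_comap.mpr h2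
  refine ⟨z, hzM, fun m hm => ?_⟩
  obtain ⟨s', hs', hmem⟩ := hgen (algebraMap C C' m) (Ideal.mem_map_of_mem _ hm)
  obtain ⟨s, t₀, rfl⟩ := IsLocalization.exists_mk'_eq S s'
  have es : IsLocalization.mk' C' s t₀ * algebraMap C C' t₀ = algebraMap C C' s :=
    IsLocalization.mk'_spec C' s t₀
  have hsM : s ∉ M := by
    intro h
    apply hs'
    have h2 : algebraMap C C' s ∈ M' := Ideal.mem_map_of_mem _ h
    rw [← es] at h2
    rcases hM'prime.mem_or_mem h2 with h3 | h3
    · exact h3
    · exfalso
      have h4 : (t₀ : C) ∈ M := by rw [← hcomap]; exact Ideal.mem_comap.mpr h3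
      exact Set.disjoint_left.mp hMS t₀.2 h4
  rw [Ideal.mem_span_pair] at hmem
  obtain ⟨a', b', hab⟩ := hmem
  obtain ⟨a, t₁, rfl⟩ := IsLocalization.exists_mk'_eq S a'
  obtain ⟨b, t₂, rfl⟩ := IsLocalization.exists_mk'_eq S b'
  have ea : IsLocalization.mk' C' a t₁ * algebraMap C C' t₁ = algebraMap C C' a :=
    IsLocalization.mk'_spec C' a t₁
  have eb : IsLocalization.mk' C' b t₂ * algebraMap C C' t₂ = algebraMap C C' b :=
    IsLocalization.mk'_spec C' b t₂
  have h1 : algebraMap C C' (a * p * (t₂ * t * t₀) + b * z * (t₁ * t₀)) =
      algebraMap C C' (s * m * (t₁ * t₂ * t)) := by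
    simp only [map_mul, map_add]
    rw [← ea, ← eb, ← ez, ← es]
    linear_combination (algebraMap C C' t₁) * (algebraMap C C' t₂) * (algebraMap C C' t) *
      (algebraMap C C' t₀) * hab
  obtain ⟨t₃, ht₃⟩ := (IsLocalization.eq_iff_exists S C').mp h1
  refine ⟨t₃ * (t₁ * t₂ * t) * s, ?_, ?_⟩
  · intro h
    rcases hMp.mem_or_mem h with h | h
    · rcases hMp.mem_or_mem h with h | h
      · exact Set.disjoint_left.mp hMS t₃.2 h
      · rcases hMp.mem_or_mem h with h | h
        · rcases hMp.mem_or_mem h with h | h
          · exact Set.disjoint_left.mp hMS t₁.2 h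
          · exact Set.disjoint_left.mp hMS t₂.2 h
        · exact Set.disjoint_left.mp hMS t.2 h
    · exact hsM h
  · rw [Ideal.mem_span_pair]
    exact ⟨t₃ * a * (t₂ * t * t₀), t₃ * b * (t₁ * t₀), by linear_combination ht₃⟩

/-- **Local statement.**  `R` local with maximal ideal `(π, s)`, `C` finite free over `R` with unit
discriminant: every maximal ideal `M'` of `C` is locally generated by `π` and `s`. -/
theorem regAt_of_isUnit_discr {R C ι : Type*} [CommRing R] [IsLocalRing R] [CommRing C]
    [Algebra R C] [Fintype ι] [DecidableEq ι]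
    (b : Module.Basis ι R C) (hb : IsUnit (Algebra.discr R b)) {π s : R}
    (hs : IsLocalRing.maximalIdeal R = Ideal.span {π, s})
    (M' : Ideal C) (hM' : M'.IsMaximal) :
    RegAt (algebraMap R C π) M' := by
  have hfin : Module.Finite R C := Module.Finite.of_basis b
  have hcm : (M'.comap (algebraMap R C)).IsMaximal :=
    Ideal.isMaximal_comap_of_isIntegral_of_isMaximal M'
  have hceq : M'.comap (algebraMap R C) = IsLocalRing.maximalIdeal R :=
    IsLocalRing.eq_maximalIdeal hcm
  have hle : (IsLocalRing.maximalIdeal R).map (algebraMap R C) ≤ M' := by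
    rw [Ideal.map_le_iff_le_comap, hceq]
  have hMp : M'.IsPrime := hM'.isPrime
  obtain ⟨e, he, hmul⟩ :=
    UnitDisc.exists_not_mem_forall_mul_mem b hb (IsLocalRing.maximalIdeal R) M' hle
  have hsm : s ∈ IsLocalRing.maximalIdeal R := by
    rw [hs]; exact Ideal.subset_span (by simp)
  have hsM : algebraMap R C s ∈ M' := hle (Ideal.mem_map_of_mem _ hsm)
  refine ⟨algebraMap R C s, hsM, fun m hm => ⟨e, he, ?_⟩⟩
  have h1 := hmul m hm
  rw [hs, Ideal.map_span, Set.image_pair] at h1
  exact h1

universe u v

section Export

variable {A : Type u} {K : Type*} {L : Type v} [CommRing A] [IsDomain A] [IsNoetherianRing A]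
  [IsIntegrallyClosed A] [UniqueFactorizationMonoid A]
  [Field K] [Algebra A K] [IsFractionRing A K] [Field L] [Algebra K L] [Algebra A L]
  [IsScalarTower A K L] [FiniteDimensional K L] [Algebra.IsSeparable K L]

/-- **Regularity of the special fibre at a non-branch point** (twin of
`LocalNB.ldAt_of_tsdField`). -/
theorem regAt_of_tsdField (π : A) (hπ : Prime π) [IsPrincipalIdealRing (A ⧸ Ideal.span {π})]
    (M : Ideal (integralClosure A L)) (hM : M.IsMaximal)
    (hπM : algebraMap A (integralClosure A L) π ∈ M)
    (h : ∀ p : A, Prime p → algebraMap A (integralClosure A L) p ∈ M →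
      LocalDisc.TSDField A K L p) :
    RegAt (algebraMap A (integralClosure A L) π) M := by
  classical
  have hinjK : Function.Injective (algebraMap A K) := IsFractionRing.injective A K
  have hinj : Function.Injective (algebraMap A L) := by
    rw [IsScalarTower.algebraMap_eq A K L]
    exact (algebraMap K L).injective.comp hinjK
  have hfs : FaithfulSMul A L := (faithfulSMul_iff_algebraMap_injective A L).mpr hinj
  set x : Ideal A := M.comap (algebraMap A (integralClosure A L)) with hx
  have hxmax : x.IsMaximal := Ideal.isMaximal_comap_of_isIntegral_of_isMaximal M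
  have hπx : π ∈ x := Ideal.mem_comap.mpr hπM
  have hunitK : ∀ y : x.primeCompl, IsUnit (algebraMap A K y) := fun y =>
    IsUnit.mk0 _ ((map_ne_zero_iff _ hinjK).mpr (fun h0 => y.2 (h0 ▸ x.zero_mem)))
  have hunit : ∀ y : x.primeCompl, IsUnit (algebraMap A L y) := fun y =>
    IsUnit.mk0 _ ((map_ne_zero_iff _ hinj).mpr (fun h0 => y.2 (h0 ▸ x.zero_mem)))
  let R := Localization.AtPrime x
  let algRK : Algebra R K := (IsLocalization.lift (M := x.primeCompl) hunitK).toAlgebra
  have towerARK : IsScalarTower A R K := IsScalarTower.of_algebraMap_eq fun a => by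
    simp [RingHom.algebraMap_toAlgebra, R]
  have fracR : IsFractionRing R K :=
    IsFractionRing.isFractionRing_of_isDomain_of_isLocalization x.primeCompl R K
  let algRL : Algebra R L := ((algebraMap K L).comp (algebraMap R K)).toAlgebra
  have towerRKL : IsScalarTower R K L := IsScalarTower.of_algebraMap_eq fun a => rfl
  have towerARL : IsScalarTower A R L := IsScalarTower.of_algebraMap_eq fun a => by
    rw [RingHom.algebraMap_toAlgebra, RingHom.comp_apply, ← IsScalarTower.algebraMap_apply A R K,
      ← IsScalarTower.algebraMap_apply A K L]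
  have domR : IsDomain R := IsLocalization.isDomain_of_atPrime R x
  have locR : IsLocalRing R := IsLocalization.AtPrime.isLocalRing R x
  have noethR : IsNoetherianRing R := IsLocalization.isNoetherianRing x.primeCompl R inferInstance
  have icR : IsIntegrallyClosed R :=
    isIntegrallyClosed_of_isLocalization R x.primeCompl x.primeCompl_le_nonZeroDivisors
  have pirR : IsPrincipalIdealRing (R ⧸ Ideal.span {algebraMap A R π}) :=
    RegLocal.isPrincipalIdealRing_quotient x.primeCompl R π
  have freeC : Module.Free R (integralClosure R L) :=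
    RegLocal.free_integralClosure_of_isLocalization_atPrime hπ x hπx R K L
  have finC : Module.Finite R (integralClosure R L) :=
    IsIntegralClosure.finite R K L (integralClosure R L)
  have hπmem : algebraMap A R π ∈ IsLocalRing.maximalIdeal R :=
    RegLocal.algebraMap_mem_maximalIdeal π x R hπx
  -- the discriminant is a unit
  have hb : IsUnit (Algebra.discr R (Module.Free.chooseBasis R (integralClosure R L))) := by
    refine LocalDisc.isUnit_discr (K := K) (L := L) x _ fun p hp hpx => h p hp ?_
    exact Ideal.mem_comap.mp hpx
  -- the localisation of the integral closure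
  let algCC : Algebra (integralClosure A L) (integralClosure R L) :=
    (RegLocal.integralClosureMap (A := A) (L := L) R).toAlgebra
  have tower2 : IsScalarTower (integralClosure A L) (integralClosure R L) L :=
    IsScalarTower.of_algebraMap_eq fun c => rfl
  have tower3 : IsScalarTower A (integralClosure A L) (integralClosure R L) :=
    IsScalarTower.of_algebraMap_eq fun a => Subtype.ext rfl
  have hLL : IsLocalization (Algebra.algebraMapSubmonoid L x.primeCompl) L := by
    apply IsLocalization.self
    rintro _ ⟨y, hy, rfl⟩
    exact hunit ⟨y, hy⟩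
  have hloc' : IsLocalization (Algebra.algebraMapSubmonoid (integralClosure A L) x.primeCompl)
      (integralClosure R L) :=
    IsLocalization.integralClosure (S := L) (Rf := R) (Sf := L) x.primeCompl
  have hπeq : algebraMap (integralClosure A L) (integralClosure R L)
      (algebraMap A (integralClosure A L) π) =
      algebraMap R (integralClosure R L) (algebraMap A R π) := by
    apply Subtype.ext
    change algebraMap A L π = algebraMap R L (algebraMap A R π)
    rw [← IsScalarTower.algebraMap_apply]
  -- the local statement
  have hR' : ∀ M' : Ideal (integralClosure R L), M'.IsMaximal →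
      algebraMap (integralClosure A L) (integralClosure R L)
        (algebraMap A (integralClosure A L) π) ∈ M' →
      RegAt (algebraMap (integralClosure A L) (integralClosure R L)
        (algebraMap A (integralClosure A L) π)) M' := by
    intro M' hM' _
    rw [hπeq]
    obtain ⟨s, hs⟩ := LocalNB.exists_maximalIdeal_eq_span_pair (algebraMap A R π) hπmem
    exact regAt_of_isUnit_discr _ hb hs M' hM'
  refine regAt_of_isLocalization (C' := integralClosure R L)
    (Algebra.algebraMapSubmonoid (integralClosure A L) x.primeCompl)
    (algebraMap A (integralClosure A L) π) hR' M hM ?_ hπM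
  rw [Set.disjoint_left]
  rintro _ ⟨y, hy, rfl⟩ hxM
  exact hy (Ideal.mem_comap.mpr hxM)

end Export

end Fermat.Agent.S30.Model.RegNB
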