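import Mathlib
import Fermat.Agent.S30.Model.ChartLD
import Fermat.Agent.S30.Model.ChartSwap
import Fermat.Agent.S30.Model.RegNB

/-!
# MODEL THEOREM, add-on: the special fibre of a chart is REGULAR at its closed points (wiring)

Twin of `ChartLD.chart_ld_of_branch` and of the two chart calls inside `Assembly.main_a_tsd`,
with conclusion `RegNB.RegAt` ("`M` is locally generated by `π` and one more element") instead
of `LocalDomain.LDAt`.

* `RegBranchStatement` : the branch-point local theorem in consumer shape, i.e.
  `ChartLD.BranchStatement` verbatim with conclusion `RegNB.RegAt`.  It is a hypothesis here, so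
  that any of its implementations can be plugged in.
* `chart_reg_nonbranch` : the row at a maximal ideal through no branch section (unconditional,
  from `RegNB.regAt_of_tsdField`).
* `chart_reg_of_branch` : the row at every maximal ideal `M ∋ π` of a chart, from
  `RegBranchStatement` (same binders as `ChartLD.chart_ld_of_branch`).
* `reg_zero`, `reg_inf` : in the vocabulary of the Model theorem (`GaussTSD`, `HorizTSD`):
  regularity at every closed point of the special fibre of the `u`-chart, and at every closed
  point of the special fibre of the `u⁻¹`-chart lying over `u = ∞`.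
-/

set_option autoImplicit false

open Polynomial

namespace Fermat.Agent.S30.Model.ChartReg

open Fermat.Agent.S30.Model

universe w

/-- **The branch-point local theorem for regularity, consumer shape**: `ChartLD.BranchStatement`
verbatim, with conclusion `RegNB.RegAt`. -/
def RegBranchStatement : Prop :=
  ∀ (A K L : Type w) [CommRing A] [IsDomain A] [IsNoetherianRing A] [IsIntegrallyClosed A]
    [UniqueFactorizationMonoid A] [Field K] [Algebra A K] [IsFractionRing A K] [Field L]
    [Algebra K L] [Algebra A L] [IsScalarTower A K L] [FiniteDimensional K L]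
    [Algebra.IsSeparable K L] [CharZero K]
    (π τ : A) (_ : Prime π) (_ : Prime τ) (_ : ¬ π ∣ τ)
    [IsPrincipalIdealRing (A ⧸ Ideal.span {π})]
    (_ : (Ideal.span {π, τ}).IsMaximal) (_ : ∀ n : ℕ, n ≠ 0 → ¬ τ ∣ (n : A))
    (M : Ideal (integralClosure A L)) (_ : M.IsMaximal)
    (_ : algebraMap A (integralClosure A L) π ∈ M)
    (_ : algebraMap A (integralClosure A L) τ ∈ M)
    (_ : ∀ p : A, Prime p → algebraMap A (integralClosure A L) p ∈ M → ¬ Associated p τ →
      LocalDisc.TSDField A K L p),
    RegNB.RegAt (algebraMap A (integralClosure A L) π) M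

section Main

universe uO uE uL

variable {O : Type uO} {E : Type uE} {L : Type uL} [CommRing O] [IsDomain O]
  [IsDiscreteValuationRing O]
  [Field E] [CharZero E] [Algebra O E] [IsFractionRing O E]
  [Field L] [Algebra E L] [Algebra O L] [IsScalarTower O E L]

/-- The common core: regularity at `M`, given either that `M` meets no branch section, or the
branch-point statement. -/
theorem chart_reg_aux
    (π : O) (hπ : Irreducible π) (t : L) (ht : Transcendental E t)
    [FiniteDimensional (IntermediateField.adjoin E {t}) L]
    (S : Finset O) (hS : ∀ c ∈ S, ∀ c' ∈ S, c ≠ c' → IsUnit (c - c'))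
    (M : Ideal (integralClosure (Algebra.adjoin O {t}) L)) (hM : M.IsMaximal)
    (hπM : GlueChart.piElt (Algebra.adjoin O {t}) π ∈ M)
    (hB : (∃ c ∈ S, ∃ m ∈ M, (m : L) = t - algebraMap O L c) → RegBranchStatement.{uL})
    (h : ∀ f : O[X], Prime f → (∃ m ∈ M, (m : L) = aeval t f) →
      (∀ c ∈ S, ¬ Associated f (X - C c)) →
      TSDAt (IntermediateField.adjoin E {t}) (Algebra.adjoin O {t}) (aeval t f)) :
    RegNB.RegAt (GlueChart.piElt (Algebra.adjoin O {t}) π) M := by
  classical
  have hinjOE : Function.Injective (algebraMap O E) := IsFractionRing.injective O E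
  have htO : Transcendental O t := ht.restrictScalars hinjOE
  have hwK : t ∈ IntermediateField.adjoin E {t} := IntermediateField.mem_adjoin_simple_self E t
  let algAK : Algebra (Algebra.adjoin O {t}) (IntermediateField.adjoin E {t}) :=
    (ChartInst.incl O t (IntermediateField.adjoin E {t}) hwK).toAlgebra
  have towerAKL : IsScalarTower (Algebra.adjoin O {t}) (IntermediateField.adjoin E {t}) L :=
    ChartInst.isScalarTower_incl O t _ hwK
  have fracA : IsFractionRing (Algebra.adjoin O {t}) (IntermediateField.adjoin E {t}) :=
    ChartInst.isFractionRing_incl O t _ hwK le_rfl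
  have noethA : IsNoetherianRing (Algebra.adjoin O {t}) :=
    ChartInst.isNoetherianRing_adjoin O t htO
  have ufdA : UniqueFactorizationMonoid (Algebra.adjoin O {t}) :=
    ChartInst.uniqueFactorizationMonoid_adjoin O t htO
  have icA : IsIntegrallyClosed (Algebra.adjoin O {t}) :=
    ChartInst.isIntegrallyClosed_adjoin O t htO
  have hπA : Prime (algebraMap O (Algebra.adjoin O {t}) π) :=
    ChartInst.prime_algebraMap_adjoin O t htO hπ.prime
  have hmaxπ : (Ideal.span {π}).IsMaximal := by
    rw [← hπ.maximalIdeal_eq]
    exact IsLocalRing.maximalIdeal.isMaximal O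
  have pirA : IsPrincipalIdealRing
      (Algebra.adjoin O {t} ⧸ Ideal.span {algebraMap O (Algebra.adjoin O {t}) π}) :=
    ChartInst.isPrincipalIdealRing_quotient_adjoin O t htO π
  -- notation
  set e := ChartInst.polyEquiv O t htO with he
  set ι := algebraMap (Algebra.adjoin O {t}) (integralClosure (Algebra.adjoin O {t}) L) with hι
  -- associated polynomials give the same membership in `M`
  have hassoc : ∀ f g : O[X], Associated f g → ι (e f) ∈ M → ι (e g) ∈ M := by
    rintro f g ⟨u, rfl⟩ hf
    rw [map_mul, map_mul]
    exact M.mul_mem_right _ hf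
  -- the coercion of `ι (e (X - C c))`
  have hcoe : ∀ c : O, ((ι (e (X - C c)) : integralClosure (Algebra.adjoin O {t}) L) : L) =
      t - algebraMap O L c := by
    intro c
    change aeval t (X - C c : O[X]) = _
    rw [map_sub, aeval_X, aeval_C]
  -- trace-self-duality at the primes of `A` through `M`, away from the branch sections
  have key : ∀ p : Algebra.adjoin O {t}, Prime p → ι p ∈ M →
      (∀ c ∈ S, ¬ Associated (e.symm p) (X - C c)) →
      LocalDisc.TSDField (Algebra.adjoin O {t}) (IntermediateField.adjoin E {t}) L p := by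
    intro p hp hpM hex
    have hfp : e (e.symm p) = p := AlgEquiv.apply_symm_apply e p
    have hfprime : Prime (e.symm p) := (MulEquiv.prime_iff e).mp (by rw [hfp]; exact hp)
    have hcoep : (p : L) = aeval t (e.symm p) := by
      conv_lhs => rw [← hfp]
      rfl
    have h1 := h (e.symm p) hfprime ⟨ι p, hpM, hcoep⟩ hex
    rw [← hcoep] at h1
    exact ChartLD.tsdField_of_tsdAt t _ hwK p h1
  by_cases hbr : ∃ c ∈ S, ι (e (X - C c)) ∈ M
  · -- branch point
    obtain ⟨c, hc, hcM⟩ := hbr
    have hB' : RegBranchStatement.{uL} := hB ⟨c, hc, _, hcM, hcoe c⟩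
    have hτ : Prime (e (X - C c)) := (MulEquiv.prime_iff e).mpr (prime_X_sub_C c)
    have hπe : algebraMap O (Algebra.adjoin O {t}) π = e (C π) :=
      (ChartInst.polyEquiv_C O t htO π).symm
    have hπτ : ¬ algebraMap O (Algebra.adjoin O {t}) π ∣ e (X - C c) := by
      rw [hπe, map_dvd_iff, C_dvd_iff_dvd_coeff]
      intro hdvd
      have h1 := hdvd 1
      rw [coeff_sub, coeff_X_one, coeff_C_succ, sub_zero] at h1
      exact hπ.not_isUnit (isUnit_of_dvd_one h1)
    have hmax : (Ideal.span {algebraMap O (Algebra.adjoin O {t}) π, e (X - C c)}).IsMaximal := by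
      have h1 := ChartLD.span_pair_isMaximal π c
      have h2 : Ideal.span {algebraMap O (Algebra.adjoin O {t}) π, e (X - C c)} =
          Ideal.map e (Ideal.span {(C π : O[X]), X - C c}) := by
        rw [Ideal.map_span, Set.image_pair, hπe]
      rw [h2]
      exact Ideal.map_isMaximal_of_equiv e
    have hchar : ∀ n : ℕ, n ≠ 0 → ¬ e (X - C c) ∣ (n : Algebra.adjoin O {t}) := by
      have hcharO : CharZero O := by
        refine ⟨fun m n hmn => ?_⟩
        have h2 : (m : E) = (n : E) := by simpa using congrArg (algebraMap O E) hmn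
        exact Nat.cast_injective h2
      intro n hn hdvd
      have h1 : (n : Algebra.adjoin O {t}) = e ((n : O[X])) := (map_natCast e n).symm
      rw [h1, map_dvd_iff, dvd_iff_isRoot, IsRoot.def, eval_natCast] at hdvd
      exact hn (Nat.cast_eq_zero.mp hdvd)
    refine hB' (Algebra.adjoin O {t}) (IntermediateField.adjoin E {t}) L
      (algebraMap O (Algebra.adjoin O {t}) π) (e (X - C c)) hπA hτ hπτ hmax hchar M hM hπM hcM ?_
    intro p hp hpM hpτ
    refine key p hp hpM (fun c' hc' hass => ?_)
    by_cases hcc' : c' = c
    · subst hcc'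
      apply hpτ
      have h1 := hass.map e
      rwa [AlgEquiv.apply_symm_apply] at h1
    · -- two branch sections through `M`: their difference is a unit
      have h1 : ι (e (X - C c')) ∈ M :=
        hassoc _ _ hass (by rw [AlgEquiv.apply_symm_apply]; exact hpM)
      have h2 : ι (e (X - C c)) - ι (e (X - C c')) ∈ M := M.sub_mem hcM h1
      have h3 : ι (e (X - C c)) - ι (e (X - C c')) =
          ι (algebraMap O (Algebra.adjoin O {t}) (c' - c)) := by
        rw [← map_sub, ← map_sub, ← ChartInst.polyEquiv_C O t htO (c' - c)]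
        congr 2
        rw [C_sub]
        ring
      rw [h3] at h2
      have h4 : IsUnit (ι (algebraMap O (Algebra.adjoin O {t}) (c' - c))) :=
        ((hS c' hc' c hc hcc').map (algebraMap O (Algebra.adjoin O {t}))).map ι
      exact hM.ne_top (Ideal.eq_top_of_isUnit_mem M h2 h4)
  · -- non-branch point
    refine RegNB.regAt_of_tsdField (K := IntermediateField.adjoin E {t})
      (algebraMap O (Algebra.adjoin O {t}) π) hπA M hM hπM (fun p hp hpM => ?_)
    refine key p hp hpM (fun c hc hass => hbr ⟨c, hc, ?_⟩)
    exact hassoc _ _ hass (by rw [AlgEquiv.apply_symm_apply]; exact hpM)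

/-- **Regularity of the special fibre of a chart at a closed point through no branch section**
(unconditional). -/
theorem chart_reg_nonbranch (π : O) (hπ : Irreducible π) (t : L) (ht : Transcendental E t)
    [FiniteDimensional (IntermediateField.adjoin E {t}) L]
    (S : Finset O) (hS : ∀ c ∈ S, ∀ c' ∈ S, c ≠ c' → IsUnit (c - c'))
    (M : Ideal (integralClosure (Algebra.adjoin O {t}) L)) (hM : M.IsMaximal)
    (hπM : GlueChart.piElt (Algebra.adjoin O {t}) π ∈ M)
    (hnb : ∀ c ∈ S, ∀ m ∈ M, (m : L) ≠ t - algebraMap O L c)
    (h : ∀ f : O[X], Prime f → (∃ m ∈ M, (m : L) = aeval t f) →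
      (∀ c ∈ S, ¬ Associated f (X - C c)) →
      TSDAt (IntermediateField.adjoin E {t}) (Algebra.adjoin O {t}) (aeval t f)) :
    RegNB.RegAt (GlueChart.piElt (Algebra.adjoin O {t}) π) M :=
  chart_reg_aux π hπ t ht S hS M hM hπM
    (fun ⟨c, hc, m, hm, hmc⟩ => absurd hmc (hnb c hc m hm)) h

/-- **ROW `chart_reg`** (twin of `ChartLD.chart_ld_of_branch`): regularity of the special fibre
of the chart `Spec O[t]` at every maximal ideal `M ∋ π` of the integral closure, from the
branch-point local theorem in consumer shape. -/
theorem chart_reg_of_branch (hB : RegBranchStatement.{uL})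
    (π : O) (hπ : Irreducible π) (t : L) (ht : Transcendental E t)
    [FiniteDimensional (IntermediateField.adjoin E {t}) L]
    (S : Finset O) (hS : ∀ c ∈ S, ∀ c' ∈ S, c ≠ c' → IsUnit (c - c'))
    (M : Ideal (integralClosure (Algebra.adjoin O {t}) L)) (hM : M.IsMaximal)
    (hπM : GlueChart.piElt (Algebra.adjoin O {t}) π ∈ M)
    (h : ∀ f : O[X], Prime f → (∃ m ∈ M, (m : L) = aeval t f) →
      (∀ c ∈ S, ¬ Associated f (X - C c)) →
      TSDAt (IntermediateField.adjoin E {t}) (Algebra.adjoin O {t}) (aeval t f)) :
    RegNB.RegAt (GlueChart.piElt (Algebra.adjoin O {t}) π) M :=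
  chart_reg_aux π hπ t ht S hS M hM hπM (fun _ => hB) h

/-- **The special fibre of the `u`-chart is regular at every closed point** (hypotheses of the
Model theorem in TSD form). -/
theorem reg_zero (hB : RegBranchStatement.{uL})
    (π : O) (hπ : Irreducible π) (u : L) (hu : Transcendental E u)
    [FiniteDimensional (IntermediateField.adjoin E {u}) L]
    (S : Finset O) (hS : ∀ c ∈ S, ∀ c' ∈ S, c ≠ c' → IsUnit (c - c'))
    (hi : GaussTSD (E := E) π u) (hii : HorizTSD (E := E) S u)
    (M : Ideal (integralClosure (Algebra.adjoin O {u}) L)) (hM : M.IsMaximal)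
    (hπM : GlueChart.piElt (Algebra.adjoin O {u}) π ∈ M) :
    RegNB.RegAt (GlueChart.piElt (Algebra.adjoin O {u}) π) M :=
  chart_reg_of_branch hB π hπ u hu S hS M hM hπM
    (fun f hf _ hfS => ChartSwap.chartUnram_of π hπ u hu S hi hii f hf hfS)

/-- **The special fibre of the `u⁻¹`-chart is regular at every closed point over `u = ∞`**
(hypotheses of the Model theorem in TSD form). -/
theorem reg_inf (hB : RegBranchStatement.{uL})
    (π : O) (hπ : Irreducible π) (u : L) (hu : Transcendental E u)
    [FiniteDimensional (IntermediateField.adjoin E {u}) L]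
    (S : Finset O) (hi : GaussTSD (E := E) π u) (hii : HorizTSD (E := E) S u)
    (M : Ideal (integralClosure (Algebra.adjoin O {u⁻¹}) L)) (hM : M.IsMaximal)
    (hπM : GlueChart.piElt (Algebra.adjoin O {u⁻¹}) π ∈ M) (htM : ChartInf.tInf u ∈ M) :
    RegNB.RegAt (GlueChart.piElt (Algebra.adjoin O {u⁻¹}) π) M := by
  classical
  have hu' : Transcendental E u⁻¹ := fun h => hu (by simpa using h.inv)
  have hK : IntermediateField.adjoin E {u⁻¹} = IntermediateField.adjoin E {u} := by
    apply le_antisymm
    · rw [IntermediateField.adjoin_simple_le_iff]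
      exact inv_mem (IntermediateField.mem_adjoin_simple_self E u)
    · rw [IntermediateField.adjoin_simple_le_iff]
      have := inv_mem (IntermediateField.mem_adjoin_simple_self E u⁻¹)
      simpa using this
  have : FiniteDimensional (IntermediateField.adjoin E {u⁻¹}) L := by
    rw [hK]; infer_instance
  exact chart_reg_of_branch hB π hπ u⁻¹ hu' {0}
    (fun c hc c' hc' hne => absurd ((Finset.mem_singleton.1 hc).trans
      (Finset.mem_singleton.1 hc').symm) hne) M hM hπM
    (fun f hf hfM hfS => ChartSwap.chartUnram_inf π hπ u hu S hi hii M hM hπM htM f hf hfM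
      (by simpa using hfS 0 (Finset.mem_singleton_self 0)))

end Main

end Fermat.Agent.S30.Model.ChartReg
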