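import Mathlib
import Fermat.Agent.S30.Model.ChartReg
import Fermat.Agent.S30.Model.FamilyTSD
import Fermat.Agent.S30.Normal.RegBranch

/-!
# MODEL THEOREM, part (c): the special fibre of each chart is REGULAR at every closed point

Unconditional form of `ChartReg.reg_zero` / `ChartReg.reg_inf` (the branch-point statement
`ChartReg.RegBranchStatement` is `Normal.RegBranch.regBranchStatement`), under exactly the
hypotheses of the Model theorem `Assembly.main_a` (family form `GaussUnram` / `HorizUnram`) resp.
`Assembly.main_a_tsd` (TSD form):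

* `reg_zero_tsd`, `reg_zero` : at every maximal ideal `M ∋ π` of `integralClosure O[u] L`;
* `reg_inf_tsd`, `reg_inf` : at every maximal ideal `M ∋ π, u⁻¹` of `integralClosure O[u⁻¹] L`.

Conclusion: `RegNB.RegAt π M`, i.e. `∃ z ∈ M, ∀ m ∈ M, ∃ s ∉ M, s * m ∈ (π, z)`.
-/

set_option autoImplicit false

namespace Fermat.Agent.S30.Model.RegFinal

open Fermat.Agent.S30.Model

variable {O E L : Type*} [CommRing O] [IsDomain O] [IsDiscreteValuationRing O]
  [Field E] [CharZero E] [Algebra O E] [IsFractionRing O E]
  [Field L] [Algebra E L] [Algebra O L] [IsScalarTower O E L]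

/-- The special fibre of the `u`-chart is regular at every closed point (TSD form). -/
theorem reg_zero_tsd (π : O) (hπ : Irreducible π) (u : L) (hu : Transcendental E u)
    [FiniteDimensional (IntermediateField.adjoin E {u}) L]
    (S : Finset O) (hS : ∀ c ∈ S, ∀ c' ∈ S, c ≠ c' → IsUnit (c - c'))
    (hi : GaussTSD (E := E) π u) (hii : HorizTSD (E := E) S u)
    (M : Ideal (integralClosure (Algebra.adjoin O {u}) L)) (hM : M.IsMaximal)
    (hπM : GlueChart.piElt (Algebra.adjoin O {u}) π ∈ M) :
    RegNB.RegAt (GlueChart.piElt (Algebra.adjoin O {u}) π) M :=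
  ChartReg.reg_zero Normal.RegBranch.regBranchStatement π hπ u hu S hS hi hii M hM hπM

/-- The special fibre of the `u⁻¹`-chart is regular at every closed point over `u = ∞`
(TSD form). -/
theorem reg_inf_tsd (π : O) (hπ : Irreducible π) (u : L) (hu : Transcendental E u)
    [FiniteDimensional (IntermediateField.adjoin E {u}) L]
    (S : Finset O) (hi : GaussTSD (E := E) π u) (hii : HorizTSD (E := E) S u)
    (M : Ideal (integralClosure (Algebra.adjoin O {u⁻¹}) L)) (hM : M.IsMaximal)
    (hπM : GlueChart.piElt (Algebra.adjoin O {u⁻¹}) π ∈ M) (htM : ChartInf.tInf u ∈ M) :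
    RegNB.RegAt (GlueChart.piElt (Algebra.adjoin O {u⁻¹}) π) M :=
  ChartReg.reg_inf Normal.RegBranch.regBranchStatement π hπ u hu S hi hii M hM hπM htM

/-- **The special fibre of the `u`-chart is regular at every closed point** (hypotheses of
`Model.main_a`). -/
theorem reg_zero (π : O) (hπ : Irreducible π) (u : L) (hu : Transcendental E u)
    [FiniteDimensional (IntermediateField.adjoin E {u}) L]
    (hi : GaussUnram (E := E) π u)
    (S : Finset O) (hS : ∀ c ∈ S, ∀ c' ∈ S, c ≠ c' → IsUnit (c - c'))
    (hii : HorizUnram (E := E) S u)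
    (M : Ideal (integralClosure (Algebra.adjoin O {u}) L)) (hM : M.IsMaximal)
    (hπM : GlueChart.piElt (Algebra.adjoin O {u}) π ∈ M) :
    RegNB.RegAt (GlueChart.piElt (Algebra.adjoin O {u}) π) M :=
  reg_zero_tsd π hπ u hu S hS (FamilyTSD.gaussTSD_of_gaussUnram π hπ u hu hi)
    (FamilyTSD.horizTSD_of_horizUnram u hu S hii) M hM hπM

/-- **The special fibre of the `u⁻¹`-chart is regular at every closed point over `u = ∞`**
(hypotheses of `Model.main_a`). -/
theorem reg_inf (π : O) (hπ : Irreducible π) (u : L) (hu : Transcendental E u)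
    [FiniteDimensional (IntermediateField.adjoin E {u}) L]
    (hi : GaussUnram (E := E) π u) (S : Finset O) (hii : HorizUnram (E := E) S u)
    (M : Ideal (integralClosure (Algebra.adjoin O {u⁻¹}) L)) (hM : M.IsMaximal)
    (hπM : GlueChart.piElt (Algebra.adjoin O {u⁻¹}) π ∈ M) (htM : ChartInf.tInf u ∈ M) :
    RegNB.RegAt (GlueChart.piElt (Algebra.adjoin O {u⁻¹}) π) M :=
  reg_inf_tsd π hπ u hu S (FamilyTSD.gaussTSD_of_gaussUnram π hπ u hu hi)
    (FamilyTSD.horizTSD_of_horizUnram u hu S hii) M hM hπM htM

end Fermat.Agent.S30.Model.RegFinal
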