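import Mathlib

/-!
# Constants of subfields of `E((q))`

For every intermediate field `L` of `E((q)) / E`:

* `algClosedIn_laurent` : `E` is algebraically closed in `L` (verbatim the body of
  `Model.AlgClosedIn E L`, spelled out so that this file does not depend on the skeleton);
* `transcendental_of_order_ne_zero` : an element of nonzero order (e.g. `j = q⁻¹ + ⋯`) is
  transcendental over `E`.
-/

set_option autoImplicit false

namespace Fermat.Agent.S30.Model.LaurentConst

open Polynomial

variable {E : Type*} [Field E]

/-- A power series without constant term which is algebraic over the coefficient field is `0`. -/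
theorem powerSeries_eq_zero_of_isAlgebraic (w : PowerSeries E)
    (hw0 : PowerSeries.constantCoeff w = 0) (hw : IsAlgebraic E w) : w = 0 := by
  by_contra hne
  have hint : IsIntegral E w := hw.isIntegral
  have h1 : (minpoly E w).coeff 0 ≠ 0 := minpoly.coeff_zero_ne_zero hint hne
  have h2 : Polynomial.aeval w (minpoly E w) = 0 := minpoly.aeval E w
  have h3 := congrArg (PowerSeries.constantCoeff (R := E)) h2
  rw [Polynomial.aeval_def, Polynomial.hom_eval₂, map_zero, hw0] at h3
  have h4 : (PowerSeries.constantCoeff (R := E)).comp (algebraMap E (PowerSeries E)) =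
      RingHom.id E := by
    ext c
    simp
  rw [h4, Polynomial.eval₂_id, ← Polynomial.coeff_zero_eq_eval_zero] at h3
  exact h1 h3

/-- The embedding of power series into Laurent series as an `E`-algebra map. -/
noncomputable def psAlg : PowerSeries E →ₐ[E] LaurentSeries E :=
  { HahnSeries.ofPowerSeries ℤ E with
    commutes' := fun c => by
      exact (HahnSeries.algebraMap_apply' ℤ c).symm }

theorem psAlg_apply (w : PowerSeries E) : psAlg w = HahnSeries.ofPowerSeries ℤ E w := rfl

theorem psAlg_injective : Function.Injective (psAlg (E := E)) :=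
  HahnSeries.ofPowerSeries_injective

/-- A Laurent series which is a power series without constant term and algebraic over `E` is
`0`. -/
theorem ofPowerSeries_eq_zero_of_isAlgebraic (w : PowerSeries E)
    (hw0 : PowerSeries.constantCoeff w = 0)
    (hw : IsAlgebraic E (HahnSeries.ofPowerSeries ℤ E w)) : w = 0 := by
  rw [← psAlg_apply] at hw
  exact powerSeries_eq_zero_of_isAlgebraic w hw0
    ((isAlgebraic_algHom_iff psAlg psAlg_injective).1 hw)

/-- **`E` is algebraically closed in `E((q))`**: an algebraic Laurent series is a constant. -/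
theorem exists_eq_algebraMap_of_isAlgebraic (x : LaurentSeries E) (hx : IsAlgebraic E x) :
    ∃ c : E, x = algebraMap E (LaurentSeries E) c := by
  rcases eq_or_ne x 0 with rfl | hx0
  · exact ⟨0, (map_zero _).symm⟩
  -- `x = q ^ n * part`, `part` a power series with nonzero constant term
  have hdec : (HahnSeries.single x.order 1 : LaurentSeries E) *
      HahnSeries.ofPowerSeries ℤ E x.powerSeriesPart = x := x.single_order_mul_powerSeriesPart
  have hc0 : PowerSeries.constantCoeff x.powerSeriesPart ≠ 0 := by
    rw [← PowerSeries.coeff_zero_eq_constantCoeff_apply, LaurentSeries.powerSeriesPart_coeff]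
    simpa using (HahnSeries.coeff_order_eq_zero (x := x)).not.2 hx0
  rcases lt_trichotomy x.order 0 with hneg | hzero | hpos
  · -- negative order: `x⁻¹` is a power series without constant term
    exfalso
    obtain ⟨k, hk⟩ : ∃ k : ℕ, -x.order = ((k + 1 : ℕ) : ℤ) :=
      ⟨(-x.order).toNat - 1, by omega⟩
    have hinv : x⁻¹ = HahnSeries.ofPowerSeries ℤ E
        (PowerSeries.X ^ (k + 1) * x.powerSeriesPart⁻¹) := by
      symm
      apply eq_inv_of_mul_eq_one_right
      nth_rewrite 1 [← hdec]
      rw [map_mul, map_pow, HahnSeries.ofPowerSeries_X, HahnSeries.single_pow, nsmul_eq_mul,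
        mul_one, one_pow, ← hk]
      calc (HahnSeries.single x.order 1 : LaurentSeries E) *
            HahnSeries.ofPowerSeries ℤ E x.powerSeriesPart *
            (HahnSeries.single (-x.order) 1 * HahnSeries.ofPowerSeries ℤ E x.powerSeriesPart⁻¹)
          = (HahnSeries.single x.order 1 * HahnSeries.single (-x.order) 1) *
            HahnSeries.ofPowerSeries ℤ E (x.powerSeriesPart * x.powerSeriesPart⁻¹) := by
            rw [map_mul]; ring
        _ = 1 := by
            rw [PowerSeries.mul_inv_cancel _ hc0, HahnSeries.single_mul_single,
              add_neg_cancel, mul_one, map_one (HahnSeries.ofPowerSeries ℤ E), mul_one]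
            rfl
    have halg : IsAlgebraic E (HahnSeries.ofPowerSeries ℤ E
        (PowerSeries.X ^ (k + 1) * x.powerSeriesPart⁻¹)) := by
      rw [← hinv]
      exact IsAlgebraic.inv_iff.2 hx
    have h0 := ofPowerSeries_eq_zero_of_isAlgebraic _ (by simp [pow_succ]) halg
    rw [h0, map_zero] at hinv
    exact hx0 (inv_eq_zero.1 hinv)
  · -- order zero: subtract the constant term
    have hx' : x = HahnSeries.ofPowerSeries ℤ E x.powerSeriesPart := by
      nth_rewrite 1 [← hdec]
      rw [hzero]
      have : (HahnSeries.single (0 : ℤ) (1 : E) : LaurentSeries E) = 1 := rfl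
      rw [this, one_mul]
    refine ⟨PowerSeries.constantCoeff x.powerSeriesPart, ?_⟩
    set c := PowerSeries.constantCoeff x.powerSeriesPart with hc
    have hsub : x - algebraMap E (LaurentSeries E) c =
        HahnSeries.ofPowerSeries ℤ E (x.powerSeriesPart - PowerSeries.C c) := by
      rw [map_sub]
      nth_rewrite 1 [hx']
      rfl
    have halg : IsAlgebraic E (HahnSeries.ofPowerSeries ℤ E
        (x.powerSeriesPart - PowerSeries.C c)) := by
      rw [← hsub]
      exact hx.sub (isAlgebraic_algebraMap c)
    have h0 := ofPowerSeries_eq_zero_of_isAlgebraic _ (by simp [hc]) halg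
    rw [h0, map_zero] at hsub
    exact sub_eq_zero.1 hsub
  · -- positive order: `x` is a power series without constant term
    exfalso
    obtain ⟨k, hk⟩ : ∃ k : ℕ, x.order = ((k + 1 : ℕ) : ℤ) := ⟨x.order.toNat - 1, by omega⟩
    have hx' : x = HahnSeries.ofPowerSeries ℤ E (PowerSeries.X ^ (k + 1) * x.powerSeriesPart) := by
      nth_rewrite 1 [← hdec]
      rw [map_mul, map_pow, HahnSeries.ofPowerSeries_X, HahnSeries.single_pow, nsmul_eq_mul,
        mul_one, one_pow, ← hk]
    have halg : IsAlgebraic E (HahnSeries.ofPowerSeries ℤ E
        (PowerSeries.X ^ (k + 1) * x.powerSeriesPart)) := by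
      rw [← hx']
      exact hx
    have h0 := ofPowerSeries_eq_zero_of_isAlgebraic _ (by simp [pow_succ]) halg
    rw [h0, map_zero] at hx'
    exact hx0 hx'

/-- `E` is algebraically closed in every intermediate field of `E((q)) / E`
(= `Model.AlgClosedIn E L`, unfolded). -/
theorem algClosedIn_laurent (L : IntermediateField E (LaurentSeries E)) :
    ∀ x : L, IsAlgebraic E x → x ∈ (algebraMap E L).range := by
  intro x hx
  have hx' : IsAlgebraic E (x : LaurentSeries E) :=
    (isAlgebraic_algHom_iff L.val Subtype.val_injective).2 hx
  obtain ⟨c, hc⟩ := exists_eq_algebraMap_of_isAlgebraic (x : LaurentSeries E) hx'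
  exact ⟨c, Subtype.ext hc.symm⟩

/-- An element of nonzero order of an intermediate field of `E((q)) / E` is transcendental. -/
theorem transcendental_of_order_ne_zero (L : IntermediateField E (LaurentSeries E)) (x : L)
    (hx : (x : LaurentSeries E).order ≠ 0) : Transcendental E x := by
  intro halg
  have hx' : IsAlgebraic E (x : LaurentSeries E) :=
    (isAlgebraic_algHom_iff L.val Subtype.val_injective).2 halg
  obtain ⟨c, hc⟩ := exists_eq_algebraMap_of_isAlgebraic (x : LaurentSeries E) hx'
  apply hx
  rw [hc]
  have : algebraMap E (LaurentSeries E) c = HahnSeries.C c := by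
    rw [HahnSeries.algebraMap_apply', PowerSeries.algebraMap_apply, Algebra.algebraMap_self_apply,
      HahnSeries.ofPowerSeries_C]
  rw [this]
  exact HahnSeries.order_C

end Fermat.Agent.S30.Model.LaurentConst
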