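import Mathlib
import Fermat.Agent.S30.Model.LocalDisc
import Fermat.Agent.Lib.NormalFree

/-!
# Transfer of field-trace self-duality (`LocalDisc.TSDField`)

`TSDField A K L p` says that the integral closure of `A` in `L` is trace-self-dual at `p`.
This file moves the property between associated elements and along a localisation
`A ⊆ A' = T⁻¹ A` (both with fraction field `K`), for a prime element `p` of `A` which divides
no element of `T` (e.g. `A = O[u] ⊆ A' = E[u]`, `T = O ∖ {0}`, `p` a horizontal prime;
or `A = O[u] ⊆ A' = O[u, u⁻¹]`, `T = powers u`, `p ≠ u`).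

* `tsdField_of_isUnit`     : `TSDField A K L p` for a unit `p` (trivial).
* `tsdField_of_associated` : invariance under associates.
* `tsdField_iff_of_associated`
* `tsdField_descent`       : `TSDField A' K L p ⇒ TSDField A K L p`.
* `tsdField_ascent`        : `TSDField A K L p ⇒ TSDField A' K L p`.
* `tsdField_iff_of_isLocalization`
* `tsdField_swap`          : through a common localisation `B = T₁⁻¹ A₁ = T₂⁻¹ A₂`, for elements
  `p₁ ∈ A₁`, `p₂ ∈ A₂` which become associated in `B` (chart swap `O[u] ↔ O[u⁻¹]`).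
-/

set_option autoImplicit false

namespace Fermat.Agent.S30.Model.TSDTransfer

open Fermat.Agent.S30.Model.LocalDisc

section Assoc

variable {A K L : Type*} [CommRing A] [Field K] [Field L] [Algebra A K] [Algebra K L]
  [Algebra A L]

/-- A unit is trivially a point of trace-self-duality. -/
theorem tsdField_of_isUnit {p : A} (hp : IsUnit p) : TSDField A K L p := by
  intro x hx _
  obtain ⟨u, rfl⟩ := hp
  refine ⟨algebraMap A L (↑u⁻¹ : A) * x, isIntegral_algebraMap.mul hx, ?_⟩
  rw [← mul_assoc, ← map_mul, Units.mul_inv, map_one, one_mul]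

/-- `TSDField` only depends on the element up to associates. -/
theorem tsdField_of_associated {p p' : A} (hpp' : Associated p p') (h : TSDField A K L p) :
    TSDField A K L p' := by
  obtain ⟨u, rfl⟩ := hpp'
  intro x hx hxy
  obtain ⟨z, hz, hxz⟩ := h x hx fun y hy => by
    obtain ⟨w, hw⟩ := hxy y hy
    exact ⟨↑u * w, by rw [hw, mul_assoc]⟩
  refine ⟨algebraMap A L (↑u⁻¹ : A) * z, isIntegral_algebraMap.mul hz, ?_⟩
  rw [hxz, ← mul_assoc, ← map_mul, mul_assoc, Units.mul_inv, mul_one]

theorem tsdField_iff_of_associated {p p' : A} (hpp' : Associated p p') :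
    TSDField A K L p ↔ TSDField A K L p' :=
  ⟨tsdField_of_associated hpp', tsdField_of_associated hpp'.symm⟩

end Assoc

section Trace

variable {A K L : Type*} [CommRing A] [Field K] [Field L] [Algebra A K] [Algebra K L]
  [Algebra A L] [IsScalarTower A K L]

/-- The trace form is `A`-bilinear: `Tr (t x) = t Tr x` for `t ∈ A`. -/
theorem trace_algebraMap_mul (t : A) (x : L) :
    Algebra.trace K L (algebraMap A L t * x) = algebraMap A K t * Algebra.trace K L x := by
  rw [IsScalarTower.algebraMap_apply A K L, ← Algebra.smul_def, map_smul, smul_eq_mul]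

end Trace

section Localization

variable {A A' K L : Type*} [CommRing A] [IsDomain A] [IsIntegrallyClosed A]
  [CommRing A'] [Algebra A A']
  [Field K] [Field L] [Algebra A K] [IsFractionRing A K] [Algebra A' K]
  [IsScalarTower A A' K] [Algebra K L] [Algebra A L] [IsScalarTower A K L]
  [Algebra A' L] [IsScalarTower A A' L]

/-- **Descent of trace-self-duality** along a localisation `A ⊆ A' = T⁻¹ A`, at a prime element
`p` of `A` dividing no element of `T`. -/
theorem tsdField_descent (T : Submonoid A) [IsLocalization T A'] {p : A} (hp : Prime p)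
    (hT : ∀ t ∈ T, ¬ p ∣ t) (h : TSDField A' K L (algebraMap A A' p)) : TSDField A K L p := by
  intro x hx hxy
  have hx' : IsIntegral A' x := hx.tower_top
  obtain ⟨z, hz, hxz⟩ := h x hx' fun y hy => by
    obtain ⟨⟨t, ht⟩, hty⟩ := IsIntegral.exists_multiple_integral_of_isLocalization T y hy
    have e : (⟨t, ht⟩ : T) • y = algebraMap A L t * y := by
      rw [Submonoid.smul_def, Algebra.smul_def]
    rw [e] at hty
    obtain ⟨w, hw⟩ := hxy _ hty
    obtain ⟨u, hu⟩ := IsLocalization.map_units A' (⟨t, ht⟩ : T)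
    have hu' : algebraMap A' K (↑u⁻¹ : A') * algebraMap A K t = 1 := by
      rw [IsScalarTower.algebraMap_apply A A' K, ← map_mul, ← hu, Units.inv_mul, map_one]
    refine ⟨algebraMap A A' w * (↑u⁻¹ : A'), ?_⟩
    have h1 : Algebra.trace K L (x * (algebraMap A L t * y))
        = algebraMap A K t * Algebra.trace K L (x * y) := by
      rw [← trace_algebraMap_mul (K := K) t (x * y)]
      congr 1
      ring
    rw [h1] at hw
    calc Algebra.trace K L (x * y)
        = algebraMap A' K (↑u⁻¹ : A') * (algebraMap A K t * Algebra.trace K L (x * y)) := by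
          rw [← mul_assoc, hu', one_mul]
      _ = algebraMap A' K (algebraMap A A' p * (algebraMap A A' w * (↑u⁻¹ : A'))) := by
          rw [hw, map_mul (algebraMap A K), map_mul (algebraMap A' K), map_mul (algebraMap A' K),
            ← IsScalarTower.algebraMap_apply A A' K, ← IsScalarTower.algebraMap_apply A A' K]
          ring
  rw [← IsScalarTower.algebraMap_apply A A' L] at hxz
  obtain ⟨⟨t, ht⟩, htz⟩ := IsIntegral.exists_multiple_integral_of_isLocalization T z hz
  have e : (⟨t, ht⟩ : T) • z = t • z := by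
    rw [Submonoid.smul_def]
  rw [e] at htz
  have h2 : t • x = p • (t • z) := by
    rw [hxz, Algebra.smul_def, Algebra.smul_def, Algebra.smul_def]
    ring
  obtain ⟨y, hy, hxy'⟩ :=
    Fermat.Agent.Lib.NormalFree.exists_isIntegral_smul_eq K hp (hT t ht) hx htz h2
  exact ⟨y, hy, by rw [hxy', Algebra.smul_def]⟩

/-- **Ascent of trace-self-duality** along a localisation `A ⊆ A' = T⁻¹ A`, at a prime element
`p` of `A` dividing no element of `T`. -/
theorem tsdField_ascent (T : Submonoid A) [IsLocalization T A'] {p : A} (hp : Prime p)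
    (hT : ∀ t ∈ T, ¬ p ∣ t) (h : TSDField A K L p) : TSDField A' K L (algebraMap A A' p) := by
  have hfr : IsFractionRing A' K :=
    IsFractionRing.isFractionRing_of_isDomain_of_isLocalization T A' K
  have hinjA : Function.Injective (algebraMap A K) := IsFractionRing.injective A K
  have hinjA' : Function.Injective (algebraMap A' K) := IsFractionRing.injective A' K
  intro x hx hxy
  obtain ⟨⟨t, ht⟩, htx⟩ := IsIntegral.exists_multiple_integral_of_isLocalization T x hx
  have e : (⟨t, ht⟩ : T) • x = algebraMap A L t * x := by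
    rw [Submonoid.smul_def, Algebra.smul_def]
  rw [e] at htx
  obtain ⟨z, hz, hxz⟩ := h _ htx fun y hy => by
    have hy' : IsIntegral A' y := hy.tower_top
    obtain ⟨w', hw'⟩ := hxy y hy'
    -- the trace is integral over `A`, hence in `A`
    have htr : IsIntegral A (Algebra.trace K L (algebraMap A L t * x * y)) := by
      by_cases hfd : FiniteDimensional K L
      · exact Algebra.isIntegral_trace (htx.mul hy)
      · rw [Algebra.trace_eq_zero_of_not_exists_basis, LinearMap.zero_apply]
        · exact isIntegral_zero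
        · rintro ⟨s, ⟨b⟩⟩
          exact hfd (Module.Finite.of_basis b)
    obtain ⟨a, ha⟩ := IsIntegrallyClosed.isIntegral_iff.mp htr
    obtain ⟨⟨w0, s⟩, hws⟩ := IsLocalization.surj T w'
    have h1 : a * (s : A) = t * p * w0 := by
      apply hinjA
      have h3 : algebraMap A' K (w' * algebraMap A A' (s : A))
          = algebraMap A' K (algebraMap A A' w0) := congrArg _ hws
      rw [map_mul, ← IsScalarTower.algebraMap_apply A A' K,
        ← IsScalarTower.algebraMap_apply A A' K] at h3
      rw [map_mul, ha, mul_assoc, trace_algebraMap_mul (K := K), hw', map_mul (algebraMap A' K),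
        ← IsScalarTower.algebraMap_apply A A' K, map_mul (algebraMap A K), map_mul (algebraMap A K),
        ← h3]
      ring
    have h2 : p ∣ a * (s : A) := ⟨t * w0, by rw [h1]; ring⟩
    rcases hp.dvd_or_dvd h2 with h4 | h4
    · obtain ⟨a', rfl⟩ := h4
      exact ⟨a', ha.symm⟩
    · exact absurd h4 (hT s s.2)
  obtain ⟨u, hu⟩ := IsLocalization.map_units A' (⟨t, ht⟩ : T)
  refine ⟨algebraMap A' L (↑u⁻¹ : A') * z, isIntegral_algebraMap.mul hz.tower_top, ?_⟩
  have hu' : algebraMap A' L (↑u⁻¹ : A') * algebraMap A L t = 1 := by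
    rw [IsScalarTower.algebraMap_apply A A' L, ← map_mul, ← hu, Units.inv_mul, map_one]
  calc x = algebraMap A' L (↑u⁻¹ : A') * (algebraMap A L t * x) := by
        rw [← mul_assoc, hu', one_mul]
    _ = algebraMap A' L (algebraMap A A' p) * (algebraMap A' L (↑u⁻¹ : A') * z) := by
        rw [hxz, ← IsScalarTower.algebraMap_apply A A' L]
        ring

theorem tsdField_iff_of_isLocalization (T : Submonoid A) [IsLocalization T A'] {p : A}
    (hp : Prime p) (hT : ∀ t ∈ T, ¬ p ∣ t) :
    TSDField A' K L (algebraMap A A' p) ↔ TSDField A K L p :=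
  ⟨tsdField_descent T hp hT, tsdField_ascent T hp hT⟩

end Localization

section Swap

variable {A₁ A₂ B K L : Type*} [CommRing A₁] [IsDomain A₁] [IsIntegrallyClosed A₁]
  [CommRing A₂] [IsDomain A₂] [IsIntegrallyClosed A₂]
  [CommRing B] [Algebra A₁ B] [Algebra A₂ B]
  [Field K] [Field L] [Algebra K L]
  [Algebra A₁ K] [IsFractionRing A₁ K] [Algebra A₂ K] [IsFractionRing A₂ K] [Algebra B K]
  [IsScalarTower A₁ B K] [IsScalarTower A₂ B K]
  [Algebra A₁ L] [IsScalarTower A₁ K L] [Algebra A₂ L] [IsScalarTower A₂ K L]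
  [Algebra B L] [IsScalarTower A₁ B L] [IsScalarTower A₂ B L]

/-- **Chart swap of trace-self-duality.** `A₁`, `A₂` with a common localisation
`B = T₁⁻¹ A₁ = T₂⁻¹ A₂` (e.g. `O[u]`, `O[u⁻¹]`, `B = O[u, u⁻¹]`), `pᵢ` a prime element of `Aᵢ`
dividing no element of `Tᵢ`, with `p₁` and `p₂` associated in `B`. -/
theorem tsdField_swap (T₁ : Submonoid A₁) [IsLocalization T₁ B] (T₂ : Submonoid A₂)
    [IsLocalization T₂ B] {p₁ : A₁} {p₂ : A₂} (hp₁ : Prime p₁) (hp₂ : Prime p₂)
    (hT₁ : ∀ t ∈ T₁, ¬ p₁ ∣ t) (hT₂ : ∀ t ∈ T₂, ¬ p₂ ∣ t)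
    (hass : Associated (algebraMap A₁ B p₁) (algebraMap A₂ B p₂)) (h : TSDField A₁ K L p₁) :
    TSDField A₂ K L p₂ :=
  tsdField_descent T₂ hp₂ hT₂ (tsdField_of_associated hass (tsdField_ascent T₁ hp₁ hT₁ h))

end Swap

end Fermat.Agent.S30.Model.TSDTransfer
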