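import Mathlib
import Fermat.Agent.S30.Model.LocalDisc
import Fermat.Agent.S30.Model.LocalDomain
import Fermat.Agent.S30.Model.Descent

/-!
# MODEL THEOREM: bricks for the local theorem at a branch point (descent at ONE maximal ideal)

The branch-point case of the local theorem is proved by a base change `s ^ e = τ` and a descent.
Global comaximality of the minimal primes over `π` is more than is needed (and awkward to get):
this file provides the descent of the statement "at most one minimal prime over `π` lies inside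
the maximal ideal `M`" at a single maximal ideal, and its equivalence with `LocalDomain.LDAt`.

* `unique_of_ldAt` : in a Noetherian ring, `LDAt p M` forces at most one minimal prime over `p`
  inside `M`.
* `ldAt_of_unique` : conversely, if `p` generates a radical ideal (elementwise form) and at most
  one minimal prime over `p` lies in the maximal ideal `M`, then `LDAt p M`.
* `unique_of_goingDown` : descent of "at most one minimal prime over `π` inside `M`" along an
  integral extension with going-down, at a single maximal ideal.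
* `exists_trace_eq_of_sq`, `dvd_of_dvd_sq`, `dvd_of_dvd_sq_integralClosure` : field-trace
  self-duality (`LocalDisc.TSDField`) at a prime `p` of the integrally closed base implies that
  `p` generates a radical ideal of the integral closure (no characteristic hypothesis).
-/

set_option autoImplicit false
set_option linter.unusedSectionVars false

namespace Fermat.Agent.S30.Model.BranchBC

open Fermat.Agent.S30.Model Fermat.Agent.Lib

section MinimalPrimes

variable {C : Type*} [CommRing C] [IsNoetherianRing C]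

/-- `LDAt p M` forces at most one minimal prime over `p` inside `M`. -/
theorem unique_of_ldAt (p : C) (M : Ideal C) (h : LocalDomain.LDAt p M)
    {P Q : Ideal C} (hP : P ∈ (Ideal.span {p}).minimalPrimes)
    (hQ : Q ∈ (Ideal.span {p}).minimalPrimes) (hPM : P ≤ M) (hQM : Q ≤ M) : P = Q := by
  classical
  by_contra hne
  set I : Ideal C := Ideal.span {p} with hI
  have hPprime : P.IsPrime := hP.1.1
  have hQprime : Q.IsPrime := hQ.1.1
  have hfin : I.minimalPrimes.Finite := Ideal.finite_minimalPrimes_of_isNoetherianRing C I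
  -- `b ∈ Q \ P`
  obtain ⟨b, hbQ, hbP⟩ : ∃ b, b ∈ Q ∧ b ∉ P := by
    by_contra hcon
    push Not at hcon
    have hQP : Q ≤ P := fun b hb => hcon b hb
    exact hne (le_antisymm (hP.2 hQ.1 hQP) hQP)
  -- `a` in all minimal primes other than `Q`, not in `Q`
  obtain ⟨a, haJ, haQ⟩ : ∃ a, (∀ P' ∈ I.minimalPrimes, P' ≠ Q → a ∈ P') ∧ a ∉ Q := by
    by_contra hcon
    push Not at hcon
    have hle : (hfin.toFinset.erase Q).inf id ≤ Q := by
      intro a ha
      apply hcon a
      intro P' hP' hP'Q
      have hmem : P' ∈ hfin.toFinset.erase Q :=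
        Finset.mem_erase.mpr ⟨hP'Q, hfin.mem_toFinset.mpr hP'⟩
      exact (Finset.inf_le hmem : (hfin.toFinset.erase Q).inf id ≤ id P') ha
    obtain ⟨P', hP', hP'Q⟩ := (Ideal.IsPrime.inf_le' hQprime).mp hle
    have h1 := Finset.mem_erase.mp hP'
    have hP'min : P' ∈ I.minimalPrimes := hfin.mem_toFinset.mp h1.2
    exact h1.1 (le_antisymm hP'Q (hQ.2 hP'min.1 hP'Q))
  -- `a * b` lies in the radical
  have hab : a * b ∈ I.radical := by
    rw [← Ideal.sInf_minimalPrimes, Ideal.mem_sInf]
    intro P' hP'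
    by_cases hP'Q : P' = Q
    · rw [hP'Q]; exact Ideal.mul_mem_left _ _ hbQ
    · exact Ideal.mul_mem_right _ _ (haJ P' hP' hP'Q)
  obtain ⟨N, hN⟩ := hab
  have hdvd : p ∣ a ^ N * b ^ N := by
    rw [← mul_pow]
    exact Ideal.mem_span_singleton.mp hN
  obtain ⟨s, hsM, hs⟩ := h _ _ hdvd
  rcases hs with hs | hs
  · have h1 : s * a ^ N ∈ Q := hQ.1.2 (Ideal.mem_span_singleton.mpr hs)
    rcases hQprime.mem_or_mem h1 with h2 | h2
    · exact hsM (hQM h2)
    · exact haQ (hQprime.mem_of_pow_mem N h2)
  · have h1 : s * b ^ N ∈ P := hP.1.2 (Ideal.mem_span_singleton.mpr hs)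
    rcases hPprime.mem_or_mem h1 with h2 | h2
    · exact hsM (hPM h2)
    · exact hbP (hPprime.mem_of_pow_mem N h2)

/-- If `p` generates a radical ideal and at most one minimal prime over `p` lies inside the
maximal ideal `M`, then the ring is locally a domain modulo `p` at `M`. -/
theorem ldAt_of_unique (p : C) (hred : ∀ x : C, p ∣ x ^ 2 → p ∣ x)
    (M : Ideal C) (hM : M.IsMaximal) (hpM : p ∈ M)
    (huniq : ∀ P Q : Ideal C, P ∈ (Ideal.span {p}).minimalPrimes →
      Q ∈ (Ideal.span {p}).minimalPrimes → P ≤ M → Q ≤ M → P = Q) :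
    LocalDomain.LDAt p M := by
  classical
  intro a b hab
  set I : Ideal C := Ideal.span {p} with hI
  have hrad : I.IsRadical := by
    rw [Ideal.isRadical_iff_pow_one_lt 2 (by norm_num)]
    intro x hx
    rw [hI, Ideal.mem_span_singleton] at hx ⊢
    exact hred x hx
  have hfin : I.minimalPrimes.Finite := Ideal.finite_minimalPrimes_of_isNoetherianRing C I
  have hsInf : sInf I.minimalPrimes = I := by rw [Ideal.sInf_minimalPrimes, hrad.radical]
  have hIM : I ≤ M := by
    rw [hI, Ideal.span_singleton_le_iff_mem]; exact hpM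
  have : M.IsPrime := hM.isPrime
  obtain ⟨P, hP, hPM⟩ := Ideal.exists_minimalPrimes_le hIM
  have hPprime : P.IsPrime := hP.1.1
  have hIP : I ≤ P := hP.1.2
  have hex : ∀ Q : Ideal C, Q ∈ I.minimalPrimes → Q ≠ P → ∃ t, t ∈ Q ∧ t ∉ M := by
    intro Q hQ hQP
    by_contra hcon
    push Not at hcon
    exact hQP (huniq Q P hQ hP (fun t ht => hcon t ht) hPM)
  let t : Ideal C → C := fun Q =>
    if h : Q ∈ I.minimalPrimes ∧ Q ≠ P then (hex Q h.1 h.2).choose else 1
  have ht_mem : ∀ Q : Ideal C, Q ∈ I.minimalPrimes → Q ≠ P → t Q ∈ Q := by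
    intro Q hQ hQP
    simp only [t, dif_pos (And.intro hQ hQP)]
    exact (hex Q hQ hQP).choose_spec.1
  have ht_not : ∀ Q : Ideal C, t Q ∉ M := by
    intro Q
    by_cases h : Q ∈ I.minimalPrimes ∧ Q ≠ P
    · simp only [t, dif_pos h]
      exact (hex Q h.1 h.2).choose_spec.2
    · simp only [t, dif_neg h]
      exact fun h1 => hM.ne_top ((Ideal.eq_top_iff_one _).mpr h1)
  set s : C := ∏ Q ∈ hfin.toFinset.erase P, t Q with hs
  have hsM : s ∉ M := by
    rw [hs, Ideal.IsPrime.prod_mem_iff]
    rintro ⟨Q, _, hQ⟩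
    exact ht_not Q hQ
  have hsQ : ∀ Q : Ideal C, Q ∈ I.minimalPrimes → Q ≠ P → s ∈ Q := by
    intro Q hQ hQP
    have hmem : Q ∈ hfin.toFinset.erase P :=
      Finset.mem_erase.mpr ⟨hQP, hfin.mem_toFinset.mpr hQ⟩
    exact Ideal.mem_of_dvd Q (Finset.dvd_prod_of_mem t hmem) (ht_mem Q hQ hQP)
  have key : ∀ c : C, c ∈ P → p ∣ s * c := by
    intro c hc
    rw [← Ideal.mem_span_singleton, ← hI, ← hsInf, Ideal.mem_sInf]
    intro Q hQ
    by_cases hQP : Q = P
    · rw [hQP]; exact Ideal.mul_mem_left _ _ hc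
    · exact Ideal.mul_mem_right _ _ (hsQ Q hQ hQP)
  have habP : a * b ∈ P := hIP (by rw [hI, Ideal.mem_span_singleton]; exact hab)
  refine ⟨s, hsM, ?_⟩
  rcases hPprime.mem_or_mem habP with h | h
  · exact Or.inl (key a h)
  · exact Or.inr (key b h)

end MinimalPrimes

section GoingDown

variable {C C' : Type*} [CommRing C] [CommRing C'] [Algebra C C']

/-- **Descent at a single maximal ideal.**  `C ⊆ C'` an integral extension with going-down.
If over the maximal ideal `M` of `C` every maximal ideal `M'` of `C'` contains at most one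
minimal prime over `π`, then `M` contains at most one minimal prime over `π`. -/
theorem unique_of_goingDown [Algebra.IsIntegral C C'] [Algebra.HasGoingDown C C']
    (hinj : Function.Injective (algebraMap C C')) (π : C) (M : Ideal C) (hM : M.IsMaximal)
    (H' : ∀ M' : Ideal C', M'.IsMaximal → M'.comap (algebraMap C C') = M →
      ∀ P' Q' : Ideal C', P' ∈ (Ideal.span {algebraMap C C' π}).minimalPrimes →
        Q' ∈ (Ideal.span {algebraMap C C' π}).minimalPrimes → P' ≤ M' → Q' ≤ M' → P' = Q')
    {P Q : Ideal C} (hP : P ∈ (Ideal.span {π}).minimalPrimes)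
    (hQ : Q ∈ (Ideal.span {π}).minimalPrimes) (hPM : P ≤ M) (hQM : Q ≤ M) : P = Q := by
  have hMp : M.IsPrime := hM.isPrime
  have : P.IsPrime := hP.1.1
  have : Q.IsPrime := hQ.1.1
  have hker : RingHom.ker (algebraMap C C') ≤ M := by
    rw [(RingHom.injective_iff_ker_eq_bot _).mp hinj]; exact bot_le
  obtain ⟨M', -, hM'prime, hM'⟩ := Ideal.exists_ideal_over_prime_of_isIntegral M (⊥ : Ideal C')
    (by rw [← RingHom.ker_eq_comap_bot]; exact hker)
  have : M'.IsPrime := hM'prime
  have hM'max : M'.IsMaximal :=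
    Ideal.isMaximal_of_isIntegral_of_isMaximal_comap M' (by rw [hM']; exact hM)
  have : M'.LiesOver M := ⟨hM'.symm⟩
  obtain ⟨Q₁, hQ₁le, hQ₁prime, hQ₁over⟩ :=
    Ideal.exists_ideal_le_liesOver_of_le (p := P) (q := M) M' hPM
  obtain ⟨Q₂, hQ₂le, hQ₂prime, hQ₂over⟩ :=
    Ideal.exists_ideal_le_liesOver_of_le (p := Q) (q := M) M' hQM
  have := hQ₁prime
  have := hQ₂prime
  have hQ₁c : Q₁.comap (algebraMap C C') = P := (hQ₁over.over).symm
  have hQ₂c : Q₂.comap (algebraMap C C') = Q := (hQ₂over.over).symm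
  obtain ⟨P₀, hP₀, hP₀le, hP₀c⟩ := Descent.exists_minimal_le π hP hQ₁c
  obtain ⟨Q₀, hQ₀, hQ₀le, hQ₀c⟩ := Descent.exists_minimal_le π hQ hQ₂c
  have h := H' M' hM'max hM' P₀ Q₀ hP₀ hQ₀ (hP₀le.trans hQ₁le) (hQ₀le.trans hQ₂le)
  rw [← hP₀c, ← hQ₀c, h]

end GoingDown

section Reduced

variable {A K L : Type*} [CommRing A] [IsDomain A] [IsIntegrallyClosed A] [Field K] [Algebra A K]
  [IsFractionRing A K] [Field L] [Algebra K L] [Algebra A L] [IsScalarTower A K L]
  [FiniteDimensional K L] [Algebra.IsSeparable K L]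

/-- If `z ^ 2 = p v` with `z`, `v` integral over the integrally closed domain `A` and `p` prime,
then `p` divides the trace of `z`. -/
theorem exists_trace_eq_of_sq {p : A} (hp : Prime p) {z v : L} (hz : IsIntegral A z)
    (hv : IsIntegral A v) (hzv : z ^ 2 = algebraMap A L p * v) :
    ∃ w : A, Algebra.trace K L z = algebraMap A K (p * w) := by
  classical
  have hinjK : Function.Injective (algebraMap A K) := IsFractionRing.injective A K
  have hpK : algebraMap A K p ≠ 0 := (map_ne_zero_iff _ hinjK).mpr hp.ne_zero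
  obtain ⟨τ₀, hτ₀⟩ := IsIntegrallyClosed.isIntegral_iff.mp
    (Algebra.isIntegral_trace (R := A) (L := K) (F := L) hz)
  let Ω := AlgebraicClosure L
  have hinjΩ : Function.Injective (algebraMap K Ω) := (algebraMap K Ω).injective
  have hpΩ : algebraMap A Ω p ≠ 0 := by
    rw [IsScalarTower.algebraMap_apply A K Ω]
    exact (map_ne_zero_iff _ hinjΩ).mpr hpK
  have hterm : ∀ σ τ : L →ₐ[K] Ω, IsIntegral A (σ z * τ z / algebraMap A Ω p) := by
    intro σ τ
    have hσ : ∀ y : L, IsIntegral A y → IsIntegral A (σ y) := fun y hy =>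
      hy.map (σ.restrictScalars A)
    have hσp : ∀ ρ : L →ₐ[K] Ω, ρ (algebraMap A L p) = algebraMap A Ω p := fun ρ => by
      rw [IsScalarTower.algebraMap_apply A K L, AlgHom.commutes,
        ← IsScalarTower.algebraMap_apply A K Ω]
    have hsq : (σ z * τ z / algebraMap A Ω p) ^ 2 = σ v * τ v := by
      have h1 : σ z ^ 2 = algebraMap A Ω p * σ v := by
        rw [← map_pow, hzv, map_mul, hσp]
      have h2 : τ z ^ 2 = algebraMap A Ω p * τ v := by
        rw [← map_pow, hzv, map_mul, hσp]
      rw [div_pow, mul_pow, h1, h2]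
      rw [div_eq_iff (pow_ne_zero 2 hpΩ)]
      ring
    refine IsIntegral.of_pow (n := 2) (by norm_num) ?_
    rw [hsq]
    exact (hσ v hv).mul ((hv.map (τ.restrictScalars A)))
  have hsum : algebraMap K Ω (Algebra.trace K L z ^ 2 / algebraMap A K p) =
      ∑ σ : L →ₐ[K] Ω, ∑ τ : L →ₐ[K] Ω, σ z * τ z / algebraMap A Ω p := by
    rw [map_div₀, map_pow, trace_eq_sum_embeddings Ω, ← IsScalarTower.algebraMap_apply A K Ω,
      sq, Finset.sum_mul_sum, Finset.sum_div]
    refine Finset.sum_congr rfl fun σ _ => ?_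
    rw [Finset.sum_div]
  have hint : IsIntegral A (Algebra.trace K L z ^ 2 / algebraMap A K p) := by
    rw [← isIntegral_algebraMap_iff hinjΩ, hsum]
    exact IsIntegral.sum _ fun σ _ => IsIntegral.sum _ fun τ _ => hterm σ τ
  obtain ⟨a, ha⟩ := IsIntegrallyClosed.isIntegral_iff.mp hint
  have hpa : p * a = τ₀ ^ 2 := by
    apply hinjK
    rw [map_mul, ha, map_pow, hτ₀]
    field_simp
  have hdvd : p ∣ τ₀ := hp.dvd_of_dvd_pow (Dvd.intro a hpa)
  obtain ⟨w, hw⟩ := hdvd
  exact ⟨w, by rw [← hτ₀, hw]⟩

/-- Field-trace self-duality at the prime `p` implies that `p` generates a radical ideal of the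
integral closure (elementwise form). -/
theorem dvd_of_dvd_sq {p : A} (hp : Prime p) (h : LocalDisc.TSDField A K L p) {x v : L}
    (hx : IsIntegral A x) (hv : IsIntegral A v) (hxv : x ^ 2 = algebraMap A L p * v) :
    ∃ z : L, IsIntegral A z ∧ x = algebraMap A L p * z := by
  refine h x hx fun y hy => ?_
  exact exists_trace_eq_of_sq hp (hx.mul hy) (hv.mul (hy.pow 2))
    (by rw [mul_pow, hxv]; ring)

/-- The same statement inside the integral closure. -/
theorem dvd_of_dvd_sq_integralClosure {p : A} (hp : Prime p) (h : LocalDisc.TSDField A K L p)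
    (x : integralClosure A L) (hx : algebraMap A (integralClosure A L) p ∣ x ^ 2) :
    algebraMap A (integralClosure A L) p ∣ x := by
  obtain ⟨v, hv⟩ := hx
  have hxv : (x : L) ^ 2 = algebraMap A L p * (v : L) := by
    have := congrArg (fun y : integralClosure A L => (y : L)) hv
    simpa using this
  obtain ⟨z, hz, hxz⟩ := dvd_of_dvd_sq (K := K) hp h x.2 v.2 hxv
  exact ⟨⟨z, hz⟩, Subtype.ext hxz⟩

end Reduced

end Fermat.Agent.S30.Model.BranchBC
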