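import Mathlib
import Fermat.Agent.S30.Model.KummerCover

/-!
# MODEL THEOREM, branch case: generic providers of the integrality comparisons

`LocalBranch.hrad_of_tame` consumes two comparisons between integrality over the Kummer cover
`R'` and over the Dedekind ring `B` (the integral closure of the discrete valuation ring
`V = R_(τ)` in `L`):

* `isIntegral_of_isIntegral_cover` (`hCB`) : integral over `R'` ⇒ integral over `B`;
* `exists_not_dvd_isIntegral_mul` (`hBC`) : integral over `B` ⇒ integral over `R'` after
  multiplication by some `r` with `¬ s ∣ r`;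
* `dvd_of_rt_dvd_algebraMap` : in the Kummer cover `R[s] / (s ^ e - τ)`, `s ∣ a` with `a` in
  the base forces `τ ∣ a`.
-/

set_option autoImplicit false

namespace Fermat.Agent.S30.Model.BranchProv

open Fermat.Agent.S30.Model

/-- `hCB`: an element integral over `R'` (itself integral over `R`) is integral over any
`R`-algebra `B` through which the scalars factor. -/
theorem isIntegral_of_isIntegral_cover (R : Type*) {R' B L' : Type*} [CommRing R] [CommRing R']
    [CommRing B] [CommRing L'] [Algebra R R'] [Algebra R B] [Algebra R L'] [Algebra R' L']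
    [Algebra B L'] [IsScalarTower R R' L'] [IsScalarTower R B L'] [Algebra.IsIntegral R R']
    (z : L') (hz : IsIntegral R' z) : IsIntegral B z :=
  (isIntegral_trans (R := R) (A := R') z hz).tower_top

/-- `hBC`: `V` a localization of `R` at a submonoid avoiding the multiples of `τ`, `B` integral
over `V`; an element integral over `B` becomes integral over `R'` after multiplication by an
element of `R'` not divisible by `s`, as soon as `s ∣ a` (`a` in `R`) forces `τ ∣ a`. -/
theorem exists_not_dvd_isIntegral_mul {R : Type*} (V : Type*) {B R' L' : Type*} [CommRing R]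
    [CommRing V] [Algebra R V] (τ : R) (S : Submonoid R) [IsLocalization S V]
    (hS : ∀ a ∈ S, ¬ τ ∣ a)
    [CommRing B] [Algebra V B] [Algebra.IsIntegral V B]
    [CommRing R'] [Algebra R R'] [CommRing L'] [Algebra R L'] [Algebra V L'] [Algebra B L']
    [Algebra R' L'] [IsScalarTower R V L'] [IsScalarTower V B L'] [IsScalarTower R R' L']
    (s : R') (hsa : ∀ a : R, s ∣ algebraMap R R' a → τ ∣ a)
    (z : L') (hz : IsIntegral B z) :
    ∃ r : R', ¬ s ∣ r ∧ IsIntegral R' (algebraMap R' L' r * z) := by
  have hzV : IsIntegral V z := isIntegral_trans (R := V) (A := B) z hz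
  obtain ⟨m, hm⟩ := IsIntegral.exists_multiple_integral_of_isLocalization S z hzV
  refine ⟨algebraMap R R' m, fun h => hS m m.2 (hsa _ h), ?_⟩
  have h1 : algebraMap R' L' (algebraMap R R' m) * z = (m : R) • z := by
    rw [← IsScalarTower.algebraMap_apply R R' L', ← Algebra.smul_def]
  rw [h1]
  exact IsIntegral.tower_top hm

/-- The same with `V` the localization at the prime ideal `(τ)`. -/
theorem exists_not_dvd_isIntegral_mul_atPrime {R : Type*} (V : Type*) {B R' L' : Type*}
    [CommRing R] [CommRing V] [Algebra R V] (τ : R) [hτ : (Ideal.span {τ}).IsPrime]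
    [IsLocalization.AtPrime V (Ideal.span {τ})]
    [CommRing B] [Algebra V B] [Algebra.IsIntegral V B]
    [CommRing R'] [Algebra R R'] [CommRing L'] [Algebra R L'] [Algebra V L'] [Algebra B L']
    [Algebra R' L'] [IsScalarTower R V L'] [IsScalarTower V B L'] [IsScalarTower R R' L']
    (s : R') (hsa : ∀ a : R, s ∣ algebraMap R R' a → τ ∣ a)
    (z : L') (hz : IsIntegral B z) :
    ∃ r : R', ¬ s ∣ r ∧ IsIntegral R' (algebraMap R' L' r * z) :=
  exists_not_dvd_isIntegral_mul V τ (Ideal.span {τ}).primeCompl
    (fun _ ha h => ha (Ideal.mem_span_singleton.2 h)) s hsa z hz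

/-- In the Kummer cover, `s ∣ a` with `a` in the base ring forces `τ ∣ a`. -/
theorem dvd_of_rt_dvd_algebraMap {R : Type*} [CommRing R] (τ : R) {e : ℕ} (he : 0 < e) (a : R)
    (h : KummerCover.rt τ e ∣ algebraMap R (KummerCover.Cover τ e) a) : τ ∣ a := by
  have h1 : algebraMap R (KummerCover.Cover τ e) a ∈ Ideal.span {KummerCover.rt τ e} :=
    Ideal.mem_span_singleton.2 h
  rw [KummerCover.span_rt_eq_ker τ he, RingHom.mem_ker, KummerCover.evalZero_algebraMap,
    Ideal.Quotient.eq_zero_iff_mem, Ideal.mem_span_singleton] at h1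
  exact h1

end Fermat.Agent.S30.Model.BranchProv
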