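import Mathlib
import Fermat.Agent.S30.Model.LocalBranch
import Fermat.Agent.S30.Model.BranchProv
import Fermat.Agent.S30.Model.KummerField

/-!
# MODEL THEOREM, branch case: the tame exponent and the radical hypothesis, packaged

`exists_exponent_hrad` : for a Noetherian integrally closed domain `R` with a prime element `τ`
of residue characteristic zero and a finite separable extension `L / K` of its fraction field,
there is an exponent `e > 0` such that for EVERY cover `R' ⊇ R` (integral, integrally closed
domain, with a prime `s`, `s ^ e = τ`, `s ∣ a ⇒ τ ∣ a` for `a` in `R`) and every field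
`L' = L(s)`, the hypothesis `hrad` of `LocalBranch.ldAt_of_branch` holds.

Internally: `V = R_(τ)` is a discrete valuation ring, `B = integralClosure V L` is Dedekind,
`e` comes from `KummerField.exists_tame_exponent`, and the statement is
`LocalBranch.hrad_of_tame` fed by the providers of `BranchProv`.
-/

set_option autoImplicit false

namespace Fermat.Agent.S30.Model.BranchTame

open Fermat.Agent.S30.Model

/-- The localization of a Noetherian integrally closed domain at a principal prime is a Dedekind
domain. -/
theorem isDedekindDomain_atPrime_span {R : Type*} [CommRing R] [IsDomain R] [IsNoetherianRing R]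
    (τ : R) [hx : (Ideal.span {τ}).IsPrime] (V : Type*) [CommRing V] [Algebra R V]
    [IsLocalization.AtPrime V (Ideal.span {τ})] : IsDedekindDomain V := by
  have domV : IsDomain V := IsLocalization.isDomain_of_atPrime V (Ideal.span {τ})
  have locV : IsLocalRing V := IsLocalization.AtPrime.isLocalRing V (Ideal.span {τ})
  have noethV : IsNoetherianRing V :=
    IsLocalization.isNoetherianRing (Ideal.span {τ}).primeCompl V inferInstance
  have hmax : IsLocalRing.maximalIdeal V = Ideal.span {algebraMap R V τ} := by
    rw [← IsLocalization.AtPrime.map_eq_maximalIdeal (Ideal.span {τ}) V, Ideal.map_span,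
      Set.image_singleton]
  have hprinc : (IsLocalRing.maximalIdeal V).IsPrincipal := ⟨⟨_, hmax⟩⟩
  exact ((tfae_of_isNoetherianRing_of_isLocalRing_of_isDomain V).out 4 2).mp hprinc

universe u₁ u₂ u₃

/-- **The tame exponent and the radical hypothesis.** -/
theorem exists_exponent_hrad {R K L : Type*} [CommRing R] [IsDomain R] [IsNoetherianRing R]
    [IsIntegrallyClosed R] [Field K] [Algebra R K] [IsFractionRing R K]
    [Field L] [Algebra K L] [Algebra R L] [IsScalarTower R K L] [FiniteDimensional K L]
    [Algebra.IsSeparable K L] (τ : R) (hτ : Prime τ)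
    (hchar : ∀ n : ℕ, n ≠ 0 → ¬ τ ∣ (n : R)) :
    ∃ e : ℕ, 0 < e ∧ ∀ (R' : Type u₁) (K' : Type u₂) (L' : Type u₃) [CommRing R'] [IsDomain R']
      [IsIntegrallyClosed R'] [Field K'] [Algebra R' K'] [IsFractionRing R' K'] [Field L']
      [Algebra K' L'] [Algebra R' L'] [IsScalarTower R' K' L'] [Algebra R R']
      [Algebra.IsIntegral R R'] [Algebra L L'] [Algebra R L'] [IsScalarTower R L L']
      [IsScalarTower R R' L'] (s : R') (_ : Prime s) (_ : s ^ e = algebraMap R R' τ)
      (_ : ∀ a : R, s ∣ algebraMap R R' a → τ ∣ a)
      (_ : Algebra.adjoin L ({algebraMap R' L' s} : Set L') = ⊤),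
      ∀ x : L', IsIntegral R' x → ∀ n : ℕ,
        IsIntegral R' (x ^ n / algebraMap R' L' s) → IsIntegral R' (x / algebraMap R' L' s) := by
  classical
  have hinjK : Function.Injective (algebraMap R K) := IsFractionRing.injective R K
  have hinj : Function.Injective (algebraMap R L) := by
    rw [IsScalarTower.algebraMap_eq R K L]
    exact (algebraMap K L).injective.comp hinjK
  have hxprime : (Ideal.span {τ}).IsPrime := (Ideal.span_singleton_prime hτ.ne_zero).mpr hτ
  have hunitK : ∀ y : (Ideal.span {τ}).primeCompl, IsUnit (algebraMap R K y) := fun y =>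
    IsUnit.mk0 _ ((map_ne_zero_iff _ hinjK).mpr (fun h0 => y.2 (h0 ▸ (Ideal.span {τ}).zero_mem)))
  let V := Localization.AtPrime (Ideal.span {τ})
  let algVK : Algebra V K := (IsLocalization.lift (M := (Ideal.span {τ}).primeCompl) hunitK).toAlgebra
  have towerRVK : IsScalarTower R V K := IsScalarTower.of_algebraMap_eq fun a => by
    simp [RingHom.algebraMap_toAlgebra, V]
  have fracV : IsFractionRing V K :=
    IsFractionRing.isFractionRing_of_isDomain_of_isLocalization (Ideal.span {τ}).primeCompl V K
  let algVL : Algebra V L := ((algebraMap K L).comp (algebraMap V K)).toAlgebra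
  have towerVKL : IsScalarTower V K L := IsScalarTower.of_algebraMap_eq fun a => rfl
  have towerRVL : IsScalarTower R V L := IsScalarTower.of_algebraMap_eq fun a => by
    rw [RingHom.algebraMap_toAlgebra, RingHom.comp_apply, ← IsScalarTower.algebraMap_apply R V K,
      ← IsScalarTower.algebraMap_apply R K L]
  have domV : IsDomain V := IsLocalization.isDomain_of_atPrime V (Ideal.span {τ})
  have dedV : IsDedekindDomain V := isDedekindDomain_atPrime_span τ V
  have dedB : IsDedekindDomain (integralClosure V L) := integralClosure.isDedekindDomain V K L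
  have fracB : IsFractionRing (integralClosure V L) L :=
    integralClosure.isFractionRing_of_finite_extension K L
  -- the element `τ` of `B`
  set t : integralClosure V L := algebraMap V (integralClosure V L) (algebraMap R V τ) with ht
  have htL : (t : L) = algebraMap R L τ := by
    show algebraMap V L (algebraMap R V τ) = algebraMap R L τ
    rw [← IsScalarTower.algebraMap_apply]
  have ht0 : t ≠ 0 := by
    intro h0
    have h1 : (t : L) = 0 := by rw [h0]; rfl
    rw [htL] at h1
    exact hτ.ne_zero ((map_eq_zero_iff _ hinj).mp h1)
  obtain ⟨e, he, hram⟩ := KummerField.exists_tame_exponent (B := integralClosure V L) ht0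
  refine ⟨e, he, ?_⟩
  intro R' K' L' _ _ _ _ _ _ _ _ _ _ _ _ _ _ _ _ s hs hse hsa hgen
  -- residue characteristic zero at every prime over `τ`
  have hcharB : ∀ P : Ideal (integralClosure V L), P.IsPrime → P ≠ ⊥ → t ∈ P →
      (e : integralClosure V L) ∉ P := by
    intro P hP _ _ heP
    have hnd : (e : R) ∈ (Ideal.span {τ}).primeCompl := fun hmem =>
      hchar e he.ne' (Ideal.mem_span_singleton.mp hmem)
    have hu : IsUnit (algebraMap R V (e : R)) := IsLocalization.map_units V ⟨(e : R), hnd⟩
    have hu' : IsUnit (algebraMap V (integralClosure V L) (algebraMap R V (e : R))) := hu.map _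
    rw [map_natCast, map_natCast] at hu'
    exact hP.ne_top (Ideal.eq_top_of_isUnit_mem _ heP hu')
  -- the algebra structures on `L'`
  let algVL' : Algebra V L' := ((algebraMap L L').comp (algebraMap V L)).toAlgebra
  have towerBLL' : IsScalarTower (integralClosure V L) L L' := inferInstance
  have towerVBL' : IsScalarTower V (integralClosure V L) L' :=
    IsScalarTower.of_algebraMap_eq fun a => rfl
  have towerRVL' : IsScalarTower R V L' := IsScalarTower.of_algebraMap_eq fun a => by
    show algebraMap R L' a = algebraMap L L' (algebraMap V L (algebraMap R V a))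
    rw [← IsScalarTower.algebraMap_apply R V L, ← IsScalarTower.algebraMap_apply R L L']
  have hse' : algebraMap R' L' s ^ e = algebraMap (integralClosure V L) L' t := by
    rw [← map_pow, hse, ← IsScalarTower.algebraMap_apply R R' L']
    show algebraMap R L' τ = algebraMap L L' (t : L)
    rw [htL, ← IsScalarTower.algebraMap_apply R L L']
  have hCB : ∀ z : L', IsIntegral R' z → IsIntegral (integralClosure V L) z := fun z hz =>
    ((isIntegral_trans (R := R) (A := R') z hz).tower_top (A := V)).tower_top
  have hBC : ∀ z : L', IsIntegral (integralClosure V L) z →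
      ∃ r : R', ¬ s ∣ r ∧ IsIntegral R' (algebraMap R' L' r * z) :=
    BranchProv.exists_not_dvd_isIntegral_mul_atPrime V τ s hsa
  exact LocalBranch.hrad_of_tame (B := integralClosure V L) (L := L) K' he hram hcharB s hs hse'
    hgen hCB hBC

end Fermat.Agent.S30.Model.BranchTame
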