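import Mathlib
import Fermat.Agent.Lib.NormalFree
import Fermat.Agent.S30.Model.KummerCover
import Fermat.Agent.S30.Model.KummerField
import Fermat.Agent.S30.Model.BranchProv
import Fermat.Agent.S30.Model.LocalBranch
import Fermat.Agent.S30.Model.BranchGlue

/-!
# MODEL THEOREM, branch point: the tower `R ⊆ R' = R[s]/(s^e - τ)`, `L ⊆ L' = L(s)`

`localBranchStatement_of_hrad` : the branch-point local theorem over the local ring `R`
(`BranchGlue.LocalBranchStatement`) from the abstract theorem `LocalBranch.ldAt_of_branch`,
with `R' = KummerCover.Cover τ e`, `K' = FractionRing R'`, `L' = KummerField τ e`, given the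
tame exponent `e` together with the radical property `hrad` (`HradStatement`).
-/

set_option autoImplicit false

open Polynomial

namespace Fermat.Agent.S30.Model.BranchTower

open Fermat.Agent.S30.Model Fermat.Agent.Lib

universe u

/-- The tame exponent with the radical property of `(s)` upstairs, for every Kummer cover
(the statement of `BranchTame.exists_exponent_hrad`). -/
def HradStatement : Prop :=
  ∀ (R K L : Type u) [CommRing R] [IsDomain R] [IsNoetherianRing R] [IsIntegrallyClosed R]
    [Field K] [Algebra R K] [IsFractionRing R K] [CharZero K] [Field L] [Algebra K L]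
    [Algebra R L] [IsScalarTower R K L] [FiniteDimensional K L] [Algebra.IsSeparable K L]
    (τ : R) (_ : Prime τ) (_ : ∀ n : ℕ, n ≠ 0 → ¬ τ ∣ (n : R)),
    ∃ e : ℕ, 0 < e ∧ ∀ (R' K' L' : Type u) [CommRing R'] [IsDomain R'] [IsIntegrallyClosed R']
      [Field K'] [Algebra R' K'] [IsFractionRing R' K'] [Field L'] [Algebra K' L']
      [Algebra R' L'] [IsScalarTower R' K' L'] [Algebra R R'] [Algebra.IsIntegral R R']
      [Algebra L L'] [Algebra R L'] [IsScalarTower R L L'] [IsScalarTower R R' L']
      (s : R') (_ : Prime s) (_ : s ^ e = algebraMap R R' τ)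
      (_ : ∀ a : R, s ∣ algebraMap R R' a → τ ∣ a)
      (_ : Algebra.adjoin L ({algebraMap R' L' s} : Set L') = ⊤),
      ∀ x : L', IsIntegral R' x → ∀ n : ℕ,
        IsIntegral R' (x ^ n / algebraMap R' L' s) → IsIntegral R' (x / algebraMap R' L' s)

/-- **The branch-point local theorem over the local ring `R`**, from the tame exponent. -/
theorem localBranchStatement_of_hrad (hexp : HradStatement.{u}) :
    BranchGlue.LocalBranchStatement.{u} := by
  intro R K L _ _ _ _ _ _ _ _ _ _ _ _ _ _ _ _ _ π τ hπ hτ hπτ _ hmax hchar hdisc M hM hπM
  classical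
  obtain ⟨e, he, hradAll⟩ := hexp R K L τ hτ hchar
  -- injectivity downstairs
  have hinjRK : Function.Injective (algebraMap R K) := IsFractionRing.injective R K
  have hinjRL : Function.Injective (algebraMap R L) := by
    rw [IsScalarTower.algebraMap_eq R K L]
    exact (algebraMap K L).injective.comp hinjRK
  -- the Kummer cover `R'`
  have domR' : IsDomain (KummerCover.Cover τ e) := KummerCover.isDomain π τ hπ hτ he
  have noethR' : IsNoetherianRing (KummerCover.Cover τ e) := KummerCover.isNoetherianRing τ he
  have locR' : IsLocalRing (KummerCover.Cover τ e) := KummerCover.isLocalRing π τ he hmax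
  have ufdR' : UniqueFactorizationMonoid (KummerCover.Cover τ e) :=
    KummerCover.uniqueFactorizationMonoid π τ hmax hπ hτ hπτ he
  have icR' : IsIntegrallyClosed (KummerCover.Cover τ e) := inferInstance
  obtain ⟨hπ', pirR'⟩ := KummerCover.prime_and_isPrincipalIdealRing π τ hmax hπ hπτ he
  have hs : Prime (KummerCover.rt τ e) := KummerCover.prime_rt τ hτ he
  have hmaxR' := KummerCover.maximalIdeal_eq π τ he hmax
  have hse : KummerCover.rt τ e ^ e = algebraMap R (KummerCover.Cover τ e) τ :=
    KummerCover.rt_pow τ e
  have hchar0 : ∀ n : ℕ, n ≠ 0 → ¬ KummerCover.rt τ e ∣ (n : KummerCover.Cover τ e) :=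
    KummerCover.not_rt_dvd_natCast τ he hchar
  have hsπ : ¬ algebraMap R (KummerCover.Cover τ e) π ∣ KummerCover.rt τ e := by
    intro hd
    have h1 : algebraMap R (KummerCover.Cover τ e) π ∣ algebraMap R (KummerCover.Cover τ e) τ := by
      rw [← hse]
      exact hd.trans (dvd_pow_self _ he.ne')
    exact hπτ (KummerCover.dvd_of_algebraMap_dvd τ he h1)
  have finR' : Module.Finite R (KummerCover.Cover τ e) := KummerCover.finite τ he
  have intR' : Algebra.IsIntegral R (KummerCover.Cover τ e) := Algebra.IsIntegral.of_finite R _
  have hsa : ∀ a : R, KummerCover.rt τ e ∣ algebraMap R (KummerCover.Cover τ e) a → τ ∣ a :=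
    fun a => BranchProv.dvd_of_rt_dvd_algebraMap τ he a
  -- the Kummer field `L'`
  have hinjRL' : Function.Injective
      (algebraMap R (KummerField.KummerField (algebraMap R L τ) e)) := by
    rw [IsScalarTower.algebraMap_eq R L (KummerField.KummerField (algebraMap R L τ) e)]
    exact (algebraMap L (KummerField.KummerField (algebraMap R L τ) e)).injective.comp hinjRL
  have hroot : (X ^ e - C τ : R[X]).eval₂
      (algebraMap R (KummerField.KummerField (algebraMap R L τ) e))
      (KummerField.kummerRoot (algebraMap R L τ) e) = 0 := by
    rw [eval₂_sub, eval₂_pow, eval₂_X, eval₂_C, KummerField.kummerRoot_pow _ he,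
      ← IsScalarTower.algebraMap_apply, sub_self]
  -- `R' → L'`
  let algR'L' : Algebra (KummerCover.Cover τ e) (KummerField.KummerField (algebraMap R L τ) e) :=
    (AdjoinRoot.lift (algebraMap R (KummerField.KummerField (algebraMap R L τ) e))
      (KummerField.kummerRoot (algebraMap R L τ) e) hroot).toAlgebra
  have hinjR'L' : Function.Injective
      (algebraMap (KummerCover.Cover τ e) (KummerField.KummerField (algebraMap R L τ) e)) :=
    KummerCover.lift_injective π τ hπ hτ he hinjRL' _ hroot
  have towerRR'L' : IsScalarTower R (KummerCover.Cover τ e)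
      (KummerField.KummerField (algebraMap R L τ) e) :=
    IsScalarTower.of_algebraMap_eq fun r => by
      rw [RingHom.algebraMap_toAlgebra, AdjoinRoot.algebraMap_eq, AdjoinRoot.lift_of]
  have hrt : algebraMap (KummerCover.Cover τ e) (KummerField.KummerField (algebraMap R L τ) e)
      (KummerCover.rt τ e) = KummerField.kummerRoot (algebraMap R L τ) e := by
    rw [RingHom.algebraMap_toAlgebra]
    exact AdjoinRoot.lift_root hroot
  -- `K' = Frac R'`
  have fsR'L' : FaithfulSMul (KummerCover.Cover τ e)
      (KummerField.KummerField (algebraMap R L τ) e) :=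
    (faithfulSMul_iff_algebraMap_injective _ _).mpr hinjR'L'
  let algK'L' : Algebra (FractionRing (KummerCover.Cover τ e))
      (KummerField.KummerField (algebraMap R L τ) e) :=
    FractionRing.liftAlgebra _ _
  have towerR'K'L' : IsScalarTower (KummerCover.Cover τ e) (FractionRing (KummerCover.Cover τ e))
      (KummerField.KummerField (algebraMap R L τ) e) :=
    FractionRing.isScalarTower_liftAlgebra _ _
  -- `K → K'`
  have hinjRK' : Function.Injective (algebraMap R (FractionRing (KummerCover.Cover τ e))) := by
    rw [IsScalarTower.algebraMap_eq R (KummerCover.Cover τ e)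
      (FractionRing (KummerCover.Cover τ e))]
    exact (IsFractionRing.injective (KummerCover.Cover τ e)
      (FractionRing (KummerCover.Cover τ e))).comp (KummerCover.algebraMap_injective τ he)
  let algKK' : Algebra K (FractionRing (KummerCover.Cover τ e)) :=
    (IsFractionRing.lift (K := K) hinjRK').toAlgebra
  have towerRKK' : IsScalarTower R K (FractionRing (KummerCover.Cover τ e)) :=
    IsScalarTower.of_algebraMap_eq fun r => by
      rw [RingHom.algebraMap_toAlgebra, IsFractionRing.lift_algebraMap]
  have towerKK'L' : IsScalarTower K (FractionRing (KummerCover.Cover τ e))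
      (KummerField.KummerField (algebraMap R L τ) e) := by
    refine IsScalarTower.of_algebraMap_eq' ?_
    apply IsLocalization.ringHom_ext (nonZeroDivisors R)
    ext r
    simp only [RingHom.comp_apply]
    rw [← IsScalarTower.algebraMap_apply R K (KummerField.KummerField (algebraMap R L τ) e),
      ← IsScalarTower.algebraMap_apply R K (FractionRing (KummerCover.Cover τ e)),
      IsScalarTower.algebraMap_apply R (KummerCover.Cover τ e)
        (FractionRing (KummerCover.Cover τ e)),
      ← IsScalarTower.algebraMap_apply (KummerCover.Cover τ e)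
        (FractionRing (KummerCover.Cover τ e)) (KummerField.KummerField (algebraMap R L τ) e),
      ← IsScalarTower.algebraMap_apply R (KummerCover.Cover τ e)
        (KummerField.KummerField (algebraMap R L τ) e)]
  -- finiteness and separability upstairs
  have finKL' : Module.Finite K (KummerField.KummerField (algebraMap R L τ) e) :=
    Module.Finite.trans L _
  have finK'L' : FiniteDimensional (FractionRing (KummerCover.Cover τ e))
      (KummerField.KummerField (algebraMap R L τ) e) :=
    Module.Finite.of_restrictScalars_finite K _ _
  have charK' : CharZero (FractionRing (KummerCover.Cover τ e)) :=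
    charZero_of_injective_algebraMap (algebraMap K (FractionRing (KummerCover.Cover τ e))).injective
  have sepK'L' : Algebra.IsSeparable (FractionRing (KummerCover.Cover τ e))
      (KummerField.KummerField (algebraMap R L τ) e) := inferInstance
  have finC' : Module.Finite (KummerCover.Cover τ e)
      (integralClosure (KummerCover.Cover τ e) (KummerField.KummerField (algebraMap R L τ) e)) :=
    NormalFree.finite_integralClosure (FractionRing (KummerCover.Cover τ e)) _
  have hπ'mem : algebraMap R (KummerCover.Cover τ e) π ∈
      IsLocalRing.maximalIdeal (KummerCover.Cover τ e) := by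
    rw [hmaxR']
    exact Ideal.subset_span (Set.mem_insert _ _)
  have freeC' : Module.Free (KummerCover.Cover τ e)
      (integralClosure (KummerCover.Cover τ e) (KummerField.KummerField (algebraMap R L τ) e)) :=
    NormalFree.free_integralClosure (FractionRing (KummerCover.Cover τ e)) _ hπ' hπ'mem
  -- `L' = K' · L`
  have hgenL : Algebra.adjoin L
      ({algebraMap (KummerCover.Cover τ e) (KummerField.KummerField (algebraMap R L τ) e)
        (KummerCover.rt τ e)} : Set (KummerField.KummerField (algebraMap R L τ) e)) = ⊤ := by
    rw [hrt]
    exact KummerField.adjoin_kummerRoot _ e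
  have hgen : Algebra.adjoin (FractionRing (KummerCover.Cover τ e))
      (Set.range (algebraMap L (KummerField.KummerField (algebraMap R L τ) e))) = ⊤ := by
    rw [eq_top_iff]
    intro y hyT
    clear hyT
    have hy : y ∈ Algebra.adjoin L
        ({KummerField.kummerRoot (algebraMap R L τ) e} :
          Set (KummerField.KummerField (algebraMap R L τ) e)) := by
      rw [KummerField.adjoin_kummerRoot]; exact Algebra.mem_top
    induction hy using Algebra.adjoin_induction with
    | mem x hx =>
      rw [Set.mem_singleton_iff] at hx
      rw [hx, ← hrt, IsScalarTower.algebraMap_apply (KummerCover.Cover τ e)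
        (FractionRing (KummerCover.Cover τ e))]
      exact Subalgebra.algebraMap_mem _ _
    | algebraMap r => exact Algebra.subset_adjoin ⟨r, rfl⟩
    | add x y _ _ hx hy => exact add_mem hx hy
    | mul x y _ _ hx hy => exact mul_mem hx hy
  -- the radical property of `(s)`
  have hrad := hradAll (KummerCover.Cover τ e) (FractionRing (KummerCover.Cover τ e))
    (KummerField.KummerField (algebraMap R L τ) e) (KummerCover.rt τ e) hs hse hsa hgenL
  exact LocalBranch.ldAt_of_branch (K := K) (K' := FractionRing (KummerCover.Cover τ e))
    (L' := KummerField.KummerField (algebraMap R L τ) e) hgen π τ (KummerCover.rt τ e) e hπ' hs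
    hsπ hmaxR' hse hchar0 hdisc hrad M hM hπM

end Fermat.Agent.S30.Model.BranchTower
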