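import Mathlib
import Fermat.Agent.S30.Model.LocalNB
import Fermat.Agent.S30.Model.ChartLD
import Fermat.Agent.S30.Model.ChartSwap
import Fermat.Agent.S30.Model.FamilyTSD

/-!
# MODEL THEOREM, add-on export: an elementwise ETALE PRESENTATION at a non-branch closed point

Setting of `LocalNB`: `A` a Noetherian integrally closed UFD (a chart `O[u]`), `π` a prime
element with `A ⧸ (π)` a principal ideal ring, `K = Frac A`, `L / K` finite separable,
`C₀ = integralClosure A L`, `M ∋ π` a maximal ideal of `C₀` such that the integral closure is
trace-self-dual at every prime element of `A` lying in `M` (a non-branch point).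

* `exists_basis_of_tsdField` : there are `b₁, …, bₙ ∈ C₀` and `d ∈ A`, `d ∉ M`, such that
  `d = det (Tr_{L/K} (bᵢ bⱼ))` and every `c ∈ C₀` satisfies `s • c = ∑ aᵢ • bᵢ` for some
  `s ∈ A`, `s ∉ M`, and `aᵢ ∈ A`.  (Locally at `M ∩ A` the integral closure is free with basis
  `b` and unit discriminant.)
* `chart_exists_basis` : the same on a chart `O[t]` at a maximal ideal through no branch section.
* `basis_zero_tsd`, `basis_zero` : under the hypotheses of the Model theorem (TSD resp. family
  form) on the `u`-chart.
-/

set_option autoImplicit false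

open Polynomial

namespace Fermat.Agent.S30.Model.EtaleBasis

open Fermat.Agent.S30.Model Fermat.Agent.Lib

universe u v

variable {A : Type u} {K : Type*} {L : Type v} [CommRing A] [IsDomain A] [IsNoetherianRing A]
  [IsIntegrallyClosed A] [UniqueFactorizationMonoid A]
  [Field K] [Algebra A K] [IsFractionRing A K] [Field L] [Algebra K L] [Algebra A L]
  [IsScalarTower A K L] [FiniteDimensional K L] [Algebra.IsSeparable K L]

/-- **Etale presentation at a non-branch point.** -/
theorem exists_basis_of_tsdField (π : A) (hπ : Prime π)
    [IsPrincipalIdealRing (A ⧸ Ideal.span {π})]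
    (M : Ideal (integralClosure A L)) (hM : M.IsMaximal)
    (hπM : algebraMap A (integralClosure A L) π ∈ M)
    (h : ∀ p : A, Prime p → algebraMap A (integralClosure A L) p ∈ M →
      LocalDisc.TSDField A K L p) :
    ∃ (n : ℕ) (b : Fin n → integralClosure A L) (d : A),
      algebraMap A (integralClosure A L) d ∉ M ∧
      algebraMap A K d =
        (Matrix.of fun i j => Algebra.trace K L ((b i : L) * (b j : L))).det ∧
      ∀ c : integralClosure A L, ∃ s : A, algebraMap A (integralClosure A L) s ∉ M ∧
        ∃ a : Fin n → A, s • c = ∑ i, a i • b i := by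
  classical
  have hinjK : Function.Injective (algebraMap A K) := IsFractionRing.injective A K
  have hinj : Function.Injective (algebraMap A L) := by
    rw [IsScalarTower.algebraMap_eq A K L]
    exact (algebraMap K L).injective.comp hinjK
  have hfs : FaithfulSMul A L := (faithfulSMul_iff_algebraMap_injective A L).mpr hinj
  set x : Ideal A := M.comap (algebraMap A (integralClosure A L)) with hx
  have hxmax : x.IsMaximal := Ideal.isMaximal_comap_of_isIntegral_of_isMaximal M
  have hxprime : x.IsPrime := hxmax.isPrime
  have hπx : π ∈ x := Ideal.mem_comap.mpr hπM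
  have hunitK : ∀ y : x.primeCompl, IsUnit (algebraMap A K y) := fun y =>
    IsUnit.mk0 _ ((map_ne_zero_iff _ hinjK).mpr (fun h0 => y.2 (h0 ▸ x.zero_mem)))
  have hunit : ∀ y : x.primeCompl, IsUnit (algebraMap A L y) := fun y =>
    IsUnit.mk0 _ ((map_ne_zero_iff _ hinj).mpr (fun h0 => y.2 (h0 ▸ x.zero_mem)))
  let R := Localization.AtPrime x
  let algRK : Algebra R K := (IsLocalization.lift (M := x.primeCompl) hunitK).toAlgebra
  have towerARK : IsScalarTower A R K := IsScalarTower.of_algebraMap_eq fun a => by
    simp [RingHom.algebraMap_toAlgebra, R]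
  have fracR : IsFractionRing R K :=
    IsFractionRing.isFractionRing_of_isDomain_of_isLocalization x.primeCompl R K
  let algRL : Algebra R L := ((algebraMap K L).comp (algebraMap R K)).toAlgebra
  have towerRKL : IsScalarTower R K L := IsScalarTower.of_algebraMap_eq fun a => rfl
  have towerARL : IsScalarTower A R L := IsScalarTower.of_algebraMap_eq fun a => by
    rw [RingHom.algebraMap_toAlgebra, RingHom.comp_apply, ← IsScalarTower.algebraMap_apply A R K,
      ← IsScalarTower.algebraMap_apply A K L]
  have domR : IsDomain R := IsLocalization.isDomain_of_atPrime R x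
  have locR : IsLocalRing R := IsLocalization.AtPrime.isLocalRing R x
  have noethR : IsNoetherianRing R := IsLocalization.isNoetherianRing x.primeCompl R inferInstance
  have icR : IsIntegrallyClosed R :=
    isIntegrallyClosed_of_isLocalization R x.primeCompl x.primeCompl_le_nonZeroDivisors
  have pirR : IsPrincipalIdealRing (R ⧸ Ideal.span {algebraMap A R π}) :=
    RegLocal.isPrincipalIdealRing_quotient x.primeCompl R π
  have freeC : Module.Free R (integralClosure R L) :=
    RegLocal.free_integralClosure_of_isLocalization_atPrime hπ x hπx R K L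
  have finC : Module.Finite R (integralClosure R L) :=
    IsIntegralClosure.finite R K L (integralClosure R L)
  -- a basis indexed by `Fin n`, with unit discriminant
  let n := Fintype.card (Module.Free.ChooseBasisIndex R (integralClosure R L))
  let β : Module.Basis (Fin n) R (integralClosure R L) :=
    (Module.Free.chooseBasis R (integralClosure R L)).reindex (Fintype.equivFin _)
  have hβ : IsUnit (Algebra.discr R β) := by
    refine LocalDisc.isUnit_discr (K := K) (L := L) x β fun p hp hpx => h p hp ?_
    exact Ideal.mem_comap.mp hpx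
  -- the localisation of the integral closure
  let algCC : Algebra (integralClosure A L) (integralClosure R L) :=
    (RegLocal.integralClosureMap (A := A) (L := L) R).toAlgebra
  have tower2 : IsScalarTower (integralClosure A L) (integralClosure R L) L :=
    IsScalarTower.of_algebraMap_eq fun c => rfl
  have tower3 : IsScalarTower A (integralClosure A L) (integralClosure R L) :=
    IsScalarTower.of_algebraMap_eq fun a => Subtype.ext rfl
  have hLL : IsLocalization (Algebra.algebraMapSubmonoid L x.primeCompl) L := by
    apply IsLocalization.self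
    rintro _ ⟨y, hy, rfl⟩
    exact hunit ⟨y, hy⟩
  have hloc' : IsLocalization (Algebra.algebraMapSubmonoid (integralClosure A L) x.primeCompl)
      (integralClosure R L) :=
    IsLocalization.integralClosure (S := L) (Rf := R) (Sf := L) x.primeCompl
  have hlocK : IsLocalization (Algebra.algebraMapSubmonoid (integralClosure R L)
      (nonZeroDivisors R)) L :=
    IsIntegralClosure.isLocalization R K L (integralClosure R L)
  -- clear the denominators of the basis
  obtain ⟨⟨s0, hs0⟩, hint⟩ := IsLocalization.exist_integer_multiples_of_finite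
    (Algebra.algebraMapSubmonoid (integralClosure A L) x.primeCompl) (fun i => β i)
  obtain ⟨y0, hy0, rfl⟩ := hs0
  choose b hb using hint
  have hbL : ∀ i, ((b i : integralClosure A L) : L) = algebraMap A L y0 * ((β i : _) : L) := by
    intro i
    have h1 := congrArg (fun z : integralClosure R L => (z : L)) (hb i)
    simpa [Algebra.smul_def, RingHom.algebraMap_toAlgebra, RegLocal.integralClosureMap,
      Subalgebra.algebraMap_def] using h1
  -- the discriminant
  have hdetβ : (Matrix.of fun i j => Algebra.trace K L (((β i : _) : L) * ((β j : _) : L))).det =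
      algebraMap R K (Algebra.discr R β) := by
    rw [← Algebra.discr_localizationLocalization R (nonZeroDivisors R) (Rₘ := K) L β,
      Algebra.discr_def]
    congr 1
    ext i j
    simp only [Algebra.traceMatrix_apply, Algebra.traceForm_apply, Matrix.of_apply,
      Module.Basis.localizationLocalization_apply]
    rfl
  have hint2 : ∀ i j, ∃ g : A, algebraMap A K g =
      Algebra.trace K L ((b i : L) * (b j : L)) := by
    intro i j
    have h1 : IsIntegral A (Algebra.trace K L ((b i : L) * (b j : L))) :=
      Algebra.isIntegral_trace ((b i).2.mul (b j).2)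
    exact IsIntegrallyClosed.isIntegral_iff.mp h1
  choose g hg using hint2
  have hdet : algebraMap A K (Matrix.of g).det =
      (Matrix.of fun i j => Algebra.trace K L ((b i : L) * (b j : L))).det := by
    rw [RingHom.map_det]
    congr 1
    ext i j
    simp [hg]
  have hdet2 : (Matrix.of fun i j => Algebra.trace K L ((b i : L) * (b j : L))).det =
      (algebraMap A K y0 ^ 2) ^ n * algebraMap R K (Algebra.discr R β) := by
    rw [← hdetβ]
    have h1 : (Matrix.of fun i j => Algebra.trace K L ((b i : L) * (b j : L))) =
        (algebraMap A K y0 ^ 2) • (Matrix.of fun i j =>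
          Algebra.trace K L (((β i : _) : L) * ((β j : _) : L))) := by
      ext i j
      simp only [Matrix.of_apply, Matrix.smul_apply, smul_eq_mul]
      rw [hbL i, hbL j, ← smul_eq_mul (a := algebraMap A K y0 ^ 2), ← map_smul]
      congr 1
      rw [Algebra.smul_def, map_pow, ← IsScalarTower.algebraMap_apply A K L]
      ring
    rw [h1, Matrix.det_smul, Fintype.card_fin]
  have hdx : (Matrix.of g).det ∉ x := by
    have h1 : algebraMap A R (Matrix.of g).det =
        (algebraMap A R y0 ^ 2) ^ n * Algebra.discr R β := by
      apply IsFractionRing.injective R K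
      rw [← IsScalarTower.algebraMap_apply A R K, hdet, hdet2, map_mul, map_pow, map_pow,
        ← IsScalarTower.algebraMap_apply A R K]
    have h2 : IsUnit (algebraMap A R (Matrix.of g).det) := by
      rw [h1]
      exact (((IsLocalization.map_units R (⟨y0, hy0⟩ : x.primeCompl)).pow 2).pow n).mul hβ
    exact (IsLocalization.AtPrime.isUnit_to_map_iff R x _).mp h2
  refine ⟨n, b, (Matrix.of g).det, fun hmem => hdx (Ideal.mem_comap.mpr hmem), hdet, fun c => ?_⟩
  -- spanning
  obtain ⟨t, ht⟩ := IsLocalization.exist_integer_multiples_of_finite x.primeCompl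
    (fun i => β.repr (algebraMap (integralClosure A L) (integralClosure R L) c) i)
  choose a ha using ht
  refine ⟨(t : A) * y0, fun hmem => ?_, a, ?_⟩
  · have h1 : (t : A) * y0 ∈ x := Ideal.mem_comap.mpr hmem
    rcases hxprime.mem_or_mem h1 with h2 | h2
    · exact t.2 h2
    · exact hy0 h2
  · apply Subtype.ext
    have hsum : (c : L) = ∑ i, algebraMap R L
        (β.repr (algebraMap (integralClosure A L) (integralClosure R L) c) i) *
          ((β i : _) : L) := by
      have h1 := congrArg (fun z : integralClosure R L => (z : L))
        (β.sum_repr (algebraMap (integralClosure A L) (integralClosure R L) c))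
      simp only [AddSubmonoidClass.coe_finsetSum] at h1
      rw [show (c : L) = ((algebraMap (integralClosure A L) (integralClosure R L) c : _) : L)
        from rfl, ← h1]
      refine Finset.sum_congr rfl fun i _ => ?_
      rw [Algebra.smul_def]
      rfl
    have haL : ∀ i, algebraMap A L (a i) = algebraMap A L (t : A) * algebraMap R L
        (β.repr (algebraMap (integralClosure A L) (integralClosure R L) c) i) := by
      intro i
      rw [IsScalarTower.algebraMap_apply A R L (a i), ha i, Algebra.smul_def, map_mul,
        ← IsScalarTower.algebraMap_apply A R L]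
    have hL : (((t : A) * y0) • c : integralClosure A L).1 =
        algebraMap A L ((t : A) * y0) * (c : L) := by
      rw [Algebra.smul_def]; rfl
    have hR : ((∑ i, a i • b i : integralClosure A L) : L) =
        ∑ i, algebraMap A L (a i) * (b i : L) := by
      rw [AddSubmonoidClass.coe_finsetSum]
      refine Finset.sum_congr rfl fun i _ => ?_
      rw [Algebra.smul_def]; rfl
    rw [hL, hR, hsum, Finset.mul_sum]
    refine Finset.sum_congr rfl fun i _ => ?_
    rw [haL i, hbL i, map_mul]
    ring

section Chart

universe uO uE uL

variable {O : Type uO} {E : Type uE} {L : Type uL} [CommRing O] [IsDomain O]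
  [IsDiscreteValuationRing O]
  [Field E] [CharZero E] [Algebra O E] [IsFractionRing O E]
  [Field L] [Algebra E L] [Algebra O L] [IsScalarTower O E L]

/-- **Etale presentation on a chart** at a maximal ideal `M ∋ π` of the integral closure of `O[t]`
through no branch section. -/
theorem chart_exists_basis (π : O) (hπ : Irreducible π) (t : L) (ht : Transcendental E t)
    [FiniteDimensional (IntermediateField.adjoin E {t}) L]
    (S : Finset O)
    (M : Ideal (integralClosure (Algebra.adjoin O {t}) L)) (hM : M.IsMaximal)
    (hπM : GlueChart.piElt (Algebra.adjoin O {t}) π ∈ M)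
    (hnb : ∀ c ∈ S, ∀ m ∈ M, (m : L) ≠ t - algebraMap O L c)
    (h : ∀ f : O[X], Prime f → (∃ m ∈ M, (m : L) = aeval t f) →
      (∀ c ∈ S, ¬ Associated f (X - C c)) →
      TSDAt (IntermediateField.adjoin E {t}) (Algebra.adjoin O {t}) (aeval t f)) :
    ∃ (n : ℕ) (b : Fin n → integralClosure (Algebra.adjoin O {t}) L) (d : Algebra.adjoin O {t}),
      algebraMap (Algebra.adjoin O {t}) (integralClosure (Algebra.adjoin O {t}) L) d ∉ M ∧
      (d : L) = algebraMap (IntermediateField.adjoin E {t}) L
        (Matrix.of fun i j =>
          Algebra.trace (IntermediateField.adjoin E {t}) L ((b i : L) * (b j : L))).det ∧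
      ∀ c : integralClosure (Algebra.adjoin O {t}) L, ∃ s : Algebra.adjoin O {t},
        algebraMap (Algebra.adjoin O {t}) (integralClosure (Algebra.adjoin O {t}) L) s ∉ M ∧
        ∃ a : Fin n → Algebra.adjoin O {t}, s • c = ∑ i, a i • b i := by
  classical
  have hinjOE : Function.Injective (algebraMap O E) := IsFractionRing.injective O E
  have htO : Transcendental O t := ht.restrictScalars hinjOE
  have hwK : t ∈ IntermediateField.adjoin E {t} := IntermediateField.mem_adjoin_simple_self E t
  let algAK : Algebra (Algebra.adjoin O {t}) (IntermediateField.adjoin E {t}) :=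
    (ChartInst.incl O t (IntermediateField.adjoin E {t}) hwK).toAlgebra
  have towerAKL : IsScalarTower (Algebra.adjoin O {t}) (IntermediateField.adjoin E {t}) L :=
    ChartInst.isScalarTower_incl O t _ hwK
  have fracA : IsFractionRing (Algebra.adjoin O {t}) (IntermediateField.adjoin E {t}) :=
    ChartInst.isFractionRing_incl O t _ hwK le_rfl
  have noethA : IsNoetherianRing (Algebra.adjoin O {t}) :=
    ChartInst.isNoetherianRing_adjoin O t htO
  have ufdA : UniqueFactorizationMonoid (Algebra.adjoin O {t}) :=
    ChartInst.uniqueFactorizationMonoid_adjoin O t htO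
  have icA : IsIntegrallyClosed (Algebra.adjoin O {t}) :=
    ChartInst.isIntegrallyClosed_adjoin O t htO
  have hπA : Prime (algebraMap O (Algebra.adjoin O {t}) π) :=
    ChartInst.prime_algebraMap_adjoin O t htO hπ.prime
  have hmaxπ : (Ideal.span {π}).IsMaximal := by
    rw [← hπ.maximalIdeal_eq]
    exact IsLocalRing.maximalIdeal.isMaximal O
  have pirA : IsPrincipalIdealRing
      (Algebra.adjoin O {t} ⧸ Ideal.span {algebraMap O (Algebra.adjoin O {t}) π}) :=
    ChartInst.isPrincipalIdealRing_quotient_adjoin O t htO π
  set e := ChartInst.polyEquiv O t htO with he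
  set ι := algebraMap (Algebra.adjoin O {t}) (integralClosure (Algebra.adjoin O {t}) L) with hι
  have hassoc : ∀ f g : O[X], Associated f g → ι (e f) ∈ M → ι (e g) ∈ M := by
    rintro f g ⟨u, rfl⟩ hf
    rw [map_mul, map_mul]
    exact M.mul_mem_right _ hf
  have hcoe : ∀ c : O, ((ι (e (X - C c)) : integralClosure (Algebra.adjoin O {t}) L) : L) =
      t - algebraMap O L c := by
    intro c
    change aeval t (X - C c : O[X]) = _
    rw [map_sub, aeval_X, aeval_C]
  have key : ∀ p : Algebra.adjoin O {t}, Prime p → ι p ∈ M →
      LocalDisc.TSDField (Algebra.adjoin O {t}) (IntermediateField.adjoin E {t}) L p := by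
    intro p hp hpM
    have hfp : e (e.symm p) = p := AlgEquiv.apply_symm_apply e p
    have hfprime : Prime (e.symm p) := (MulEquiv.prime_iff e).mp (by rw [hfp]; exact hp)
    have hcoep : (p : L) = aeval t (e.symm p) := by
      conv_lhs => rw [← hfp]
      rfl
    have h1 := h (e.symm p) hfprime ⟨ι p, hpM, hcoep⟩ (fun c hc hass => by
      have h1 : ι (e (X - C c)) ∈ M :=
        hassoc _ _ hass (by rw [AlgEquiv.apply_symm_apply]; exact hpM)
      exact hnb c hc _ h1 (hcoe c))
    rw [← hcoep] at h1
    exact ChartLD.tsdField_of_tsdAt t _ hwK p h1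
  obtain ⟨n, b, d, hd, hdet, hspan⟩ := exists_basis_of_tsdField
    (K := IntermediateField.adjoin E {t}) (algebraMap O (Algebra.adjoin O {t}) π) hπA M hM hπM key
  refine ⟨n, b, d, hd, ?_, hspan⟩
  rw [← hdet]
  rfl

/-- **Etale presentation on the `u`-chart** (hypotheses of the Model theorem, TSD form). -/
theorem basis_zero_tsd (π : O) (hπ : Irreducible π) (u : L) (hu : Transcendental E u)
    [FiniteDimensional (IntermediateField.adjoin E {u}) L]
    (S : Finset O) (hi : GaussTSD (E := E) π u) (hii : HorizTSD (E := E) S u)
    (M : Ideal (integralClosure (Algebra.adjoin O {u}) L)) (hM : M.IsMaximal)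
    (hπM : GlueChart.piElt (Algebra.adjoin O {u}) π ∈ M)
    (hnb : ∀ c ∈ S, ∀ m ∈ M, (m : L) ≠ u - algebraMap O L c) :
    ∃ (n : ℕ) (b : Fin n → integralClosure (Algebra.adjoin O {u}) L) (d : Algebra.adjoin O {u}),
      algebraMap (Algebra.adjoin O {u}) (integralClosure (Algebra.adjoin O {u}) L) d ∉ M ∧
      (d : L) = algebraMap (IntermediateField.adjoin E {u}) L
        (Matrix.of fun i j =>
          Algebra.trace (IntermediateField.adjoin E {u}) L ((b i : L) * (b j : L))).det ∧
      ∀ c : integralClosure (Algebra.adjoin O {u}) L, ∃ s : Algebra.adjoin O {u},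
        algebraMap (Algebra.adjoin O {u}) (integralClosure (Algebra.adjoin O {u}) L) s ∉ M ∧
        ∃ a : Fin n → Algebra.adjoin O {u}, s • c = ∑ i, a i • b i :=
  chart_exists_basis π hπ u hu S M hM hπM hnb
    (fun f hf _ hfS => ChartSwap.chartUnram_of π hπ u hu S hi hii f hf hfS)

/-- **Etale presentation on the `u`-chart** (hypotheses of `Model.main_a`, family form). -/
theorem basis_zero (π : O) (hπ : Irreducible π) (u : L) (hu : Transcendental E u)
    [FiniteDimensional (IntermediateField.adjoin E {u}) L]
    (hi : GaussUnram (E := E) π u) (S : Finset O) (hii : HorizUnram (E := E) S u)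
    (M : Ideal (integralClosure (Algebra.adjoin O {u}) L)) (hM : M.IsMaximal)
    (hπM : GlueChart.piElt (Algebra.adjoin O {u}) π ∈ M)
    (hnb : ∀ c ∈ S, ∀ m ∈ M, (m : L) ≠ u - algebraMap O L c) :
    ∃ (n : ℕ) (b : Fin n → integralClosure (Algebra.adjoin O {u}) L) (d : Algebra.adjoin O {u}),
      algebraMap (Algebra.adjoin O {u}) (integralClosure (Algebra.adjoin O {u}) L) d ∉ M ∧
      (d : L) = algebraMap (IntermediateField.adjoin E {u}) L
        (Matrix.of fun i j =>
          Algebra.trace (IntermediateField.adjoin E {u}) L ((b i : L) * (b j : L))).det ∧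
      ∀ c : integralClosure (Algebra.adjoin O {u}) L, ∃ s : Algebra.adjoin O {u},
        algebraMap (Algebra.adjoin O {u}) (integralClosure (Algebra.adjoin O {u}) L) s ∉ M ∧
        ∃ a : Fin n → Algebra.adjoin O {u}, s • c = ∑ i, a i • b i :=
  basis_zero_tsd π hπ u hu S (FamilyTSD.gaussTSD_of_gaussUnram π hπ u hu hi)
    (FamilyTSD.horizTSD_of_horizUnram u hu S hii) M hM hπM hnb

end Chart

end Fermat.Agent.S30.Model.EtaleBasis
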