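import Mathlib
import Fermat.Agent.S30.Model.UnramTSD

/-!
# Model theorem: transfer of "unramified at a horizontal prime" from `E[u]` to `O[u]`

The frozen hypothesis (ii) (`Model.HorizUnram`) is stated over the base ring `E[u]`
(a localisation of `O[u]`: invert the nonzero constants).  The local analysis at a closed point of
the special fibre needs field-trace self-duality of the integral closure of `O[u]` at the
horizontal prime elements `P` of `O[u]`.

* `tsdField_of_family_of_isLocalization` : `A' = S⁻¹ A`, `p` a prime element of `A`.  A family of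
  `[L : K]` elements integral over `A'` whose discriminant is not divisible by `p` in `A'` gives
  `LocalDisc.TSDField A K L p` (clear the denominators of the family; the discriminant changes by
  the square of an element of `S`).
-/

set_option autoImplicit false

namespace Fermat.Agent.S30.Model.HorizTSD

open Fermat.Agent.S30.Model Matrix

/-- **Clearing denominators in a family.**  `A' = S⁻¹ A` inside `K = Frac A`, `L / K` finite, `p`
a prime element of `A`.  If `b` is a family of `[L : K]` elements of `L` integral over `A'` whose
trace discriminant `d' ∈ A'` is not divisible by `p` in `A'`, then the integral closure of `A` in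
`L` is field-trace self-dual at `p`. -/
theorem tsdField_of_family_of_isLocalization {A A' K L : Type*} [CommRing A] [IsDomain A]
    [IsIntegrallyClosed A] [CommRing A'] [Algebra A A'] (S : Submonoid A) [IsLocalization S A']
    [Field K] [Field L] [Algebra A K] [IsFractionRing A K] [Algebra A' K] [IsScalarTower A A' K]
    [Algebra K L] [Algebra A L] [IsScalarTower A K L] [Algebra A' L] [IsScalarTower A A' L]
    [FiniteDimensional K L] (hinj : Function.Injective (algebraMap A' K))
    {p : A} (hp : Prime p)
    (b : Fin (Module.finrank K L) → L) (hb : ∀ i, IsIntegral A' (b i)) (d' : A')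
    (hd' : algebraMap A' K d' = (Algebra.traceMatrix K b).det)
    (hpd : ¬ algebraMap A A' p ∣ d') :
    LocalDisc.TSDField A K L p := by
  classical
  -- clear denominators
  have hm : ∀ i, ∃ m : S, IsIntegral A (m • b i) := fun i =>
    IsIntegral.exists_multiple_integral_of_isLocalization S (b i) (hb i)
  choose m hm using hm
  have hb' : ∀ i, IsIntegral A ((m i : A) • b i) := fun i => by
    have := hm i
    rwa [Submonoid.smul_def] at this
  -- the new trace matrix
  have hT' : Algebra.traceMatrix K (fun i => (m i : A) • b i) =
      Matrix.diagonal (fun i => algebraMap A K (m i)) * Algebra.traceMatrix K b *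
        Matrix.diagonal (fun i => algebraMap A K (m i)) := by
    ext i j
    rw [Matrix.mul_diagonal, Matrix.diagonal_mul, Algebra.traceMatrix_apply,
      Algebra.traceMatrix_apply, Algebra.traceForm_apply, Algebra.traceForm_apply]
    have : (m i : A) • b i * (m j : A) • b j =
        (algebraMap A K (m i) * algebraMap A K (m j)) • (b i * b j) := by
      rw [smul_mul_smul_comm, ← map_mul, IsScalarTower.algebraMap_smul]
    rw [this, map_smul, smul_eq_mul]
    ring
  have hdet' : (Algebra.traceMatrix K (fun i => (m i : A) • b i)).det =
      algebraMap A K ((∏ i, (m i : A)) ^ 2) * (Algebra.traceMatrix K b).det := by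
    rw [hT', Matrix.det_mul, Matrix.det_mul, Matrix.det_diagonal, map_pow, map_prod]
    ring
  -- entries of the new trace matrix lie in `A`
  have hT : ∀ i j, ∃ t : A, algebraMap A K t =
      Algebra.traceMatrix K (fun i => (m i : A) • b i) i j := by
    intro i j
    have h1 : IsIntegral A (Algebra.trace K L ((m i : A) • b i * (m j : A) • b j)) :=
      Algebra.isIntegral_trace ((hb' i).mul (hb' j))
    obtain ⟨t, ht⟩ := IsIntegrallyClosed.isIntegral_iff.1 h1
    exact ⟨t, ht⟩
  choose t ht using hT
  have hM : (Matrix.of t).map (algebraMap A K) =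
      Algebra.traceMatrix K (fun i => (m i : A) • b i) := by
    ext i j; simp [ht]
  have hd : algebraMap A K (Matrix.of t).det =
      (Algebra.traceMatrix K (fun i => (m i : A) • b i)).det := by
    rw [← hM, RingHom.map_det, RingHom.mapMatrix_apply]
  refine UnramTSD.tsdField_of_family hp (fun i => (m i : A) • b i) hb' (Matrix.of t).det hd ?_
  rintro ⟨c, hc⟩
  apply hpd
  have hu : IsUnit (algebraMap A A' ((∏ i, (m i : A)) ^ 2)) := by
    have hmem : (∏ i, (m i : A)) ^ 2 ∈ S := pow_mem (prod_mem fun i _ => (m i).2) 2
    exact IsLocalization.map_units A' (⟨_, hmem⟩ : S)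
  have heq : algebraMap A A' ((∏ i, (m i : A)) ^ 2) * d' = algebraMap A A' p * algebraMap A A' c := by
    apply hinj
    rw [map_mul, map_mul, hd', ← IsScalarTower.algebraMap_apply A A' K,
      ← IsScalarTower.algebraMap_apply A A' K, ← IsScalarTower.algebraMap_apply A A' K, ← hdet',
      ← hd, hc, map_mul]
  obtain ⟨v, hv⟩ := hu
  refine ⟨↑v⁻¹ * algebraMap A A' c, ?_⟩
  have : d' = ↑v⁻¹ * (algebraMap A A' ((∏ i, (m i : A)) ^ 2) * d') := by
    rw [← hv, ← mul_assoc, Units.inv_mul, one_mul]
  rw [this, heq]
  ring

/-- **From the frozen `UnramAt` over the localised base to `TSDField` over the base.**  The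
hypothesis `h` is, verbatim, the unfolding of `Model.UnramAt K D q` (`Model/Main.lean`), where the
base ring `D ⊆ L` is the image of `A' = S⁻¹ A` (e.g. `D = E[u]`, `A = O[X]`, `A' = E[X]`) and `q`
is the image of the prime element `p` of `A` (a horizontal prime). -/
theorem tsdField_of_unramAt_of_isLocalization {E L A₀ A A' : Type*} [Field E] [Field L]
    [Algebra E L] [CommRing A₀] [Algebra A₀ L] (K : IntermediateField E L) (D : Subalgebra A₀ L)
    (q : L) [CommRing A] [IsDomain A] [IsIntegrallyClosed A] [CommRing A'] [Algebra A A']
    (S : Submonoid A) [IsLocalization S A'] [Algebra A K] [IsFractionRing A K] [Algebra A' K]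
    [IsScalarTower A A' K] [Algebra A L] [IsScalarTower A K L] [Algebra A' L]
    [IsScalarTower A A' L] [IsScalarTower A' K L] [FiniteDimensional K L]
    (hinj : Function.Injective (algebraMap A' K))
    (hD : ∀ z : L, z ∈ D ↔ z ∈ Set.range (algebraMap A' L))
    {p : A} (hp : Prime p) (hq : algebraMap A L p = q)
    (h : ∃ b : Fin (Module.finrank K L) → L, (∀ i, IsIntegral D (b i)) ∧
      ∃ d : L, d ∈ D ∧ ((Algebra.traceMatrix K b).det : L) = d ∧ ∀ c : L, c ∈ D → d ≠ q * c) :
    LocalDisc.TSDField A K L p := by
  obtain ⟨b, hb, d, hdD, hdet, hnd⟩ := h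
  obtain ⟨d₀, hd₀⟩ := (hD d).1 hdD
  refine tsdField_of_family_of_isLocalization S hinj hp b
    (fun i => UnramTSD.isIntegral_of_isIntegral_subalgebra D (fun z hz => (hD z).1 hz) (hb i))
    d₀ ?_ ?_
  · apply (algebraMap K L).injective
    rw [← IsScalarTower.algebraMap_apply A' K L, hd₀, ← hdet]
    rfl
  · rintro ⟨c, rfl⟩
    apply hnd (algebraMap A' L c) ((hD _).2 ⟨c, rfl⟩)
    rw [← hd₀, map_mul, ← IsScalarTower.algebraMap_apply A A' L, hq]

end Fermat.Agent.S30.Model.HorizTSD
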