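import Mathlib
import Fermat.Agent.S30.Model.Main
import Fermat.Agent.S30.Model.Defs
import Fermat.Agent.S30.Model.GlueChart
import Fermat.Agent.S30.Model.KummerPersist
import Fermat.Agent.S30.Model.ChartInst
import Fermat.Agent.Lib.NormalFree

/-!
# MODEL THEOREM, row R9 `kummer_persist` (independent twin, helper100)

The statement `kummer_persist` below is, verbatim, the row `Model.Assembly.kummer_persist`.
It is proved from `KummerPersist.tsd_kummer` (helper101) by:

* `tsdAt_of_tsd` : transport of trace-self-duality from the pair `(B[u] ⊆ E(u))` acting on `L'`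
  through `L` to the elementwise form `TSDAt E(u') B[u']` inside `L'` (`u' = algebraMap L L' u`);
* `isSplittingField_div_pow` : `L'` is also a splitting field of `X ^ p - g / τ ^ p`;
* the non-zero-divisor hypotheses of `tsd_kummer` from `NormalFree.exists_isIntegral_smul_eq`
  (over the integral closure of `O[u]` in `L` for the Gauss prime, over `E[u]` for the horizontal
  primes).
-/

set_option autoImplicit false

open Polynomial

namespace Fermat.Agent.S30.Model.KummerRowsAlt

open Fermat.Agent.S30.Model

section Transport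

/-- The tower `B → L → L'` from the towers through `E`. -/
theorem isScalarTower_mid (B : Type*) {E L L' : Type*} [CommRing B] [Field E] [Algebra B E]
    [Field L] [Algebra E L] [Algebra B L] [IsScalarTower B E L] [Field L'] [Algebra L L']
    [Algebra E L'] [IsScalarTower E L L'] [Algebra B L'] [IsScalarTower B E L'] :
    IsScalarTower B L L' :=
  IsScalarTower.of_algebraMap_eq fun x => by
    rw [IsScalarTower.algebraMap_apply B E L', IsScalarTower.algebraMap_apply B E L,
      ← IsScalarTower.algebraMap_apply E L L']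

variable (B : Type*) {L L' : Type*} [CommRing B] [Field L] [Algebra B L] [Field L']
  [Algebra L L'] [Algebra B L'] [IsScalarTower B L L']

/-- The chart of `L'` is the image of the chart of `L`. -/
theorem adjoin_map_eq (u : L) :
    Algebra.adjoin B {algebraMap L L' u} =
      (Algebra.adjoin B {u}).map (IsScalarTower.toAlgHom B L L') := by
  rw [AlgHom.map_adjoin, Set.image_singleton]
  rfl

/-- Membership in the chart of `L'`. -/
theorem mem_adjoin_map_iff (u : L) (w' : L') :
    w' ∈ Algebra.adjoin B {algebraMap L L' u} ↔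
      ∃ w : L, w ∈ Algebra.adjoin B {u} ∧ algebraMap L L' w = w' := by
  rw [adjoin_map_eq B u]
  rfl

/-- Integrality over the chart of `L'` is integrality over the chart of `L`. -/
theorem isIntegral_adjoin_iff (u : L) (x : L') :
    IsIntegral (Algebra.adjoin B {algebraMap L L' u}) x ↔ IsIntegral (Algebra.adjoin B {u}) x := by
  have hmap := adjoin_map_eq B (L' := L') u
  -- the surjection `B[u] → B[u']`
  let ψ : Algebra.adjoin B {u} →+* Algebra.adjoin B {algebraMap L L' u} :=
    { toFun := fun a => ⟨algebraMap L L' (a : L), by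
        rw [hmap]
        exact ⟨a, a.2, rfl⟩⟩
      map_one' := Subtype.ext (map_one _)
      map_mul' := fun a b => Subtype.ext (map_mul _ _ _)
      map_zero' := Subtype.ext (map_zero _)
      map_add' := fun a b => Subtype.ext (map_add _ _ _) }
  have hψ : Function.Surjective ψ := by
    rintro ⟨y, hy⟩
    have hy' := hy
    rw [hmap] at hy'
    obtain ⟨a, ha, rfl⟩ := hy'
    exact ⟨⟨a, ha⟩, rfl⟩
  let _ : Algebra (Algebra.adjoin B {u}) (Algebra.adjoin B {algebraMap L L' u}) := ψ.toAlgebra
  have : IsScalarTower (Algebra.adjoin B {u}) (Algebra.adjoin B {algebraMap L L' u}) L' :=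
    IsScalarTower.of_algebraMap_eq fun _ => rfl
  have : Algebra.IsIntegral (Algebra.adjoin B {u}) (Algebra.adjoin B {algebraMap L L' u}) :=
    Algebra.isIntegral_of_surjective hψ
  exact ⟨fun h => isIntegral_trans x h, fun h => h.tower_top⟩

end Transport

section Trace

variable {E L L' : Type*} [Field E] [Field L] [Algebra E L] [Field L'] [Algebra L L']
  [Algebra E L'] [IsScalarTower E L L']

/-- The trace over the image of an intermediate field. -/
theorem trace_map_eq (K : IntermediateField E L) (K' : IntermediateField E L')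
    (hK : K' = K.map (IsScalarTower.toAlgHom E L L')) (z : L') :
    ((Algebra.trace K' L' z : K') : L') = algebraMap L L' ((Algebra.trace K L' z : K) : L) := by
  subst hK
  set φ : L →ₐ[E] L' := IsScalarTower.toAlgHom E L L' with hφ
  have he : (algebraMap (K.map φ) L').comp ((K.equivMap φ).toRingEquiv : K →+* K.map φ) =
      algebraMap K L' := by
    ext k
    rfl
  have h := Algebra.trace_eq_of_ringEquiv (K.equivMap φ).toRingEquiv he z
  rw [← h]
  rfl

/-- `E(u')` is the image of `E(u)`. -/
theorem adjoin_simple_map_eq (u : L) :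
    IntermediateField.adjoin E {algebraMap L L' u} =
      (IntermediateField.adjoin E {u}).map (IsScalarTower.toAlgHom E L L') := by
  rw [IntermediateField.adjoin_map, Set.image_singleton]
  rfl

/-- Finiteness passes to the image of the base field. -/
theorem finiteDimensional_map (K : IntermediateField E L) (K' : IntermediateField E L')
    (hK : K' = K.map (IsScalarTower.toAlgHom E L L')) [FiniteDimensional K L]
    [FiniteDimensional L L'] : FiniteDimensional K' L' := by
  subst hK
  set φ : L →ₐ[E] L' := IsScalarTower.toAlgHom E L L' with hφ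
  have : Module.Finite K L' := Module.Finite.trans L L'
  have he : (algebraMap (K.map φ) L').comp ((K.equivMap φ).toRingEquiv : K →+* K.map φ) =
      ((RingEquiv.refl L' : L' ≃+* L') : L' →+* L').comp (algebraMap K L') := by
    ext k
    rfl
  exact Module.Finite.of_equiv_equiv (K.equivMap φ).toRingEquiv (RingEquiv.refl L') he

end Trace

section TSD

variable (B : Type*) {E L L' : Type*} [CommRing B] [Field E] [Algebra B E] [Field L] [Algebra E L]
  [Algebra B L] [IsScalarTower B E L] [Field L'] [Algebra L L'] [Algebra E L']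
  [IsScalarTower E L L'] [Algebra B L'] [IsScalarTower B E L']

/-- **Transport.**  Trace-self-duality of the integral closure of `B[u]` in `L'` with respect to
the base field `E(u) ⊆ L` (acting on `L'` through `L`), in the form produced by
`KummerPersist.tsd_kummer`, is the elementwise `TSDAt` of the chart `B[u']`, `u' = u` in `L'`. -/
theorem tsdAt_of_tsd (u : L) (q : Algebra.adjoin B {u})
    (h : letI := (ChartInst.incl B u (IntermediateField.adjoin E {u})
        (IntermediateField.mem_adjoin_simple_self E u)).toAlgebra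
      KummerPersist.TSD (Algebra.adjoin B {u}) (IntermediateField.adjoin E {u}) L' q) :
    TSDAt (IntermediateField.adjoin E {algebraMap L L' u})
      (Algebra.adjoin B {algebraMap L L' u}) (algebraMap L L' (q : L)) := by
  let _ := (ChartInst.incl B u (IntermediateField.adjoin E {u})
    (IntermediateField.mem_adjoin_simple_self E u)).toAlgebra
  have hBLL : IsScalarTower B L L' := isScalarTower_mid B (E := E)
  intro x hx hxy
  have hx' : IsIntegral (Algebra.adjoin B {u}) x := (isIntegral_adjoin_iff B u x).mp hx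
  obtain ⟨z, hz, hxz⟩ := h x hx' (fun y hy => by
    obtain ⟨w', hw', hw⟩ := hxy y ((isIntegral_adjoin_iff B u y).mpr hy)
    obtain ⟨w, hwD, rfl⟩ := (mem_adjoin_map_iff B u w').mp hw'
    refine ⟨⟨w, hwD⟩, ?_⟩
    rw [trace_map_eq (IntermediateField.adjoin E {u}) _ (adjoin_simple_map_eq u), ← map_mul] at hw
    have hw2 := (algebraMap L L').injective hw
    apply Subtype.ext
    rw [hw2]
    rfl)
  exact ⟨z, (isIntegral_adjoin_iff B u z).mpr hz, hxz⟩

end TSD

section Splitting

variable {L L' : Type*} [Field L] [Field L'] [Algebra L L']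

/-- `L(g^{1/p})` is also the splitting field of `X ^ p - g / τ ^ p`. -/
theorem isSplittingField_div_pow (p : ℕ) (hp : 0 < p) (ζ : L) (hζ : IsPrimitiveRoot ζ p)
    (g τ : L) (hτ : τ ≠ 0) [IsSplittingField L L' (X ^ p - C g)] :
    IsSplittingField L L' (X ^ p - C (g / τ ^ p)) := by
  have : NeZero p := ⟨hp.ne'⟩
  have hθ := rootOfSplitsXPowSubC_pow g L' (n := p)
  set θ : L' := rootOfSplitsXPowSubC hp g L' with hθdef
  have hτ' : algebraMap L L' τ ≠ 0 := by
    simpa using (algebraMap L L').injective.ne hτ
  have hζ' : IsPrimitiveRoot (algebraMap L L' ζ) p :=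
    hζ.map_of_injective (algebraMap L L').injective
  refine ⟨?_, ?_⟩
  · have h1 : (X ^ p - C (g / τ ^ p) : L[X]).map (algebraMap L L')
        = X ^ p - C (algebraMap L L' (g / τ ^ p)) := by
      simp
    rw [h1]
    refine X_pow_sub_C_splits_of_isPrimitiveRoot hζ' (α := θ / algebraMap L L' τ) ?_
    rw [div_pow, hθ, map_div₀, map_pow]
  · have htop := IsSplittingField.adjoin_rootSet L' (X ^ p - C g : L[X])
    have hne : (X ^ p - C (g / τ ^ p) : L[X]) ≠ 0 := X_pow_sub_C_ne_zero hp _
    have hne' : (X ^ p - C g : L[X]) ≠ 0 := X_pow_sub_C_ne_zero hp _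
    rw [eq_top_iff, ← htop]
    refine Algebra.adjoin_le ?_
    intro r hr
    rw [Polynomial.mem_rootSet] at hr
    have hr2 : r ^ p = algebraMap L L' g := by
      have := hr.2
      simp only [map_sub, map_pow, aeval_X, aeval_C] at this
      exact sub_eq_zero.mp this
    have hmem : r / algebraMap L L' τ ∈ (X ^ p - C (g / τ ^ p) : L[X]).rootSet L' := by
      rw [Polynomial.mem_rootSet]
      refine ⟨hne, ?_⟩
      simp only [map_sub, map_pow, aeval_X, aeval_C]
      rw [div_pow, hr2, map_div₀, map_pow, sub_self]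
    have h2 : r = algebraMap L L' τ * (r / algebraMap L L' τ) := by
      field_simp
    rw [h2]
    exact Subalgebra.mul_mem _ (Subalgebra.algebraMap_mem _ τ) (Algebra.subset_adjoin hmem)

end Splitting

section Rows

variable {O E L : Type*} [CommRing O] [IsDomain O]
  [Field E] [Algebra O E] [IsFractionRing O E]
  [Field L] [Algebra E L] [Algebra O L] [IsScalarTower O E L]

/-- The Gauss prime: (i) passes to `L' = L(g^{1/p})`. -/
theorem gaussTSD_kummer (π : O) (u : L)
    [FiniteDimensional (IntermediateField.adjoin E {u}) L]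
    (hi : GaussTSD (E := E) π u)
    (hprime : Prime (GlueChart.piElt (Algebra.adjoin O {u}) π))
    (p : ℕ) (hp : p.Prime) (hpO : IsUnit (p : O)) (ζ : O) (hζ : IsPrimitiveRoot ζ p)
    (g : L) (hg1 : GaussOne π u g) (hnp : ∀ h : L, h ^ p ≠ g)
    (L' : Type*) [Field L'] [Algebra L L'] [Algebra E L'] [Algebra O L']
    [IsScalarTower E L L'] [IsScalarTower O E L'] [IsSplittingField L L' (X ^ p - C g)] :
    GaussTSD (E := E) π (algebraMap L L' u) := by
  classical
  have : Fact p.Prime := ⟨hp⟩
  have hOL : IsScalarTower O L L' := isScalarTower_mid O (E := E)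
  have huK : u ∈ IntermediateField.adjoin E {u} := IntermediateField.mem_adjoin_simple_self E u
  let _ := (ChartInst.incl O u (IntermediateField.adjoin E {u}) huK).toAlgebra
  have hfrac : IsFractionRing (Algebra.adjoin O {u}) (IntermediateField.adjoin E {u}) :=
    ChartInst.isFractionRing_incl O u _ huK le_rfl
  have htower : IsScalarTower (Algebra.adjoin O {u}) (IntermediateField.adjoin E {u}) L :=
    ChartInst.isScalarTower_incl O u _ huK
  have hinjOL : Function.Injective (algebraMap O L) := by
    rw [IsScalarTower.algebraMap_eq O E L]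
    exact (algebraMap E L).injective.comp (IsFractionRing.injective O E)
  have hζL : IsPrimitiveRoot (algebraMap O L ζ) p := hζ.map_of_injective hinjOL
  obtain ⟨a, b, ha, hb, hbπ, hgb⟩ := hg1
  set q : Algebra.adjoin O {u} := algebraMap O (Algebra.adjoin O {u}) π with hq
  have hqL : algebraMap (Algebra.adjoin O {u}) L q = algebraMap O L π := rfl
  have hg0 : g ≠ 0 := fun h0 => hnp 0 (by rw [h0, zero_pow hp.ne_zero])
  have hb0 : b ≠ 0 := fun h0 => hbπ 0 isIntegral_zero (by rw [h0, mul_zero])
  set d : L := b + algebraMap O L π * a with hd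
  have hqint : IsIntegral (Algebra.adjoin O {u}) (algebraMap O L π) := by
    rw [← hqL]
    exact isIntegral_algebraMap
  have hdint : IsIntegral (Algebra.adjoin O {u}) d := hb.add (hqint.mul ha)
  have hbd : d = b * g := by rw [← hgb, mul_comm]
  have hd0 : d ≠ 0 := by rw [hbd]; exact mul_ne_zero hb0 hg0
  -- (i) for `L` in the `tsd_kummer` shape
  have hL : KummerPersist.TSD (Algebra.adjoin O {u}) (IntermediateField.adjoin E {u}) L q := by
    intro x hx hxy
    refine hi x hx (fun y hy => ?_)
    obtain ⟨w, hw⟩ := hxy y hy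
    exact ⟨(w : L), w.2, by rw [hw]; rfl⟩
  -- the non-zero-divisor hypothesis
  have hCL : IsIntegrallyClosed (integralClosure (Algebra.adjoin O {u}) L) :=
    integralClosure.isIntegrallyClosedOfFiniteExtension (IntermediateField.adjoin E {u})
  have hCLfrac : IsFractionRing (integralClosure (Algebra.adjoin O {u}) L) L :=
    integralClosure.isFractionRing_of_finite_extension (IntermediateField.adjoin E {u}) L
  have hNZD : ∀ x' y' : L', IsIntegral (Algebra.adjoin O {u}) x' →
      IsIntegral (Algebra.adjoin O {u}) y' →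
      algebraMap L L' ((p : L) * (b * d) ^ (p - 1)) * x' =
        algebraMap (Algebra.adjoin O {u}) L' q * y' →
      ∃ z : L', IsIntegral (Algebra.adjoin O {u}) z ∧
        x' = algebraMap (Algebra.adjoin O {u}) L' q * z := by
    intro x' y' hx' hy' h
    -- elements of `R = integralClosure O[u] L`
    set πR : integralClosure (Algebra.adjoin O {u}) L := GlueChart.piElt (Algebra.adjoin O {u}) π
      with hπR
    set bR : integralClosure (Algebra.adjoin O {u}) L := ⟨b, hb⟩ with hbR
    set dR : integralClosure (Algebra.adjoin O {u}) L := ⟨d, hdint⟩ with hdR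
    set aR : integralClosure (Algebra.adjoin O {u}) L := ⟨a, ha⟩ with haR
    set pR : integralClosure (Algebra.adjoin O {u}) L :=
      algebraMap (Algebra.adjoin O {u}) _ (algebraMap O (Algebra.adjoin O {u}) (p : O)) with hpR
    have hpRL : (pR : L) = (p : L) := by
      show algebraMap O L (p : O) = (p : L)
      rw [map_natCast]
    have hpRunit : IsUnit pR := (hpO.map _).map _
    have hnotb : ¬ πR ∣ bR := by
      intro hdvd
      obtain ⟨w, hw, hbw⟩ := (GlueChart.piElt_dvd_iff _ π bR).mp hdvd
      exact hbπ w hw hbw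
    have hnot : ¬ πR ∣ pR * (bR * dR) ^ (p - 1) := by
      intro hdvd
      rcases hprime.dvd_or_dvd hdvd with h1 | h1
      · exact hprime.not_isUnit (isUnit_of_dvd_unit h1 hpRunit)
      · rcases hprime.dvd_or_dvd (hprime.dvd_of_dvd_pow h1) with h2 | h2
        · exact hnotb h2
        · apply hnotb
          have hdR' : dR = bR + πR * aR := Subtype.ext rfl
          rw [hdR'] at h2
          exact (dvd_add_left (dvd_mul_right πR aR)).mp h2
    have hx'R : IsIntegral (integralClosure (Algebra.adjoin O {u}) L) x' := hx'.tower_top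
    have hy'R : IsIntegral (integralClosure (Algebra.adjoin O {u}) L) y' := hy'.tower_top
    have hsmul : (pR * (bR * dR) ^ (p - 1)) • x' = πR • y' := by
      rw [Algebra.smul_def, Algebra.smul_def]
      have e1 : algebraMap (integralClosure (Algebra.adjoin O {u}) L) L' (pR * (bR * dR) ^ (p - 1))
          = algebraMap L L' ((p : L) * (b * d) ^ (p - 1)) := by
        show algebraMap L L' ((pR * (bR * dR) ^ (p - 1) : integralClosure _ L) : L) = _
        congr 1
        rw [← hpRL]
        rfl
      have e2 : algebraMap (integralClosure (Algebra.adjoin O {u}) L) L' πR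
          = algebraMap (Algebra.adjoin O {u}) L' q := rfl
      rw [e1, e2]
      exact h
    obtain ⟨z, hz, hxz⟩ := Fermat.Agent.Lib.NormalFree.exists_isIntegral_smul_eq L hprime hnot
      hx'R hy'R hsmul
    refine ⟨z, isIntegral_trans z hz, ?_⟩
    rw [hxz, Algebra.smul_def]
    rfl
  have hT := KummerPersist.tsd_kummer (A := Algebra.adjoin O {u})
    (K := IntermediateField.adjoin E {u}) (L := L) (L' := L') p (algebraMap O L ζ) hζL q g hnp
    b d hb hdint hbd hb0 hd0 hNZD hL
  have hfin := tsdAt_of_tsd O (E := E) (L' := L') u q hT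
  have e3 : algebraMap L L' ((q : Algebra.adjoin O {u}) : L) = algebraMap O L' π := by
    rw [IsScalarTower.algebraMap_apply O L L' π]
    rfl
  rw [e3] at hfin
  exact hfin

omit [IsDomain O] [IsFractionRing O E] [Algebra O L] [IsScalarTower O E L] in
/-- The horizontal primes: (ii) passes to `L' = L(g^{1/p})`. -/
theorem horizTSD_kummer [CharZero E] (u : L) (hu : Transcendental E u)
    [FiniteDimensional (IntermediateField.adjoin E {u}) L]
    (S : Finset O) (hii : HorizTSD (E := E) S u)
    (p : ℕ) (hp : p.Prime) (ζ : L) (hζ : IsPrimitiveRoot ζ p)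
    (g : L) (hgu : LocPow (E := E) p u g) (hnp : ∀ h : L, h ^ p ≠ g)
    (L' : Type*) [Field L'] [Algebra L L'] [Algebra E L'] [Algebra O L']
    [IsScalarTower E L L'] [IsScalarTower O E L'] [IsSplittingField L L' (X ^ p - C g)] :
    HorizTSD (E := E) S (algebraMap L L' u) := by
  classical
  intro f hf hfS
  have hLf := hii f hf hfS
  have : Fact p.Prime := ⟨hp⟩
  have huK : u ∈ IntermediateField.adjoin E {u} := IntermediateField.mem_adjoin_simple_self E u
  let _ := (ChartInst.incl E u (IntermediateField.adjoin E {u}) huK).toAlgebra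
  have hfrac : IsFractionRing (Algebra.adjoin E {u}) (IntermediateField.adjoin E {u}) :=
    ChartInst.isFractionRing_incl E u _ huK le_rfl
  have hAic : IsIntegrallyClosed (Algebra.adjoin E {u}) := ChartInst.isIntegrallyClosed_adjoin E u hu
  have htower' : IsScalarTower (Algebra.adjoin E {u}) (IntermediateField.adjoin E {u}) L' :=
    IsScalarTower.of_algebraMap_eq fun _ => rfl
  obtain ⟨τ, hτ0, ⟨s₁, hs₁D, hs₁q, hs₁int⟩, ⟨s₂, hs₂D, hs₂q, hs₂int⟩⟩ := hgu f hf
  have hg0 : g ≠ 0 := fun h0 => hnp 0 (by rw [h0, zero_pow hp.ne_zero])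
  have hτp : τ ^ p ≠ 0 := pow_ne_zero _ hτ0
  set g₁ : L := g / τ ^ p with hg₁
  have hg₁0 : g₁ ≠ 0 := div_ne_zero hg0 hτp
  have hinv : τ ^ p / g = g₁⁻¹ := by rw [hg₁, inv_div]
  rw [hinv] at hs₂int
  have hnp₁ : ∀ w : L, w ^ p ≠ g₁ := by
    intro w hw
    apply hnp (w * τ)
    rw [mul_pow, hw, hg₁, div_mul_cancel₀ _ hτp]
  have hsplit : IsSplittingField L L' (X ^ p - C g₁) :=
    isSplittingField_div_pow p hp.pos ζ hζ g τ hτ0
  -- the prime `q = f(u)` of `E[u]`
  set q : Algebra.adjoin E {u} := ChartInst.polyEquiv E u hu f with hq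
  have hqprime : Prime q := (MulEquiv.prime_iff (ChartInst.polyEquiv E u hu).toMulEquiv).mpr hf.prime
  have hqL : (q : L) = aeval u f := ChartInst.coe_polyEquiv E u hu f
  rw [← hqL] at hLf hs₁q hs₂q
  have hs₁0 : s₁ ≠ 0 := fun h0 => hs₁q 0 (Subalgebra.zero_mem _) (by rw [h0, mul_zero])
  have hs₁A : IsIntegral (Algebra.adjoin E {u}) s₁ :=
    isIntegral_algebraMap (x := (⟨s₁, hs₁D⟩ : Algebra.adjoin E {u}))
  -- (ii) for `L` in the `tsd_kummer` shape
  have hL : KummerPersist.TSD (Algebra.adjoin E {u}) (IntermediateField.adjoin E {u}) L q := by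
    intro x hx hxy
    refine hLf x hx (fun y hy => ?_)
    obtain ⟨w, hw⟩ := hxy y hy
    exact ⟨(w : L), w.2, by rw [hw]; rfl⟩
  -- the non-zero-divisor hypothesis
  have hNZD : ∀ x' y' : L', IsIntegral (Algebra.adjoin E {u}) x' →
      IsIntegral (Algebra.adjoin E {u}) y' →
      algebraMap L L' ((p : L) * (s₁ * (s₁ * g₁)) ^ (p - 1)) * x' =
        algebraMap (Algebra.adjoin E {u}) L' q * y' →
      ∃ z : L', IsIntegral (Algebra.adjoin E {u}) z ∧
        x' = algebraMap (Algebra.adjoin E {u}) L' q * z := by
    intro x' y' hx' hy' h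
    set s₁A : Algebra.adjoin E {u} := ⟨s₁, hs₁D⟩ with hs₁A'
    set s₂A : Algebra.adjoin E {u} := ⟨s₂, hs₂D⟩ with hs₂A'
    set pA : Algebra.adjoin E {u} := algebraMap E (Algebra.adjoin E {u}) (p : E) with hpA
    have hpAL : (pA : L) = (p : L) := by
      show algebraMap E L (p : E) = (p : L)
      rw [map_natCast]
    have hpE : IsUnit (p : E) := isUnit_iff_ne_zero.mpr (Nat.cast_ne_zero.mpr hp.ne_zero)
    have hpAunit : IsUnit pA := hpE.map _
    have hnot₁ : ¬ q ∣ s₁A := by
      rintro ⟨c, hc⟩
      exact hs₁q (c : L) c.2 (congrArg (fun x : Algebra.adjoin E {u} => (x : L)) hc)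
    have hnot₂ : ¬ q ∣ s₂A := by
      rintro ⟨c, hc⟩
      exact hs₂q (c : L) c.2 (congrArg (fun x : Algebra.adjoin E {u} => (x : L)) hc)
    have hnot : ¬ q ∣ pA * (s₁A * s₁A * s₂A) ^ (p - 1) := by
      intro hdvd
      rcases hqprime.dvd_or_dvd hdvd with h1 | h1
      · exact hqprime.not_isUnit (isUnit_of_dvd_unit h1 hpAunit)
      · rcases hqprime.dvd_or_dvd (hqprime.dvd_of_dvd_pow h1) with h2 | h2
        · rcases hqprime.dvd_or_dvd h2 with h3 | h3
          · exact hnot₁ h3
          · exact hnot₁ h3
        · exact hnot₂ h2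
    -- the integral multiplier
    set w : L := (s₂ * g₁⁻¹) ^ (p - 1) with hw
    have hwint : IsIntegral (Algebra.adjoin E {u}) w := hs₂int.pow _
    have hy'' : IsIntegral (Algebra.adjoin E {u}) (algebraMap L L' w * y') :=
      hwint.algebraMap.mul hy'
    have hkey : (p : L) * (s₁ * s₁ * s₂) ^ (p - 1) = w * ((p : L) * (s₁ * (s₁ * g₁)) ^ (p - 1)) := by
      rw [hw, mul_left_comm, ← mul_pow]
      congr 2
      field_simp
    have hsmul : (pA * (s₁A * s₁A * s₂A) ^ (p - 1)) • x' = q • (algebraMap L L' w * y') := by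
      rw [Algebra.smul_def, Algebra.smul_def]
      have e1 : algebraMap (Algebra.adjoin E {u}) L' (pA * (s₁A * s₁A * s₂A) ^ (p - 1))
          = algebraMap L L' ((p : L) * (s₁ * s₁ * s₂) ^ (p - 1)) := by
        show algebraMap L L' ((pA * (s₁A * s₁A * s₂A) ^ (p - 1) : Algebra.adjoin E {u}) : L) = _
        congr 1
        rw [← hpAL]
        rfl
      rw [e1, hkey, map_mul, mul_assoc, h]
      ring
    obtain ⟨z, hz, hxz⟩ := Fermat.Agent.Lib.NormalFree.exists_isIntegral_smul_eq
      (IntermediateField.adjoin E {u}) hqprime hnot hx' hy'' hsmul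
    refine ⟨z, hz, ?_⟩
    rw [hxz, Algebra.smul_def]
  have hT := KummerPersist.tsd_kummer (A := Algebra.adjoin E {u})
    (K := IntermediateField.adjoin E {u}) (L := L) (L' := L') p ζ hζ q g₁ hnp₁
    s₁ (s₁ * g₁) hs₁A hs₁int rfl hs₁0 (mul_ne_zero hs₁0 hg₁0) hNZD hL
  have hfin := tsdAt_of_tsd E (E := E) (L' := L') u q hT
  have e3 : algebraMap L L' ((q : Algebra.adjoin E {u}) : L) = aeval (algebraMap L L' u) f := by
    rw [hqL, Polynomial.aeval_algebraMap_apply]
  rw [e3] at hfin
  exact hfin

end Rows

/-- **ROW R9** (verbatim `Model.Assembly.kummer_persist`): (i), (ii) and finiteness pass to the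
Kummer extension `L' = L(g^{1/p})`, when `g ≡ 1` at the Gauss valuation and `g` is locally a
`p`-th power times a unit on the affine `u`-line. -/
theorem kummer_persist {O E L : Type*} [CommRing O] [IsDomain O] [IsDiscreteValuationRing O]
    [Field E] [CharZero E] [Algebra O E] [IsFractionRing O E]
    [Field L] [Algebra E L] [Algebra O L] [IsScalarTower O E L]
    (π : O) (_hπ : Irreducible π) (u : L) (hu : Transcendental E u)
    [FiniteDimensional (IntermediateField.adjoin E {u}) L] (_halg : AlgClosedIn E L)
    (hi : GaussTSD (E := E) π u)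
    (S : Finset O) (_hS : ∀ c ∈ S, ∀ c' ∈ S, c ≠ c' → IsUnit (c - c'))
    (hii : HorizTSD (E := E) S u)
    (hprime : Prime (GlueChart.piElt (Algebra.adjoin O {u}) π))
    (p : ℕ) (hp : p.Prime) (hpO : IsUnit (p : O)) (ζ : O) (hζ : IsPrimitiveRoot ζ p)
    (g : L) (hg1 : GaussOne π u g) (hgu : LocPow (E := E) p u g) (hnp : ∀ h : L, h ^ p ≠ g)
    (L' : Type*) [Field L'] [Algebra L L'] [Algebra E L'] [Algebra O L']
    [IsScalarTower E L L'] [IsScalarTower O E L'] [IsSplittingField L L' (X ^ p - C g)] :
    FiniteDimensional (IntermediateField.adjoin E {algebraMap L L' u}) L' ∧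
    GaussTSD (E := E) π (algebraMap L L' u) ∧
    HorizTSD (E := E) S (algebraMap L L' u) := by
  have hinjOL : Function.Injective (algebraMap O L) := by
    rw [IsScalarTower.algebraMap_eq O E L]
    exact (algebraMap E L).injective.comp (IsFractionRing.injective O E)
  have hζL : IsPrimitiveRoot (algebraMap O L ζ) p := hζ.map_of_injective hinjOL
  have hfin : FiniteDimensional L L' :=
    Polynomial.IsSplittingField.finiteDimensional L' (X ^ p - C g)
  exact ⟨finiteDimensional_map _ _ (adjoin_simple_map_eq u),
    gaussTSD_kummer π u hi hprime p hp hpO ζ hζ g hg1 hnp L',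
    horizTSD_kummer u hu S hii p hp (algebraMap O L ζ) hζL g hgu hnp L'⟩

end Fermat.Agent.S30.Model.KummerRowsAlt
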