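import Mathlib
import Fermat.Agent.S30.Model.LocalBranch

/-!
# MODEL THEOREM, branch case: the unit discriminant of the Abhyankar cover

The intermediate statements of `LocalBranch.ldAt_of_branch`, exposed for the consumers of the
normality of the special fibre: with `R ⊆ R'`, `s ^ e = τ`, `L' = L K'`, `C' = integralClosure R' L'`,

* `isRadical_cover` : `(s)` is radical in `C'` (element form);
* `traceSelfDualAt_cover` : `C'` is trace-self-dual at `s`;
* `isUnit_discr_cover` : the discriminant of `C' / R'` is a unit, as soon as the discriminant of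
  `C / R` divides a power of `τ`.

No locality and no `π` are involved; the exponent `e` is a parameter.
-/

set_option autoImplicit false

namespace Fermat.Agent.S30.Model.LocalBranch

open Fermat.Agent.S30.Model Fermat.Agent.Lib

/-- `(s)` is radical in `C' = integralClosure R' L'`, from the field-level radical hypothesis. -/
theorem isRadical_cover
    {R' L' : Type*} [CommRing R'] [Field L'] [Algebra R' L']
    (hinj : Function.Injective (algebraMap R' L'))
    (s : R') (hs0 : s ≠ 0)
    (hrad : ∀ x : L', IsIntegral R' x → ∀ n : ℕ,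
      IsIntegral R' (x ^ n / algebraMap R' L' s) → IsIntegral R' (x / algebraMap R' L' s))
    (x : integralClosure R' L')
    (hx : ∃ n : ℕ, algebraMap R' (integralClosure R' L') s ∣ x ^ n) :
    algebraMap R' (integralClosure R' L') s ∣ x := by
  have hσ0 : algebraMap R' L' s ≠ 0 := (map_ne_zero_iff _ hinj).mpr hs0
  obtain ⟨m, w, hw⟩ := hx
  have hw' : (x : L') ^ m = algebraMap R' L' s * (w : L') := by
    have := congrArg (Subtype.val) hw
    simpa using this
  have hint : IsIntegral R' ((x : L') ^ m / algebraMap R' L' s) := by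
    rw [hw', mul_div_assoc, mul_comm, div_mul_cancel₀ _ hσ0]
    exact w.2
  have hz := hrad (x : L') x.2 m hint
  refine ⟨⟨(x : L') / algebraMap R' L' s, hz⟩, ?_⟩
  apply Subtype.ext
  show (x : L') = algebraMap R' L' s * ((x : L') / algebraMap R' L' s)
  rw [mul_div_assoc', mul_comm, mul_div_assoc, div_self hσ0, mul_one]

/-- `C'` is trace-self-dual at `s`. -/
theorem traceSelfDualAt_cover
    {R' K' L' : Type*}
    [CommRing R'] [IsDomain R']
    [Field K'] [Algebra R' K'] [IsFractionRing R' K']
    [Field L'] [Algebra K' L'] [Algebra R' L'] [IsScalarTower R' K' L']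
    [Module.Free R' (integralClosure R' L')] [Module.Finite R' (integralClosure R' L')]
    (s : R') (hs : Prime s)
    (hchar0 : ∀ n : ℕ, n ≠ 0 → ¬ s ∣ (n : R'))
    (hrad : ∀ x : L', IsIntegral R' x → ∀ n : ℕ,
      IsIntegral R' (x ^ n / algebraMap R' L' s) → IsIntegral R' (x / algebraMap R' L' s)) :
    DiscUnit.TraceSelfDualAt R' (integralClosure R' L') s := by
  have hinjR' : Function.Injective (algebraMap R' L') := by
    rw [IsScalarTower.algebraMap_eq R' K' L']
    exact (algebraMap K' L').injective.comp (IsFractionRing.injective R' K')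
  exact TraceNil.traceSelfDualAt_of_isRadical
    (Module.Free.chooseBasis R' (integralClosure R' L')) hs hchar0
    (isRadical_cover hinjR' s hs.ne_zero hrad)

/-- **Unit discriminant of the Abhyankar cover.** -/
theorem isUnit_discr_cover
    {R K L R' K' L' : Type*}
    [CommRing R] [IsDomain R] [IsIntegrallyClosed R]
    [Field K] [Algebra R K] [IsFractionRing R K]
    [Field L] [Algebra K L] [Algebra R L] [IsScalarTower R K L]
    [FiniteDimensional K L] [Algebra.IsSeparable K L]
    [Module.Free R (integralClosure R L)] [Module.Finite R (integralClosure R L)]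
    [CommRing R'] [IsDomain R'] [IsIntegrallyClosed R']
    [Field K'] [Algebra R' K'] [IsFractionRing R' K']
    [Field L'] [Algebra K' L'] [Algebra R' L'] [IsScalarTower R' K' L']
    [FiniteDimensional K' L'] [Algebra.IsSeparable K' L']
    [Module.Free R' (integralClosure R' L')] [Module.Finite R' (integralClosure R' L')]
    [Algebra R R'] [Algebra K K'] [Algebra R K'] [IsScalarTower R K K'] [IsScalarTower R R' K']
    [Algebra L L'] [Algebra K L'] [IsScalarTower K L L'] [IsScalarTower K K' L']
    (hgen : Algebra.adjoin K' (Set.range (algebraMap L L')) = ⊤)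
    (τ : R) (s : R') (e : ℕ) (hs : Prime s)
    (hse : s ^ e = algebraMap R R' τ)
    (hchar0 : ∀ n : ℕ, n ≠ 0 → ¬ s ∣ (n : R'))
    (hdisc : ∃ n : ℕ,
      Algebra.discr R (Module.Free.chooseBasis R (integralClosure R L)) ∣ τ ^ n)
    (hrad : ∀ x : L', IsIntegral R' x → ∀ n : ℕ,
      IsIntegral R' (x ^ n / algebraMap R' L' s) → IsIntegral R' (x / algebraMap R' L' s)) :
    IsUnit (Algebra.discr R' (Module.Free.chooseBasis R' (integralClosure R' L'))) := by
  classical
  set b := Module.Free.chooseBasis R (integralClosure R L) with hb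
  set c := Module.Free.chooseBasis R' (integralClosure R' L') with hc
  obtain ⟨n, hn⟩ := hdisc
  have h1 : Algebra.discr R' c ∣ s ^ (e * n * (2 * Fintype.card
      (Module.Free.ChooseBasisIndex R' (integralClosure R' L')))) := by
    have h2 := UnitDiscBC.discr_dvd_pow_of_baseChange K L K' L' hgen b c
    refine h2.trans ?_
    have h3 : algebraMap R R' (Algebra.discr R b) ∣ s ^ (e * n) := by
      rw [pow_mul, hse, ← map_pow]
      exact map_dvd _ hn
    rw [pow_mul s (e * n)]
    exact pow_dvd_pow_of_dvd h3 _
  have htsd : DiscUnit.TraceSelfDualAt R' (integralClosure R' L') s :=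
    traceSelfDualAt_cover (K' := K') s hs hchar0 hrad
  exact isUnit_of_dvd_prime_pow hs h1 (DiscUnit.not_dvd_discr_of_traceSelfDualAt c hs htsd)

/-- Every maximal ideal of an integral extension of a local ring contains the image of the
maximal ideal. -/
theorem algebraMap_mem_of_isMaximal {R' C' : Type*} [CommRing R'] [IsLocalRing R'] [CommRing C']
    [Algebra R' C'] [Algebra.IsIntegral R' C'] (M : Ideal C') [hM : M.IsMaximal] (x : R')
    (hx : x ∈ IsLocalRing.maximalIdeal R') : algebraMap R' C' x ∈ M := by
  have h1 : (M.comap (algebraMap R' C')).IsMaximal :=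
    Ideal.isMaximal_comap_of_isIntegral_of_isMaximal M
  have h2 : M.comap (algebraMap R' C') = IsLocalRing.maximalIdeal R' :=
    IsLocalRing.eq_maximalIdeal h1
  have h3 : x ∈ M.comap (algebraMap R' C') := h2 ▸ hx
  exact h3

end Fermat.Agent.S30.Model.LocalBranch
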