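import Mathlib
import Fermat.Agent.S30.Model.LocalDisc
import Fermat.Agent.S30.Model.LocalDomain

/-!
# MODEL THEOREM: reduction of the chart-level local statements to the local ring `R = A_x`

`A` a Noetherian integrally closed domain (a chart `O[u]`), `π` a prime element with `A ⧸ (π)`
a principal ideal ring, `K = Frac A`, `L / K` finite separable.

* `ldAt_of_atPrime` : to prove `LocalDomain.LDAt π M` at a maximal ideal `M ∋ π` of
  `integralClosure A L`, it is enough to prove `LDAt π M'` at all maximal ideals `M' ∋ π` of
  `integralClosure R L` for every model `R` of the localisation of `A` at `x = M ∩ A` (all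
  instances, including freeness and finiteness of the integral closure over `R`, are provided).
* facts on such an `R` : `maximalIdeal_eq_span_pair`, `not_dvd_algebraMap`,
  `not_dvd_natCast`, `exists_discr_dvd_pow`.
-/

set_option autoImplicit false

namespace Fermat.Agent.S30.Model.LocalRed

open Fermat.Agent.S30.Model

universe u v

section Reduction

variable {A : Type u} {K : Type*} {L : Type v} [CommRing A] [IsDomain A] [IsNoetherianRing A]
  [IsIntegrallyClosed A]
  [Field K] [Algebra A K] [IsFractionRing A K] [Field L] [Algebra K L] [Algebra A L]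
  [IsScalarTower A K L] [FiniteDimensional K L] [Algebra.IsSeparable K L]

/-- **Chart → local ring.** -/
theorem ldAt_of_atPrime (π : A) (hπ : Prime π) [IsPrincipalIdealRing (A ⧸ Ideal.span {π})]
    (M : Ideal (integralClosure A L)) (hM : M.IsMaximal)
    (hπM : algebraMap A (integralClosure A L) π ∈ M)
    (x : Ideal A) [x.IsPrime] (hx : x = M.comap (algebraMap A (integralClosure A L)))
    (hloc : ∀ (R : Type u) [CommRing R] [IsDomain R] [IsLocalRing R] [IsNoetherianRing R]
      [IsIntegrallyClosed R] [Algebra A R] [IsLocalization.AtPrime R x] [Algebra R K]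
      [IsFractionRing R K] [IsScalarTower A R K] [Algebra R L] [IsScalarTower R K L]
      [IsScalarTower A R L] [Module.Free R (integralClosure R L)]
      [Module.Finite R (integralClosure R L)]
      [IsPrincipalIdealRing (R ⧸ Ideal.span {algebraMap A R π})],
      ∀ M' : Ideal (integralClosure R L), M'.IsMaximal →
        algebraMap R (integralClosure R L) (algebraMap A R π) ∈ M' →
        LocalDomain.LDAt (algebraMap R (integralClosure R L) (algebraMap A R π)) M') :
    LocalDomain.LDAt (algebraMap A (integralClosure A L) π) M := by
  classical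
  have hinjK : Function.Injective (algebraMap A K) := IsFractionRing.injective A K
  have hinj : Function.Injective (algebraMap A L) := by
    rw [IsScalarTower.algebraMap_eq A K L]
    exact (algebraMap K L).injective.comp hinjK
  have hπx : π ∈ x := by rw [hx]; exact Ideal.mem_comap.mpr hπM
  have hunitK : ∀ y : x.primeCompl, IsUnit (algebraMap A K y) := fun y =>
    IsUnit.mk0 _ ((map_ne_zero_iff _ hinjK).mpr (fun h0 => y.2 (h0 ▸ x.zero_mem)))
  have hunit : ∀ y : x.primeCompl, IsUnit (algebraMap A L y) := fun y =>
    IsUnit.mk0 _ ((map_ne_zero_iff _ hinj).mpr (fun h0 => y.2 (h0 ▸ x.zero_mem)))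
  let R := Localization.AtPrime x
  let algRK : Algebra R K := (IsLocalization.lift (M := x.primeCompl) hunitK).toAlgebra
  have towerARK : IsScalarTower A R K := IsScalarTower.of_algebraMap_eq fun a => by
    simp [RingHom.algebraMap_toAlgebra, R]
  have fracR : IsFractionRing R K :=
    IsFractionRing.isFractionRing_of_isDomain_of_isLocalization x.primeCompl R K
  let algRL : Algebra R L := ((algebraMap K L).comp (algebraMap R K)).toAlgebra
  have towerRKL : IsScalarTower R K L := IsScalarTower.of_algebraMap_eq fun a => rfl
  have towerARL : IsScalarTower A R L := IsScalarTower.of_algebraMap_eq fun a => by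
    rw [RingHom.algebraMap_toAlgebra, RingHom.comp_apply, ← IsScalarTower.algebraMap_apply A R K,
      ← IsScalarTower.algebraMap_apply A K L]
  have domR : IsDomain R := IsLocalization.isDomain_of_atPrime R x
  have locR : IsLocalRing R := IsLocalization.AtPrime.isLocalRing R x
  have noethR : IsNoetherianRing R := IsLocalization.isNoetherianRing x.primeCompl R inferInstance
  have icR : IsIntegrallyClosed R :=
    isIntegrallyClosed_of_isLocalization R x.primeCompl x.primeCompl_le_nonZeroDivisors
  have pirR : IsPrincipalIdealRing (R ⧸ Ideal.span {algebraMap A R π}) :=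
    RegLocal.isPrincipalIdealRing_quotient x.primeCompl R π
  have freeC : Module.Free R (integralClosure R L) :=
    RegLocal.free_integralClosure_of_isLocalization_atPrime hπ x hπx R K L
  have finC : Module.Finite R (integralClosure R L) :=
    IsIntegralClosure.finite R K L (integralClosure R L)
  -- the localisation of the integral closure
  let algCC : Algebra (integralClosure A L) (integralClosure R L) :=
    (RegLocal.integralClosureMap (A := A) (L := L) R).toAlgebra
  have tower2 : IsScalarTower (integralClosure A L) (integralClosure R L) L :=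
    IsScalarTower.of_algebraMap_eq fun c => rfl
  have tower3 : IsScalarTower A (integralClosure A L) (integralClosure R L) :=
    IsScalarTower.of_algebraMap_eq fun a => Subtype.ext rfl
  have hLL : IsLocalization (Algebra.algebraMapSubmonoid L x.primeCompl) L := by
    apply IsLocalization.self
    rintro _ ⟨y, hy, rfl⟩
    exact hunit ⟨y, hy⟩
  have hloc' : IsLocalization (Algebra.algebraMapSubmonoid (integralClosure A L) x.primeCompl)
      (integralClosure R L) :=
    IsLocalization.integralClosure (S := L) (Rf := R) (Sf := L) x.primeCompl
  have hπeq : algebraMap (integralClosure A L) (integralClosure R L)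
      (algebraMap A (integralClosure A L) π) =
      algebraMap R (integralClosure R L) (algebraMap A R π) := by
    apply Subtype.ext
    change algebraMap A L π = algebraMap R L (algebraMap A R π)
    rw [← IsScalarTower.algebraMap_apply]
  have hLD' : ∀ M' : Ideal (integralClosure R L), M'.IsMaximal →
      algebraMap (integralClosure A L) (integralClosure R L)
        (algebraMap A (integralClosure A L) π) ∈ M' →
      LocalDomain.LDAt (algebraMap (integralClosure A L) (integralClosure R L)
        (algebraMap A (integralClosure A L) π)) M' := by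
    intro M' hM' hπM'
    rw [hπeq] at hπM' ⊢
    exact hloc R M' hM' hπM'
  refine LocalDomain.ldAt_of_isLocalization (C' := integralClosure R L)
    (Algebra.algebraMapSubmonoid (integralClosure A L) x.primeCompl)
    (algebraMap A (integralClosure A L) π) hLD' M hM ?_ hπM
  rw [Set.disjoint_left]
  rintro _ ⟨y, hy, rfl⟩ hxM
  apply hy
  rw [hx]
  exact Ideal.mem_comap.mpr hxM

end Reduction

section Facts

variable {A : Type*} [CommRing A] [IsDomain A] (x : Ideal A) [x.IsPrime] (R : Type*) [CommRing R]
  [Algebra A R] [IsLocalization.AtPrime R x]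

omit [IsDomain A] in
/-- The maximal ideal of `A_x` when `x ⊇ (π, τ)` and `(π, τ)` is maximal. -/
theorem maximalIdeal_eq_span_pair [IsLocalRing R] (π τ : A)
    (hmax : (Ideal.span {π, τ}).IsMaximal) (hπ : π ∈ x) (hτ : τ ∈ x) :
    IsLocalRing.maximalIdeal R = Ideal.span {algebraMap A R π, algebraMap A R τ} := by
  have hle : Ideal.span {π, τ} ≤ x := by
    rw [Ideal.span_le]
    rintro y (rfl | rfl)
    · exact hπ
    · exact hτ
  have hxe : Ideal.span {π, τ} = x := hmax.eq_of_le (Ideal.IsPrime.ne_top inferInstance) hle
  rw [← IsLocalization.AtPrime.map_eq_maximalIdeal x R, ← hxe, Ideal.map_span, Set.image_pair]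

/-- A prime element `p ∈ x` not dividing `a` in `A` does not divide it in `A_x`. -/
theorem not_dvd_algebraMap {p : A} (hp : Prime p) (hpx : p ∈ x) {a : A} (h : ¬ p ∣ a) :
    ¬ algebraMap A R p ∣ algebraMap A R a := by
  rintro ⟨r, hr⟩
  obtain ⟨⟨b, s⟩, hbs⟩ := IsLocalization.surj x.primeCompl r
  have hinj : Function.Injective (algebraMap A R) :=
    IsLocalization.injective R x.primeCompl_le_nonZeroDivisors
  have h1 : a * (s : A) = p * b := by
    apply hinj
    rw [map_mul, map_mul, hr, ← hbs]
    ring
  rcases hp.dvd_or_dvd (⟨b, h1⟩ : p ∣ a * (s : A)) with h2 | h2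
  · exact h h2
  · exact s.2 (x.mem_of_dvd h2 hpx)

/-- Characteristic zero of `A ⧸ (τ)` passes to `A_x ⧸ (τ)`. -/
theorem not_dvd_natCast {τ : A} (hτ : Prime τ) (hτx : τ ∈ x)
    (hchar : ∀ n : ℕ, n ≠ 0 → ¬ τ ∣ (n : A)) (n : ℕ) (hn : n ≠ 0) :
    ¬ algebraMap A R τ ∣ (n : R) := by
  have h := not_dvd_algebraMap x R hτ hτx (hchar n hn)
  rwa [map_natCast] at h

end Facts

section Disc

variable {A R K L : Type*} [CommRing A] [IsDomain A] [IsIntegrallyClosed A]
  [UniqueFactorizationMonoid A]
  [CommRing R] [IsDomain R] [Algebra A R]
  [Field K] [Field L] [Algebra A K] [IsFractionRing A K] [Algebra R K] [IsFractionRing R K]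
  [IsScalarTower A R K] [Algebra K L] [FiniteDimensional K L] [Algebra.IsSeparable K L]
  [Algebra A L] [IsScalarTower A K L]
  [Algebra R L] [IsScalarTower R K L] [IsScalarTower A R L]
  [Module.Free R (integralClosure R L)] [Module.Finite R (integralClosure R L)]

/-- **The discriminant at a branch point** is supported on the branch section `τ`. -/
theorem exists_discr_dvd_pow (x : Ideal A) [x.IsPrime] [IsLocalization.AtPrime R x] (τ : A)
    (h : ∀ p : A, Prime p → p ∈ x → ¬ Associated p τ → LocalDisc.TSDField A K L p) :
    ∃ n : ℕ, Algebra.discr R (Module.Free.chooseBasis R (integralClosure R L)) ∣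
      algebraMap A R τ ^ n := by
  classical
  refine LocalDisc.discr_dvd_pow (K := K) (L := L) x _ τ fun p hp hpx => ?_
  by_cases hass : Associated p τ
  · exact Or.inl hass.dvd
  · exact Or.inr (h p hp hpx hass)

end Disc

end Fermat.Agent.S30.Model.LocalRed
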