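import Mathlib
import Fermat.Agent.S30.Model.ChartInst
import Fermat.Agent.S30.Model.LocalNB
import Fermat.Agent.S30.Model.UnramTSD
import Fermat.Agent.S30.Model.HorizTSD
import Fermat.Agent.S30.Model.TSDTransfer

/-!
# MODEL THEOREM (a): the chart `O[u]` away from the branch sections

Setting of `Model/Main.lean`: `O` a DVR with uniformiser `π`, `E = Frac O` of characteristic
zero, `L ⊇ E` a field, `u : L` transcendental over `E` with `L / E(u)` finite.  The hypotheses
`hi`, `hii` below are, verbatim, the unfoldings of `Model.GaussUnram π u` and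
`Model.HorizUnram S u` (this file does not import the skeleton).

* `tsdField_of_prime` : the integral closure of `A = O[u]` in `L` is field-trace self-dual
  (`LocalDisc.TSDField`) at every prime element of `A` which is not associated to one of the
  `u - c`, `c ∈ S`.
* `ldAt_of_nonbranch` : `LocalDomain.LDAt π M` at every maximal ideal `M ∋ π` of
  `integralClosure (Algebra.adjoin O {u}) L` containing no `u - c`, `c ∈ S`
  (the hypothesis `hLD0` of `GlueChart.prime_integralClosure`, at the non-branch points).
-/

set_option autoImplicit false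

open Polynomial

namespace Fermat.Agent.S30.Model.NonBranch

open Fermat.Agent.S30.Model

variable {O E L : Type*} [CommRing O] [IsDomain O] [IsDiscreteValuationRing O]
  [Field E] [CharZero E] [Algebra O E] [IsFractionRing O E]
  [Field L] [Algebra E L] [Algebra O L] [IsScalarTower O E L]

omit [IsDomain O] [IsDiscreteValuationRing O] [CharZero E] in
/-- `u` is transcendental over `O`. -/
theorem transcendental_base {u : L} (hu : Transcendental E u) : Transcendental O u :=
  hu.restrictScalars (IsFractionRing.injective O E)

omit [CharZero E] in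
/-- **Trace-self-duality at the prime elements of the chart `O[u]`** other than the branch
sections. -/
theorem tsdField_of_prime (π : O) (hπ : Irreducible π) (u : L) (hu : Transcendental E u)
    [FiniteDimensional (IntermediateField.adjoin E {u}) L]
    (hi : ∃ b : Fin (Module.finrank (IntermediateField.adjoin E {u}) L) → L,
      (∀ i, IsIntegral (Algebra.adjoin O {u}) (b i)) ∧
      ∃ d : L, d ∈ Algebra.adjoin O {u} ∧
        ((Algebra.traceMatrix (IntermediateField.adjoin E {u}) b).det : L) = d ∧
        ∀ c : L, c ∈ Algebra.adjoin O {u} → d ≠ algebraMap O L π * c)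
    (S : Finset O)
    (hii : ∀ f : E[X], Irreducible f →
      (∀ c ∈ S, ¬ Associated f (X - C (algebraMap O E c))) →
      ∃ b : Fin (Module.finrank (IntermediateField.adjoin E {u}) L) → L,
        (∀ i, IsIntegral (Algebra.adjoin E {u}) (b i)) ∧
        ∃ d : L, d ∈ Algebra.adjoin E {u} ∧
          ((Algebra.traceMatrix (IntermediateField.adjoin E {u}) b).det : L) = d ∧
          ∀ c : L, c ∈ Algebra.adjoin E {u} → d ≠ aeval u f * c)
    (p : Algebra.adjoin O {u}) (hp : Prime p)
    (hpS : ∀ c ∈ S, ¬ Associated p
      (ChartInst.polyEquiv O u (transcendental_base hu) (X - C c))) :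
    letI := (ChartInst.incl O u (IntermediateField.adjoin E {u})
      (IntermediateField.mem_adjoin_simple_self E u)).toAlgebra
    LocalDisc.TSDField (Algebra.adjoin O {u}) (IntermediateField.adjoin E {u}) L p := by
  classical
  have huO : Transcendental O u := transcendental_base hu
  have huK : u ∈ IntermediateField.adjoin E {u} := IntermediateField.mem_adjoin_simple_self E u
  letI algAK : Algebra (Algebra.adjoin O {u}) (IntermediateField.adjoin E {u}) :=
    (ChartInst.incl O u (IntermediateField.adjoin E {u}) huK).toAlgebra
  have towerAKL : IsScalarTower (Algebra.adjoin O {u}) (IntermediateField.adjoin E {u}) L :=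
    ChartInst.isScalarTower_incl O u _ huK
  have fracAK : IsFractionRing (Algebra.adjoin O {u}) (IntermediateField.adjoin E {u}) :=
    ChartInst.isFractionRing_incl O u _ huK le_rfl
  have icA : IsIntegrallyClosed (Algebra.adjoin O {u}) := ChartInst.isIntegrallyClosed_adjoin O u huO
  -- the vertical prime
  have hπA : Prime (algebraMap O (Algebra.adjoin O {u}) π) :=
    ChartInst.prime_algebraMap_adjoin O u huO hπ.prime
  have hGauss : LocalDisc.TSDField (Algebra.adjoin O {u}) (IntermediateField.adjoin E {u}) L
      (algebraMap O (Algebra.adjoin O {u}) π) := by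
    refine UnramTSD.tsdField_of_unramAt (IntermediateField.adjoin E {u}) (Algebra.adjoin O {u})
      (algebraMap O L π) (A := Algebra.adjoin O {u}) (fun z => ?_) hπA rfl hi
    constructor
    · intro hz; exact ⟨⟨z, hz⟩, rfl⟩
    · rintro ⟨a, rfl⟩; exact a.2
  -- the polynomial of `p`
  set e := ChartInst.polyEquiv O u huO with he
  obtain ⟨P, rfl⟩ : ∃ P : O[X], e P = p := ⟨e.symm p, e.apply_symm_apply p⟩
  have hP : Prime P := (MulEquiv.prime_iff e).mp hp
  rcases ChartInst.prime_cases (E := E) hπ hP with hass | ⟨hdeg, hprim, hirr⟩
  · -- vertical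
    have h1 : Associated (e P) (e (C π)) := hass.map e
    rw [he, ChartInst.polyEquiv_C] at h1
    exact TSDTransfer.tsdField_of_associated h1.symm hGauss
  · -- horizontal
    have hnotS : ∀ c ∈ S, ¬ Associated (P.map (algebraMap O E)) (X - C (algebraMap O E c)) := by
      intro c hc hass
      have h1 : Associated (X - C c) P :=
        ChartInst.associated_X_sub_C_of_map hP.irreducible c hass
      exact hpS c hc (h1.map e).symm
    have hU := hii (P.map (algebraMap O E)) hirr hnotS
    letI algA'K : Algebra (Algebra.adjoin E {u}) (IntermediateField.adjoin E {u}) :=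
      (ChartInst.incl E u (IntermediateField.adjoin E {u}) huK).toAlgebra
    have towerA'KL : IsScalarTower (Algebra.adjoin E {u}) (IntermediateField.adjoin E {u}) L :=
      ChartInst.isScalarTower_incl E u _ huK
    letI algAA' : Algebra (Algebra.adjoin O {u}) (Algebra.adjoin E {u}) :=
      (ChartInst.inclE O (E := E) u).toAlgebra
    have hloc : IsLocalization
        (Algebra.algebraMapSubmonoid (Algebra.adjoin O {u}) (nonZeroDivisors O))
        (Algebra.adjoin E {u}) := ChartInst.isLocalization_inclE O u
    have towerAA'L : IsScalarTower (Algebra.adjoin O {u}) (Algebra.adjoin E {u}) L :=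
      IsScalarTower.of_algebraMap_eq fun a => (ChartInst.coe_inclE O (E := E) u a).symm
    have towerAA'K : IsScalarTower (Algebra.adjoin O {u}) (Algebra.adjoin E {u})
        (IntermediateField.adjoin E {u}) :=
      IsScalarTower.of_algebraMap_eq fun a => Subtype.ext (by
        change ((ChartInst.incl O u _ huK a : IntermediateField.adjoin E {u}) : L) =
          ((ChartInst.incl E u _ huK (ChartInst.inclE O (E := E) u a) :
            IntermediateField.adjoin E {u}) : L)
        rw [ChartInst.coe_incl, ChartInst.coe_incl, ChartInst.coe_inclE])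
    refine HorizTSD.tsdField_of_unramAt_of_isLocalization (IntermediateField.adjoin E {u})
      (Algebra.adjoin E {u}) (aeval u (P.map (algebraMap O E))) (A := Algebra.adjoin O {u})
      (A' := Algebra.adjoin E {u})
      (Algebra.algebraMapSubmonoid (Algebra.adjoin O {u}) (nonZeroDivisors O))
      (ChartInst.incl_injective E u _ huK) (fun z => ?_) hp ?_ hU
    · constructor
      · intro hz; exact ⟨⟨z, hz⟩, rfl⟩
      · rintro ⟨a, rfl⟩; exact a.2
    · change ((e P : Algebra.adjoin O {u}) : L) = _
      rw [he, ChartInst.coe_polyEquiv, aeval_map_algebraMap]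

/-- **Model (a), chart `O[u]`, non-branch points.**  `hi`, `hii` are the unfoldings of
`Model.GaussUnram π u` and `Model.HorizUnram S u`.  At every maximal ideal `M ∋ π` of the
integral closure of `O[u]` in `L` which contains no `u - c`, `c ∈ S`, the integral closure is
locally a domain modulo `π`. -/
theorem ldAt_of_nonbranch (π : O) (hπ : Irreducible π) (u : L) (hu : Transcendental E u)
    [FiniteDimensional (IntermediateField.adjoin E {u}) L]
    (hi : ∃ b : Fin (Module.finrank (IntermediateField.adjoin E {u}) L) → L,
      (∀ i, IsIntegral (Algebra.adjoin O {u}) (b i)) ∧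
      ∃ d : L, d ∈ Algebra.adjoin O {u} ∧
        ((Algebra.traceMatrix (IntermediateField.adjoin E {u}) b).det : L) = d ∧
        ∀ c : L, c ∈ Algebra.adjoin O {u} → d ≠ algebraMap O L π * c)
    (S : Finset O)
    (hii : ∀ f : E[X], Irreducible f →
      (∀ c ∈ S, ¬ Associated f (X - C (algebraMap O E c))) →
      ∃ b : Fin (Module.finrank (IntermediateField.adjoin E {u}) L) → L,
        (∀ i, IsIntegral (Algebra.adjoin E {u}) (b i)) ∧
        ∃ d : L, d ∈ Algebra.adjoin E {u} ∧
          ((Algebra.traceMatrix (IntermediateField.adjoin E {u}) b).det : L) = d ∧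
          ∀ c : L, c ∈ Algebra.adjoin E {u} → d ≠ aeval u f * c)
    (M : Ideal (integralClosure (Algebra.adjoin O {u}) L)) (hM : M.IsMaximal)
    (hπM : algebraMap (Algebra.adjoin O {u}) (integralClosure (Algebra.adjoin O {u}) L)
      (algebraMap O (Algebra.adjoin O {u}) π) ∈ M)
    (hS : ∀ c ∈ S, ∀ x : integralClosure (Algebra.adjoin O {u}) L,
      (x : L) = u - algebraMap O L c → x ∉ M) :
    LocalDomain.LDAt (algebraMap (Algebra.adjoin O {u}) (integralClosure (Algebra.adjoin O {u}) L)
      (algebraMap O (Algebra.adjoin O {u}) π)) M := by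
  classical
  have huO : Transcendental O u := transcendental_base hu
  have huK : u ∈ IntermediateField.adjoin E {u} := IntermediateField.mem_adjoin_simple_self E u
  letI algAK : Algebra (Algebra.adjoin O {u}) (IntermediateField.adjoin E {u}) :=
    (ChartInst.incl O u (IntermediateField.adjoin E {u}) huK).toAlgebra
  have towerAKL : IsScalarTower (Algebra.adjoin O {u}) (IntermediateField.adjoin E {u}) L :=
    ChartInst.isScalarTower_incl O u _ huK
  have fracAK : IsFractionRing (Algebra.adjoin O {u}) (IntermediateField.adjoin E {u}) :=
    ChartInst.isFractionRing_incl O u _ huK le_rfl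
  have icA : IsIntegrallyClosed (Algebra.adjoin O {u}) := ChartInst.isIntegrallyClosed_adjoin O u huO
  have noethA : IsNoetherianRing (Algebra.adjoin O {u}) := ChartInst.isNoetherianRing_adjoin O u huO
  have ufmA : UniqueFactorizationMonoid (Algebra.adjoin O {u}) :=
    ChartInst.uniqueFactorizationMonoid_adjoin O u huO
  have hπA : Prime (algebraMap O (Algebra.adjoin O {u}) π) :=
    ChartInst.prime_algebraMap_adjoin O u huO hπ.prime
  have hmaxπ : (Ideal.span {π}).IsMaximal := by
    rw [← hπ.maximalIdeal_eq]; exact IsLocalRing.maximalIdeal.isMaximal O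
  have pirA : IsPrincipalIdealRing
      (Algebra.adjoin O {u} ⧸ Ideal.span {algebraMap O (Algebra.adjoin O {u}) π}) :=
    ChartInst.isPrincipalIdealRing_quotient_adjoin O u huO π
  have cz : CharZero (IntermediateField.adjoin E {u}) :=
    charZero_of_injective_algebraMap (algebraMap E (IntermediateField.adjoin E {u})).injective
  have sep : Algebra.IsSeparable (IntermediateField.adjoin E {u}) L := inferInstance
  refine LocalNB.ldAt_of_tsdField (K := IntermediateField.adjoin E {u})
    (algebraMap O (Algebra.adjoin O {u}) π) hπA M hM hπM fun p hp hpM => ?_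
  refine tsdField_of_prime π hπ u hu hi S hii p hp fun c hc hass => ?_
  obtain ⟨v, hv⟩ := hass
  refine hS c hc (algebraMap (Algebra.adjoin O {u}) (integralClosure (Algebra.adjoin O {u}) L)
    (ChartInst.polyEquiv O u huO (X - C c))) ?_ ?_
  · change ((ChartInst.polyEquiv O u huO (X - C c) : Algebra.adjoin O {u}) : L) = _
    rw [ChartInst.coe_polyEquiv, map_sub, aeval_X, aeval_C]
  · rw [← hv, map_mul]
    exact Ideal.mul_mem_right _ _ hpM

end Fermat.Agent.S30.Model.NonBranch
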