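import Mathlib
import Fermat.Agent.Lib.UnitDisc
import Fermat.Agent.S30.Model.LocalDisc
import Fermat.Agent.S30.Model.RegLocal
import Fermat.Agent.S30.Model.LocalNB

/-!
# MODEL THEOREM, export "normal special fibre": regularity at a closed point (elementwise)

`RegAt p M` : `M · C_M = (p, z) · C_M` for some `z ∈ M` (elementwise, no localisation types —
the regular twin of `LocalDomain.LDAt`).  Together with `Prime p` (model theorem (a)) it says
that `C_M` is a regular local ring with parameters `(p, z)` and `C_M / p` is a discrete valuation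
ring with uniformiser `z`.

* `maximalIdeal_eq_span_pair` : consumer form, in any localisation `B` of `C` at `M` the maximal
  ideal is `(p, z)` (the hypothesis of `S37.LocalUnit`).
* `regAt_of_isLocalization` : `RegAt` descends from a localisation.
* `regAt_of_tsdField` : the NON-BRANCH closed point — exact twin of `LocalNB.ldAt_of_tsdField`.
-/

set_option autoImplicit false

namespace Fermat.Agent.S30.Model.Reg

open Fermat.Agent.S30.Model Fermat.Agent.Lib

/-- Elementwise "`C` is regular at `M` with parameters `(p, z)`": `M · C_M = (p, z) · C_M`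
for some `z ∈ M`. -/
def RegAt {C : Type*} [CommRing C] (p : C) (M : Ideal C) : Prop :=
  ∃ z ∈ M, ∀ m ∈ M, ∃ s, s ∉ M ∧ ∃ a b : C, s * m = a * p + b * z

/-- Consumer form: in any localisation `B` of `C` at `M`, the maximal ideal is `(p, z)`. -/
theorem maximalIdeal_eq_span_pair {C : Type*} [CommRing C] {p : C} {M : Ideal C} [hM : M.IsPrime]
    (hp : p ∈ M) (h : RegAt p M) (B : Type*) [CommRing B] [Algebra C B]
    [IsLocalization.AtPrime B M] [IsLocalRing B] :
    ∃ z ∈ M, IsLocalRing.maximalIdeal B = Ideal.span {algebraMap C B p, algebraMap C B z} := by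
  obtain ⟨z, hzM, hz⟩ := h
  refine ⟨z, hzM, ?_⟩
  rw [← IsLocalization.AtPrime.map_eq_maximalIdeal M B]
  apply le_antisymm
  · rw [Ideal.map_le_iff_le_comap]
    intro m hm
    obtain ⟨s, hs, a, b, hab⟩ := hz m hm
    have hu : IsUnit (algebraMap C B s) :=
      IsLocalization.map_units B (⟨s, hs⟩ : M.primeCompl)
    rw [Ideal.mem_comap]
    have h1 : algebraMap C B s * algebraMap C B m ∈
        Ideal.span {algebraMap C B p, algebraMap C B z} := by
      rw [← map_mul, hab, map_add, map_mul, map_mul, Ideal.mem_span_pair]
      exact ⟨algebraMap C B a, algebraMap C B b, rfl⟩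
    obtain ⟨v, hv⟩ := hu.exists_left_inv
    have h2 : algebraMap C B m = v * (algebraMap C B s * algebraMap C B m) := by
      rw [← mul_assoc, hv, one_mul]
    rw [h2]
    exact Ideal.mul_mem_left _ _ h1
  · rw [Ideal.span_le]
    rintro y (rfl | rfl)
    · exact Ideal.mem_map_of_mem _ hp
    · exact Ideal.mem_map_of_mem _ hzM

/-- `RegAt` descends from a localisation `C' = S⁻¹ C` to `C`, at a maximal ideal `M` disjoint
from `S`. -/
theorem regAt_of_isLocalization {C C' : Type*} [CommRing C] [CommRing C'] [Algebra C C']
    (S : Submonoid C) [IsLocalization S C'] (p : C)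
    (M : Ideal C) (hM : M.IsPrime) (hMS : Disjoint (S : Set C) (M : Set C))
    (h : RegAt (algebraMap C C' p) (M.map (algebraMap C C'))) : RegAt p M := by
  have hcomap : (M.map (algebraMap C C')).comap (algebraMap C C') = M :=
    IsLocalization.under_map_of_isPrime_disjoint S C' hM hMS
  have hSM : ∀ σ : S, (σ : C) ∉ M := fun σ hσ => Set.disjoint_left.1 hMS σ.2 hσ
  obtain ⟨z', hz'M, hz'⟩ := h
  obtain ⟨⟨z, σ⟩, hzσ⟩ := IsLocalization.surj S z'
  have hzM : z ∈ M := by
    rw [← hcomap, Ideal.mem_comap, ← hzσ]
    exact Ideal.mul_mem_right _ _ hz'M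
  refine ⟨z, hzM, ?_⟩
  intro m hm
  obtain ⟨s', hs', a', b', hab'⟩ := hz' (algebraMap C C' m) (Ideal.mem_map_of_mem _ hm)
  obtain ⟨⟨s₁, σ₁⟩, hs₁⟩ := IsLocalization.surj S s'
  obtain ⟨⟨a₁, σ₂⟩, ha₁⟩ := IsLocalization.surj S a'
  obtain ⟨⟨b₁, σ₃⟩, hb₁⟩ := IsLocalization.surj S b'
  simp only at hzσ hs₁ ha₁ hb₁
  have hs₁M : s₁ ∉ M := by
    intro hmem
    apply hs'
    have h1 : algebraMap C C' s₁ ∈ M.map (algebraMap C C') := Ideal.mem_map_of_mem _ hmem
    rw [← hs₁] at h1
    obtain ⟨v, hv⟩ := (IsLocalization.map_units C' σ₁).exists_right_inv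
    have : s' = s' * algebraMap C C' σ₁ * v := by rw [mul_assoc, hv, mul_one]
    rw [this]
    exact Ideal.mul_mem_right _ _ h1
  have heq : algebraMap C C' (s₁ * σ * σ₂ * σ₃ * m) =
      algebraMap C C' (a₁ * σ * σ₁ * σ₃ * p + b₁ * σ₁ * σ₂ * z) := by
    simp only [map_mul, map_add]
    rw [← hs₁, ← ha₁, ← hb₁, ← hzσ]
    linear_combination (algebraMap C C' σ * algebraMap C C' σ₁ * algebraMap C C' σ₂ *
      algebraMap C C' σ₃) * hab'
  obtain ⟨c, hc⟩ := (IsLocalization.eq_iff_exists S C').1 heq
  refine ⟨c * (s₁ * σ * σ₂ * σ₃), ?_, c * (a₁ * σ * σ₁ * σ₃), c * (b₁ * σ₁ * σ₂), ?_⟩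
  · intro hmem
    rcases hM.mem_or_mem hmem with h1 | h1
    · exact hSM c h1
    · rcases hM.mem_or_mem h1 with h2 | h2
      · rcases hM.mem_or_mem h2 with h3 | h3
        · rcases hM.mem_or_mem h3 with h4 | h4
          · exact hs₁M h4
          · exact hSM σ h4
        · exact hSM σ₂ h3
      · exact hSM σ₃ h2
  · linear_combination hc

universe u v

variable {A : Type u} {K : Type*} {L : Type v} [CommRing A] [IsDomain A] [IsNoetherianRing A]
  [IsIntegrallyClosed A] [UniqueFactorizationMonoid A]
  [Field K] [Algebra A K] [IsFractionRing A K] [Field L] [Algebra K L] [Algebra A L]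
  [IsScalarTower A K L] [FiniteDimensional K L] [Algebra.IsSeparable K L]

/-- **Regularity at a non-branch closed point** — exact twin of `LocalNB.ldAt_of_tsdField`:
if the integral closure is trace-self-dual at every prime element of `A` lying in `M`, then
`M · C_M = (π, z) · C_M` for some `z ∈ M` (in fact `M · C_M = (M ∩ A) · C_M`). -/
theorem regAt_of_tsdField (π : A) (hπ : Prime π) [IsPrincipalIdealRing (A ⧸ Ideal.span {π})]
    (M : Ideal (integralClosure A L)) (hM : M.IsMaximal)
    (hπM : algebraMap A (integralClosure A L) π ∈ M)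
    (h : ∀ p : A, Prime p → algebraMap A (integralClosure A L) p ∈ M →
      LocalDisc.TSDField A K L p) :
    RegAt (algebraMap A (integralClosure A L) π) M := by
  classical
  have hinjK : Function.Injective (algebraMap A K) := IsFractionRing.injective A K
  have hinj : Function.Injective (algebraMap A L) := by
    rw [IsScalarTower.algebraMap_eq A K L]
    exact (algebraMap K L).injective.comp hinjK
  have hfs : FaithfulSMul A L := (faithfulSMul_iff_algebraMap_injective A L).mpr hinj
  set x : Ideal A := M.comap (algebraMap A (integralClosure A L)) with hx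
  have hxmax : x.IsMaximal := Ideal.isMaximal_comap_of_isIntegral_of_isMaximal M
  have hπx : π ∈ x := Ideal.mem_comap.mpr hπM
  have hunitK : ∀ y : x.primeCompl, IsUnit (algebraMap A K y) := fun y =>
    IsUnit.mk0 _ ((map_ne_zero_iff _ hinjK).mpr (fun h0 => y.2 (h0 ▸ x.zero_mem)))
  have hunit : ∀ y : x.primeCompl, IsUnit (algebraMap A L y) := fun y =>
    IsUnit.mk0 _ ((map_ne_zero_iff _ hinj).mpr (fun h0 => y.2 (h0 ▸ x.zero_mem)))
  let R := Localization.AtPrime x
  let algRK : Algebra R K := (IsLocalization.lift (M := x.primeCompl) hunitK).toAlgebra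
  have towerARK : IsScalarTower A R K := IsScalarTower.of_algebraMap_eq fun a => by
    simp [RingHom.algebraMap_toAlgebra, R]
  have fracR : IsFractionRing R K :=
    IsFractionRing.isFractionRing_of_isDomain_of_isLocalization x.primeCompl R K
  let algRL : Algebra R L := ((algebraMap K L).comp (algebraMap R K)).toAlgebra
  have towerRKL : IsScalarTower R K L := IsScalarTower.of_algebraMap_eq fun a => rfl
  have towerARL : IsScalarTower A R L := IsScalarTower.of_algebraMap_eq fun a => by
    rw [RingHom.algebraMap_toAlgebra, RingHom.comp_apply, ← IsScalarTower.algebraMap_apply A R K,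
      ← IsScalarTower.algebraMap_apply A K L]
  have domR : IsDomain R := IsLocalization.isDomain_of_atPrime R x
  have locR : IsLocalRing R := IsLocalization.AtPrime.isLocalRing R x
  have noethR : IsNoetherianRing R := IsLocalization.isNoetherianRing x.primeCompl R inferInstance
  have icR : IsIntegrallyClosed R :=
    isIntegrallyClosed_of_isLocalization R x.primeCompl x.primeCompl_le_nonZeroDivisors
  have pirR : IsPrincipalIdealRing (R ⧸ Ideal.span {algebraMap A R π}) :=
    RegLocal.isPrincipalIdealRing_quotient x.primeCompl R π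
  have freeC : Module.Free R (integralClosure R L) :=
    RegLocal.free_integralClosure_of_isLocalization_atPrime hπ x hπx R K L
  have finC : Module.Finite R (integralClosure R L) :=
    IsIntegralClosure.finite R K L (integralClosure R L)
  have hπmem : algebraMap A R π ∈ IsLocalRing.maximalIdeal R :=
    RegLocal.algebraMap_mem_maximalIdeal π x R hπx
  -- the discriminant is a unit
  have hb : IsUnit (Algebra.discr R (Module.Free.chooseBasis R (integralClosure R L))) := by
    refine LocalDisc.isUnit_discr (K := K) (L := L) x _ fun p hp hpx => h p hp ?_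
    exact Ideal.mem_comap.mp hpx
  -- the localisation of the integral closure
  let algCC : Algebra (integralClosure A L) (integralClosure R L) :=
    (RegLocal.integralClosureMap (A := A) (L := L) R).toAlgebra
  have tower2 : IsScalarTower (integralClosure A L) (integralClosure R L) L :=
    IsScalarTower.of_algebraMap_eq fun c => rfl
  have tower3 : IsScalarTower A (integralClosure A L) (integralClosure R L) :=
    IsScalarTower.of_algebraMap_eq fun a => Subtype.ext rfl
  have tower4 : IsScalarTower A R (integralClosure R L) :=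
    IsScalarTower.of_algebraMap_eq fun a => by
      apply Subtype.ext
      change algebraMap A L a = algebraMap R L (algebraMap A R a)
      rw [← IsScalarTower.algebraMap_apply]
  have hLL : IsLocalization (Algebra.algebraMapSubmonoid L x.primeCompl) L := by
    apply IsLocalization.self
    rintro _ ⟨y, hy, rfl⟩
    exact hunit ⟨y, hy⟩
  have hloc' : IsLocalization (Algebra.algebraMapSubmonoid (integralClosure A L) x.primeCompl)
      (integralClosure R L) :=
    IsLocalization.integralClosure (S := L) (Rf := R) (Sf := L) x.primeCompl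
  have hπeq : algebraMap (integralClosure A L) (integralClosure R L)
      (algebraMap A (integralClosure A L) π) =
      algebraMap R (integralClosure R L) (algebraMap A R π) := by
    apply Subtype.ext
    change algebraMap A L π = algebraMap R L (algebraMap A R π)
    rw [← IsScalarTower.algebraMap_apply]
  have hMS : Disjoint ((Algebra.algebraMapSubmonoid (integralClosure A L) x.primeCompl :
      Submonoid (integralClosure A L)) : Set (integralClosure A L)) (M : Set _) := by
    rw [Set.disjoint_left]
    rintro _ ⟨y, hy, rfl⟩ hxM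
    exact hy (Ideal.mem_comap.mpr hxM)
  refine regAt_of_isLocalization (C' := integralClosure R L)
    (Algebra.algebraMapSubmonoid (integralClosure A L) x.primeCompl)
    (algebraMap A (integralClosure A L) π) M hM.isPrime hMS ?_
  -- the local statement
  set M' : Ideal (integralClosure R L) :=
    M.map (algebraMap (integralClosure A L) (integralClosure R L)) with hM'
  have hM'prime : M'.IsPrime :=
    IsLocalization.isPrime_of_isPrime_disjoint
      (Algebra.algebraMapSubmonoid (integralClosure A L) x.primeCompl) _ M hM.isPrime hMS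
  have hle : (IsLocalRing.maximalIdeal R).map (algebraMap R (integralClosure R L)) ≤ M' := by
    rw [← IsLocalization.AtPrime.map_eq_maximalIdeal x R, Ideal.map_map,
      ← IsScalarTower.algebraMap_eq, IsScalarTower.algebraMap_eq A (integralClosure A L)
        (integralClosure R L), ← Ideal.map_map, hM']
    exact Ideal.map_mono (Ideal.map_le_iff_le_comap.2 le_rfl)
  obtain ⟨e, heM', he⟩ := UnitDisc.exists_not_mem_forall_mul_mem
    (Module.Free.chooseBasis R (integralClosure R L)) hb (IsLocalRing.maximalIdeal R) M' hle
  obtain ⟨s, hs⟩ := LocalNB.exists_maximalIdeal_eq_span_pair (algebraMap A R π) hπmem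
  rw [hπeq]
  refine ⟨algebraMap R (integralClosure R L) s, hle (Ideal.mem_map_of_mem _ ?_), ?_⟩
  · rw [hs]; exact Ideal.subset_span (by simp)
  · intro m hm
    have h1 := he m hm
    rw [hs, Ideal.map_span, Set.image_pair, Ideal.mem_span_pair] at h1
    obtain ⟨a, b, hab⟩ := h1
    exact ⟨e, heM', a, b, hab.symm⟩

end Fermat.Agent.S30.Model.Reg
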