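import Mathlib
import Fermat.Agent.S30.Model.RegNB
import Fermat.Agent.S30.Model.RegAt

/-!
# Adapters for the canonical `RegNB.RegAt`

* `regAt_iff` : `RegNB.RegAt p M ↔ Reg.RegAt p M` (the two landed spellings of "`M · C_M` is
  generated by `p` and one more element").
* `maximalIdeal_eq_span_pair` : consumer form of `RegNB.RegAt` — in any localisation `B` of `C`
  at `M`, `maximalIdeal B = (p, z)` for some `z ∈ M` (the hypothesis of `S37.LocalUnit`).
* `exists_uniform` : the local generators relation with the unfolded span.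
-/

set_option autoImplicit false

namespace Fermat.Agent.S30.Model.RegAdapter

open Fermat.Agent.S30.Model

theorem regAt_iff {C : Type*} [CommRing C] (p : C) (M : Ideal C) :
    RegNB.RegAt p M ↔ Reg.RegAt p M := by
  constructor
  · rintro ⟨z, hz, h⟩
    refine ⟨z, hz, fun m hm => ?_⟩
    obtain ⟨s, hs, hsm⟩ := h m hm
    rw [Ideal.mem_span_pair] at hsm
    obtain ⟨a, b, hab⟩ := hsm
    exact ⟨s, hs, a, b, hab.symm⟩
  · rintro ⟨z, hz, h⟩
    refine ⟨z, hz, fun m hm => ?_⟩
    obtain ⟨s, hs, a, b, hab⟩ := h m hm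
    exact ⟨s, hs, Ideal.mem_span_pair.2 ⟨a, b, hab.symm⟩⟩

/-- Consumer form of `RegNB.RegAt`: in any localisation `B` of `C` at `M`, the maximal ideal is
generated by the images of `p` and of some `z ∈ M`. -/
theorem maximalIdeal_eq_span_pair {C : Type*} [CommRing C] {p : C} {M : Ideal C} [M.IsPrime]
    (hp : p ∈ M) (h : RegNB.RegAt p M) (B : Type*) [CommRing B] [Algebra C B]
    [IsLocalization.AtPrime B M] [IsLocalRing B] :
    ∃ z ∈ M, IsLocalRing.maximalIdeal B = Ideal.span {algebraMap C B p, algebraMap C B z} :=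
  Reg.maximalIdeal_eq_span_pair hp ((regAt_iff p M).1 h) B

/-- `RegNB.RegAt` with the span unfolded. -/
theorem exists_uniform {C : Type*} [CommRing C] {p : C} {M : Ideal C} (h : RegNB.RegAt p M) :
    ∃ z ∈ M, ∀ m ∈ M, ∃ s, s ∉ M ∧ ∃ a b : C, s * m = a * p + b * z :=
  (regAt_iff p M).1 h

end Fermat.Agent.S30.Model.RegAdapter
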