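import Mathlib
import Fermat.Agent.S30.Model.ChartReg

/-!
# MODEL THEOREM: "regular at `M`" implies "locally a domain at `M`"

`RegNB.RegAt p M` (`M` locally generated by `p` and one more element `z`) implies
`LocalDomain.LDAt p M` (`C / p` locally a domain at `M`) as soon as `z` is not nilpotent modulo
`p` locally at `M`; and that is automatic by going-down when `C` is an integral extension of an
integrally closed domain `A`, `p = π ∈ A`, and `M ∩ A` is strictly bigger than the prime `(π)`.

* `ldAt_of_gen` : `C` Noetherian, `M` prime, locally generated by `p, z`, `z` not nilpotent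
  modulo `p` locally at `M` ⊢ `LDAt p M`  (Krull's intersection theorem in `C_M`).
* `not_dvd_mul_pow` : the going-down step.
* `ldAt_of_regAt` : the combination.
* `branchStatement_of_reg` : `ChartReg.RegBranchStatement → ChartLD.BranchStatement`.
-/

set_option autoImplicit false

namespace Fermat.Agent.S30.Model.RegLD

open Fermat.Agent.S30.Model

/-- **Krull step.**  A Noetherian ring which at the prime `M` is locally generated by `p` and
`z`, with `z` not nilpotent modulo `p` locally at `M`, is locally a domain modulo `p` at `M`. -/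
theorem ldAt_of_gen {C : Type*} [CommRing C] [IsNoetherianRing C] (p : C) (M : Ideal C)
    [hMp : M.IsPrime] (z : C) (hz : z ∈ M) (hpM : p ∈ M)
    (hgen : ∀ m ∈ M, ∃ s, s ∉ M ∧ s * m ∈ Ideal.span {p, z})
    (hnil : ∀ (n : ℕ) (s : C), s ∉ M → ¬ p ∣ s * z ^ n) :
    LocalDomain.LDAt p M := by
  classical
  let B := Localization.AtPrime M
  have noethB : IsNoetherianRing B := IsLocalization.isNoetherianRing M.primeCompl B inferInstance
  set p' : B := algebraMap C B p with hp'
  set z' : B := algebraMap C B z with hz'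
  have hunit : ∀ s, s ∉ M → IsUnit (algebraMap C B s) := fun s hs =>
    (IsLocalization.AtPrime.isUnit_to_map_iff B M s).mpr hs
  -- the maximal ideal of `B`
  have hmax : IsLocalRing.maximalIdeal B = Ideal.span {p', z'} := by
    rw [← IsLocalization.AtPrime.map_eq_maximalIdeal M B]
    apply le_antisymm
    · rw [Ideal.map_le_iff_le_comap]
      intro m hm
      obtain ⟨s, hs, hmem⟩ := hgen m hm
      rw [Ideal.mem_comap]
      have h1 : algebraMap C B (s * m) ∈ Ideal.span {p', z'} := by
        have := Ideal.mem_map_of_mem (algebraMap C B) hmem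
        rwa [Ideal.map_span, Set.image_pair] at this
      rw [map_mul] at h1
      exact (Ideal.unit_mul_mem_iff_mem _ (hunit s hs)).mp h1
    · rw [Ideal.span_le]
      rintro y (rfl | rfl)
      · exact Ideal.mem_map_of_mem _ hpM
      · exact Ideal.mem_map_of_mem _ hz
  have hz'm : z' ∈ IsLocalRing.maximalIdeal B := by
    rw [hmax]; exact Ideal.subset_span (by simp)
  -- descent of divisibility by `p`
  have hdesc : ∀ a : C, p' ∣ algebraMap C B a → ∃ s, s ∉ M ∧ p ∣ s * a := by
    rintro a ⟨r, hr⟩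
    obtain ⟨c, t, rfl⟩ := IsLocalization.exists_mk'_eq M.primeCompl r
    have ec : IsLocalization.mk' B c t * algebraMap C B t = algebraMap C B c :=
      IsLocalization.mk'_spec B c t
    have h2 : algebraMap C B (t * a) = algebraMap C B (p * c) := by
      rw [map_mul, map_mul, hr, ← ec]; ring
    obtain ⟨u, hu⟩ := (IsLocalization.eq_iff_exists M.primeCompl B).mp h2
    refine ⟨u * t, fun h => (hMp.mem_or_mem h).elim u.2 t.2, ⟨u * c, ?_⟩⟩
    linear_combination hu
  -- `z'` is not nilpotent modulo `p'`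
  have hz'nil : ∀ n : ℕ, ¬ p' ∣ z' ^ n := by
    intro n hdvd
    have h1 : p' ∣ algebraMap C B (z ^ n) := by rwa [map_pow]
    obtain ⟨s, hs, hps⟩ := hdesc _ h1
    exact hnil n s hs hps
  -- Krull's intersection theorem on `B ⧸ (p')`
  have hkrull : ∀ a : B, (∀ i : ℕ, ∃ c d : B, a = c * p' + d * z' ^ i) → p' ∣ a := by
    intro a ha
    have hK := Ideal.iInf_pow_smul_eq_bot_of_isLocalRing (R := B) (M := B ⧸ Ideal.span {p'})
      (IsLocalRing.maximalIdeal B) (IsLocalRing.maximalIdeal.isMaximal B).ne_top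
    have hmem : (Ideal.Quotient.mk (Ideal.span {p'}) a) ∈
        (⨅ i : ℕ, IsLocalRing.maximalIdeal B ^ i • ⊤ : Submodule B (B ⧸ Ideal.span {p'})) := by
      rw [Submodule.mem_iInf]
      intro i
      obtain ⟨c, d, rfl⟩ := ha i
      have h1 : Ideal.Quotient.mk (Ideal.span {p'}) (c * p' + d * z' ^ i) =
          (d * z' ^ i) • (Ideal.Quotient.mk (Ideal.span {p'}) (1 : B)) := by
        have e1 : (d * z' ^ i) • (Ideal.Quotient.mk (Ideal.span {p'}) (1 : B)) =
            Ideal.Quotient.mk (Ideal.span {p'}) ((d * z' ^ i) * 1) := rfl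
        rw [e1, mul_one, Ideal.Quotient.eq]
        have e2 : c * p' + d * z' ^ i - d * z' ^ i = c * p' := by ring
        rw [e2]
        exact Ideal.mul_mem_left _ _ (Ideal.mem_span_singleton_self p')
      rw [h1]
      exact Submodule.smul_mem_smul (Ideal.mul_mem_left _ _ (Ideal.pow_mem_pow hz'm i))
        Submodule.mem_top
    rw [hK, Submodule.mem_bot, Ideal.Quotient.eq_zero_iff_mem, Ideal.mem_span_singleton] at hmem
    exact hmem
  -- every element outside `(p')` is `c * p' + unit * z' ^ n`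
  have hrep : ∀ a : B, ¬ p' ∣ a → ∃ (n : ℕ) (c u : B), IsUnit u ∧ a = c * p' + u * z' ^ n := by
    intro a ha
    have hex : ∃ i : ℕ, ¬ ∃ c d : B, a = c * p' + d * z' ^ i := by
      by_contra hcon
      push Not at hcon
      exact ha (hkrull a hcon)
    obtain ⟨i, hi, hmin⟩ : ∃ i : ℕ, (¬ ∃ c d : B, a = c * p' + d * z' ^ i) ∧
        ∀ j < i, ∃ c d : B, a = c * p' + d * z' ^ j :=
      ⟨Nat.find hex, Nat.find_spec hex, fun j hj => by_contra fun h => Nat.find_min hex hj h⟩
    have hi0 : i ≠ 0 := by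
      rintro rfl
      exact hi ⟨0, a, by ring⟩
    obtain ⟨k, rfl⟩ : ∃ k, i = k + 1 := ⟨i - 1, by omega⟩
    obtain ⟨c, d, hcd⟩ := hmin k (Nat.lt_succ_self k)
    refine ⟨k, c, d, ?_, hcd⟩
    by_contra hd
    have hdm : d ∈ IsLocalRing.maximalIdeal B := (IsLocalRing.mem_maximalIdeal d).mpr hd
    rw [hmax, Ideal.mem_span_pair] at hdm
    obtain ⟨e, f, hef⟩ := hdm
    apply hi
    refine ⟨c + e * z' ^ k, f, ?_⟩
    rw [hcd, ← hef]
    ring
  -- the domain property
  intro a b hab
  by_cases ha : p' ∣ algebraMap C B a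
  · obtain ⟨s, hs, h⟩ := hdesc a ha
    exact ⟨s, hs, Or.inl h⟩
  by_cases hb : p' ∣ algebraMap C B b
  · obtain ⟨s, hs, h⟩ := hdesc b hb
    exact ⟨s, hs, Or.inr h⟩
  exfalso
  obtain ⟨n, c, u, hu, hau⟩ := hrep _ ha
  obtain ⟨n₂, c₂, u₂, hu₂, hbu⟩ := hrep _ hb
  have hab' : p' ∣ algebraMap C B a * algebraMap C B b := by
    rw [← map_mul]; exact map_dvd _ hab
  apply hz'nil (n + n₂)
  have h1 : p' ∣ (u * u₂) * z' ^ (n + n₂) := by
    have h2 : u * u₂ * z' ^ (n + n₂) = algebraMap C B a * algebraMap C B b -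
        p' * (c * c₂ * p' + c * u₂ * z' ^ n₂ + c₂ * u * z' ^ n) := by
      rw [hau, hbu]; ring
    rw [h2]
    exact dvd_sub hab' (dvd_mul_right _ _)
  exact (IsUnit.dvd_mul_left (hu.mul hu₂)).mp h1

/-- **Going-down step.**  If `M` is locally generated by `π` and `z`, and `M ∩ A` is strictly
bigger than the prime `(π)`, then `z` is not nilpotent modulo `π` locally at `M`. -/
theorem not_dvd_mul_pow {A C : Type*} [CommRing A] [CommRing C] [Algebra A C]
    [Algebra.HasGoingDown A C] (π : A) (hπ : (Ideal.span {π}).IsPrime) (M : Ideal C)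
    [hMp : M.IsPrime] (hπM : algebraMap A C π ∈ M) (τ : A) (hτM : algebraMap A C τ ∈ M)
    (hτ : τ ∉ Ideal.span {π}) (z : C)
    (hgen : ∀ m ∈ M, ∃ s, s ∉ M ∧ s * m ∈ Ideal.span {algebraMap A C π, z})
    (n : ℕ) (s : C) (hs : s ∉ M) : ¬ algebraMap A C π ∣ s * z ^ n := by
  intro hdvd
  have hlt : Ideal.span {π} < M.under A := by
    refine lt_of_le_of_ne ?_ ?_
    · rw [Ideal.span_le, Set.singleton_subset_iff]
      exact Ideal.mem_comap.mpr hπM
    · intro heq
      apply hτ
      rw [heq]
      exact Ideal.mem_comap.mpr hτM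
  have := hπ
  obtain ⟨Q, hQlt, hQp, hQo⟩ :=
    Ideal.exists_ideal_lt_liesOver_of_lt (p := Ideal.span {π}) (q := M.under A) M hlt
  have hpQ : algebraMap A C π ∈ Q := by
    have h1 : π ∈ Q.under A := by
      rw [← hQo.over]; exact Ideal.mem_span_singleton_self π
    exact Ideal.mem_comap.mp h1
  have hszQ : s * z ^ n ∈ Q := Q.mem_of_dvd hdvd hpQ
  have hsQ : s ∉ Q := fun h => hs (hQlt.le h)
  have hzQ : z ∈ Q := hQp.mem_of_pow_mem n ((hQp.mem_or_mem hszQ).resolve_left hsQ)
  apply hQlt.not_ge
  intro m hm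
  obtain ⟨s', hs', hmem⟩ := hgen m hm
  have hle : Ideal.span {algebraMap A C π, z} ≤ Q := by
    rw [Ideal.span_le]
    rintro y (rfl | rfl)
    · exact hpQ
    · exact hzQ
  exact (hQp.mem_or_mem (hle hmem)).resolve_left (fun h => hs' (hQlt.le h))

/-- **Regular ⇒ locally a domain.** -/
theorem ldAt_of_regAt {A C : Type*} [CommRing A] [CommRing C] [Algebra A C]
    [IsNoetherianRing C] [Algebra.HasGoingDown A C] (π : A) (hπ : (Ideal.span {π}).IsPrime)
    (M : Ideal C) [M.IsPrime] (hπM : algebraMap A C π ∈ M) (τ : A)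
    (hτM : algebraMap A C τ ∈ M) (hτ : τ ∉ Ideal.span {π})
    (h : RegNB.RegAt (algebraMap A C π) M) :
    LocalDomain.LDAt (algebraMap A C π) M := by
  obtain ⟨z, hz, hgen⟩ := h
  exact ldAt_of_gen (algebraMap A C π) M z hz hπM hgen
    (fun n s hs => not_dvd_mul_pow π hπ M hπM τ hτM hτ z hgen n s hs)

universe w

/-- **The branch-point local theorem follows from its regularity twin.** -/
theorem branchStatement_of_reg (hB : ChartReg.RegBranchStatement.{w}) :
    ChartLD.BranchStatement.{w} := by
  intro A K L _ _ _ _ _ _ _ _ _ _ _ _ _ _ _ π τ hπ hτ hπτ _ hmax hchar M hM hπM hτM h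
  have hreg := hB A K L π τ hπ hτ hπτ hmax hchar M hM hπM hτM h
  have hinjK : Function.Injective (algebraMap A K) := IsFractionRing.injective A K
  have hinj : Function.Injective (algebraMap A L) := by
    rw [IsScalarTower.algebraMap_eq A K L]
    exact (algebraMap K L).injective.comp hinjK
  have hfs : FaithfulSMul A (integralClosure A L) :=
    (faithfulSMul_iff_algebraMap_injective A _).mpr
      (fun a b hab => hinj (congrArg Subtype.val hab))
  have noethC : IsNoetherianRing (integralClosure A L) :=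
    IsIntegralClosure.isNoetherianRing A K L (integralClosure A L)
  have := hM.isPrime
  refine ldAt_of_regAt π ((Ideal.span_singleton_prime hπ.ne_zero).mpr hπ) M hπM τ hτM ?_ hreg
  rw [Ideal.mem_span_singleton]
  exact hπτ

end Fermat.Agent.S30.Model.RegLD
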