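import Mathlib
import Fermat.Agent.S30.Model.ChartReg
import Fermat.Agent.S30.Model.LocalRed
import Fermat.Agent.S30.Model.FamilyTSD

/-!
# MODEL THEOREM, add-on export: an EXPLICIT uniformiser of the special fibre at a non-branch point

`RegNB.RegAt p M` says that `M` is locally generated by `p` and SOME element.  At a non-branch
closed point the second generator can be prescribed: it is the local equation of the point
downstairs.

* `GenAt p z M` : `z ∈ M` and `∀ m ∈ M, ∃ s ∉ M, s * m ∈ (p, z)` ("`M` is locally generated by
  `p` and `z`"; with `LocalDomain.LDAt p M`: `z` is a uniformiser of the local ring of the special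
  fibre `C / p` at `M`).
* `genAt_of_isLocalization`, `genAt_of_isUnit_discr` : twins of the `RegNB` lemmas.
* `genAt_of_tsdField` : abstract chart `A`, primes `π`, and `τ` with `(π, τ)` maximal:
  at a maximal ideal `M ∋ π, τ` of `integralClosure A L` at which the integral closure is
  trace-self-dual at every prime element of `A` in `M`:  `GenAt π τ M`.
* `chart_genAt` : the chart `O[t]`, local equation `g(t)` with `(π, g)` maximal in `O[X]`.
* `gen_zero_tsd`, `gen_zero` : under the hypotheses of the Model theorem (TSD form resp. family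
  form), for a local equation `g(u)`;  `gen_zero_sub_tsd`, `gen_zero_sub` : for the rational point
  `u = c`, `c` not congruent to any branch value:  `GenAt π (u - c) M`.
-/

set_option autoImplicit false

open Polynomial

namespace Fermat.Agent.S30.Model.RegUnif

open Fermat.Agent.S30.Model Fermat.Agent.Lib

/-- `M` is locally generated by `p` and `z`. -/
def GenAt {C : Type*} [CommRing C] (p z : C) (M : Ideal C) : Prop :=
  z ∈ M ∧ ∀ m ∈ M, ∃ s, s ∉ M ∧ s * m ∈ Ideal.span {p, z}

theorem GenAt.regAt {C : Type*} [CommRing C] {p z : C} {M : Ideal C} (h : GenAt p z M) :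
    RegNB.RegAt p M :=
  ⟨z, h.1, h.2⟩

/-- `GenAt` descends from a localisation. -/
theorem genAt_of_isLocalization {C C' : Type*} [CommRing C] [CommRing C'] [Algebra C C']
    (S : Submonoid C) [IsLocalization S C'] (p z : C)
    (hR' : ∀ M' : Ideal C', M'.IsMaximal → algebraMap C C' p ∈ M' → algebraMap C C' z ∈ M' →
      GenAt (algebraMap C C' p) (algebraMap C C' z) M')
    (M : Ideal C) (hM : M.IsMaximal) (hMS : Disjoint (S : Set C) (M : Set C)) (hpM : p ∈ M)
    (hzM : z ∈ M) :
    GenAt p z M := by
  classical
  have hMp : M.IsPrime := hM.isPrime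
  set M' : Ideal C' := M.map (algebraMap C C') with hM'
  have hM'prime : M'.IsPrime := IsLocalization.isPrime_of_isPrime_disjoint S C' M hMp hMS
  have hcomap : M'.comap (algebraMap C C') = M :=
    IsLocalization.under_map_of_isPrime_disjoint S C' hMp hMS
  have hM'max : M'.IsMaximal := by
    refine Ideal.isMaximal_iff.mpr ⟨?_, ?_⟩
    · intro h1
      exact hM'prime.ne_top ((Ideal.eq_top_iff_one _).mpr h1)
    · intro J x hMJ hxM hxJ
      by_contra h1
      have hJne : J ≠ ⊤ := fun h => h1 (by rw [h]; exact Submodule.mem_top)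
      have hle : M ≤ J.comap (algebraMap C C') := by
        rw [← hcomap]; exact Ideal.comap_mono hMJ
      have hne : J.comap (algebraMap C C') ≠ ⊤ := by
        intro h
        apply hJne
        rw [Ideal.eq_top_iff_one] at h ⊢
        rw [Ideal.mem_comap, map_one] at h
        exact h
      have heq : J.comap (algebraMap C C') = M := (hM.eq_of_le hne hle).symm
      have : J = M' := by
        rw [hM', ← heq]
        exact (IsLocalization.map_under S (S := C') J).symm
      rw [this] at hxJ
      exact hxM hxJ
  obtain ⟨-, hgen⟩ := hR' M' hM'max (Ideal.mem_map_of_mem _ hpM) (Ideal.mem_map_of_mem _ hzM)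
  refine ⟨hzM, fun m hm => ?_⟩
  obtain ⟨s', hs', hmem⟩ := hgen (algebraMap C C' m) (Ideal.mem_map_of_mem _ hm)
  obtain ⟨s, t₀, rfl⟩ := IsLocalization.exists_mk'_eq S s'
  have es : IsLocalization.mk' C' s t₀ * algebraMap C C' t₀ = algebraMap C C' s :=
    IsLocalization.mk'_spec C' s t₀
  have hsM : s ∉ M := by
    intro h
    apply hs'
    have h2 : algebraMap C C' s ∈ M' := Ideal.mem_map_of_mem _ h
    rw [← es] at h2
    rcases hM'prime.mem_or_mem h2 with h3 | h3
    · exact h3
    · exfalso
      have h4 : (t₀ : C) ∈ M := by rw [← hcomap]; exact Ideal.mem_comap.mpr h3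
      exact Set.disjoint_left.mp hMS t₀.2 h4
  rw [Ideal.mem_span_pair] at hmem
  obtain ⟨a', b', hab⟩ := hmem
  obtain ⟨a, t₁, rfl⟩ := IsLocalization.exists_mk'_eq S a'
  obtain ⟨b, t₂, rfl⟩ := IsLocalization.exists_mk'_eq S b'
  have ea : IsLocalization.mk' C' a t₁ * algebraMap C C' t₁ = algebraMap C C' a :=
    IsLocalization.mk'_spec C' a t₁
  have eb : IsLocalization.mk' C' b t₂ * algebraMap C C' t₂ = algebraMap C C' b :=
    IsLocalization.mk'_spec C' b t₂
  have h1 : algebraMap C C' (a * p * (t₂ * t₀) + b * z * (t₁ * t₀)) =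
      algebraMap C C' (s * m * (t₁ * t₂)) := by
    simp only [map_mul, map_add]
    rw [← ea, ← eb, ← es]
    linear_combination (algebraMap C C' t₁) * (algebraMap C C' t₂) * (algebraMap C C' t₀) * hab
  obtain ⟨t₃, ht₃⟩ := (IsLocalization.eq_iff_exists S C').mp h1
  refine ⟨t₃ * (t₁ * t₂) * s, ?_, ?_⟩
  · intro h
    rcases hMp.mem_or_mem h with h | h
    · rcases hMp.mem_or_mem h with h | h
      · exact Set.disjoint_left.mp hMS t₃.2 h
      · rcases hMp.mem_or_mem h with h | h
        · exact Set.disjoint_left.mp hMS t₁.2 h
        · exact Set.disjoint_left.mp hMS t₂.2 h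
    · exact hsM h
  · rw [Ideal.mem_span_pair]
    exact ⟨t₃ * a * (t₂ * t₀), t₃ * b * (t₁ * t₀), by linear_combination ht₃⟩

/-- **Local statement.**  `R` local with maximal ideal `(π, s)`, `C` finite free over `R` with unit
discriminant: every maximal ideal `M'` of `C` is locally generated by `π` and `s`. -/
theorem genAt_of_isUnit_discr {R C ι : Type*} [CommRing R] [IsLocalRing R] [CommRing C]
    [Algebra R C] [Fintype ι] [DecidableEq ι]
    (b : Module.Basis ι R C) (hb : IsUnit (Algebra.discr R b)) {π s : R}
    (hs : IsLocalRing.maximalIdeal R = Ideal.span {π, s})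
    (M' : Ideal C) (hM' : M'.IsMaximal) :
    GenAt (algebraMap R C π) (algebraMap R C s) M' := by
  have hfin : Module.Finite R C := Module.Finite.of_basis b
  have hcm : (M'.comap (algebraMap R C)).IsMaximal :=
    Ideal.isMaximal_comap_of_isIntegral_of_isMaximal M'
  have hceq : M'.comap (algebraMap R C) = IsLocalRing.maximalIdeal R :=
    IsLocalRing.eq_maximalIdeal hcm
  have hle : (IsLocalRing.maximalIdeal R).map (algebraMap R C) ≤ M' := by
    rw [Ideal.map_le_iff_le_comap, hceq]
  obtain ⟨e, he, hmul⟩ :=
    UnitDisc.exists_not_mem_forall_mul_mem b hb (IsLocalRing.maximalIdeal R) M' hle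
  have hsm : s ∈ IsLocalRing.maximalIdeal R := by
    rw [hs]; exact Ideal.subset_span (by simp)
  have hsM : algebraMap R C s ∈ M' := hle (Ideal.mem_map_of_mem _ hsm)
  refine ⟨hsM, fun m hm => ⟨e, he, ?_⟩⟩
  have h1 := hmul m hm
  rw [hs, Ideal.map_span, Set.image_pair] at h1
  exact h1

universe u v

section Export

variable {A : Type u} {K : Type*} {L : Type v} [CommRing A] [IsDomain A] [IsNoetherianRing A]
  [IsIntegrallyClosed A] [UniqueFactorizationMonoid A]
  [Field K] [Algebra A K] [IsFractionRing A K] [Field L] [Algebra K L] [Algebra A L]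
  [IsScalarTower A K L] [FiniteDimensional K L] [Algebra.IsSeparable K L]

/-- **An explicit uniformiser of the special fibre at a non-branch point**: if `(π, τ)` is a
maximal ideal of `A`, `M ∋ π, τ` is a maximal ideal of the integral closure and the integral
closure is trace-self-dual at every prime element of `A` lying in `M`, then `M` is locally
generated by `π` and `τ`. -/
theorem genAt_of_tsdField (π τ : A) (hπ : Prime π) [IsPrincipalIdealRing (A ⧸ Ideal.span {π})]
    (hmax : (Ideal.span {π, τ}).IsMaximal)
    (M : Ideal (integralClosure A L)) (hM : M.IsMaximal)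
    (hπM : algebraMap A (integralClosure A L) π ∈ M)
    (hτM : algebraMap A (integralClosure A L) τ ∈ M)
    (h : ∀ p : A, Prime p → algebraMap A (integralClosure A L) p ∈ M →
      LocalDisc.TSDField A K L p) :
    GenAt (algebraMap A (integralClosure A L) π) (algebraMap A (integralClosure A L) τ) M := by
  classical
  have hinjK : Function.Injective (algebraMap A K) := IsFractionRing.injective A K
  have hinj : Function.Injective (algebraMap A L) := by
    rw [IsScalarTower.algebraMap_eq A K L]
    exact (algebraMap K L).injective.comp hinjK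
  have hfs : FaithfulSMul A L := (faithfulSMul_iff_algebraMap_injective A L).mpr hinj
  set x : Ideal A := M.comap (algebraMap A (integralClosure A L)) with hx
  have hxmax : x.IsMaximal := Ideal.isMaximal_comap_of_isIntegral_of_isMaximal M
  have hxprime : x.IsPrime := hxmax.isPrime
  have hπx : π ∈ x := Ideal.mem_comap.mpr hπM
  have hτx : τ ∈ x := Ideal.mem_comap.mpr hτM
  have hunitK : ∀ y : x.primeCompl, IsUnit (algebraMap A K y) := fun y =>
    IsUnit.mk0 _ ((map_ne_zero_iff _ hinjK).mpr (fun h0 => y.2 (h0 ▸ x.zero_mem)))
  have hunit : ∀ y : x.primeCompl, IsUnit (algebraMap A L y) := fun y =>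
    IsUnit.mk0 _ ((map_ne_zero_iff _ hinj).mpr (fun h0 => y.2 (h0 ▸ x.zero_mem)))
  let R := Localization.AtPrime x
  let algRK : Algebra R K := (IsLocalization.lift (M := x.primeCompl) hunitK).toAlgebra
  have towerARK : IsScalarTower A R K := IsScalarTower.of_algebraMap_eq fun a => by
    simp [RingHom.algebraMap_toAlgebra, R]
  have fracR : IsFractionRing R K :=
    IsFractionRing.isFractionRing_of_isDomain_of_isLocalization x.primeCompl R K
  let algRL : Algebra R L := ((algebraMap K L).comp (algebraMap R K)).toAlgebra
  have towerRKL : IsScalarTower R K L := IsScalarTower.of_algebraMap_eq fun a => rfl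
  have towerARL : IsScalarTower A R L := IsScalarTower.of_algebraMap_eq fun a => by
    rw [RingHom.algebraMap_toAlgebra, RingHom.comp_apply, ← IsScalarTower.algebraMap_apply A R K,
      ← IsScalarTower.algebraMap_apply A K L]
  have domR : IsDomain R := IsLocalization.isDomain_of_atPrime R x
  have locR : IsLocalRing R := IsLocalization.AtPrime.isLocalRing R x
  have noethR : IsNoetherianRing R := IsLocalization.isNoetherianRing x.primeCompl R inferInstance
  have icR : IsIntegrallyClosed R :=
    isIntegrallyClosed_of_isLocalization R x.primeCompl x.primeCompl_le_nonZeroDivisors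
  have pirR : IsPrincipalIdealRing (R ⧸ Ideal.span {algebraMap A R π}) :=
    RegLocal.isPrincipalIdealRing_quotient x.primeCompl R π
  have freeC : Module.Free R (integralClosure R L) :=
    RegLocal.free_integralClosure_of_isLocalization_atPrime hπ x hπx R K L
  have finC : Module.Finite R (integralClosure R L) :=
    IsIntegralClosure.finite R K L (integralClosure R L)
  -- the discriminant is a unit
  have hb : IsUnit (Algebra.discr R (Module.Free.chooseBasis R (integralClosure R L))) := by
    refine LocalDisc.isUnit_discr (K := K) (L := L) x _ fun p hp hpx => h p hp ?_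
    exact Ideal.mem_comap.mp hpx
  -- the localisation of the integral closure
  let algCC : Algebra (integralClosure A L) (integralClosure R L) :=
    (RegLocal.integralClosureMap (A := A) (L := L) R).toAlgebra
  have tower2 : IsScalarTower (integralClosure A L) (integralClosure R L) L :=
    IsScalarTower.of_algebraMap_eq fun c => rfl
  have tower3 : IsScalarTower A (integralClosure A L) (integralClosure R L) :=
    IsScalarTower.of_algebraMap_eq fun a => Subtype.ext rfl
  have hLL : IsLocalization (Algebra.algebraMapSubmonoid L x.primeCompl) L := by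
    apply IsLocalization.self
    rintro _ ⟨y, hy, rfl⟩
    exact hunit ⟨y, hy⟩
  have hloc' : IsLocalization (Algebra.algebraMapSubmonoid (integralClosure A L) x.primeCompl)
      (integralClosure R L) :=
    IsLocalization.integralClosure (S := L) (Rf := R) (Sf := L) x.primeCompl
  have heq : ∀ a : A, algebraMap (integralClosure A L) (integralClosure R L)
      (algebraMap A (integralClosure A L) a) =
      algebraMap R (integralClosure R L) (algebraMap A R a) := by
    intro a
    apply Subtype.ext
    change algebraMap A L a = algebraMap R L (algebraMap A R a)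
    rw [← IsScalarTower.algebraMap_apply]
  have hs : IsLocalRing.maximalIdeal R = Ideal.span {algebraMap A R π, algebraMap A R τ} :=
    LocalRed.maximalIdeal_eq_span_pair x R π τ hmax hπx hτx
  -- the local statement
  have hR' : ∀ M' : Ideal (integralClosure R L), M'.IsMaximal →
      algebraMap (integralClosure A L) (integralClosure R L)
        (algebraMap A (integralClosure A L) π) ∈ M' →
      algebraMap (integralClosure A L) (integralClosure R L)
        (algebraMap A (integralClosure A L) τ) ∈ M' →
      GenAt (algebraMap (integralClosure A L) (integralClosure R L)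
          (algebraMap A (integralClosure A L) π))
        (algebraMap (integralClosure A L) (integralClosure R L)
          (algebraMap A (integralClosure A L) τ)) M' := by
    intro M' hM' _ _
    rw [heq π, heq τ]
    exact genAt_of_isUnit_discr _ hb hs M' hM'
  refine genAt_of_isLocalization (C' := integralClosure R L)
    (Algebra.algebraMapSubmonoid (integralClosure A L) x.primeCompl)
    (algebraMap A (integralClosure A L) π) (algebraMap A (integralClosure A L) τ) hR' M hM ?_
    hπM hτM
  rw [Set.disjoint_left]
  rintro _ ⟨y, hy, rfl⟩ hxM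
  exact hy (Ideal.mem_comap.mpr hxM)

end Export

section Chart

universe uO uE uL

variable {O : Type uO} {E : Type uE} {L : Type uL} [CommRing O] [IsDomain O]
  [IsDiscreteValuationRing O]
  [Field E] [CharZero E] [Algebra O E] [IsFractionRing O E]
  [Field L] [Algebra E L] [Algebra O L] [IsScalarTower O E L]

/-- **Explicit uniformiser on a chart**: `M ∋ π` a maximal ideal of the integral closure of `O[t]`
through no branch section, `g ∈ O[X]` with `(π, g)` maximal and `g(t) ∈ M`: then `M` is locally
generated by `π` and `g(t)`. -/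
theorem chart_genAt (π : O) (hπ : Irreducible π) (t : L) (ht : Transcendental E t)
    [FiniteDimensional (IntermediateField.adjoin E {t}) L]
    (S : Finset O)
    (M : Ideal (integralClosure (Algebra.adjoin O {t}) L)) (hM : M.IsMaximal)
    (hπM : GlueChart.piElt (Algebra.adjoin O {t}) π ∈ M)
    (g : O[X]) (hg : (Ideal.span {(C π : O[X]), g}).IsMaximal)
    (z : integralClosure (Algebra.adjoin O {t}) L) (hz : (z : L) = aeval t g) (hzM : z ∈ M)
    (hnb : ∀ c ∈ S, ∀ m ∈ M, (m : L) ≠ t - algebraMap O L c)
    (h : ∀ f : O[X], Prime f → (∃ m ∈ M, (m : L) = aeval t f) →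
      (∀ c ∈ S, ¬ Associated f (X - C c)) →
      TSDAt (IntermediateField.adjoin E {t}) (Algebra.adjoin O {t}) (aeval t f)) :
    GenAt (GlueChart.piElt (Algebra.adjoin O {t}) π) z M := by
  classical
  have hinjOE : Function.Injective (algebraMap O E) := IsFractionRing.injective O E
  have htO : Transcendental O t := ht.restrictScalars hinjOE
  have hwK : t ∈ IntermediateField.adjoin E {t} := IntermediateField.mem_adjoin_simple_self E t
  let algAK : Algebra (Algebra.adjoin O {t}) (IntermediateField.adjoin E {t}) :=
    (ChartInst.incl O t (IntermediateField.adjoin E {t}) hwK).toAlgebra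
  have towerAKL : IsScalarTower (Algebra.adjoin O {t}) (IntermediateField.adjoin E {t}) L :=
    ChartInst.isScalarTower_incl O t _ hwK
  have fracA : IsFractionRing (Algebra.adjoin O {t}) (IntermediateField.adjoin E {t}) :=
    ChartInst.isFractionRing_incl O t _ hwK le_rfl
  have noethA : IsNoetherianRing (Algebra.adjoin O {t}) :=
    ChartInst.isNoetherianRing_adjoin O t htO
  have ufdA : UniqueFactorizationMonoid (Algebra.adjoin O {t}) :=
    ChartInst.uniqueFactorizationMonoid_adjoin O t htO
  have icA : IsIntegrallyClosed (Algebra.adjoin O {t}) :=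
    ChartInst.isIntegrallyClosed_adjoin O t htO
  have hπA : Prime (algebraMap O (Algebra.adjoin O {t}) π) :=
    ChartInst.prime_algebraMap_adjoin O t htO hπ.prime
  have hmaxπ : (Ideal.span {π}).IsMaximal := by
    rw [← hπ.maximalIdeal_eq]
    exact IsLocalRing.maximalIdeal.isMaximal O
  have pirA : IsPrincipalIdealRing
      (Algebra.adjoin O {t} ⧸ Ideal.span {algebraMap O (Algebra.adjoin O {t}) π}) :=
    ChartInst.isPrincipalIdealRing_quotient_adjoin O t htO π
  set e := ChartInst.polyEquiv O t htO with he
  set ι := algebraMap (Algebra.adjoin O {t}) (integralClosure (Algebra.adjoin O {t}) L) with hι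
  have hassoc : ∀ f g : O[X], Associated f g → ι (e f) ∈ M → ι (e g) ∈ M := by
    rintro f g ⟨u, rfl⟩ hf
    rw [map_mul, map_mul]
    exact M.mul_mem_right _ hf
  have hcoe : ∀ c : O, ((ι (e (X - C c)) : integralClosure (Algebra.adjoin O {t}) L) : L) =
      t - algebraMap O L c := by
    intro c
    change aeval t (X - C c : O[X]) = _
    rw [map_sub, aeval_X, aeval_C]
  have key : ∀ p : Algebra.adjoin O {t}, Prime p → ι p ∈ M →
      (∀ c ∈ S, ¬ Associated (e.symm p) (X - C c)) →
      LocalDisc.TSDField (Algebra.adjoin O {t}) (IntermediateField.adjoin E {t}) L p := by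
    intro p hp hpM hex
    have hfp : e (e.symm p) = p := AlgEquiv.apply_symm_apply e p
    have hfprime : Prime (e.symm p) := (MulEquiv.prime_iff e).mp (by rw [hfp]; exact hp)
    have hcoep : (p : L) = aeval t (e.symm p) := by
      conv_lhs => rw [← hfp]
      rfl
    have h1 := h (e.symm p) hfprime ⟨ι p, hpM, hcoep⟩ hex
    rw [← hcoep] at h1
    exact ChartLD.tsdField_of_tsdAt t _ hwK p h1
  have hπe : algebraMap O (Algebra.adjoin O {t}) π = e (C π) :=
    (ChartInst.polyEquiv_C O t htO π).symm
  have hmax : (Ideal.span {algebraMap O (Algebra.adjoin O {t}) π, e g}).IsMaximal := by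
    have h2 : Ideal.span {algebraMap O (Algebra.adjoin O {t}) π, e g} =
        Ideal.map e (Ideal.span {(C π : O[X]), g}) := by
      rw [Ideal.map_span, Set.image_pair, hπe]
    rw [h2]
    have hg' : (Ideal.span {(C π : O[X]), g}).IsMaximal := hg
    exact Ideal.map_isMaximal_of_equiv e
  have hzeq : z = ι (e g) := Subtype.ext hz
  rw [hzeq] at hzM ⊢
  refine genAt_of_tsdField (K := IntermediateField.adjoin E {t})
    (algebraMap O (Algebra.adjoin O {t}) π) (e g) hπA hmax M hM hπM hzM (fun p hp hpM => ?_)
  refine key p hp hpM (fun c hc hass => ?_)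
  have h1 : ι (e (X - C c)) ∈ M :=
    hassoc _ _ hass (by rw [AlgEquiv.apply_symm_apply]; exact hpM)
  exact hnb c hc _ h1 (hcoe c)

/-- **Explicit uniformiser on the `u`-chart** (hypotheses of the Model theorem, TSD form). -/
theorem gen_zero_tsd (π : O) (hπ : Irreducible π) (u : L) (hu : Transcendental E u)
    [FiniteDimensional (IntermediateField.adjoin E {u}) L]
    (S : Finset O) (hi : GaussTSD (E := E) π u) (hii : HorizTSD (E := E) S u)
    (M : Ideal (integralClosure (Algebra.adjoin O {u}) L)) (hM : M.IsMaximal)
    (hπM : GlueChart.piElt (Algebra.adjoin O {u}) π ∈ M)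
    (g : O[X]) (hg : (Ideal.span {(C π : O[X]), g}).IsMaximal)
    (z : integralClosure (Algebra.adjoin O {u}) L) (hz : (z : L) = aeval u g) (hzM : z ∈ M)
    (hnb : ∀ c ∈ S, ∀ m ∈ M, (m : L) ≠ u - algebraMap O L c) :
    GenAt (GlueChart.piElt (Algebra.adjoin O {u}) π) z M :=
  chart_genAt π hπ u hu S M hM hπM g hg z hz hzM hnb
    (fun f hf _ hfS => ChartSwap.chartUnram_of π hπ u hu S hi hii f hf hfS)

/-- **Explicit uniformiser on the `u`-chart** (hypotheses of `Model.main_a`, family form). -/
theorem gen_zero (π : O) (hπ : Irreducible π) (u : L) (hu : Transcendental E u)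
    [FiniteDimensional (IntermediateField.adjoin E {u}) L]
    (hi : GaussUnram (E := E) π u) (S : Finset O) (hii : HorizUnram (E := E) S u)
    (M : Ideal (integralClosure (Algebra.adjoin O {u}) L)) (hM : M.IsMaximal)
    (hπM : GlueChart.piElt (Algebra.adjoin O {u}) π ∈ M)
    (g : O[X]) (hg : (Ideal.span {(C π : O[X]), g}).IsMaximal)
    (z : integralClosure (Algebra.adjoin O {u}) L) (hz : (z : L) = aeval u g) (hzM : z ∈ M)
    (hnb : ∀ c ∈ S, ∀ m ∈ M, (m : L) ≠ u - algebraMap O L c) :
    GenAt (GlueChart.piElt (Algebra.adjoin O {u}) π) z M :=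
  gen_zero_tsd π hπ u hu S (FamilyTSD.gaussTSD_of_gaussUnram π hπ u hu hi)
    (FamilyTSD.horizTSD_of_horizUnram u hu S hii) M hM hπM g hg z hz hzM hnb

omit [IsDomain O] [IsDiscreteValuationRing O] in
/-- A maximal ideal through the section `u = c` meets no branch section `u = c'` with `c - c'` a
unit. -/
theorem ne_sub_of_isUnit_sub (t : L) (S : Finset O)
    (M : Ideal (integralClosure (Algebra.adjoin O {t}) L)) (hM : M.IsMaximal)
    (c : O) (hc : ∀ c' ∈ S, IsUnit (c - c'))
    (z : integralClosure (Algebra.adjoin O {t}) L) (hz : (z : L) = t - algebraMap O L c)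
    (hzM : z ∈ M) :
    ∀ c' ∈ S, ∀ m ∈ M, (m : L) ≠ t - algebraMap O L c' := by
  intro c' hc' m hm hmc
  have h2 : m - z ∈ M := M.sub_mem hm hzM
  have h3 : m - z = algebraMap (Algebra.adjoin O {t}) (integralClosure (Algebra.adjoin O {t}) L)
      (algebraMap O (Algebra.adjoin O {t}) (c - c')) := by
    apply Subtype.ext
    change (m : L) - (z : L) = algebraMap O L (c - c')
    rw [hmc, hz, map_sub]
    ring
  rw [h3] at h2
  have h4 : IsUnit (algebraMap (Algebra.adjoin O {t}) (integralClosure (Algebra.adjoin O {t}) L)
      (algebraMap O (Algebra.adjoin O {t}) (c - c'))) :=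
    ((hc c' hc').map (algebraMap O (Algebra.adjoin O {t}))).map _
  exact hM.ne_top (Ideal.eq_top_of_isUnit_mem M h2 h4)

/-- **`u - c` is a uniformiser of the special fibre at a point of the section `u = c`**, `c` not
congruent to a branch value (TSD form). -/
theorem gen_zero_sub_tsd (π : O) (hπ : Irreducible π) (u : L) (hu : Transcendental E u)
    [FiniteDimensional (IntermediateField.adjoin E {u}) L]
    (S : Finset O) (hi : GaussTSD (E := E) π u) (hii : HorizTSD (E := E) S u)
    (M : Ideal (integralClosure (Algebra.adjoin O {u}) L)) (hM : M.IsMaximal)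
    (hπM : GlueChart.piElt (Algebra.adjoin O {u}) π ∈ M)
    (c : O) (hc : ∀ c' ∈ S, IsUnit (c - c'))
    (z : integralClosure (Algebra.adjoin O {u}) L) (hz : (z : L) = u - algebraMap O L c)
    (hzM : z ∈ M) :
    GenAt (GlueChart.piElt (Algebra.adjoin O {u}) π) z M := by
  have hmaxπ : (Ideal.span {π}).IsMaximal := by
    rw [← hπ.maximalIdeal_eq]
    exact IsLocalRing.maximalIdeal.isMaximal O
  refine gen_zero_tsd π hπ u hu S hi hii M hM hπM (X - C c) (ChartLD.span_pair_isMaximal π c) z ?_
    hzM (ne_sub_of_isUnit_sub u S M hM c hc z hz hzM)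
  rw [hz, map_sub, aeval_X, aeval_C]

/-- **`u - c` is a uniformiser of the special fibre at a point of the section `u = c`**, `c` not
congruent to a branch value (hypotheses of `Model.main_a`). -/
theorem gen_zero_sub (π : O) (hπ : Irreducible π) (u : L) (hu : Transcendental E u)
    [FiniteDimensional (IntermediateField.adjoin E {u}) L]
    (hi : GaussUnram (E := E) π u) (S : Finset O) (hii : HorizUnram (E := E) S u)
    (M : Ideal (integralClosure (Algebra.adjoin O {u}) L)) (hM : M.IsMaximal)
    (hπM : GlueChart.piElt (Algebra.adjoin O {u}) π ∈ M)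
    (c : O) (hc : ∀ c' ∈ S, IsUnit (c - c'))
    (z : integralClosure (Algebra.adjoin O {u}) L) (hz : (z : L) = u - algebraMap O L c)
    (hzM : z ∈ M) :
    GenAt (GlueChart.piElt (Algebra.adjoin O {u}) π) z M :=
  gen_zero_sub_tsd π hπ u hu S (FamilyTSD.gaussTSD_of_gaussUnram π hπ u hu hi)
    (FamilyTSD.horizTSD_of_horizUnram u hu S hii) M hM hπM c hc z hz hzM

end Chart

end Fermat.Agent.S30.Model.RegUnif
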