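import Mathlib
import Fermat.Agent.S30.Model.RegNB

/-!
# Consumer lemmas for `RegNB.RegAt`: a horizontal section is locally principal and invertible

`C` a Noetherian ring (a chart ring of the model), `p : C` (the uniformiser of the base), `q` a
prime ideal with `p ∉ q` such that `M := q ⊔ (p)` is maximal (the horizontal prime of a rational
point with integral coordinate, and its centre on the special fibre).  If `M` is locally generated
by `p` and one more element (`RegNB.RegAt p M`, "the special fibre is regular at `M`"), then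

* `exists_forall_mul_mem_span` (Nakayama): `q` is locally principal at `M`:
  `∃ z ∈ q, ∃ s ∉ M, ∀ x ∈ q, s * x ∈ (z)`;
* `exists_inv` : `q · (C : q) + p C = C` in elementwise form:
  `∃ z y ∈ q, ∃ s a c, (∀ x ∈ q, z ∣ s * x) ∧ s * a + y + p * c = 1`;
* `exists_inv_frac` : the same inside the fraction field `L` of a domain `C`: there is `w : L`
  with `w • q ⊆ C` and `z * w + y ≡ 1 mod p` for suitable `z y ∈ q`.

Mathlib only (plus the definition `RegAt`).  The hypotheses are stated in unfolded form as well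
(`exists_inv_of_gen`), so that any equivalent spelling of "locally generated by `p` and one more
element" can be plugged in.
-/

set_option autoImplicit false

namespace Fermat.Agent.S30.Model.RegUse

open Fermat.Agent.S30.Model

variable {C : Type*} [CommRing C]

/-- **Nakayama step.**  If the maximal ideal `M = q ⊔ (p)` is locally generated by `p` and `z₀`,
then the prime `q ∌ p` is locally principal at `M`, generated by the `q`-component of `z₀`. -/
theorem exists_forall_mul_mem_span_of_gen [IsNoetherianRing C] {p : C} {q : Ideal C}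
    (hq : q.IsPrime) (hpq : p ∉ q) (hmax : (q ⊔ Ideal.span {p}).IsMaximal)
    (h : ∃ z₀ ∈ q ⊔ Ideal.span {p}, ∀ m ∈ q ⊔ Ideal.span {p},
      ∃ s, s ∉ q ⊔ Ideal.span {p} ∧ s * m ∈ Ideal.span {p, z₀}) :
    ∃ z ∈ q, ∃ s, s ∉ q ⊔ Ideal.span {p} ∧ ∀ x ∈ q, s * x ∈ Ideal.span {z} := by
  classical
  set M : Ideal C := q ⊔ Ideal.span {p} with hMdef
  have hMp : M.IsPrime := hmax.isPrime
  have hqM : q ≤ M := le_sup_left
  have hpM : p ∈ M := (le_sup_right : Ideal.span {p} ≤ M) (Ideal.subset_span rfl)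
  obtain ⟨z₀, hz₀, hgen⟩ := h
  obtain ⟨z, hz, w, hw, hzw⟩ := Submodule.mem_sup.mp hz₀
  obtain ⟨c₀, rfl⟩ := Ideal.mem_span_singleton'.mp hw
  -- step 1: every element of `q` is, up to `s ∉ M`, in `p q + (z)`
  have step1 : ∀ y ∈ q, ∃ s, s ∉ M ∧ ∃ a ∈ q, ∃ b, s * y = a * p + b * z := by
    intro y hy
    obtain ⟨s, hs, hmem⟩ := hgen y (hqM hy)
    obtain ⟨a, b, hab⟩ := Ideal.mem_span_pair.mp hmem
    have h1 : (a + b * c₀) * p = s * y - b * z := by
      rw [← hab, ← hzw]; ring
    have h2 : (a + b * c₀) * p ∈ q := by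
      rw [h1]; exact q.sub_mem (q.mul_mem_left _ hy) (q.mul_mem_left _ hz)
    have h3 : a + b * c₀ ∈ q := (hq.mem_or_mem h2).resolve_right hpq
    exact ⟨s, hs, a + b * c₀, h3, b, by rw [h1]; ring⟩
  -- step 2: Nakayama in the localisation at `M`
  let R := Localization.AtPrime M
  have hloc : IsLocalRing R := IsLocalization.AtPrime.isLocalRing R M
  set q' : Ideal R := q.map (algebraMap C R) with hq'
  have hnoeth : IsNoetherianRing R := IsLocalization.isNoetherianRing M.primeCompl R inferInstance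
  have hfg : q'.FG := IsNoetherian.noetherian q'
  have hjac : Ideal.span {algebraMap C R p} ≤ Ideal.jacobson (⊥ : Ideal R) := by
    rw [IsLocalRing.jacobson_eq_maximalIdeal ⊥ bot_ne_top, Ideal.span_le,
      Set.singleton_subset_iff]
    exact (IsLocalization.AtPrime.to_map_mem_maximal_iff R M p).mpr hpM
  have hNN : q' ≤ Ideal.span {algebraMap C R z} ⊔ Ideal.span {algebraMap C R p} • q' := by
    rw [hq', Ideal.map_le_iff_le_comap]
    intro y hy
    rw [Ideal.mem_comap]
    obtain ⟨s, hs, a, ha, b, hab⟩ := step1 y hy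
    have hsu : IsUnit (algebraMap C R s) :=
      (IsLocalization.AtPrime.isUnit_to_map_iff R M s).mpr hs
    obtain ⟨u, hu⟩ := hsu
    have h1 : algebraMap C R y = (↑u⁻¹ * algebraMap C R b) * algebraMap C R z +
        algebraMap C R p * (↑u⁻¹ * algebraMap C R a) := by
      have h2 : algebraMap C R s * algebraMap C R y =
          algebraMap C R a * algebraMap C R p + algebraMap C R b * algebraMap C R z := by
        rw [← map_mul, hab, map_add, map_mul, map_mul]
      rw [← hu] at h2
      have h3 : algebraMap C R y = ↑u⁻¹ * (↑u * algebraMap C R y) := by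
        rw [← mul_assoc, Units.inv_mul, one_mul]
      rw [h3, h2]; ring
    rw [h1]
    refine Submodule.add_mem_sup (Ideal.mem_span_singleton'.mpr ⟨_, rfl⟩) ?_
    exact Submodule.smul_mem_smul (Ideal.subset_span rfl)
      (Ideal.mul_mem_left _ _ (Ideal.mem_map_of_mem _ ha))
  have hle : q' ≤ Ideal.span {algebraMap C R z} :=
    Submodule.le_of_le_smul_of_le_jacobson_bot hfg hjac hNN
  -- step 3: descend, elementwise
  have step3 : ∀ y ∈ q, ∃ s, s ∉ M ∧ s * y ∈ Ideal.span {z} := by
    intro y hy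
    have h1 : algebraMap C R y ∈ Ideal.span {algebraMap C R z} :=
      hle (Ideal.mem_map_of_mem _ hy)
    obtain ⟨r, hr⟩ := Ideal.mem_span_singleton'.mp h1
    obtain ⟨b, t, rfl⟩ := IsLocalization.exists_mk'_eq M.primeCompl r
    have eb : IsLocalization.mk' R b t * algebraMap C R t = algebraMap C R b :=
      IsLocalization.mk'_spec R b t
    have h2 : algebraMap C R (b * z) = algebraMap C R (t * y) := by
      rw [map_mul, map_mul, ← hr, ← eb]; ring
    obtain ⟨u, hu⟩ := (IsLocalization.eq_iff_exists M.primeCompl R).mp h2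
    refine ⟨u * t, ?_, ?_⟩
    · intro hmem
      rcases hMp.mem_or_mem hmem with h | h
      · exact u.2 h
      · exact t.2 h
    · rw [Ideal.mem_span_singleton']
      exact ⟨u * b, by linear_combination hu⟩
  -- step 4: a uniform `s`, since `q` is finitely generated
  obtain ⟨T, hT⟩ := IsNoetherian.noetherian q
  choose! σ hσ hσz using step3
  refine ⟨z, hz, ∏ y ∈ T, σ y, ?_, ?_⟩
  · intro hmem
    obtain ⟨y, hyT, hy⟩ := (hMp.prod_mem_iff).mp hmem
    exact hσ y (hT ▸ Submodule.subset_span hyT) hy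
  · intro x hx
    rw [← hT] at hx
    induction hx using Submodule.span_induction with
    | mem y hy =>
      have hyq : y ∈ q := hT ▸ Submodule.subset_span hy
      rw [← Finset.mul_prod_erase T σ hy, mul_right_comm]
      exact Ideal.mul_mem_right _ _ (hσz y hyq)
    | zero => rw [mul_zero]; exact Ideal.zero_mem _
    | add x y _ _ hx hy => rw [mul_add]; exact Ideal.add_mem _ hx hy
    | smul a x _ hx =>
      rw [smul_eq_mul, mul_left_comm]; exact Ideal.mul_mem_left _ _ hx

/-- `q · (C : q) + p C = C`, elementwise, from the unfolded local generation hypothesis. -/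
theorem exists_inv_of_gen [IsNoetherianRing C] {p : C} {q : Ideal C}
    (hq : q.IsPrime) (hpq : p ∉ q) (hmax : (q ⊔ Ideal.span {p}).IsMaximal)
    (h : ∃ z₀ ∈ q ⊔ Ideal.span {p}, ∀ m ∈ q ⊔ Ideal.span {p},
      ∃ s, s ∉ q ⊔ Ideal.span {p} ∧ s * m ∈ Ideal.span {p, z₀}) :
    ∃ z ∈ q, ∃ y ∈ q, ∃ s a c : C, (∀ x ∈ q, z ∣ s * x) ∧ s * a + y + p * c = 1 := by
  obtain ⟨z, hz, s, hs, hsz⟩ := exists_forall_mul_mem_span_of_gen hq hpq hmax h
  obtain ⟨a, m, hm, ham⟩ := hmax.exists_inv hs
  obtain ⟨y, hy, w, hw, hyw⟩ := Submodule.mem_sup.mp hm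
  obtain ⟨c, rfl⟩ := Ideal.mem_span_singleton'.mp hw
  refine ⟨z, hz, y, hy, s, a, c, fun x hx => ?_, ?_⟩
  · obtain ⟨d, hd⟩ := Ideal.mem_span_singleton'.mp (hsz x hx)
    exact ⟨d, by rw [← hd, mul_comm]⟩
  · rw [← ham, ← hyw]; ring

/-- **A horizontal section through a regular point of the special fibre is locally principal.** -/
theorem exists_forall_mul_mem_span [IsNoetherianRing C] {p : C} {q : Ideal C}
    (hq : q.IsPrime) (hpq : p ∉ q) (hmax : (q ⊔ Ideal.span {p}).IsMaximal)
    (h : RegNB.RegAt p (q ⊔ Ideal.span {p})) :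
    ∃ z ∈ q, ∃ s, s ∉ q ⊔ Ideal.span {p} ∧ ∀ x ∈ q, s * x ∈ Ideal.span {z} :=
  exists_forall_mul_mem_span_of_gen hq hpq hmax h

/-- **`q · (C : q) + p C = C`** at a horizontal section through a regular point of the special
fibre, elementwise. -/
theorem exists_inv [IsNoetherianRing C] {p : C} {q : Ideal C}
    (hq : q.IsPrime) (hpq : p ∉ q) (hmax : (q ⊔ Ideal.span {p}).IsMaximal)
    (h : RegNB.RegAt p (q ⊔ Ideal.span {p})) :
    ∃ z ∈ q, ∃ y ∈ q, ∃ s a c : C, (∀ x ∈ q, z ∣ s * x) ∧ s * a + y + p * c = 1 :=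
  exists_inv_of_gen hq hpq hmax h

/-- The same inside the fraction field: there are `z y ∈ q` and `w : L` with `w • q ⊆ C`,
`w * z = d ∈ C` and `d + y + p * c = 1`. -/
theorem exists_inv_frac [IsNoetherianRing C] [IsDomain C] {L : Type*} [Field L] [Algebra C L]
    [IsFractionRing C L] {p : C} {q : Ideal C}
    (hq : q.IsPrime) (hq0 : q ≠ ⊥) (hpq : p ∉ q) (hmax : (q ⊔ Ideal.span {p}).IsMaximal)
    (h : RegNB.RegAt p (q ⊔ Ideal.span {p})) :
    ∃ z ∈ q, ∃ y ∈ q, ∃ w : L, (∀ x ∈ q, ∃ d : C, w * algebraMap C L x = algebraMap C L d) ∧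
      ∃ d c : C, w * algebraMap C L z = algebraMap C L d ∧ d + y + p * c = 1 := by
  have hinj : Function.Injective (algebraMap C L) := IsFractionRing.injective C L
  obtain ⟨z, hz, y, hy, s, a, c, hdvd, hsum⟩ := exists_inv hq hpq hmax h
  have hz0 : z ≠ 0 := by
    rintro rfl
    -- then `s * x = 0` for all `x ∈ q`, and `s ≠ 0`
    have hs0 : s ≠ 0 := by
      rintro rfl
      have : (1 : C) ∈ q ⊔ Ideal.span {p} := by
        rw [← hsum, zero_mul, zero_add]
        exact Ideal.add_mem _ (le_sup_left (a := q) hy)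
          ((le_sup_right : Ideal.span {p} ≤ _) (Ideal.mul_mem_right _ _ (Ideal.subset_span rfl)))
      exact hmax.ne_top ((Ideal.eq_top_iff_one _).mpr this)
    apply hq0
    rw [eq_bot_iff]
    intro x hx
    have h1 := hdvd x hx
    rw [zero_dvd_iff] at h1
    rcases mul_eq_zero.mp h1 with h2 | h2
    · exact absurd h2 hs0
    · rw [h2]; exact Ideal.zero_mem _
  have hzL : algebraMap C L z ≠ 0 := (map_ne_zero_iff _ hinj).mpr hz0
  refine ⟨z, hz, y, hy, algebraMap C L (s * a) / algebraMap C L z, fun x hx => ?_,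
    s * a, c, ?_, hsum⟩
  · obtain ⟨d, hd⟩ := hdvd x hx
    refine ⟨a * d, ?_⟩
    rw [div_mul_eq_mul_div, div_eq_iff hzL, ← map_mul, ← map_mul]
    congr 1
    linear_combination a * hd
  · rw [div_mul_cancel₀ _ hzL]

end Fermat.Agent.S30.Model.RegUse
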