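import Mathlib

/-!
# S30 / MODEL THEOREM: the vertical prime does not divide the discriminant

`R` a domain with fraction field `K`, `L / K` a finite separable field extension, `C ⊆ L` an
`R`-order which is `R`-free with basis `b` (e.g. the integral closure of `R = O[u]_x` in `L`).
Let `θ ∈ C` be a primitive element of `L / K` and `P ∈ R[X]` a monic polynomial of degree
`[L : K]` with `P(θ) = 0`.  If `f : R →+* F` is a ring homomorphism to a field such that the
reduction `P.map f` is separable, then `f (discr b) ≠ 0`.

In the application `P` is the modular polynomial, `f : O[u]_x → k(u)` and the conclusion says that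
the prime `π` does not divide the discriminant of the integral closure.

* `map_norm_aeval_derivative_ne_zero` : `f (N_{C/R} (P'(θ))) ≠ 0`   (Bezout on matrices)
* `sq_mul_discr_eq` : `det(M)² · discr b = ± N_{C/R} (P'(θ))`
* `map_discr_ne_zero_of_separable`, `not_dvd_discr_of_separable`
* `isUnit_of_forall_prime_not_dvd` : an element of a localisation of a UFD which is divisible by
  no prime element is a unit.
-/

set_option autoImplicit false

open Polynomial Module

open scoped Matrix

namespace Fermat.Agent.S30.Model.SepDisc

section NormDeriv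

variable {R C F ι : Type*} [CommRing R] [CommRing C] [Algebra R C] [Field F]
  [Fintype ι] [DecidableEq ι]

/-- The reduced regular representation `C → Mat_ι(F)` attached to a basis `b` and `f : R →+* F`. -/
noncomputable def redRep (b : Basis ι R C) (f : R →+* F) : C →+* Matrix ι ι F :=
  f.mapMatrix.comp (Algebra.leftMulMatrix b).toRingHom

theorem redRep_algebraMap (b : Basis ι R C) (f : R →+* F) (r : R) :
    redRep b f (algebraMap R C r) = algebraMap F (Matrix ι ι F) (f r) := by
  have h1 : Algebra.leftMulMatrix b (algebraMap R C r) = algebraMap R (Matrix ι ι R) r :=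
    (Algebra.leftMulMatrix b).commutes r
  have h2 : redRep b f (algebraMap R C r) =
      f.mapMatrix (Algebra.leftMulMatrix b (algebraMap R C r)) := rfl
  rw [h2, h1]
  ext i j
  by_cases hij : i = j
  · subst hij
    simp [Matrix.algebraMap_matrix_apply]
  · simp [Matrix.algebraMap_matrix_apply, hij]

theorem redRep_aeval (b : Basis ι R C) (f : R →+* F) (θ : C) (Q : R[X]) :
    redRep b f (aeval θ Q) = aeval (redRep b f θ) (Q.map f) := by
  rw [aeval_def, hom_eval₂, aeval_def, eval₂_map]
  congr 1
  ext r : 1
  exact redRep_algebraMap b f r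

theorem det_redRep (b : Basis ι R C) (f : R →+* F) (c : C) :
    (redRep b f c).det = f (Algebra.norm R c) := by
  rw [Algebra.norm_eq_matrix_det b, RingHom.map_det]
  rfl

/-- If `P(θ) = 0` and the reduction of `P` is separable then the reduction of the norm of
`P'(θ)` is nonzero. -/
theorem map_norm_aeval_derivative_ne_zero (b : Basis ι R C) (f : R →+* F) (θ : C) (P : R[X])
    (hθ : aeval θ P = 0) (hsep : (P.map f).Separable) :
    f (Algebra.norm R (aeval θ (derivative P))) ≠ 0 := by
  obtain ⟨a, c, hac⟩ := hsep
  have h1 := congrArg (aeval (redRep b f θ)) hac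
  rw [map_add, map_mul, map_mul, map_one, ← redRep_aeval, hθ, map_zero, mul_zero, zero_add,
    derivative_map, ← redRep_aeval] at h1
  have h2 := congrArg Matrix.det h1
  rw [Matrix.det_mul, Matrix.det_one, det_redRep] at h2
  intro h0
  rw [h0, mul_zero] at h2
  exact zero_ne_one h2

end NormDeriv

section Main

variable {R K L C ι : Type*} [CommRing R] [Field K] [Algebra R K]
  [IsFractionRing R K] [Field L] [Algebra K L] [Algebra R L] [IsScalarTower R K L]
  [FiniteDimensional K L] [Algebra.IsSeparable K L] [CommRing C] [Algebra R C] [Algebra C L]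
  [IsScalarTower R C L] [IsLocalization (Algebra.algebraMapSubmonoid C (nonZeroDivisors R)) L]
  [Fintype ι] [DecidableEq ι]

include K L in
/-- **Index formula.**  `det(M)² · discr b = ± N_{C/R}(P'(θ))`, where `M` is the matrix of
`1, θ, …, θ^{n-1}` in the basis `b`. -/
theorem sq_mul_discr_eq (b : Basis ι R C) (θ : C)
    (hgen : IntermediateField.adjoin K {algebraMap C L θ} = ⊤) (P : R[X]) (hP : P.Monic)
    (hdeg : P.natDegree = Module.finrank K L) (hθ : aeval θ P = 0) :
    ∃ m : R, m ^ 2 * Algebra.discr R b =
      (-1) ^ (Module.finrank K L * (Module.finrank K L - 1) / 2) *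
        Algebra.norm R (aeval θ (derivative P)) := by
  classical
  have hfree : Module.Free R C := Module.Free.of_basis b
  have hfin : Module.Finite R C := Module.Finite.of_basis b
  set θL : L := algebraMap C L θ with hθL
  have hint : IsIntegral K θL := Algebra.IsIntegral.isIntegral θL
  have hinj : Function.Injective (algebraMap R K) := IsFractionRing.injective R K
  -- the minimal polynomial of `θL` is `P`
  have hPK : (P.map (algebraMap R K)).Monic := hP.map _
  have h0 : aeval θL (P.map (algebraMap R K)) = 0 := by
    rw [aeval_map_algebraMap, hθL, aeval_algebraMap_apply, hθ, map_zero]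
  have hdegmin : (minpoly K θL).natDegree = Module.finrank K L :=
    (Field.primitive_element_iff_minpoly_natDegree_eq K θL).mp hgen
  have hmin : minpoly K θL = P.map (algebraMap R K) := by
    symm
    refine Polynomial.eq_of_monic_of_dvd_of_natDegree_le (minpoly.monic hint) hPK
      (minpoly.dvd K θL h0) ?_
    rw [hP.natDegree_map (algebraMap R K), hdeg, hdegmin]
  -- the power basis
  let e : IntermediateField.adjoin K {θL} ≃ₐ[K] L :=
    (IntermediateField.equivOfEq hgen).trans IntermediateField.topEquiv
  let pb : PowerBasis K L := (IntermediateField.adjoin.powerBasis hint).map e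
  have hpbgen : pb.gen = θL := by
    simp [pb, e]
  have hpbdim : pb.dim = Module.finrank K L := (PowerBasis.finrank pb).symm
  -- the localised basis
  let bK : Basis ι K L := b.localizationLocalization K (nonZeroDivisors R) L
  have hcard : Fintype.card (Fin pb.dim) = Fintype.card ι := by
    rw [Fintype.card_fin, hpbdim, Module.finrank_eq_card_basis bK]
  let e' : Fin pb.dim ≃ ι := Fintype.equivOfCardEq hcard
  let MR : Matrix ι ι R := fun i j => b.repr (θ ^ (e'.symm i : ℕ)) j
  refine ⟨MR.det, hinj ?_⟩
  have hvec : pb.basis ∘ e'.symm = (MR.map (algebraMap R K)).map (algebraMap K L) *ᵥ bK := by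
    funext i
    rw [Function.comp_apply, PowerBasis.basis_eq_pow, hpbgen, hθL, ← map_pow]
    have h1 := bK.sum_repr (algebraMap C L (θ ^ (e'.symm i : ℕ)))
    rw [← h1]
    simp only [Matrix.mulVec, dotProduct, Matrix.map_apply, MR]
    refine Finset.sum_congr rfl fun j _ => ?_
    rw [Basis.localizationLocalization_repr_algebraMap]
    exact Algebra.smul_def _ _
  have hd1 : Algebra.discr K (pb.basis ∘ e'.symm) = Algebra.discr K pb.basis :=
    Algebra.discr_reindex K pb.basis e'
  have hd2 : Algebra.discr K ((MR.map (algebraMap R K)).map (algebraMap K L) *ᵥ bK) =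
      (MR.map (algebraMap R K)).det ^ 2 * Algebra.discr K bK :=
    Algebra.discr_of_matrix_mulVec _ _
  have hd3 : Algebra.discr K bK = algebraMap R K (Algebra.discr R b) :=
    Algebra.discr_localizationLocalization R (nonZeroDivisors R) L b
  have hd4 : (MR.map (algebraMap R K)).det = algebraMap R K MR.det := by
    rw [RingHom.map_det]; rfl
  have hd5 := Algebra.discr_powerBasis_eq_norm K pb
  have hn : Algebra.norm K (aeval pb.gen (derivative (minpoly K pb.gen))) =
      algebraMap R K (Algebra.norm R (aeval θ (derivative P))) := by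
    rw [hpbgen, hmin, derivative_map, aeval_map_algebraMap, hθL, aeval_algebraMap_apply]
    exact Algebra.norm_localization R (nonZeroDivisors R) _
  rw [map_mul, map_pow, ← hd4, ← hd3, ← hd2, ← hvec, hd1, hd5, hn, map_mul, map_pow, map_neg,
    map_one]

include K L in
/-- **Separable reduction ⇒ the reduction of the discriminant is nonzero.** -/
theorem map_discr_ne_zero_of_separable (b : Basis ι R C) (θ : C)
    (hgen : IntermediateField.adjoin K {algebraMap C L θ} = ⊤) (P : R[X]) (hP : P.Monic)
    (hdeg : P.natDegree = Module.finrank K L) (hθ : aeval θ P = 0)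
    {F : Type*} [Field F] (f : R →+* F) (hsep : (P.map f).Separable) :
    f (Algebra.discr R b) ≠ 0 := by
  obtain ⟨m, hm⟩ := sq_mul_discr_eq (K := K) (L := L) b θ hgen P hP hdeg hθ
  have h1 := map_norm_aeval_derivative_ne_zero b f θ P hθ hsep
  intro h0
  have h2 := congrArg f hm
  rw [map_mul, h0, mul_zero, map_mul, map_pow, map_neg, map_one] at h2
  have h3 : ((-1 : F) ^ (Module.finrank K L * (Module.finrank K L - 1) / 2)) ≠ 0 :=
    pow_ne_zero _ (neg_ne_zero.mpr one_ne_zero)
  exact mul_ne_zero h3 h1 h2.symm

include K L in
/-- The vertical prime does not divide the discriminant: if `f π = 0` and `P.map f` is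
separable then `π ∤ discr b`. -/
theorem not_dvd_discr_of_separable (b : Basis ι R C) (θ : C)
    (hgen : IntermediateField.adjoin K {algebraMap C L θ} = ⊤) (P : R[X]) (hP : P.Monic)
    (hdeg : P.natDegree = Module.finrank K L) (hθ : aeval θ P = 0)
    {F : Type*} [Field F] (f : R →+* F) (hsep : (P.map f).Separable) {π : R} (hπ : f π = 0) :
    ¬ π ∣ Algebra.discr R b := by
  rintro ⟨d, hd⟩
  apply map_discr_ne_zero_of_separable (K := K) (L := L) b θ hgen P hP hdeg hθ f hsep
  rw [hd, map_mul, hπ, zero_mul]

include K L in
/-- Variant over a base ring `A` of which `R` is a localisation (`A = O[u]`, `R = O[u]_x`):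
`P ∈ A[X]` monic of degree `[L : K]` with `P(θ) = 0`, `f : A →+* F` nonzero on the
multiplicative set, `P.map f` separable, `f π = 0`.  Then `π ∤ discr b` in `R`. -/
theorem not_dvd_discr_of_separable_of_isLocalization {A : Type*} [CommRing A] (M : Submonoid A)
    [Algebra A R] [IsLocalization M R] [Algebra A C] [IsScalarTower A R C]
    (b : Basis ι R C) (θ : C)
    (hgen : IntermediateField.adjoin K {algebraMap C L θ} = ⊤) (P : A[X]) (hP : P.Monic)
    (hdeg : P.natDegree = Module.finrank K L) (hθ : aeval θ P = 0)
    {F : Type*} [Field F] (f : A →+* F) (hf : ∀ m ∈ M, f m ≠ 0) (hsep : (P.map f).Separable)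
    {π : A} (hπ : f π = 0) : ¬ algebraMap A R π ∣ Algebra.discr R b := by
  have hunit : ∀ y : M, IsUnit (f y) := fun y => IsUnit.mk0 _ (hf y y.2)
  let g : R →+* F := IsLocalization.lift (M := M) hunit
  have hg : g.comp (algebraMap A R) = f := IsLocalization.lift_comp hunit
  have hK : Nontrivial R := RingHom.domain_nontrivial g
  have hPR : (P.map (algebraMap A R)).Monic := hP.map _
  refine not_dvd_discr_of_separable (K := K) (L := L) b θ hgen (P.map (algebraMap A R)) hPR
    ?_ ?_ g ?_ ?_
  · rw [hP.natDegree_map (algebraMap A R), hdeg]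
  · rw [aeval_map_algebraMap, hθ]
  · rw [Polynomial.map_map, hg]
    exact hsep
  · have : g (algebraMap A R π) = f π := by rw [← hg]; rfl
    rw [this, hπ]

end Main

section IntegralClosure

variable {R K L C ι : Type*} [CommRing R] [IsDomain R] [Field K] [Algebra R K]
  [IsFractionRing R K] [Field L] [Algebra K L] [Algebra R L] [IsScalarTower R K L]
  [FiniteDimensional K L] [Algebra.IsSeparable K L] [CommRing C] [Algebra R C] [Algebra C L]
  [IsScalarTower R C L] [IsIntegralClosure C R L] [Fintype ι] [DecidableEq ι]

include K L in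
/-- `map_discr_ne_zero_of_separable` for the integral closure `C` of `R` in `L`. -/
theorem map_discr_ne_zero_of_separable_of_isIntegralClosure (b : Basis ι R C) (θ : C)
    (hgen : IntermediateField.adjoin K {algebraMap C L θ} = ⊤) (P : R[X]) (hP : P.Monic)
    (hdeg : P.natDegree = Module.finrank K L) (hθ : aeval θ P = 0)
    {F : Type*} [Field F] (f : R →+* F) (hsep : (P.map f).Separable) :
    f (Algebra.discr R b) ≠ 0 := by
  have : IsLocalization (Algebra.algebraMapSubmonoid C (nonZeroDivisors R)) L :=
    IsIntegralClosure.isLocalization R K L C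
  exact map_discr_ne_zero_of_separable (K := K) (L := L) b θ hgen P hP hdeg hθ f hsep

include K L in
/-- `not_dvd_discr_of_separable_of_isLocalization` for the integral closure `C` of `R` in `L`. -/
theorem not_dvd_discr_of_separable_of_isIntegralClosure {A : Type*} [CommRing A]
    (M : Submonoid A) [Algebra A R] [IsLocalization M R] [Algebra A C] [IsScalarTower A R C]
    (b : Basis ι R C) (θ : C)
    (hgen : IntermediateField.adjoin K {algebraMap C L θ} = ⊤) (P : A[X]) (hP : P.Monic)
    (hdeg : P.natDegree = Module.finrank K L) (hθ : aeval θ P = 0)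
    {F : Type*} [Field F] (f : A →+* F) (hf : ∀ m ∈ M, f m ≠ 0) (hsep : (P.map f).Separable)
    {π : A} (hπ : f π = 0) : ¬ algebraMap A R π ∣ Algebra.discr R b := by
  have : IsLocalization (Algebra.algebraMapSubmonoid C (nonZeroDivisors R)) L :=
    IsIntegralClosure.isLocalization R K L C
  exact not_dvd_discr_of_separable_of_isLocalization (K := K) (L := L) M b θ hgen P hP hdeg hθ
    f hf hsep hπ

end IntegralClosure

section Unit

variable {A : Type*} [CommRing A] [UniqueFactorizationMonoid A]
  (x : Ideal A) [x.IsPrime] (R : Type*) [CommRing R] [Algebra A R] [IsLocalization.AtPrime R x]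

/-- A nonzero element of `A_x` (`A` a UFD) which is divisible by no prime element of `A` lying
in `x` is a unit. -/
theorem isUnit_of_forall_prime_not_dvd {d : R} (hd : d ≠ 0)
    (h : ∀ p : A, Prime p → p ∈ x → ¬ algebraMap A R p ∣ d) : IsUnit d := by
  obtain ⟨a, s, rfl⟩ := IsLocalization.exists_mk'_eq x.primeCompl d
  by_cases hax : a ∈ x
  · exfalso
    have ha0 : a ≠ 0 := by
      rintro rfl
      exact hd (IsLocalization.mk'_zero _)
    obtain ⟨fs, hfs, hassoc⟩ := UniqueFactorizationMonoid.exists_prime_factors a ha0
    have hprod : fs.prod ∈ x := by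
      obtain ⟨u, hu⟩ := hassoc
      have : fs.prod = a * ((u⁻¹ : Aˣ) : A) := by rw [← hu]; simp [mul_assoc]
      rw [this]
      exact x.mul_mem_right _ hax
    obtain ⟨p, hpfs, hpx⟩ := (Ideal.IsPrime.multiset_prod_mem_iff_exists_mem ‹x.IsPrime› fs).mp hprod
    have hpa : p ∣ a := (Multiset.dvd_prod hpfs).trans hassoc.dvd
    apply h p (hfs p hpfs) hpx
    obtain ⟨c, rfl⟩ := hpa
    refine ⟨IsLocalization.mk' R c s, ?_⟩
    rw [← IsLocalization.mk'_one (M := x.primeCompl) R p, ← IsLocalization.mk'_mul, one_mul]
  · exact (IsLocalization.AtPrime.isUnit_mk'_iff R x a s).mpr hax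

end Unit

end Fermat.Agent.S30.Model.SepDisc
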