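import Mathlib
import Fermat.Agent.S30.Model.Defs
import Fermat.Agent.S30.Model.ChartInst
import Fermat.Agent.S30.Model.KummerPersist
import Fermat.Agent.S30.Model.KummerField

/-!
# MODEL THEOREM: transport of trace-self-duality from `L'` over `E(u) ⊆ L` to `L'` over `E(u')`

`L' / L` a field extension, `u : L`, `u' = algebraMap L L' u`.  The chart `A = B[u] ⊆ L` and the
field `K = E(u) ⊆ L` act on `L'` through `L`; the elementwise hypotheses of `Model/Defs.lean` for
`L'` are stated with the chart `A' = B[u'] ⊆ L'` and the field `K' = E(u') ⊆ L'`.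

* `isIntegral_adjoin_map_iff` : integrality over `A` and over `A'` agree on `L'`.
* `coe_trace_adjoin_map` : `Tr_{L'/K'} x = Tr_{L'/K} x` (as elements of `L'`).
* `tsdAt_map_of_tsd` : `KummerPersist.TSD A K L' q → TSDAt K' A' q`  (the conclusion of
  `KummerPersist.tsd_kummer` in the vocabulary of the rows of `Model/Assembly.lean`).
* `tsd_of_tsdAt` : `TSDAt K A q → KummerPersist.TSD A K L q` (the hypothesis of `tsd_kummer`).
* `finiteDimensional_adjoin_map` : `[L : E(u)] < ∞`, `[L' : L] < ∞` ⇒ `[L' : E(u')] < ∞`.
-/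

set_option autoImplicit false

namespace Fermat.Agent.S30.Model.TSDTransport

open Fermat.Agent.S30.Model

variable (B : Type*) {E L L' : Type*} [CommRing B] [Field E] [Algebra B E] [Field L] [Algebra E L]
  [Algebra B L] [IsScalarTower B E L] [Field L'] [Algebra L L'] [Algebra E L']
  [IsScalarTower E L L'] [Algebra B L'] [IsScalarTower B L L']

omit [Algebra B E] [IsScalarTower B E L] [Field E] [Algebra E L] [Algebra E L']
  [IsScalarTower E L L'] in
theorem adjoin_map_eq (u : L) :
    (Algebra.adjoin B {u}).map (IsScalarTower.toAlgHom B L L') =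
      Algebra.adjoin B {algebraMap L L' u} := by
  rw [AlgHom.map_adjoin, Set.image_singleton]
  rfl

omit [Algebra B E] [IsScalarTower B E L] [Field E] [Algebra E L] [Algebra E L']
  [IsScalarTower E L L'] in
theorem algebraMap_mem_adjoin (u : L) {a : L} (ha : a ∈ Algebra.adjoin B {u}) :
    algebraMap L L' a ∈ Algebra.adjoin B {algebraMap L L' u} := by
  rw [← adjoin_map_eq B u]
  exact ⟨a, ha, rfl⟩

omit [Algebra B E] [IsScalarTower B E L] [Field E] [Algebra E L] [Algebra E L']
  [IsScalarTower E L L'] in
theorem exists_of_mem_adjoin (u : L) {a' : L'} (ha' : a' ∈ Algebra.adjoin B {algebraMap L L' u}) :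
    ∃ a : L, a ∈ Algebra.adjoin B {u} ∧ algebraMap L L' a = a' := by
  rw [← adjoin_map_eq B u] at ha'
  obtain ⟨a, ha, rfl⟩ := ha'
  exact ⟨a, ha, rfl⟩

omit [CommRing B] [Algebra B E] [Algebra B L] [IsScalarTower B E L] [Algebra B L']
  [IsScalarTower B L L'] in
theorem fieldAdjoin_map_eq (u : L) :
    (IntermediateField.adjoin E {u}).map (IsScalarTower.toAlgHom E L L') =
      IntermediateField.adjoin E {algebraMap L L' u} := by
  rw [IntermediateField.adjoin_map, Set.image_singleton]
  rfl

omit [CommRing B] [Algebra B E] [Algebra B L] [IsScalarTower B E L] [Algebra B L']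
  [IsScalarTower B L L'] in
theorem algebraMap_mem_fieldAdjoin (u : L) {k : L} (hk : k ∈ IntermediateField.adjoin E {u}) :
    algebraMap L L' k ∈ IntermediateField.adjoin E {algebraMap L L' u} := by
  rw [← fieldAdjoin_map_eq u]
  exact ⟨k, hk, rfl⟩

omit [CommRing B] [Algebra B E] [Algebra B L] [IsScalarTower B E L] [Algebra B L']
  [IsScalarTower B L L'] in
theorem exists_of_mem_fieldAdjoin (u : L) {k' : L'}
    (hk' : k' ∈ IntermediateField.adjoin E {algebraMap L L' u}) :
    ∃ k : L, k ∈ IntermediateField.adjoin E {u} ∧ algebraMap L L' k = k' := by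
  rw [← fieldAdjoin_map_eq u] at hk'
  obtain ⟨k, hk, rfl⟩ := hk'
  exact ⟨k, hk, rfl⟩

/-- The ring homomorphism `B[u] → B[u']`. -/
def chartMap (u : L) : Algebra.adjoin B {u} →+* Algebra.adjoin B {algebraMap L L' u} where
  toFun a := ⟨algebraMap L L' (a : L), algebraMap_mem_adjoin B u a.2⟩
  map_one' := Subtype.ext (map_one _)
  map_mul' _ _ := Subtype.ext (map_mul _ _ _)
  map_zero' := Subtype.ext (map_zero _)
  map_add' _ _ := Subtype.ext (map_add _ _ _)

omit [Algebra B E] [IsScalarTower B E L] [Field E] [Algebra E L] [Algebra E L']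
  [IsScalarTower E L L'] in
theorem chartMap_surjective (u : L) : Function.Surjective (chartMap (L' := L') B u) := by
  rintro ⟨a', ha'⟩
  obtain ⟨a, ha, rfl⟩ := exists_of_mem_adjoin B u ha'
  exact ⟨⟨a, ha⟩, rfl⟩

omit [Algebra B E] [IsScalarTower B E L] [Field E] [Algebra E L] [Algebra E L']
  [IsScalarTower E L L'] in
/-- Integrality over the chart `B[u] ⊆ L` (acting through `L`) and over `B[u'] ⊆ L'` agree. -/
theorem isIntegral_adjoin_map_iff (u : L) (x : L') :
    IsIntegral (Algebra.adjoin B {u}) x ↔ IsIntegral (Algebra.adjoin B {algebraMap L L' u}) x := by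
  constructor
  · intro h
    have := IsIntegral.map_of_comp_eq (chartMap (L' := L') B u) (RingHom.id L')
      (by ext a; rfl) h
    simpa using this
  · intro h
    letI : Algebra (Algebra.adjoin B {u}) (Algebra.adjoin B {algebraMap L L' u}) :=
      (chartMap (L' := L') B u).toAlgebra
    haveI : IsScalarTower (Algebra.adjoin B {u}) (Algebra.adjoin B {algebraMap L L' u}) L' :=
      IsScalarTower.of_algebraMap_eq (fun _ => rfl)
    haveI : Algebra.IsIntegral (Algebra.adjoin B {u}) (Algebra.adjoin B {algebraMap L L' u}) :=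
      Algebra.isIntegral_of_surjective (chartMap_surjective B u)
    exact isIntegral_trans x h

/-- The ring isomorphism `E(u) ≃ E(u')`. -/
noncomputable def fieldEquiv (u : L) :
    IntermediateField.adjoin E {u} ≃+* IntermediateField.adjoin E {algebraMap L L' u} :=
  RingEquiv.ofBijective
    ({ toFun := fun k => ⟨algebraMap L L' (k : L), algebraMap_mem_fieldAdjoin u k.2⟩
       map_one' := Subtype.ext (map_one _)
       map_mul' := fun _ _ => Subtype.ext (map_mul _ _ _)
       map_zero' := Subtype.ext (map_zero _)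
       map_add' := fun _ _ => Subtype.ext (map_add _ _ _) } :
      IntermediateField.adjoin E {u} →+* IntermediateField.adjoin E {algebraMap L L' u})
    ⟨RingHom.injective _, by
      rintro ⟨k', hk'⟩
      obtain ⟨k, hk, rfl⟩ := exists_of_mem_fieldAdjoin u hk'
      exact ⟨⟨k, hk⟩, rfl⟩⟩

omit [CommRing B] [Algebra B E] [Algebra B L] [IsScalarTower B E L] [Algebra B L']
  [IsScalarTower B L L'] in
theorem coe_fieldEquiv (u : L) (k : IntermediateField.adjoin E {u}) :
    ((fieldEquiv (L' := L') u k : IntermediateField.adjoin E {algebraMap L L' u}) : L') =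
      algebraMap L L' (k : L) := rfl

omit [CommRing B] [Algebra B E] [Algebra B L] [IsScalarTower B E L] [Algebra B L']
  [IsScalarTower B L L'] in
/-- The trace of `L'` over `E(u')` is the trace of `L'` over `E(u)`. -/
theorem coe_trace_adjoin_map (u : L) (x : L') :
    ((Algebra.trace (IntermediateField.adjoin E {algebraMap L L' u}) L' x :
        IntermediateField.adjoin E {algebraMap L L' u}) : L') =
      algebraMap L L' ((Algebra.trace (IntermediateField.adjoin E {u}) L' x :
        IntermediateField.adjoin E {u}) : L) := by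
  rw [← Algebra.trace_eq_of_ringEquiv (fieldEquiv (L' := L') u) (by ext k; rfl) x]
  rfl

/-- **Transport.** Trace-self-duality of `L'` over the chart `A = B[u] ⊆ L` (field `K = E(u)`)
is the elementwise `TSDAt` of `L'` for the chart `B[u'] ⊆ L'` and the field `E(u')`. -/
theorem tsdAt_map_of_tsd (u : L) (q : Algebra.adjoin B {u}) :
    letI := (ChartInst.incl B u (IntermediateField.adjoin E {u})
      (IntermediateField.mem_adjoin_simple_self E u)).toAlgebra
    KummerPersist.TSD (Algebra.adjoin B {u}) (IntermediateField.adjoin E {u}) L' q →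
      TSDAt (IntermediateField.adjoin E {algebraMap L L' u})
        (Algebra.adjoin B {algebraMap L L' u}) (algebraMap L L' (q : L)) := by
  intro h x hx hxy
  have hx' : IsIntegral (Algebra.adjoin B {u}) x := (isIntegral_adjoin_map_iff B u x).2 hx
  obtain ⟨z, hz, hxz⟩ := h x hx' (fun y hy => by
    obtain ⟨w', hw', hw⟩ := hxy y ((isIntegral_adjoin_map_iff B u y).1 hy)
    obtain ⟨w, hwA, rfl⟩ := exists_of_mem_adjoin B u hw'
    refine ⟨⟨w, hwA⟩, ?_⟩
    apply Subtype.ext
    apply (algebraMap L L').injective
    rw [← coe_trace_adjoin_map u (x * y), hw, ← map_mul]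
    rfl)
  exact ⟨z, (isIntegral_adjoin_map_iff B u z).1 hz, hxz⟩

omit [Field L'] [Algebra L L'] [Algebra E L'] [IsScalarTower E L L'] [Algebra B L']
  [IsScalarTower B L L'] in
/-- The hypothesis of `KummerPersist.tsd_kummer` from the elementwise `TSDAt`. -/
theorem tsd_of_tsdAt (u : L) (q : Algebra.adjoin B {u}) :
    letI := (ChartInst.incl B u (IntermediateField.adjoin E {u})
      (IntermediateField.mem_adjoin_simple_self E u)).toAlgebra
    TSDAt (IntermediateField.adjoin E {u}) (Algebra.adjoin B {u}) (q : L) →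
      KummerPersist.TSD (Algebra.adjoin B {u}) (IntermediateField.adjoin E {u}) L q := by
  intro h x hx hxy
  refine h x hx (fun y hy => ?_)
  obtain ⟨a, ha⟩ := hxy y hy
  refine ⟨(a : L), a.2, ?_⟩
  rw [ha]
  rfl

omit [CommRing B] [Algebra B E] [Algebra B L] [IsScalarTower B E L] [Algebra B L']
  [IsScalarTower B L L'] in
/-- Finiteness over `E(u')`. -/
theorem finiteDimensional_adjoin_map (u : L)
    [FiniteDimensional (IntermediateField.adjoin E {u}) L] [FiniteDimensional L L'] :
    FiniteDimensional (IntermediateField.adjoin E {algebraMap L L' u}) L' :=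
  KummerField.finiteDimensional_adjoin_of_pow_eq (E := E) (e := 1) u (pow_one _)

end Fermat.Agent.S30.Model.TSDTransport
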