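import Mathlib
import Fermat.Agent.Lib.LocalUFD

/-!
# Tame branch point case: the base ring `R' = R[s] / (s^e - τ)`

`R` a Noetherian local domain whose maximal ideal is generated by two prime elements `π`, `τ`
(`π ∤ τ`).  Then `R' = R[X] / (X^e - τ)` (`e > 0`) is a Noetherian local unique factorisation
domain with maximal ideal `(π, s)`, `s` and `π` are prime elements of `R'`, `R' / π` is a principal
ideal ring, and `R' / s` has characteristic zero as soon as `R / τ` has.
-/

set_option autoImplicit false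
set_option linter.unusedSectionVars false

open Polynomial

namespace Fermat.Agent.S30.Model.Tame

section DomainCriterion

variable {B : Type*} [CommRing B]

/-- In a Noetherian local ring, a nonzero element is a power of `s ∈ 𝔪` times an element not
divisible by `s`. -/
theorem exists_eq_pow_mul_and_not_dvd [IsNoetherianRing B] [IsLocalRing B]
    (s : B) (hsm : s ∈ IsLocalRing.maximalIdeal B) (a : B) (ha : a ≠ 0) :
    ∃ (n : ℕ) (a' : B), a = s ^ n * a' ∧ ¬ s ∣ a' := by
  classical
  have hne : Ideal.span {s} ≠ (⊤ : Ideal B) := by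
    intro h
    have hle : Ideal.span {s} ≤ IsLocalRing.maximalIdeal B := by
      rw [Ideal.span_le, Set.singleton_subset_iff]; exact hsm
    have h1 : (1 : B) ∈ IsLocalRing.maximalIdeal B := hle (h ▸ Submodule.mem_top)
    exact (IsLocalRing.maximalIdeal.isMaximal B).ne_top ((Ideal.eq_top_iff_one _).mpr h1)
  have hK := Ideal.iInf_pow_eq_bot_of_isLocalRing (Ideal.span {s}) hne
  have hex : ∃ n : ℕ, ¬ s ^ n ∣ a := by
    by_contra hcon
    push Not at hcon
    apply ha
    have : a ∈ ⨅ i : ℕ, Ideal.span {s} ^ i := by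
      rw [Ideal.mem_iInf]
      intro i
      rw [Ideal.span_singleton_pow, Ideal.mem_span_singleton]
      exact hcon i
    rw [hK] at this
    exact this
  obtain ⟨n, hnspec, hnmin⟩ : ∃ n : ℕ, ¬ s ^ n ∣ a ∧ ∀ m < n, s ^ m ∣ a :=
    ⟨Nat.find hex, Nat.find_spec hex, fun m hm => by_contra fun h => Nat.find_min hex hm h⟩
  have hn0 : n ≠ 0 := by
    intro h0
    rw [h0, pow_zero] at hnspec
    exact hnspec (one_dvd a)
  obtain ⟨a', ha'⟩ := hnmin (n - 1) (by omega)
  refine ⟨n - 1, a', ha', ?_⟩
  rintro ⟨a'', rfl⟩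
  apply hnspec
  refine ⟨a'', ?_⟩
  have hn1 : n - 1 + 1 = n := by omega
  rw [ha', ← mul_assoc, ← pow_succ, hn1]

/-- A Noetherian local ring `B` with an element `s` of the maximal ideal which is regular and
generates a prime ideal is a domain. -/
theorem isDomain_of_prime_regular [IsNoetherianRing B] [IsLocalRing B]
    (s : B) (hsm : s ∈ IsLocalRing.maximalIdeal B) (hreg : ∀ x : B, s * x = 0 → x = 0)
    (hprime : ∀ a b : B, s ∣ a * b → s ∣ a ∨ s ∣ b) : IsDomain B := by
  have hregpow : ∀ (k : ℕ) (x : B), s ^ k * x = 0 → x = 0 := by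
    intro k
    induction k with
    | zero => intro x hx; simpa using hx
    | succ k ih =>
      intro x hx
      apply ih
      apply hreg
      rw [← mul_assoc, ← pow_succ']
      exact hx
  have : NoZeroDivisors B := by
    refine ⟨?_⟩
    intro a b hab
    by_contra hcon
    push Not at hcon
    obtain ⟨n, a', rfl, ha'⟩ := exists_eq_pow_mul_and_not_dvd s hsm a hcon.1
    obtain ⟨m, b', rfl, hb'⟩ := exists_eq_pow_mul_and_not_dvd s hsm b hcon.2
    have h1 : s ^ (n + m) * (a' * b') = 0 := by rw [← hab, pow_add]; ring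
    have h2 : a' * b' = 0 := hregpow _ _ h1
    rcases hprime a' b' (h2 ▸ dvd_zero s) with h | h
    · exact ha' h
    · exact hb' h
  exact NoZeroDivisors.to_isDomain B

end DomainCriterion

section Ext

variable {R : Type*} [CommRing R] [IsDomain R] (τ : R) (e : ℕ)

/-- `R' = R[X] / (X^e - τ)`. -/
abbrev TameExt : Type _ := AdjoinRoot (X ^ e - C τ : R[X])

/-- The class `s` of `X` in `R'`. -/
noncomputable def tameRoot : TameExt τ e := AdjoinRoot.root (X ^ e - C τ : R[X])

theorem tameRoot_pow : tameRoot τ e ^ e = algebraMap R (TameExt τ e) τ := by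
  have h := AdjoinRoot.eval₂_root (X ^ e - C τ : R[X])
  rw [eval₂_sub, eval₂_pow, eval₂_X, eval₂_C, sub_eq_zero] at h
  exact h

variable {e} (he : 0 < e)

include he in
theorem tamePoly_monic : (X ^ e - C τ : R[X]).Monic := monic_X_pow_sub_C τ he.ne'

include he in
theorem tamePoly_natDegree : (X ^ e - C τ : R[X]).natDegree = e := natDegree_X_pow_sub_C

include he in
theorem tame_algebraMap_injective : Function.Injective (algebraMap R (TameExt τ e)) := by
  rw [AdjoinRoot.algebraMap_eq]
  apply AdjoinRoot.of.injective_of_degree_ne_zero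
  rw [degree_X_pow_sub_C he]
  exact_mod_cast he.ne'

/-- The basis `1, s, …, s^(e-1)` of `R'` over `R`. -/
noncomputable def tameBasis : Module.Basis (Fin e) R (TameExt τ e) :=
  (AdjoinRoot.powerBasis' (tamePoly_monic τ he)).basis.reindex
    (finCongr (tamePoly_natDegree τ he))

theorem tameBasis_apply (r : Fin e) : tameBasis τ he r = tameRoot τ e ^ (r : ℕ) := by
  rw [tameBasis, Module.Basis.reindex_apply, PowerBasis.basis_eq_pow]
  rfl

include he in
theorem tame_finite : Module.Finite R (TameExt τ e) := Module.Finite.of_basis (tameBasis τ he)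

include he in
theorem tame_isIntegral : Algebra.IsIntegral R (TameExt τ e) :=
  have := tame_finite τ he
  inferInstance

/-- The reduction `R' → R / τ`, `s ↦ 0`. -/
noncomputable def tameRes : TameExt τ e →+* R ⧸ Ideal.span {τ} :=
  AdjoinRoot.lift (Ideal.Quotient.mk _) 0 (by
    rw [eval₂_sub, eval₂_pow, eval₂_X, eval₂_C, zero_pow he.ne', zero_sub, neg_eq_zero]
    exact Ideal.Quotient.eq_zero_iff_mem.mpr (Ideal.mem_span_singleton_self τ))

theorem tameRes_root : tameRes τ he (tameRoot τ e) = 0 := AdjoinRoot.lift_root _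

theorem tameRes_algebraMap (r : R) :
    tameRes τ he (algebraMap R (TameExt τ e) r) = Ideal.Quotient.mk _ r := by
  rw [AdjoinRoot.algebraMap_eq]
  exact AdjoinRoot.lift_of _

theorem tameRes_surjective : Function.Surjective (tameRes τ he) := by
  intro y
  obtain ⟨r, rfl⟩ := Ideal.Quotient.mk_surjective y
  exact ⟨_, tameRes_algebraMap τ he r⟩

theorem tameRes_eq_zero_iff (x : TameExt τ e) : tameRes τ he x = 0 ↔ tameRoot τ e ∣ x := by
  constructor
  · intro h
    obtain ⟨g, rfl⟩ := AdjoinRoot.mk_surjective x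
    have h1 : Ideal.Quotient.mk (Ideal.span {τ}) (g.coeff 0) = 0 := by
      have : tameRes τ he (AdjoinRoot.mk _ g) = g.eval₂ (Ideal.Quotient.mk _) 0 :=
        AdjoinRoot.lift_mk _ g
      rw [this, eval₂_at_zero] at h
      exact h
    obtain ⟨c, hc⟩ := Ideal.mem_span_singleton.mp (Ideal.Quotient.eq_zero_iff_mem.mp h1)
    have h2 : g = divX g * X + C (g.coeff 0) := (divX_mul_X_add g).symm
    have h3 : tameRoot τ e * tameRoot τ e ^ (e - 1) = algebraMap R (TameExt τ e) τ := by
      rw [← pow_succ', Nat.sub_add_cancel he, tameRoot_pow]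
    refine ⟨AdjoinRoot.mk _ (divX g) + tameRoot τ e ^ (e - 1) * algebraMap R (TameExt τ e) c, ?_⟩
    rw [mul_add, ← mul_assoc, h3, ← map_mul, ← hc]
    conv_lhs => rw [h2]
    rw [map_add, map_mul, AdjoinRoot.mk_X, AdjoinRoot.mk_C, mul_comm]
    rfl
  · rintro ⟨y, rfl⟩
    rw [map_mul, tameRes_root, zero_mul]

include he in
theorem tameRoot_prime (hτ : Prime τ) : Prime (tameRoot τ e) := by
  have hdom : IsDomain (R ⧸ Ideal.span {τ}) :=
    (Ideal.Quotient.isDomain_iff_prime _).mpr ((Ideal.span_singleton_prime hτ.ne_zero).mpr hτ)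
  refine ⟨?_, ?_, ?_⟩
  · intro h0
    have h1 : algebraMap R (TameExt τ e) τ = 0 := by
      rw [← tameRoot_pow, h0, zero_pow he.ne']
    exact hτ.ne_zero (tame_algebraMap_injective τ he (by rw [h1, map_zero]))
  · intro hu
    have h1 := hu.map (tameRes τ he)
    rw [tameRes_root] at h1
    exact not_isUnit_zero h1
  · intro a b hab
    rw [← tameRes_eq_zero_iff τ he] at hab
    rw [← tameRes_eq_zero_iff τ he, ← tameRes_eq_zero_iff τ he]
    rw [map_mul] at hab
    exact mul_eq_zero.mp hab

include he in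
/-- `R' / s` has characteristic zero when `R / τ` has. -/
theorem tame_charZero (hchar : ∀ n : ℕ, n ≠ 0 → ¬ τ ∣ (n : R)) :
    CharZero (TameExt τ e ⧸ Ideal.span {tameRoot τ e}) := by
  refine charZero_of_inj_zero ?_
  intro n hn
  by_contra hn0
  have h1 : ((n : ℕ) : TameExt τ e) ∈ Ideal.span {tameRoot τ e} := by
    rw [← Ideal.Quotient.eq_zero_iff_mem, map_natCast]
    exact hn
  rw [Ideal.mem_span_singleton, ← tameRes_eq_zero_iff τ he] at h1
  have h2 : ((n : ℕ) : TameExt τ e) = algebraMap R (TameExt τ e) (n : R) := by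
    rw [map_natCast]
  rw [h2, tameRes_algebraMap, Ideal.Quotient.eq_zero_iff_mem, Ideal.mem_span_singleton] at h1
  exact hchar n hn0 h1

/-- Divisibility by an element of `R` can be checked on coordinates. -/
theorem tame_dvd_of_forall_repr_dvd (p : R) (x : TameExt τ e)
    (h : ∀ r, p ∣ (tameBasis τ he).repr x r) : algebraMap R (TameExt τ e) p ∣ x := by
  choose c hc using h
  refine ⟨∑ r, c r • tameBasis τ he r, ?_⟩
  conv_lhs => rw [← (tameBasis τ he).sum_repr x]
  rw [Finset.mul_sum]
  refine Finset.sum_congr rfl (fun r _ => ?_)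
  rw [hc r, mul_smul, Algebra.smul_def p]

theorem tame_repr_dvd_of_dvd (p : R) (x : TameExt τ e)
    (h : algebraMap R (TameExt τ e) p ∣ x) (r : Fin e) : p ∣ (tameBasis τ he).repr x r := by
  obtain ⟨y, rfl⟩ := h
  rw [← Algebra.smul_def, map_smul, Finsupp.smul_apply, smul_eq_mul]
  exact Dvd.intro _ rfl

include he in
/-- `π, s` is a regular sequence in `R'`. -/
theorem tame_dvd_of_dvd_root_mul (π : R) (hπ : Prime π) (hπτ : ¬ π ∣ τ) (x : TameExt τ e)
    (h : algebraMap R (TameExt τ e) π ∣ tameRoot τ e * x) :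
    algebraMap R (TameExt τ e) π ∣ x := by
  apply tame_dvd_of_forall_repr_dvd τ he
  intro r
  have h1 : algebraMap R (TameExt τ e) π ∣ τ • x := by
    have h3 : τ • x = tameRoot τ e ^ (e - 1) * (tameRoot τ e * x) := by
      rw [← mul_assoc, ← pow_succ, Nat.sub_add_cancel he, tameRoot_pow, Algebra.smul_def]
    rw [h3]
    exact Dvd.dvd.mul_left h _
  have h2 := tame_repr_dvd_of_dvd τ he π _ h1 r
  rw [map_smul, Finsupp.smul_apply, smul_eq_mul] at h2
  exact (hπ.dvd_or_dvd h2).resolve_left hπτ

include he in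
theorem tame_not_dvd_root (π : R) (hπτ : ¬ π ∣ τ) :
    ¬ algebraMap R (TameExt τ e) π ∣ tameRoot τ e := by
  intro h
  have h1 : algebraMap R (TameExt τ e) π ∣ algebraMap R (TameExt τ e) τ := by
    rw [← tameRoot_pow]
    exact dvd_pow h he.ne'
  obtain ⟨y, hy⟩ := h1
  have h2 := tame_repr_dvd_of_dvd τ he π _ ⟨y, hy⟩ ⟨0, he⟩
  have h3 : (tameBasis τ he).repr (algebraMap R (TameExt τ e) τ) ⟨0, he⟩ = τ := by
    have h4 : algebraMap R (TameExt τ e) τ = τ • tameBasis τ he ⟨0, he⟩ := by
      rw [tameBasis_apply, pow_zero, Algebra.smul_def, mul_one]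
    rw [h4, map_smul, Finsupp.smul_apply, Module.Basis.repr_self, Finsupp.single_eq_same,
      smul_eq_mul, mul_one]
  rw [h3] at h2
  exact hπτ h2

end Ext

section Local

variable {R : Type*} [CommRing R] [IsDomain R] [IsNoetherianRing R] [IsLocalRing R]
  (π τ : R) {e : ℕ} (he : 0 < e)
  (hmax : IsLocalRing.maximalIdeal R = Ideal.span {π, τ})

include hmax in
theorem tame_mem_maximalIdeal_left : π ∈ IsLocalRing.maximalIdeal R := by
  rw [hmax]; exact Ideal.subset_span (by simp)

include hmax in
theorem tame_mem_maximalIdeal_right : τ ∈ IsLocalRing.maximalIdeal R := by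
  rw [hmax]; exact Ideal.subset_span (by simp)

/-- The residue map `R' → R / 𝔪`. -/
noncomputable def tameResidue (hτm : τ ∈ IsLocalRing.maximalIdeal R) :
    TameExt τ e →+* R ⧸ IsLocalRing.maximalIdeal R :=
  (Ideal.Quotient.factor (show Ideal.span {τ} ≤ IsLocalRing.maximalIdeal R by
    rw [Ideal.span_le, Set.singleton_subset_iff]; exact hτm)).comp (tameRes τ he)

theorem tameResidue_algebraMap (hτm : τ ∈ IsLocalRing.maximalIdeal R) (r : R) :
    tameResidue τ he hτm (algebraMap R (TameExt τ e) r) = Ideal.Quotient.mk _ r := by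
  rw [tameResidue, RingHom.comp_apply, tameRes_algebraMap, Ideal.Quotient.factor_mk]

theorem tameResidue_root (hτm : τ ∈ IsLocalRing.maximalIdeal R) :
    tameResidue τ he hτm (tameRoot τ e) = 0 := by
  rw [tameResidue, RingHom.comp_apply, tameRes_root, map_zero]

include hmax in
theorem tameResidue_ker (hτm : τ ∈ IsLocalRing.maximalIdeal R) :
    RingHom.ker (tameResidue τ he hτm) =
      Ideal.span {algebraMap R (TameExt τ e) π, tameRoot τ e} := by
  apply le_antisymm
  · intro x hx
    rw [RingHom.mem_ker, tameResidue, RingHom.comp_apply] at hx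
    obtain ⟨r, hr⟩ := Ideal.Quotient.mk_surjective (tameRes τ he x)
    rw [← hr, Ideal.Quotient.factor_mk, Ideal.Quotient.eq_zero_iff_mem, hmax,
      Ideal.mem_span_pair] at hx
    obtain ⟨a, b, hab⟩ := hx
    have h1 : tameRes τ he (x - algebraMap R (TameExt τ e) (a * π)) = 0 := by
      rw [map_sub, tameRes_algebraMap, ← hr, ← map_sub, Ideal.Quotient.eq_zero_iff_mem,
        Ideal.mem_span_singleton]
      exact ⟨b, by rw [← hab]; ring⟩
    rw [tameRes_eq_zero_iff] at h1
    obtain ⟨y, hy⟩ := h1
    rw [Ideal.mem_span_pair]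
    rw [map_mul] at hy
    exact ⟨algebraMap R (TameExt τ e) a, y, by linear_combination (-1 : TameExt τ e) * hy⟩
  · rw [Ideal.span_le]
    intro x hx
    rcases hx with hx | hx
    · rw [hx, SetLike.mem_coe, RingHom.mem_ker, tameResidue_algebraMap,
        Ideal.Quotient.eq_zero_iff_mem]
      exact tame_mem_maximalIdeal_left π τ hmax
    · rw [Set.mem_singleton_iff] at hx
      rw [hx, SetLike.mem_coe, RingHom.mem_ker, tameResidue_root]

include he hmax in
theorem tame_span_isMaximal :
    (Ideal.span {algebraMap R (TameExt τ e) π, tameRoot τ e}).IsMaximal := by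
  have hτm := tame_mem_maximalIdeal_right π τ hmax
  rw [← tameResidue_ker π τ he hmax hτm]
  letI : Field (R ⧸ IsLocalRing.maximalIdeal R) := Ideal.Quotient.field _
  refine RingHom.ker_isMaximal_of_surjective _ ?_
  intro y
  obtain ⟨r, rfl⟩ := Ideal.Quotient.mk_surjective y
  exact ⟨_, tameResidue_algebraMap τ he hτm r⟩

include he hmax in
/-- `R'` is a local ring. -/
theorem tame_isLocalRing : IsLocalRing (TameExt τ e) := by
  have hspan := tame_span_isMaximal π τ he hmax
  have hint := tame_isIntegral τ he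
  refine IsLocalRing.of_unique_max_ideal ⟨_, hspan, ?_⟩
  intro M' hM'
  have hcm : (M'.comap (algebraMap R (TameExt τ e))).IsMaximal :=
    Ideal.isMaximal_comap_of_isIntegral_of_isMaximal M'
  have hcm' := IsLocalRing.eq_maximalIdeal hcm
  have hπM : algebraMap R (TameExt τ e) π ∈ M' := by
    have : π ∈ M'.comap (algebraMap R (TameExt τ e)) := by
      rw [hcm']; exact tame_mem_maximalIdeal_left π τ hmax
    exact this
  have hsM : tameRoot τ e ∈ M' := by
    have : τ ∈ M'.comap (algebraMap R (TameExt τ e)) := by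
      rw [hcm']; exact tame_mem_maximalIdeal_right π τ hmax
    have h2 : tameRoot τ e ^ e ∈ M' := by rw [tameRoot_pow]; exact this
    exact hM'.isPrime.mem_of_pow_mem _ h2
  have hle : Ideal.span {algebraMap R (TameExt τ e) π, tameRoot τ e} ≤ M' := by
    rw [Ideal.span_le]
    intro x hx
    rcases hx with hx | hx
    · rw [hx]; exact hπM
    · rw [Set.mem_singleton_iff] at hx
      rw [hx]; exact hsM
  exact (hspan.eq_of_le hM'.ne_top hle).symm

include he hmax in
theorem tame_maximalIdeal [IsLocalRing (TameExt τ e)] :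
    IsLocalRing.maximalIdeal (TameExt τ e) =
      Ideal.span {algebraMap R (TameExt τ e) π, tameRoot τ e} :=
  (IsLocalRing.eq_maximalIdeal (tame_span_isMaximal π τ he hmax)).symm

include he hmax in
theorem tame_quot_maximalIdeal [IsLocalRing (TameExt τ e)]
    [IsLocalRing (TameExt τ e ⧸ Ideal.span {algebraMap R (TameExt τ e) π})] :
    IsLocalRing.maximalIdeal (TameExt τ e ⧸ Ideal.span {algebraMap R (TameExt τ e) π}) =
      Ideal.span {Ideal.Quotient.mk _ (tameRoot τ e)} := by
  set q := Ideal.Quotient.mk (Ideal.span {algebraMap R (TameExt τ e) π}) with hq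
  have hsurj : Function.Surjective q := Ideal.Quotient.mk_surjective
  have h1 : ((IsLocalRing.maximalIdeal
      (TameExt τ e ⧸ Ideal.span {algebraMap R (TameExt τ e) π})).comap q).IsMaximal :=
    Ideal.comap_isMaximal_of_surjective q hsurj
  have h2 := IsLocalRing.eq_maximalIdeal h1
  rw [tame_maximalIdeal π τ he hmax] at h2
  have h3 := congrArg (Ideal.map q) h2
  rw [Ideal.map_comap_of_surjective q hsurj, Ideal.map_span, Set.image_pair] at h3
  rw [h3]
  have h4 : q (algebraMap R (TameExt τ e) π) = 0 :=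
    Ideal.Quotient.eq_zero_iff_mem.mpr (Ideal.mem_span_singleton_self _)
  rw [h4]
  apply le_antisymm
  · rw [Ideal.span_le]
    intro x hx
    rcases hx with hx | hx
    · rw [hx]; exact Ideal.zero_mem _
    · rw [Set.mem_singleton_iff] at hx
      rw [hx]; exact Ideal.mem_span_singleton_self _
  · exact Ideal.span_mono (fun x hx => Or.inr hx)

include he hmax in
/-- `π` is a prime element of `R'`. -/
theorem tame_prime_left [IsLocalRing (TameExt τ e)] (hπ : Prime π) (hπτ : ¬ π ∣ τ) :
    Prime (algebraMap R (TameExt τ e) π) := by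
  have hm := tame_maximalIdeal π τ he hmax
  have hπm : algebraMap R (TameExt τ e) π ∈ IsLocalRing.maximalIdeal (TameExt τ e) := by
    rw [hm]; exact Ideal.subset_span (by simp)
  have hπ'0 : algebraMap R (TameExt τ e) π ≠ 0 :=
    (map_ne_zero_iff _ (tame_algebraMap_injective τ he)).mpr hπ.ne_zero
  have hne : Ideal.span {algebraMap R (TameExt τ e) π} ≠ ⊤ := by
    intro h
    rw [Ideal.span_singleton_eq_top] at h
    exact (IsLocalRing.mem_maximalIdeal _).mp hπm h
  have hnt : Nontrivial (TameExt τ e ⧸ Ideal.span {algebraMap R (TameExt τ e) π}) :=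
    Ideal.Quotient.nontrivial_iff.mpr hne
  have hlocQ : IsLocalRing (TameExt τ e ⧸ Ideal.span {algebraMap R (TameExt τ e) π}) :=
    IsLocalRing.of_surjective' (Ideal.Quotient.mk _) Ideal.Quotient.mk_surjective
  have hmQ := tame_quot_maximalIdeal π τ he hmax
  have hdom : IsDomain (TameExt τ e ⧸ Ideal.span {algebraMap R (TameExt τ e) π}) := by
    refine isDomain_of_prime_regular (Ideal.Quotient.mk _ (tameRoot τ e)) ?_ ?_ ?_
    · rw [hmQ]; exact Ideal.mem_span_singleton_self _
    · intro x hx
      obtain ⟨x, rfl⟩ := Ideal.Quotient.mk_surjective x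
      rw [← map_mul, Ideal.Quotient.eq_zero_iff_mem, Ideal.mem_span_singleton] at hx
      rw [Ideal.Quotient.eq_zero_iff_mem, Ideal.mem_span_singleton]
      exact tame_dvd_of_dvd_root_mul τ he π hπ hπτ x hx
    · intro a b hab
      rw [← Ideal.mem_span_singleton, ← hmQ] at hab ⊢
      rw [← Ideal.mem_span_singleton, ← hmQ]
      exact (IsLocalRing.maximalIdeal.isMaximal _).isPrime.mem_or_mem hab
  have hprime : (Ideal.span {algebraMap R (TameExt τ e) π}).IsPrime :=
    (Ideal.Quotient.isDomain_iff_prime _).mp hdom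
  exact (Ideal.span_singleton_prime hπ'0).mp hprime

include he hmax in
/-- `R' / π` is a principal ideal ring. -/
theorem tame_quot_isPrincipalIdealRing [IsLocalRing (TameExt τ e)] (hπ : Prime π)
    (hπτ : ¬ π ∣ τ) :
    IsPrincipalIdealRing (TameExt τ e ⧸ Ideal.span {algebraMap R (TameExt τ e) π}) := by
  have hπ' := tame_prime_left π τ he hmax hπ hπτ
  have hprime : (Ideal.span {algebraMap R (TameExt τ e) π}).IsPrime :=
    (Ideal.span_singleton_prime hπ'.ne_zero).mpr hπ'
  have hdom : IsDomain (TameExt τ e ⧸ Ideal.span {algebraMap R (TameExt τ e) π}) :=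
    (Ideal.Quotient.isDomain_iff_prime _).mpr hprime
  have hlocQ : IsLocalRing (TameExt τ e ⧸ Ideal.span {algebraMap R (TameExt τ e) π}) :=
    IsLocalRing.of_surjective' (Ideal.Quotient.mk _) Ideal.Quotient.mk_surjective
  have hmQ := tame_quot_maximalIdeal π τ he hmax
  have hprinc : (IsLocalRing.maximalIdeal
      (TameExt τ e ⧸ Ideal.span {algebraMap R (TameExt τ e) π})).IsPrincipal :=
    ⟨⟨_, hmQ⟩⟩
  exact ((tfae_of_isNoetherianRing_of_isLocalRing_of_isDomain
    (TameExt τ e ⧸ Ideal.span {algebraMap R (TameExt τ e) π})).out 4 0).mp hprinc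

include he hmax in
/-- `R'` is a domain. -/
theorem tame_isDomain [IsLocalRing (TameExt τ e)] (hτ : Prime τ) : IsDomain (TameExt τ e) := by
  refine isDomain_of_prime_regular (tameRoot τ e) ?_ ?_ ?_
  · rw [tame_maximalIdeal π τ he hmax]; exact Ideal.subset_span (by simp)
  · intro x hx
    have h0 : tameRoot τ e ^ e = tameRoot τ e ^ (e - 1) * tameRoot τ e := by
      rw [← pow_succ, Nat.sub_add_cancel he]
    have h1 : τ • x = 0 := by
      rw [Algebra.smul_def, ← tameRoot_pow, h0, mul_assoc, hx, mul_zero]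
    have h2 : ∀ r, (tameBasis τ he).repr x r = 0 := by
      intro r
      have h3 := congrArg (fun y => (tameBasis τ he).repr y r) h1
      simp only [map_smul, Finsupp.smul_apply, smul_eq_mul, map_zero, Finsupp.zero_apply] at h3
      exact (mul_eq_zero.mp h3).resolve_left hτ.ne_zero
    have h4 : (tameBasis τ he).repr x = 0 := Finsupp.ext h2
    exact (LinearEquiv.map_eq_zero_iff _).mp h4
  · exact fun a b h => (tameRoot_prime τ he hτ).dvd_or_dvd h

include he hmax in
/-- `R'` is a unique factorisation domain. -/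
theorem tame_ufm [IsLocalRing (TameExt τ e)] [IsDomain (TameExt τ e)] (hπ : Prime π)
    (hπτ : ¬ π ∣ τ) : UniqueFactorizationMonoid (TameExt τ e) := by
  have := tame_quot_isPrincipalIdealRing π τ he hmax hπ hπτ
  exact Fermat.Agent.Lib.LocalUFD.uniqueFactorizationMonoid _ (tame_prime_left π τ he hmax hπ hπτ)

end Local

end Fermat.Agent.S30.Model.Tame
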