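import Mathlib
import Fermat.Agent.S30.Model.TameBase
import Fermat.Agent.S30.Model.TameRadical

/-!
# Tame branch point case: existence of the tameness data

`C` a Noetherian integrally closed domain, integral over the Noetherian domain `R`, `τ` a prime
element of `R`.  At every prime `Q` of `C` above `(τ)` the localisation `C_Q` is a discrete
valuation ring; elementwise this is the datum `TameAt τ e Q` for a suitable common `e > 0`
(`exists_tameAt`).
-/

set_option autoImplicit false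

namespace Fermat.Agent.S30.Model.Tame

/-- A nonzero prime ideal contained in a principal prime ideal `(τ)` of a Noetherian domain is
equal to `(τ)`. -/
theorem eq_span_of_le_span_prime {R : Type*} [CommRing R] [IsDomain R] [IsNoetherianRing R]
    {τ : R} (hτ : Prime τ) (p : Ideal R) [hp : p.IsPrime] (hp0 : p ≠ ⊥)
    (hle : p ≤ Ideal.span {τ}) : p = Ideal.span {τ} := by
  refine le_antisymm hle ?_
  rw [Ideal.span_le, Set.singleton_subset_iff, SetLike.mem_coe]
  by_contra hτp
  apply hp0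
  rw [eq_bot_iff]
  intro x hx
  have hne : Ideal.span {τ} ≠ (⊤ : Ideal R) := by
    rw [Ne, Ideal.span_singleton_eq_top]; exact hτ.not_unit
  have hK := Ideal.iInf_pow_eq_bot_of_isDomain (Ideal.span {τ}) hne
  have key : ∀ n : ℕ, ∀ y ∈ p, τ ^ n ∣ y := by
    intro n
    induction n with
    | zero => intro y _; simp
    | succ n ih =>
      intro y hy
      obtain ⟨y₁, rfl⟩ := Ideal.mem_span_singleton.mp (hle hy)
      have hy₁ : y₁ ∈ p := (hp.mem_or_mem hy).resolve_left hτp
      obtain ⟨z, rfl⟩ := ih y₁ hy₁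
      exact ⟨z, by ring⟩
  have : x ∈ ⨅ i : ℕ, Ideal.span {τ} ^ i := by
    rw [Ideal.mem_iInf]
    intro i
    rw [Ideal.span_singleton_pow, Ideal.mem_span_singleton]
    exact key i x hx
  rw [hK] at this
  exact this

/-- Incomparability for integral extensions. -/
theorem eq_of_le_of_comap_eq {R C : Type*} [CommRing R] [CommRing C] [Algebra R C]
    [Algebra.IsIntegral R C] {P Q : Ideal C} [P.IsPrime] (hle : P ≤ Q)
    (h : P.comap (algebraMap R C) = Q.comap (algebraMap R C)) : P = Q := by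
  by_contra hne
  have hlt : P < Q := lt_of_le_of_ne hle hne
  obtain ⟨x, hxQ, hxP⟩ := SetLike.exists_of_lt hlt
  have h1 := Ideal.comap_lt_comap_of_integral_mem_sdiff hle ⟨hxQ, hxP⟩
    (Algebra.IsIntegral.isIntegral (R := R) x)
  rw [h] at h1
  exact lt_irrefl _ h1

section Data

variable {R C : Type*} [CommRing R] [IsDomain R] [IsNoetherianRing R]
  [CommRing C] [IsDomain C] [IsNoetherianRing C] [IsIntegrallyClosed C] [Algebra R C]
  [Algebra.IsIntegral R C]

/-- The localisation of `C` at a prime above `(τ)` is a discrete valuation ring, in elementwise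
form. -/
theorem exists_local_data (hinj : Function.Injective (algebraMap R C)) {τ : R} (hτ : Prime τ)
    (Q : Ideal C) [hQ : Q.IsPrime] (hQτ : Q.comap (algebraMap R C) = Ideal.span {τ}) :
    ∃ (k : ℕ) (t a ε : C), 0 < k ∧ t ∈ Q ∧ a ∉ Q ∧ ε ∉ Q ∧
      a * algebraMap R C τ = ε * t ^ k ∧ ∀ x ∈ Q, ∃ c, c ∉ Q ∧ ∃ y, c * x = t * y := by
  classical
  let CQ := Localization.AtPrime Q
  have hinjQ : Function.Injective (algebraMap C CQ) :=
    IsLocalization.injective CQ Q.primeCompl_le_nonZeroDivisors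
  have domQ : IsDomain CQ := IsLocalization.isDomain_of_atPrime CQ Q
  have noethQ : IsNoetherianRing CQ :=
    IsLocalization.isNoetherianRing Q.primeCompl CQ inferInstance
  have icQ : IsIntegrallyClosed CQ :=
    isIntegrallyClosed_of_isLocalization CQ Q.primeCompl Q.primeCompl_le_nonZeroDivisors
  have hunder : (IsLocalRing.maximalIdeal CQ).comap (algebraMap C CQ) = Q :=
    IsLocalization.AtPrime.under_maximalIdeal CQ Q
  -- the maximal ideal is the unique nonzero prime
  have huniq : ∀ P : Ideal CQ, P ≠ ⊥ → P.IsPrime → P = IsLocalRing.maximalIdeal CQ := by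
    intro P hP0 hPp
    have hP'p : (P.comap (algebraMap C CQ)).IsPrime := Ideal.comap_isPrime _ P
    have hP'Q : P.comap (algebraMap C CQ) ≤ Q := by
      have h1 : P ≤ IsLocalRing.maximalIdeal CQ := IsLocalRing.le_maximalIdeal hPp.ne_top
      have h2 := Ideal.comap_mono (f := algebraMap C CQ) h1
      rwa [hunder] at h2
    have hmc : (P.comap (algebraMap C CQ)).map (algebraMap C CQ) = P :=
      IsLocalization.map_under Q.primeCompl CQ P
    have hP'0 : P.comap (algebraMap C CQ) ≠ ⊥ := by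
      intro h0
      apply hP0
      rw [← hmc, h0, Ideal.map_bot]
    have hc0 : (P.comap (algebraMap C CQ)).comap (algebraMap R C) ≠ ⊥ := by
      intro h0
      exact hP'0 (Ideal.eq_bot_of_comap_eq_bot h0)
    have hcle : (P.comap (algebraMap C CQ)).comap (algebraMap R C) ≤ Ideal.span {τ} := by
      rw [← hQτ]; exact Ideal.comap_mono hP'Q
    have hceq := eq_span_of_le_span_prime hτ _ hc0 hcle
    have hPQ : P.comap (algebraMap C CQ) = Q :=
      eq_of_le_of_comap_eq (R := R) hP'Q (by rw [hceq, hQτ])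
    rw [← hmc, hPQ]
    exact IsLocalization.AtPrime.map_eq_maximalIdeal Q CQ
  have hprinc : (IsLocalRing.maximalIdeal CQ).IsPrincipal := by
    have h34 := (tfae_of_isNoetherianRing_of_isLocalRing_of_isDomain CQ).out 3 4
    exact h34.mp ⟨icQ, huniq⟩
  obtain ⟨ϖ, hϖ⟩ := hprinc.principal
  obtain ⟨t, c, hϖt⟩ := IsLocalization.exists_mk'_eq Q.primeCompl ϖ
  have hcu : IsUnit (algebraMap C CQ c) := IsLocalization.map_units CQ c
  have hm : IsLocalRing.maximalIdeal CQ = Ideal.span {algebraMap C CQ t} := by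
    rw [hϖ]
    change Ideal.span {ϖ} = Ideal.span {algebraMap C CQ t}
    rw [Ideal.span_singleton_eq_span_singleton]
    refine ⟨hcu.unit, ?_⟩
    rw [IsUnit.unit_spec, ← hϖt, IsLocalization.mk'_spec]
  have hmem : ∀ x : C, algebraMap C CQ x ∈ IsLocalRing.maximalIdeal CQ ↔ x ∈ Q := fun x =>
    IsLocalization.AtPrime.to_map_mem_maximal_iff CQ Q x
  have htQ : t ∈ Q := (hmem t).mp (hm ▸ Ideal.mem_span_singleton_self _)
  have htm : algebraMap C CQ t ∈ IsLocalRing.maximalIdeal CQ := (hmem t).mpr htQ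
  -- generation
  have hgen : ∀ x ∈ Q, ∃ c, c ∉ Q ∧ ∃ y, c * x = t * y := by
    intro x hx
    have h1 : algebraMap C CQ x ∈ Ideal.span {algebraMap C CQ t} := hm ▸ (hmem x).mpr hx
    obtain ⟨z, hz⟩ := Ideal.mem_span_singleton.mp h1
    obtain ⟨y, c', hzy⟩ := IsLocalization.exists_mk'_eq Q.primeCompl z
    refine ⟨c', c'.2, y, hinjQ ?_⟩
    rw [map_mul, map_mul, hz, ← IsLocalization.mk'_spec CQ y c', hzy]
    ring
  -- the relation
  have hτQ : algebraMap R C τ ∈ Q := by
    have : τ ∈ Q.comap (algebraMap R C) := by rw [hQτ]; exact Ideal.mem_span_singleton_self τ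
    exact this
  have hτ0 : algebraMap C CQ (algebraMap R C τ) ≠ 0 :=
    (map_ne_zero_iff _ hinjQ).mpr ((map_ne_zero_iff _ hinj).mpr hτ.ne_zero)
  obtain ⟨k, v, hkv, hv⟩ := exists_eq_pow_mul_and_not_dvd (algebraMap C CQ t) htm _ hτ0
  have hvu : IsUnit v := by
    by_contra hnu
    have h1 : v ∈ IsLocalRing.maximalIdeal CQ := (IsLocalRing.mem_maximalIdeal v).mpr hnu
    rw [hm, Ideal.mem_span_singleton] at h1
    exact hv h1
  have hk0 : 0 < k := by
    rcases Nat.eq_zero_or_pos k with h | h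
    · exfalso
      rw [h, pow_zero, one_mul] at hkv
      have h1 : algebraMap C CQ (algebraMap R C τ) ∈ IsLocalRing.maximalIdeal CQ :=
        (hmem _).mpr hτQ
      rw [hkv] at h1
      exact (IsLocalRing.mem_maximalIdeal v).mp h1 hvu
    · exact h
  obtain ⟨ε, a, hva⟩ := IsLocalization.exists_mk'_eq Q.primeCompl v
  have hau : IsUnit (algebraMap C CQ a) := IsLocalization.map_units CQ a
  have hεQ : ε ∉ Q := by
    intro hε
    have h1 : algebraMap C CQ ε ∈ IsLocalRing.maximalIdeal CQ := (hmem ε).mpr hε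
    rw [← IsLocalization.mk'_spec CQ ε a, hva] at h1
    exact (IsLocalRing.mem_maximalIdeal _).mp h1 (hvu.mul hau)
  refine ⟨k, t, a, ε, hk0, htQ, a.2, hεQ, hinjQ ?_, hgen⟩
  rw [map_mul, map_mul, map_pow, hkv, ← IsLocalization.mk'_spec CQ ε a, hva]
  ring

/-- **Existence of the tameness data** with a common index `e`. -/
theorem exists_tameAt (hinj : Function.Injective (algebraMap R C)) {τ : R} (hτ : Prime τ) :
    ∃ e : ℕ, 0 < e ∧ ∀ Q : Ideal C, Q.IsPrime → Q.comap (algebraMap R C) = Ideal.span {τ} →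
      TameAt (algebraMap R C τ) e Q := by
  classical
  set S : Set (Ideal C) := {Q | Q.IsPrime ∧ Q.comap (algebraMap R C) = Ideal.span {τ}} with hS
  have hSsub : S ⊆ (Ideal.span {algebraMap R C τ}).minimalPrimes := by
    rintro Q ⟨hQp, hQτ⟩
    have hτQ : algebraMap R C τ ∈ Q := by
      have : τ ∈ Q.comap (algebraMap R C) := by rw [hQτ]; exact Ideal.mem_span_singleton_self τ
      exact this
    refine ⟨⟨hQp, ?_⟩, ?_⟩
    · rw [Ideal.span_le, Set.singleton_subset_iff]; exact hτQ
    · rintro Q' ⟨hQ'p, hQ'τ⟩ hQ'Q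
      have h1 : Q'.comap (algebraMap R C) = Q.comap (algebraMap R C) := by
        apply le_antisymm (Ideal.comap_mono hQ'Q)
        rw [hQτ, Ideal.span_le, Set.singleton_subset_iff]
        exact hQ'τ (Ideal.mem_span_singleton_self _)
      exact (eq_of_le_of_comap_eq (R := R) hQ'Q h1).ge
  have hSfin : S.Finite :=
    (Ideal.finite_minimalPrimes_of_isNoetherianRing C _).subset hSsub
  have hdata : ∀ Q : Ideal C, Q ∈ S → ∃ (k : ℕ) (t a ε : C), 0 < k ∧ t ∈ Q ∧ a ∉ Q ∧ ε ∉ Q ∧
      a * algebraMap R C τ = ε * t ^ k ∧ ∀ x ∈ Q, ∃ c, c ∉ Q ∧ ∃ y, c * x = t * y := by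
    rintro Q ⟨hQp, hQτ⟩
    exact exists_local_data hinj hτ Q hQτ
  let kk : Ideal C → ℕ := fun Q => if h : Q ∈ S then Classical.choose (hdata Q h) else 1
  have hkk : ∀ Q (h : Q ∈ S), ∃ (t a ε : C), 0 < kk Q ∧ t ∈ Q ∧ a ∉ Q ∧ ε ∉ Q ∧
      a * algebraMap R C τ = ε * t ^ kk Q ∧ ∀ x ∈ Q, ∃ c, c ∉ Q ∧ ∃ y, c * x = t * y := by
    intro Q h
    have := Classical.choose_spec (hdata Q h)
    simp only [kk, dif_pos h]
    exact this
  refine ⟨∏ Q ∈ hSfin.toFinset, kk Q, ?_, ?_⟩
  · apply Finset.prod_pos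
    intro Q hQ
    obtain ⟨t, a, ε, hk, -⟩ := hkk Q (hSfin.mem_toFinset.mp hQ)
    exact hk
  · intro Q hQp hQτ
    have hQS : Q ∈ S := ⟨hQp, hQτ⟩
    obtain ⟨t, a, ε, hk, ht, ha, hε, hrel, hgen⟩ := hkk Q hQS
    exact ⟨kk Q, t, a, ε, Finset.dvd_prod_of_mem _ (hSfin.mem_toFinset.mpr hQS), ht, ha, hε,
      hrel, hgen⟩

end Data

end Fermat.Agent.S30.Model.Tame
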