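import Mathlib
import Fermat.Agent.Lib.TraceNil
import Fermat.Agent.S30.Model.DiscUnit
import Fermat.Agent.S30.Model.TameRadical

/-!
# Tame branch point case: the integral closure upstairs has unit discriminant

`R ⊆ R'`, `R'` free over `R` with basis `1, s, …, s^(e-1)`, `s^e = τ`; `Λ` an `L`-algebra with the
same basis over `L`, `C` the integral closure of `R` in `L` (free with basis `b`).  Then
`C' = integralClosure R' Λ` is a finite free `R'`-module (`finite_int`, `free_int`), the trace of
`C' / R'` restricts to the trace of `C / R` (`trace_intMap`), the discriminant of `C' / R'` divides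
the discriminant of `C / R` (`discr_dvd`), and under the tameness hypothesis it is a unit as soon
as the discriminant of `C / R` divides a power of `τ` (`exists_basis_isUnit_discr`).
-/

set_option autoImplicit false
set_option linter.unusedSectionVars false

namespace Fermat.Agent.S30.Model.Tame

section Generic

variable {A V W : Type*} [CommRing A] [AddCommGroup V] [Module A V] [AddCommGroup W] [Module A W]

/-- The inverse of `g` up to the factor `d`. -/
noncomputable def invUpTo (g : V →ₗ[A] W) (hg : Function.Injective g) (d : A)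
    (hrange : ∀ w : W, d • w ∈ LinearMap.range g) : W →ₗ[A] V :=
  (LinearEquiv.ofInjective g hg).symm.toLinearMap ∘ₗ
    (LinearMap.codRestrict (LinearMap.range g) (d • LinearMap.id) hrange)

theorem apply_invUpTo (g : V →ₗ[A] W) (hg : Function.Injective g) (d : A)
    (hrange : ∀ w : W, d • w ∈ LinearMap.range g) (w : W) :
    g (invUpTo g hg d hrange w) = d • w := by
  have h1 : ∀ y : LinearMap.range g, g ((LinearEquiv.ofInjective g hg).symm y) = y := by
    intro y
    have h2 := (LinearEquiv.ofInjective g hg).apply_symm_apply y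
    exact congrArg Subtype.val h2
  rw [invUpTo, LinearMap.comp_apply, LinearEquiv.coe_coe, h1]
  rfl

theorem invUpTo_apply (g : V →ₗ[A] W) (hg : Function.Injective g) (d : A)
    (hrange : ∀ w : W, d • w ∈ LinearMap.range g) (v : V) :
    invUpTo g hg d hrange (g v) = d • v :=
  hg (by rw [apply_invUpTo, map_smul])

variable [IsDomain A] [Module.Free A V] [Module.Finite A V] [Module.Free A W] [Module.Finite A W]

/-- Two endomorphisms intertwined by an injective map with torsion cokernel have the same
trace. -/
theorem trace_eq_of_intertwine (g : V →ₗ[A] W) (hg : Function.Injective g) (d : A) (hd : d ≠ 0)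
    (hrange : ∀ w : W, d • w ∈ LinearMap.range g) (φ : V →ₗ[A] V) (ψ : W →ₗ[A] W)
    (hint : g ∘ₗ φ = ψ ∘ₗ g) : LinearMap.trace A V φ = LinearMap.trace A W ψ := by
  set h := invUpTo g hg d hrange with hh
  have hgh : g ∘ₗ h = d • LinearMap.id := LinearMap.ext fun w => by
    simp [hh, apply_invUpTo]
  have hhg : h ∘ₗ g = d • LinearMap.id := LinearMap.ext fun v => by
    simp [hh, invUpTo_apply]
  have h1 : LinearMap.trace A W (ψ ∘ₗ (g ∘ₗ h)) = d * LinearMap.trace A W ψ := by
    rw [hgh, LinearMap.comp_smul, LinearMap.comp_id, map_smul, smul_eq_mul]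
  have h2 : LinearMap.trace A V (φ ∘ₗ (h ∘ₗ g)) = d * LinearMap.trace A V φ := by
    rw [hhg, LinearMap.comp_smul, LinearMap.comp_id, map_smul, smul_eq_mul]
  have h3 : LinearMap.trace A W (ψ ∘ₗ (g ∘ₗ h)) = LinearMap.trace A V (φ ∘ₗ (h ∘ₗ g)) := by
    rw [← LinearMap.comp_assoc, ← hint, LinearMap.comp_assoc,
      ← LinearMap.trace_comp_comm' g (φ ∘ₗ h), LinearMap.comp_assoc]
  exact mul_left_cancel₀ hd (by rw [← h2, ← h1, h3])

/-- ... and the two modules have the same rank (characteristic zero). -/
theorem finrank_eq_of_intertwine [CharZero A] (g : V →ₗ[A] W) (hg : Function.Injective g) (d : A)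
    (hd : d ≠ 0) (hrange : ∀ w : W, d • w ∈ LinearMap.range g) :
    Module.finrank A V = Module.finrank A W := by
  set h := invUpTo g hg d hrange with hh
  have hgh : g ∘ₗ h = d • LinearMap.id := LinearMap.ext fun w => by
    simp [hh, apply_invUpTo]
  have hhg : h ∘ₗ g = d • LinearMap.id := LinearMap.ext fun v => by
    simp [hh, invUpTo_apply]
  have h1 : LinearMap.trace A W (g ∘ₗ h) = d * (Module.finrank A W : A) := by
    rw [hgh, map_smul, LinearMap.trace_id, smul_eq_mul]
  have h2 : LinearMap.trace A V (h ∘ₗ g) = d * (Module.finrank A V : A) := by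
    rw [hhg, map_smul, LinearMap.trace_id, smul_eq_mul]
  have h3 := LinearMap.trace_comp_comm' g h
  rw [h1, h2] at h3
  exact_mod_cast mul_left_cancel₀ hd h3

end Generic

section Main

variable {R R' C L Λ : Type*} [CommRing R] [IsDomain R] [IsIntegrallyClosed R]
  [CommRing R'] [IsDomain R'] [IsIntegrallyClosed R'] [IsNoetherianRing R'] [IsLocalRing R']
  [Algebra R R']
  [CommRing C] [Algebra R C]
  [Field L] [Algebra R L] [Algebra C L] [IsScalarTower R C L] [IsIntegralClosure C R L]
  [CommRing Λ] [Algebra L Λ] [Algebra R Λ] [IsScalarTower R L Λ] [Algebra R' Λ]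
  [IsScalarTower R R' Λ]
  {e : ℕ} (bs : Module.Basis (Fin e) L Λ) (s' : R') (bR : Module.Basis (Fin e) R R')
  (hbR : ∀ r : Fin e, bR r = s' ^ (r : ℕ))
  (hbs : ∀ r : Fin e, bs r = algebraMap R' Λ s' ^ (r : ℕ))
  (τ : R) (hs : s' ^ e = algebraMap R R' τ)
  (hRL : Function.Injective (algebraMap R L)) (he : 0 < e) (hτ : Prime τ)
  (hchar : ∀ n : ℕ, n ≠ 0 → ¬ τ ∣ (n : R))
  {ι : Type*} [Fintype ι] [DecidableEq ι] (b : Module.Basis ι R C)

include bs he in
theorem nontrivial_of_basis : Nontrivial Λ :=
  ⟨⟨bs ⟨0, he⟩, 0, bs.ne_zero _⟩⟩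

include bs he hRL in
theorem algebraMap_base_injective : Function.Injective (algebraMap R R') := by
  have hnt : Nontrivial Λ := nontrivial_of_basis bs he
  intro x y hxy
  apply hRL
  apply (algebraMap L Λ).injective
  rw [← IsScalarTower.algebraMap_apply R L Λ, ← IsScalarTower.algebraMap_apply R L Λ,
    IsScalarTower.algebraMap_apply R R' Λ, IsScalarTower.algebraMap_apply R R' Λ, hxy]

include hbR hbs in
/-- Coordinates of a product `a · l`, `a ∈ R'`, `l ∈ L`. -/
theorem repr_algebraMap_mul (a : R') (l : L) (r : Fin e) :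
    bs.repr (algebraMap R' Λ a * algebraMap L Λ l) r = algebraMap R L (bR.repr a r) * l := by
  have h1 : algebraMap R' Λ a * algebraMap L Λ l =
      ∑ r' : Fin e, (algebraMap R L (bR.repr a r') * l) • bs r' := by
    conv_lhs => rw [← bR.sum_repr a]
    rw [map_sum, Finset.sum_mul]
    refine Finset.sum_congr rfl (fun r' _ => ?_)
    rw [hbR, hbs, Algebra.smul_def, Algebra.smul_def, map_mul, map_mul, map_pow,
      ← IsScalarTower.algebraMap_apply R R' Λ, IsScalarTower.algebraMap_apply R L Λ]
    ring
  rw [h1, Module.Basis.repr_sum_self]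

variable (R R' L) in
/-- The map `C → C' = integralClosure R' Λ`. -/
noncomputable def intMap : C →+* integralClosure R' Λ :=
  RingHom.codRestrict ((algebraMap L Λ).comp (algebraMap C L)) (integralClosure R' Λ)
    (fun c => (isIntegral_algebraMap_C R c).tower_top)

theorem coe_intMap (c : C) :
    ((intMap R R' L c : integralClosure R' Λ) : Λ) = algebraMap L Λ (algebraMap C L c) := rfl

variable (R' L Λ) in
/-- The `R'`-linear map `R'^ι → C'` attached to the basis `b` of `C`. -/
noncomputable def baseMap : (ι → R') →ₗ[R'] integralClosure R' Λ :=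
  Fintype.linearCombination R' (fun i => intMap R R' L (b i))

theorem coe_baseMap (v : ι → R') :
    ((baseMap R' L Λ b v : integralClosure R' Λ) : Λ) =
      ∑ i, algebraMap R' Λ (v i) * algebraMap L Λ (algebraMap C L (b i)) := by
  rw [baseMap, Fintype.linearCombination_apply, AddSubmonoidClass.coe_finset_sum]
  refine Finset.sum_congr rfl (fun i _ => ?_)
  rw [Subalgebra.coe_smul, Algebra.smul_def, coe_intMap]

include hbR hbs in
theorem repr_baseMap (v : ι → R') (r : Fin e) :
    bs.repr (baseMap R' L Λ b v : Λ) r = algebraMap C L (∑ i, bR.repr (v i) r • b i) := by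
  rw [coe_baseMap, map_sum, Finsupp.coe_finset_sum, Finset.sum_apply, map_sum]
  refine Finset.sum_congr rfl (fun i _ => ?_)
  rw [repr_algebraMap_mul bs s' bR hbR hbs, Algebra.smul_def, map_mul,
    ← IsScalarTower.algebraMap_apply R C L]

include hbR hbs in
theorem baseMap_injective : Function.Injective (baseMap R' L Λ b) := by
  rw [injective_iff_map_eq_zero]
  intro v hv
  have hCL : Function.Injective (algebraMap C L) := IsIntegralClosure.algebraMap_injective C R L
  funext i
  apply bR.repr.injective
  ext r
  have h1 := repr_baseMap bs s' bR hbR hbs b v r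
  rw [hv] at h1
  simp only [ZeroMemClass.coe_zero, map_zero, Finsupp.zero_apply] at h1
  have h2 : ∑ i, bR.repr (v i) r • b i = 0 := hCL (by rw [← h1, map_zero])
  have h3 := congrArg (fun c => b.repr c i) h2
  simp only [Module.Basis.repr_sum_self, map_zero, Finsupp.zero_apply] at h3
  rw [h3]
  simp

include hbR hbs hs he in
/-- `e τ C'` is contained in the image of `baseMap`. -/
theorem smul_mem_range_baseMap (x : integralClosure R' Λ) :
    ((e : R') * algebraMap R R' τ) • x ∈ LinearMap.range (baseMap R' L Λ b) := by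
  have hfin : Module.Finite R R' := Module.Finite.of_basis bR
  have hx : IsIntegral R (x : Λ) := isIntegral_trans (x : Λ) x.2
  have hsΛ : algebraMap R' Λ s' ^ e = algebraMap R Λ τ := by
    rw [← map_pow, hs, ← IsScalarTower.algebraMap_apply]
  have hcoord := coord_mem (C := C) bs (algebraMap R' Λ s') hbs τ hsΛ he (x : Λ) hx
  choose c hc using hcoord
  refine ⟨fun i => ∑ r, b.repr (c r) i • bR r, ?_⟩
  apply Subtype.ext
  apply bs.repr.injective
  ext r
  rw [repr_baseMap bs s' bR hbR hbs]
  have h1 : ∀ i, bR.repr (∑ r', b.repr (c r') i • bR r') r = b.repr (c r) i := by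
    intro i
    rw [Module.Basis.repr_sum_self]
  simp only [h1]
  rw [b.sum_repr, hc r]
  have h2 : ((((e : R') * algebraMap R R' τ) • x : integralClosure R' Λ) : Λ) =
      ((e : L) * algebraMap R L τ) • (x : Λ) := by
    rw [Subalgebra.coe_smul, Algebra.smul_def, Algebra.smul_def, map_mul, map_mul, map_natCast,
      map_natCast, ← IsScalarTower.algebraMap_apply R R' Λ, IsScalarTower.algebraMap_apply R L Λ]
  rw [h2, map_smul, Finsupp.smul_apply, smul_eq_mul]

include bs he hRL hτ hchar in
theorem natCast_mul_ne_zero : (e : L) * algebraMap R L τ ≠ 0 := by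
  have h1 : (e : R) ≠ 0 := by
    intro h0
    exact hchar e he.ne' (h0 ▸ dvd_zero τ)
  have h2 : (e : L) ≠ 0 := by
    rw [← map_natCast (algebraMap R L)]
    exact (map_ne_zero_iff _ hRL).mpr h1
  exact mul_ne_zero h2 ((map_ne_zero_iff _ hRL).mpr hτ.ne_zero)

include bs he hRL hτ hchar in
theorem int_smul_cancel (x y : integralClosure R' Λ)
    (h : ((e : R') * algebraMap R R' τ) • x = ((e : R') * algebraMap R R' τ) • y) : x = y := by
  have h2 : ∀ z : integralClosure R' Λ,
      ((((e : R') * algebraMap R R' τ) • z : integralClosure R' Λ) : Λ) =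
      ((e : L) * algebraMap R L τ) • (z : Λ) := by
    intro z
    rw [Subalgebra.coe_smul, Algebra.smul_def, Algebra.smul_def, map_mul, map_mul, map_natCast,
      map_natCast, ← IsScalarTower.algebraMap_apply R R' Λ, IsScalarTower.algebraMap_apply R L Λ]
  apply Subtype.ext
  have h3 := congrArg (Subtype.val) h
  simp only [h2] at h3
  exact smul_right_injective Λ (natCast_mul_ne_zero bs τ hRL he hτ hchar) h3

include hbR hbs hs hRL he hτ hchar b in
/-- `C'` is a finite `R'`-module. -/
theorem finite_int : Module.Finite R' (integralClosure R' Λ) := by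
  classical
  let h₀ := invUpTo (baseMap R' L Λ b) (baseMap_injective bs s' bR hbR hbs b) _
    (smul_mem_range_baseMap bs s' bR hbR hbs τ hs he b)
  have hinj : Function.Injective h₀ := by
    intro x y hxy
    have h1 := congrArg (baseMap R' L Λ b) hxy
    rw [apply_invUpTo, apply_invUpTo] at h1
    exact int_smul_cancel bs τ hRL he hτ hchar x y h1
  exact Module.Finite.of_injective h₀ hinj

include bs he hRL in
/-- `R'` injects into every residue field of `Λ`. -/
theorem injective_algebraMap_quotient (hint : Algebra.IsIntegral R R') (N : Ideal Λ)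
    (hN : N.IsMaximal) : Function.Injective (algebraMap R' (Λ ⧸ N)) := by
  have hnt : Nontrivial (Λ ⧸ N) := Ideal.Quotient.nontrivial_iff.mpr hN.ne_top
  rw [RingHom.injective_iff_ker_eq_bot]
  apply Ideal.eq_bot_of_comap_eq_bot (R := R)
  rw [eq_bot_iff]
  intro x hx
  rw [Ideal.mem_comap, RingHom.mem_ker] at hx
  have h1 : ((Ideal.Quotient.mk N).comp (algebraMap L Λ)) (algebraMap R L x) = 0 := by
    rw [RingHom.comp_apply, ← IsScalarTower.algebraMap_apply R L Λ,
      IsScalarTower.algebraMap_apply R R' Λ]
    exact hx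
  have h2 : algebraMap R L x = 0 :=
    ((Ideal.Quotient.mk N).comp (algebraMap L Λ)).injective (by rw [h1, map_zero])
  exact hRL (by rw [h2, map_zero])

include bs he hRL in
/-- Division by a prime element `π` of `R` in `C'`. -/
theorem int_exists_eq_smul (hint : Algebra.IsIntegral R R') (π : R)
    (hπ' : Prime (algebraMap R R' π)) {t : R'} (ht : ¬ algebraMap R R' π ∣ t)
    {x y : integralClosure R' Λ} (h : t • x = algebraMap R R' π • y) :
    ∃ z : integralClosure R' Λ, x = algebraMap R R' π • z := by
  have hfin : Module.Finite L Λ := Module.Finite.of_basis bs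
  have hart : IsArtinianRing Λ := IsArtinianRing.of_finite L Λ
  have hπ0 : π ≠ 0 := by
    rintro rfl
    exact hπ'.ne_zero (map_zero _)
  have hπL : algebraMap R L π ≠ 0 := (map_ne_zero_iff _ hRL).mpr hπ0
  have hπΛ : algebraMap R' Λ (algebraMap R R' π) = algebraMap L Λ (algebraMap R L π) := by
    rw [← IsScalarTower.algebraMap_apply R R' Λ, IsScalarTower.algebraMap_apply R L Λ]
  set w : Λ := algebraMap L Λ (algebraMap R L π)⁻¹ * (x : Λ) with hw
  have h1 : algebraMap R R' π • w = (x : Λ) := by
    rw [Algebra.smul_def, hπΛ, hw, ← mul_assoc, ← map_mul, mul_inv_cancel₀ hπL, map_one, one_mul]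
  have h2 : t • w = (y : Λ) := by
    have h3 := congrArg Subtype.val h
    rw [Subalgebra.coe_smul, Subalgebra.coe_smul, Algebra.smul_def, Algebra.smul_def, hπΛ] at h3
    rw [Algebra.smul_def, hw, mul_left_comm, h3, ← mul_assoc, ← map_mul, inv_mul_cancel₀ hπL,
      map_one, one_mul]
  have hwint : IsIntegral R' w := by
    refine isIntegral_of_smul (A := R') (Λ := Λ)
      (injective_algebraMap_quotient bs hRL he hint) hπ' ht ?_ ?_
    · rw [h1]; exact x.2
    · rw [h2]; exact y.2
  refine ⟨⟨w, hwint⟩, Subtype.ext ?_⟩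
  rw [Subalgebra.coe_smul, h1]

open Pointwise in
include hbR hbs hs hRL he hτ hchar b in
/-- `C'` is a free `R'`-module. -/
theorem free_int (π : R) (hπ' : Prime (algebraMap R R' π))
    (hπm : algebraMap R R' π ∈ IsLocalRing.maximalIdeal R')
    [IsPrincipalIdealRing (R' ⧸ Ideal.span {algebraMap R R' π})] :
    Module.Free R' (integralClosure R' Λ) := by
  have hfinR : Module.Finite R R' := Module.Finite.of_basis bR
  have hint : Algebra.IsIntegral R R' := inferInstance
  have hfin : Module.Finite R' (integralClosure R' Λ) :=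
    finite_int bs s' bR hbR hbs τ hs hRL he hτ hchar b
  have hprime : (Ideal.span {algebraMap R R' π}).IsPrime :=
    (Ideal.span_singleton_prime hπ'.ne_zero).mpr hπ'
  have htf : Module.IsTorsionFree (R' ⧸ Ideal.span {algebraMap R R' π})
      (QuotSMulTop (algebraMap R R' π) (integralClosure R' Λ)) := by
    rw [Module.isTorsionFree_iff_smul_eq_zero]
    intro r m hrm
    obtain ⟨t, rfl⟩ := Ideal.Quotient.mk_surjective r
    obtain ⟨c, rfl⟩ := Submodule.Quotient.mk_surjective _ m
    by_cases ht : algebraMap R R' π ∣ t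
    · left
      exact Ideal.Quotient.eq_zero_iff_mem.mpr (Ideal.mem_span_singleton.mpr ht)
    · right
      have h1 : (Submodule.Quotient.mk (t • c) :
          QuotSMulTop (algebraMap R R' π) (integralClosure R' Λ)) = 0 := by
        rw [← hrm]
        rfl
      rw [Submodule.Quotient.mk_eq_zero] at h1
      obtain ⟨c', -, hc'⟩ := (Submodule.mem_smul_pointwise_iff_exists _ _ _).mp h1
      obtain ⟨z, rfl⟩ := int_exists_eq_smul bs hRL he hint π hπ' ht hc'.symm
      rw [Submodule.Quotient.mk_eq_zero]
      exact Submodule.smul_mem_pointwise_smul z (algebraMap R R' π) _ Submodule.mem_top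
  have : Module.Finite (R' ⧸ Ideal.span {algebraMap R R' π})
      (QuotSMulTop (algebraMap R R' π) (integralClosure R' Λ)) :=
    Module.Finite.of_restrictScalars_finite R' (R' ⧸ Ideal.span {algebraMap R R' π})
      (QuotSMulTop (algebraMap R R' π) (integralClosure R' Λ))
  have : Module.Free (R' ⧸ Ideal.span {algebraMap R R' π})
      (QuotSMulTop (algebraMap R R' π) (integralClosure R' Λ)) :=
    Module.free_of_finite_type_torsion_free'
  have : Module.FinitePresentation R' (integralClosure R' Λ) :=
    Module.finitePresentation_of_finite R' (integralClosure R' Λ)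
  have hjac : algebraMap R R' π ∈ (⊥ : Ideal R').jacobson := by
    rw [IsLocalRing.jacobson_eq_maximalIdeal ⊥ bot_ne_top]
    exact hπm
  have hπ0 : π ≠ 0 := by
    rintro rfl
    exact hπ'.ne_zero (map_zero _)
  have hπL : algebraMap R L π ≠ 0 := (map_ne_zero_iff _ hRL).mpr hπ0
  have hreg : IsSMulRegular (integralClosure R' Λ) (algebraMap R R' π) := by
    intro x y hxy
    have h3 := congrArg Subtype.val hxy
    simp only [Subalgebra.coe_smul] at h3
    rw [Algebra.smul_def, Algebra.smul_def, ← IsScalarTower.algebraMap_apply R R' Λ,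
      IsScalarTower.algebraMap_apply R L Λ, ← Algebra.smul_def, ← Algebra.smul_def] at h3
    exact Subtype.ext (smul_right_injective Λ hπL h3)
  exact (Module.free_quotSMulTop_iff_free R' (integralClosure R' Λ) hjac hreg).mp inferInstance

include bs he hRL hτ hchar in
theorem base_ne_zero : ((e : R') * algebraMap R R' τ) ≠ 0 := by
  have hnt : Nontrivial Λ := nontrivial_of_basis bs he
  intro h0
  have h1 := congrArg (algebraMap R' Λ) h0
  rw [map_mul, map_natCast, ← IsScalarTower.algebraMap_apply R R' Λ,
    IsScalarTower.algebraMap_apply R L Λ, ← map_natCast (algebraMap L Λ), ← map_mul,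
    map_zero] at h1
  exact natCast_mul_ne_zero bs τ hRL he hτ hchar
    ((algebraMap L Λ).injective (by rw [h1, map_zero]))

include bs he hRL hchar in
theorem charZero_base : CharZero R' := by
  refine charZero_of_inj_zero ?_
  intro n hn
  by_contra hn0
  have h1 : (n : R) ≠ 0 := fun h0 => hchar n hn0 (h0 ▸ dvd_zero τ)
  have h2 : algebraMap R R' (n : R) = 0 := by rw [map_natCast]; exact hn
  exact h1 (algebraMap_base_injective bs hRL he (by rw [h2, map_zero]))

include hbR hbs hs hRL he hτ hchar b in
/-- **Compatibility of traces.** -/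
theorem trace_intMap [Module.Free R' (integralClosure R' Λ)]
    [Module.Finite R' (integralClosure R' Λ)] (x : C) :
    Algebra.trace R' (integralClosure R' Λ) (intMap R R' L x) =
      algebraMap R R' (Algebra.trace R C x) := by
  classical
  set M := Algebra.leftMulMatrix b x with hM
  have hkey : ∀ j, algebraMap L Λ (algebraMap C L x) * algebraMap L Λ (algebraMap C L (b j)) =
      ∑ i, algebraMap R Λ (M i j) * algebraMap L Λ (algebraMap C L (b i)) := by
    intro j
    have h1 : x * b j = ∑ i, M i j • b i := by
      conv_lhs => rw [← b.sum_repr (x * b j)]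
      refine Finset.sum_congr rfl (fun i _ => ?_)
      rw [hM, Algebra.leftMulMatrix_eq_repr_mul]
    rw [← map_mul, ← map_mul, h1, map_sum, map_sum]
    refine Finset.sum_congr rfl (fun i _ => ?_)
    rw [Algebra.smul_def, map_mul, map_mul, ← IsScalarTower.algebraMap_apply R C L,
      ← IsScalarTower.algebraMap_apply R L Λ]
  have hint : baseMap R' L Λ b ∘ₗ Matrix.toLin' (M.map (algebraMap R R')) =
      Algebra.lmul R' (integralClosure R' Λ) (intMap R R' L x) ∘ₗ baseMap R' L Λ b := by
    refine LinearMap.ext fun v => Subtype.ext ?_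
    rw [LinearMap.comp_apply, LinearMap.comp_apply, coe_baseMap, Algebra.coe_lmul_eq_mul,
      LinearMap.mul_apply', Subalgebra.coe_mul, coe_baseMap, coe_intMap, Finset.mul_sum]
    simp only [Matrix.toLin'_apply, Matrix.mulVec, dotProduct, Matrix.map_apply, map_sum,
      Finset.sum_mul]
    rw [Finset.sum_comm]
    refine Finset.sum_congr rfl (fun j _ => ?_)
    rw [mul_left_comm, hkey j, Finset.mul_sum]
    refine Finset.sum_congr rfl (fun i _ => ?_)
    rw [map_mul, ← IsScalarTower.algebraMap_apply R R' Λ]
    ring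
  have h1 := trace_eq_of_intertwine (baseMap R' L Λ b) (baseMap_injective bs s' bR hbR hbs b)
    ((e : R') * algebraMap R R' τ) (base_ne_zero (R' := R') bs τ hRL he hτ hchar)
    (smul_mem_range_baseMap bs s' bR hbR hbs τ hs he b) _ _ hint
  rw [Algebra.trace_apply, ← h1, Matrix.trace_toLin'_eq, Algebra.trace_eq_matrix_trace b x]
  exact (AddMonoidHom.map_trace (algebraMap R R' : R →+ R') M).symm

include hbR hbs hs hRL he hτ hchar in
/-- **The discriminant upstairs divides the discriminant downstairs.** -/
theorem discr_dvd [Module.Free R' (integralClosure R' Λ)]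
    [Module.Finite R' (integralClosure R' Λ)] :
    ∃ c : Module.Basis ι R' (integralClosure R' Λ),
      Algebra.discr R' c ∣ algebraMap R R' (Algebra.discr R b) := by
  classical
  have hcz : CharZero R' := charZero_base (R' := R') bs τ hRL he hchar
  have hrank := finrank_eq_of_intertwine (baseMap R' L Λ b)
    (baseMap_injective bs s' bR hbR hbs b)
    ((e : R') * algebraMap R R' τ) (base_ne_zero (R' := R') bs τ hRL he hτ hchar)
    (smul_mem_range_baseMap bs s' bR hbR hbs τ hs he b)
  rw [Module.finrank_fintype_fun_eq_card, Module.finrank_eq_card_chooseBasisIndex] at hrank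
  let eqv : Module.Free.ChooseBasisIndex R' (integralClosure R' Λ) ≃ ι :=
    Fintype.equivOfCardEq hrank.symm
  let c : Module.Basis ι R' (integralClosure R' Λ) :=
    (Module.Free.chooseBasis R' (integralClosure R' Λ)).reindex eqv
  refine ⟨c, ?_⟩
  let P : Matrix ι ι R' := fun i j => c.repr (intMap R R' L (b i)) j
  have hP : (fun i => (intMap R R' L (b i) : integralClosure R' Λ)) =
      (P.map (algebraMap R' (integralClosure R' Λ))).mulVec ⇑c := by
    funext i
    simp only [Matrix.mulVec, dotProduct, Matrix.map_apply]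
    conv_lhs => rw [← c.sum_repr (intMap R R' L (b i))]
    refine Finset.sum_congr rfl (fun j _ => ?_)
    rw [Algebra.smul_def]
  have h1 : Algebra.discr R' (fun i => (intMap R R' L (b i) : integralClosure R' Λ)) = P.det ^ 2 * Algebra.discr R' c := by
    rw [hP, Algebra.discr_of_matrix_mulVec]
  have h2 : Algebra.discr R' (fun i => (intMap R R' L (b i) : integralClosure R' Λ)) =
      algebraMap R R' (Algebra.discr R b) := by
    rw [Algebra.discr_def, Algebra.discr_def, RingHom.map_det]
    congr 1
    ext i j
    rw [RingHom.mapMatrix_apply, Matrix.map_apply, Algebra.traceMatrix_apply,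
      Algebra.traceMatrix_apply, Algebra.traceForm_apply, Algebra.traceForm_apply, ← map_mul,
      trace_intMap bs s' bR hbR hbs τ hs hRL he hτ hchar b]
  rw [← h2, h1]
  exact Dvd.intro_left _ rfl

include hbR hbs hs hRL he hτ hchar in
/-- **Unit discriminant upstairs.** -/
theorem exists_basis_isUnit_discr [Module.Free R' (integralClosure R' Λ)]
    [Module.Finite R' (integralClosure R' Λ)] (hs' : Prime s')
    [CharZero (R' ⧸ Ideal.span {s'})] (hdisc : ∃ n : ℕ, Algebra.discr R b ∣ τ ^ n)
    (htame : ∀ Q : Ideal C, Q.IsPrime → Q.comap (algebraMap R C) = Ideal.span {τ} →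
      TameAt (algebraMap R C τ) e Q) :
    ∃ c : Module.Basis ι R' (integralClosure R' Λ), IsUnit (Algebra.discr R' c) := by
  classical
  obtain ⟨c, hc⟩ := discr_dvd bs s' bR hbR hbs τ hs hRL he hτ hchar b
  refine ⟨c, ?_⟩
  obtain ⟨n, hn⟩ := hdisc
  have hfinR : Module.Finite R R' := Module.Finite.of_basis bR
  have h1 : Algebra.discr R' c ∣ s' ^ (e * n) := by
    refine hc.trans ?_
    rw [pow_mul, hs, ← map_pow]
    exact (algebraMap R R').map_dvd hn
  have hsΛ : algebraMap R' Λ s' ^ e = algebraMap R Λ τ := by
    rw [← map_pow, hs, ← IsScalarTower.algebraMap_apply]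
  have hprime : (Ideal.span {s'}).IsPrime := (Ideal.span_singleton_prime hs'.ne_zero).mpr hs'
  have hrad : (Ideal.span {algebraMap R' (integralClosure R' Λ) s'}).IsRadical := by
    intro y hy
    obtain ⟨m, hm⟩ := hy
    obtain ⟨w, hw⟩ := Ideal.mem_span_singleton.mp hm
    have hyw : (y : Λ) ^ m = algebraMap R' Λ s' * (w : Λ) := by
      have := congrArg Subtype.val hw
      simpa using this
    obtain ⟨y', hy'int, hy'⟩ := smul_radical bs (algebraMap R' Λ s') hbs τ hsΛ hRL he hτ hchar
      htame (y : Λ) (w : Λ) (isIntegral_trans _ y.2) (isIntegral_trans _ w.2) m hyw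
    rw [Ideal.mem_span_singleton]
    refine ⟨⟨y', hy'int.tower_top⟩, Subtype.ext ?_⟩
    rw [hy']
    rfl
  have htsd : DiscUnit.TraceSelfDualAt R' (integralClosure R' Λ) s' := by
    intro x hx
    exact Fermat.Agent.Lib.TraceNil.eq_smul_of_trace_dvd_of_isRadical c hrad hx
  have hnd : ¬ s' ∣ Algebra.discr R' c := DiscUnit.not_dvd_discr_of_traceSelfDualAt c hs' htsd
  obtain ⟨i, -, hi⟩ := (dvd_prime_pow hs' (e * n)).mp h1
  rcases Nat.eq_zero_or_pos i with h0 | h0
  · rw [h0, pow_zero] at hi
    exact hi.symm.isUnit isUnit_one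
  · exfalso
    apply hnd
    exact (dvd_pow_self s' h0.ne').trans hi.symm.dvd

end Main

end Fermat.Agent.S30.Model.Tame
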