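import Mathlib
import Fermat.Agent.Lib.UnitDisc
import Fermat.Agent.S30.Model.Descent
import Fermat.Agent.S30.Model.LocalDomain
import Fermat.Agent.S30.Model.TameBase
import Fermat.Agent.S30.Model.TameData
import Fermat.Agent.S30.Model.TameDisc

/-!
# Tame branch point case: the local theorem

`R` a Noetherian integrally closed local domain whose maximal ideal is generated by two prime
elements `π, τ` (`π ∤ τ`), `R ⧸ τ` of characteristic zero; `C` the integral closure of `R` in a
field `L`, free over `R` with a basis whose discriminant divides a power of `τ` ("`C` is étale over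
`R` outside the branch divisor `τ = 0`").  Then `C` is locally a domain modulo `π`
(`ldAt_of_tame`): `C ⧸ π` is reduced and distinct minimal primes over `π` are comaximal.

Proof: Abhyankar's lemma.  After the base change `R' = R[s]/(s^e - τ)` (`e` a common multiple of
the ramification indices along `τ = 0`) the integral closure `C'` of `R'` in `L ⊗ R'` is finite
free with unit discriminant over the regular local ring `R'`; then descend by going-down.
-/

set_option autoImplicit false
set_option linter.unusedSectionVars false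

open scoped TensorProduct

namespace Fermat.Agent.S30.Model.Tame

open Fermat.Agent.Lib Fermat.Agent.S30.Model

/-- Going-down for an integral, torsion-free (not necessarily integral domain) extension of an
integrally closed domain. -/
theorem hasGoingDown_of_torsionFree {C C' : Type*} [CommRing C] [IsDomain C]
    [IsIntegrallyClosed C] [CommRing C'] [Algebra C C'] [Algebra.IsIntegral C C']
    (htf : ∀ c : C, c ≠ 0 → ∀ y : C', algebraMap C C' c * y = 0 → y = 0) :
    Algebra.HasGoingDown C C' := by
  constructor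
  intro p hp Q hQ hpQ
  obtain ⟨P₀, hP₀min, hP₀Q⟩ := Ideal.exists_minimalPrimes_le (show (⊥ : Ideal C') ≤ Q from bot_le)
  have hP₀prime : P₀.IsPrime := hP₀min.1.1
  have hinjD : Function.Injective (algebraMap C (C' ⧸ P₀)) := by
    rw [injective_iff_map_eq_zero]
    intro c hc
    by_contra hc0
    have hmem : algebraMap C C' c ∈ P₀ := Ideal.Quotient.eq_zero_iff_mem.mp hc
    have hnzd : algebraMap C C' c ∈ nonZeroDivisors C' := by
      rw [mem_nonZeroDivisors_iff_right]
      intro y hy
      exact htf c hc0 y (by rw [mul_comm]; exact hy)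
    exact Set.disjoint_left.mp (Ideal.disjoint_nonZeroDivisors_of_mem_minimalPrimes hP₀min)
      hmem hnzd
  have hfs : FaithfulSMul C (C' ⧸ P₀) := (faithfulSMul_iff_algebraMap_injective C (C' ⧸ P₀)).mpr hinjD
  have hGD : Algebra.HasGoingDown C (C' ⧸ P₀) := inferInstance
  have hQbar : (Q.map (Ideal.Quotient.mk P₀)).IsPrime :=
    Ideal.map_isPrime_of_surjective Ideal.Quotient.mk_surjective (by rwa [Ideal.mk_ker])
  have hcomap : (Q.map (Ideal.Quotient.mk P₀)).comap (Ideal.Quotient.mk P₀) = Q := by
    rw [Ideal.comap_map_of_surjective _ Ideal.Quotient.mk_surjective, ← RingHom.ker_eq_comap_bot,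
      Ideal.mk_ker, sup_eq_left.mpr hP₀Q]
  have hunder : (Q.map (Ideal.Quotient.mk P₀)).under C = Q.under C := by
    conv_rhs => rw [← hcomap]
    rfl
  obtain ⟨Pbar, hPbarle, hPbarprime, hPbarover⟩ :=
    Algebra.HasGoingDown.exists_ideal_le_liesOver_of_lt (p := p) (Q.map (Ideal.Quotient.mk P₀))
      (by rw [hunder]; exact hpQ)
  refine ⟨Pbar.comap (Ideal.Quotient.mk P₀), ?_, Ideal.comap_isPrime _ _, ?_⟩
  · conv_rhs => rw [← hcomap]
    exact Ideal.comap_mono hPbarle
  · constructor
    rw [hPbarover.over]
    rfl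

section Abstract

variable {R R' C L Λ : Type*} [CommRing R] [IsDomain R] [IsIntegrallyClosed R]
  [CommRing R'] [IsDomain R'] [IsIntegrallyClosed R'] [IsNoetherianRing R'] [IsLocalRing R']
  [Algebra R R']
  [CommRing C] [IsDomain C] [IsIntegrallyClosed C] [IsNoetherianRing C] [Algebra R C]
  [Field L] [Algebra R L] [Algebra C L] [IsScalarTower R C L] [IsIntegralClosure C R L]
  [CommRing Λ] [Algebra L Λ] [Algebra R Λ] [IsScalarTower R L Λ] [Algebra R' Λ]
  [IsScalarTower R R' Λ]
  {e : ℕ} (bs : Module.Basis (Fin e) L Λ) (s' : R') (bR : Module.Basis (Fin e) R R')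
  (hbR : ∀ r : Fin e, bR r = s' ^ (r : ℕ))
  (hbs : ∀ r : Fin e, bs r = algebraMap R' Λ s' ^ (r : ℕ))
  (τ : R) (hs : s' ^ e = algebraMap R R' τ)
  (hRL : Function.Injective (algebraMap R L)) (he : 0 < e) (hτ : Prime τ)
  (hchar : ∀ n : ℕ, n ≠ 0 → ¬ τ ∣ (n : R))
  {ι : Type*} [Fintype ι] [DecidableEq ι] (b : Module.Basis ι R C)

include hbR hbs hs hRL he hτ hchar in
/-- The local theorem with the base change `R'` and the algebra `Λ` as data. -/
theorem ldAt_of_tame_aux (π : R) (hπ' : Prime (algebraMap R R' π))
    (hmax' : IsLocalRing.maximalIdeal R' = Ideal.span {algebraMap R R' π, s'})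
    (hsπ : s' ∉ Ideal.span {algebraMap R R' π})
    [IsPrincipalIdealRing (R' ⧸ Ideal.span {algebraMap R R' π})]
    (hs' : Prime s') [CharZero (R' ⧸ Ideal.span {s'})]
    (hdisc : ∃ n : ℕ, Algebra.discr R b ∣ τ ^ n)
    (htame : ∀ Q : Ideal C, Q.IsPrime → Q.comap (algebraMap R C) = Ideal.span {τ} →
      TameAt (algebraMap R C τ) e Q)
    (M' : Ideal C) (hM' : M'.IsMaximal) (hπM' : algebraMap R C π ∈ M') :
    LocalDomain.LDAt (algebraMap R C π) M' := by
  classical
  have hπm : algebraMap R R' π ∈ IsLocalRing.maximalIdeal R' := by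
    rw [hmax']; exact Ideal.subset_span (by simp)
  have hfinR : Module.Finite R R' := Module.Finite.of_basis bR
  have hfin : Module.Finite R' (integralClosure R' Λ) :=
    finite_int bs s' bR hbR hbs τ hs hRL he hτ hchar b
  have hfree : Module.Free R' (integralClosure R' Λ) :=
    free_int bs s' bR hbR hbs τ hs hRL he hτ hchar b π hπ' hπm
  obtain ⟨c, hc⟩ :=
    exists_basis_isUnit_discr bs s' bR hbR hbs τ hs hRL he hτ hchar b hs' hdisc htame
  have hnt : Nontrivial Λ := nontrivial_of_basis bs he
  have hCL : Function.Injective (algebraMap C L) := IsIntegralClosure.algebraMap_injective C R L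
  have hLΛ : Function.Injective (algebraMap L Λ) := (algebraMap L Λ).injective
  let algCC : Algebra C (integralClosure R' Λ) := (intMap R R' L).toAlgebra
  have hcoe : ∀ x : C, ((algebraMap C (integralClosure R' Λ) x : integralClosure R' Λ) : Λ) =
      algebraMap L Λ (algebraMap C L x) := fun x => rfl
  have hinjCC : Function.Injective (algebraMap C (integralClosure R' Λ)) := by
    intro x y hxy
    have h1 := congrArg Subtype.val hxy
    rw [hcoe, hcoe] at h1
    exact hCL (hLΛ h1)
  have hπeq : algebraMap C (integralClosure R' Λ) (algebraMap R C π) =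
      algebraMap R' (integralClosure R' Λ) (algebraMap R R' π) := by
    apply Subtype.ext
    rw [hcoe, ← IsScalarTower.algebraMap_apply R C L, ← IsScalarTower.algebraMap_apply R L Λ,
      IsScalarTower.algebraMap_apply R R' Λ]
    rfl
  have hprimeI : (Ideal.span {algebraMap R R' π}).IsPrime :=
    (Ideal.span_singleton_prime hπ'.ne_zero).mpr hπ'
  have hmapI : (Ideal.span {algebraMap R R' π}).map (algebraMap R' (integralClosure R' Λ)) =
      Ideal.span {algebraMap R' (integralClosure R' Λ) (algebraMap R R' π)} := by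
    rw [Ideal.map_span, Set.image_singleton]
  -- integrality of `C'` over `C`
  have hintCC : Algebra.IsIntegral C (integralClosure R' Λ) := by
    refine ⟨fun y => ?_⟩
    have hy : IsIntegral R (y : Λ) := isIntegral_trans _ y.2
    obtain ⟨p, hp, hp0⟩ := hy
    refine ⟨p.map (algebraMap R C), hp.map _, ?_⟩
    apply Subtype.ext
    have h1 := Polynomial.hom_eval₂ p
      ((algebraMap C (integralClosure R' Λ)).comp (algebraMap R C))
      (integralClosure R' Λ).val.toRingHom y
    have h2 : ((integralClosure R' Λ).val.toRingHom).comp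
        ((algebraMap C (integralClosure R' Λ)).comp (algebraMap R C)) = algebraMap R Λ := by
      ext r
      change algebraMap L Λ (algebraMap C L (algebraMap R C r)) = algebraMap R Λ r
      rw [← IsScalarTower.algebraMap_apply R C L, ← IsScalarTower.algebraMap_apply R L Λ]
    rw [h2] at h1
    rw [Polynomial.eval₂_map]
    exact h1.trans hp0
  -- torsion-freeness
  have htf : ∀ c₀ : C, c₀ ≠ 0 → ∀ y : integralClosure R' Λ,
      algebraMap C (integralClosure R' Λ) c₀ * y = 0 → y = 0 := by
    intro c₀ hc₀ y hy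
    have h1 := congrArg Subtype.val hy
    rw [Subalgebra.coe_mul, hcoe] at h1
    have h2 : algebraMap C L c₀ ≠ 0 := (map_ne_zero_iff _ hCL).mpr hc₀
    apply Subtype.ext
    have h3 : (algebraMap C L c₀) • (y : Λ) = (algebraMap C L c₀) • (0 : Λ) := by
      rw [Algebra.smul_def, smul_zero]; exact h1
    exact smul_right_injective Λ h2 h3
  have hGD : Algebra.HasGoingDown C (integralClosure R' Λ) := hasGoingDown_of_torsionFree htf
  have hπ0 : π ≠ 0 := by
    rintro rfl
    exact hπ'.ne_zero (map_zero _)
  have hπL : algebraMap R L π ≠ 0 := (map_ne_zero_iff _ hRL).mpr hπ0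
  intro a₁ a₂ hab
  refine GluePrime.locally_domain_of_minimalPrimes (algebraMap R C π) ?_ ?_ M' hM' hπM' a₁ a₂ hab
  · -- reducedness
    intro x hx
    obtain ⟨y, hy⟩ := hx
    have h1 : (algebraMap C (integralClosure R' Λ) x) ^ 2 ∈
        (Ideal.span {algebraMap R R' π}).map (algebraMap R' (integralClosure R' Λ)) := by
      rw [hmapI, Ideal.mem_span_singleton, ← hπeq, ← map_pow, hy, map_mul]
      exact Dvd.intro _ rfl
    have h2 := UnitDisc.mem_map_of_pow_mem c hc hprimeI.isRadical h1
    rw [hmapI, Ideal.mem_span_singleton] at h2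
    obtain ⟨w, hw⟩ := h2
    have hπΛ : ((algebraMap R' (integralClosure R' Λ) (algebraMap R R' π) :
        integralClosure R' Λ) : Λ) = algebraMap L Λ (algebraMap R L π) := by
      rw [← hπeq, hcoe, ← IsScalarTower.algebraMap_apply R C L]
    have h3 : algebraMap L Λ (algebraMap C L x) = algebraMap L Λ (algebraMap R L π) * (w : Λ) := by
      have h4 := congrArg Subtype.val hw
      rw [hcoe, Subalgebra.coe_mul, hπΛ] at h4
      exact h4
    have hwl : (w : Λ) = algebraMap L Λ ((algebraMap R L π)⁻¹ * algebraMap C L x) := by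
      rw [map_mul, h3, ← mul_assoc, ← map_mul, inv_mul_cancel₀ hπL, map_one, one_mul]
    have hlint : IsIntegral R ((algebraMap R L π)⁻¹ * algebraMap C L x) := by
      have hw_int : IsIntegral R (w : Λ) := isIntegral_trans _ w.2
      rw [hwl] at hw_int
      exact (isIntegral_algebraMap_iff hLΛ).mp hw_int
    obtain ⟨c₀, hc₀⟩ := (IsIntegralClosure.isIntegral_iff (A := C)).mp hlint
    refine ⟨c₀, hCL ?_⟩
    rw [map_mul, hc₀, ← IsScalarTower.algebraMap_apply R C L, ← mul_assoc, mul_inv_cancel₀ hπL,
      one_mul]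
  · -- comaximality
    intro P Q hP hQ hPQ
    refine Descent.sup_eq_top_of_goingDown (C' := integralClosure R' Λ) hinjCC
      (algebraMap R C π) ?_ hP hQ hPQ
    intro Q₁ Q₂ hQ₁ hQ₂ hne
    rw [hπeq] at hQ₁ hQ₂
    exact UnitDisc.sup_eq_top_of_ne c hc hprimeI hsπ hmax' hQ₁ hQ₂ hne

end Abstract

section Local

variable {R C L : Type*} [CommRing R] [IsDomain R] [IsNoetherianRing R] [IsLocalRing R]
  [IsIntegrallyClosed R]
  [CommRing C] [IsDomain C] [IsIntegrallyClosed C] [IsNoetherianRing C] [Algebra R C]
  [Field L] [Algebra R L] [Algebra C L] [IsScalarTower R C L] [IsIntegralClosure C R L]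

/-- **The local theorem at a tame branch point.** -/
theorem ldAt_of_tame (hRL : Function.Injective (algebraMap R L))
    {ι : Type*} [Fintype ι] [DecidableEq ι] (b : Module.Basis ι R C)
    (π τ : R) (hπ : Prime π) (hτ : Prime τ) (hπτ : ¬ π ∣ τ)
    (hmax : IsLocalRing.maximalIdeal R = Ideal.span {π, τ})
    (hchar : ∀ n : ℕ, n ≠ 0 → ¬ τ ∣ (n : R))
    (hdisc : ∃ n : ℕ, Algebra.discr R b ∣ τ ^ n)
    (M' : Ideal C) (hM' : M'.IsMaximal) (hπM' : algebraMap R C π ∈ M') :
    LocalDomain.LDAt (algebraMap R C π) M' := by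
  classical
  have hCL : Function.Injective (algebraMap C L) := IsIntegralClosure.algebraMap_injective C R L
  have hinjRC : Function.Injective (algebraMap R C) := by
    intro x y hxy
    apply hRL
    rw [IsScalarTower.algebraMap_apply R C L, IsScalarTower.algebraMap_apply R C L, hxy]
  have hintRC : Algebra.IsIntegral R C := IsIntegralClosure.isIntegral_algebra R L
  obtain ⟨e, he, htame⟩ := exists_tameAt (C := C) hinjRC hτ
  have locR' : IsLocalRing (TameExt τ e) := tame_isLocalRing π τ he hmax
  have domR' : IsDomain (TameExt τ e) := tame_isDomain π τ he hmax hτ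
  have ufmR' : UniqueFactorizationMonoid (TameExt τ e) := tame_ufm π τ he hmax hπ hπτ
  have icR' : IsIntegrallyClosed (TameExt τ e) := inferInstance
  have pirR' : IsPrincipalIdealRing
      (TameExt τ e ⧸ Ideal.span {algebraMap R (TameExt τ e) π}) :=
    tame_quot_isPrincipalIdealRing π τ he hmax hπ hπτ
  have czR' : CharZero (TameExt τ e ⧸ Ideal.span {tameRoot τ e}) := tame_charZero τ he hchar
  let algR'Λ : Algebra (TameExt τ e) (L ⊗[R] TameExt τ e) := Algebra.TensorProduct.rightAlgebra
  have hbs : ∀ r : Fin e, Algebra.TensorProduct.basis L (tameBasis τ he) r =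
      algebraMap (TameExt τ e) (L ⊗[R] TameExt τ e) (tameRoot τ e) ^ (r : ℕ) := by
    intro r
    rw [Algebra.TensorProduct.basis_apply, tameBasis_apply,
      Algebra.TensorProduct.right_algebraMap_apply, Algebra.TensorProduct.tmul_pow, one_pow]
  have hsπ : tameRoot τ e ∉ Ideal.span {algebraMap R (TameExt τ e) π} := by
    rw [Ideal.mem_span_singleton]
    exact tame_not_dvd_root τ he π hπτ
  exact ldAt_of_tame_aux (R' := TameExt τ e) (Λ := L ⊗[R] TameExt τ e)
    (Algebra.TensorProduct.basis L (tameBasis τ he)) (tameRoot τ e) (tameBasis τ he)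
    (tameBasis_apply τ he) hbs τ (tameRoot_pow τ e) hRL he hτ hchar b π
    (tame_prime_left π τ he hmax hπ hπτ) (tame_maximalIdeal π τ he hmax) hsπ
    (tameRoot_prime τ he hτ) hdisc htame M' hM' hπM'

end Local

end Fermat.Agent.S30.Model.Tame
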