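import Mathlib
import Fermat.Agent.S30.Model.LocalDisc
import Fermat.Agent.S30.Model.TameComax

/-!
# MODEL THEOREM: the local theorem at a branch point, global chart form

`A` a Noetherian integrally closed UFD (a chart `O[u]` of the projective line over the DVR `O`),
`π` a prime element with `A ⧸ (π)` a principal ideal ring, `K = Frac A`, `L / K` finite separable,
`C₀ = integralClosure A L`; `τ` a second prime element (the branch section `u - c`, or `u⁻¹` on
the chart at infinity) with `(π, τ)` maximal and `A ⧸ τ` of characteristic zero.

* `ldAt_of_branch` : if `M` is a maximal ideal of `C₀` containing `π` and `τ`, and the integral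
  closure is trace-self-dual (`LocalDisc.TSDField`) at every prime element of `A` lying in `M`
  other than `τ`, then `C₀` is locally a domain modulo `π` at `M` (`LocalDomain.LDAt`).

No tameness hypothesis and no ramification index appears: the ramification along `τ = 0` is
automatically tame (residue characteristic zero) and is removed by Abhyankar's lemma
(`Tame.ldAt_of_tame`).  This is the exact twin of `LocalNB.ldAt_of_tsdField`.
-/

set_option autoImplicit false

namespace Fermat.Agent.S30.Model.Tame

open Fermat.Agent.S30.Model Fermat.Agent.Lib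

/-- Divisibility by a prime element of `A` lying in `x` can be tested in the localisation
`A_x`. -/
theorem dvd_of_algebraMap_dvd_atPrime {A : Type*} [CommRing A] [IsDomain A] (x : Ideal A)
    [hx : x.IsPrime] (R : Type*) [CommRing R] [Algebra A R] [IsLocalization.AtPrime R x]
    {p a : A} (hp : Prime p) (hpx : p ∈ x) (h : algebraMap A R p ∣ algebraMap A R a) : p ∣ a := by
  have hinj : Function.Injective (algebraMap A R) :=
    IsLocalization.injective R x.primeCompl_le_nonZeroDivisors
  obtain ⟨r, hr⟩ := h
  obtain ⟨a', s, rfl⟩ := IsLocalization.exists_mk'_eq x.primeCompl r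
  have h1 : a * (s : A) = p * a' := by
    apply hinj
    rw [map_mul, map_mul, hr, mul_assoc, IsLocalization.mk'_spec]
  have h2 : p ∣ a * (s : A) := ⟨a', h1⟩
  rcases hp.dvd_or_dvd h2 with h3 | h3
  · exact h3
  · exfalso
    obtain ⟨w, hw⟩ := h3
    exact s.2 (hw ▸ x.mul_mem_right w hpx)

universe u v

variable {A : Type u} {K : Type*} {L : Type v} [CommRing A] [IsDomain A] [IsNoetherianRing A]
  [IsIntegrallyClosed A] [UniqueFactorizationMonoid A]
  [Field K] [Algebra A K] [IsFractionRing A K] [Field L] [Algebra K L] [Algebra A L]
  [IsScalarTower A K L] [FiniteDimensional K L] [Algebra.IsSeparable K L]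

/-- **Local theorem at a branch point.** -/
theorem ldAt_of_branch (π : A) (hπ : Prime π) [IsPrincipalIdealRing (A ⧸ Ideal.span {π})]
    (τ : A) (hτ : Prime τ) (hπτ : ¬ π ∣ τ) (hmax : (Ideal.span {π, τ}).IsMaximal)
    (hchar : ∀ n : ℕ, n ≠ 0 → ¬ τ ∣ (n : A))
    (M : Ideal (integralClosure A L)) (hM : M.IsMaximal)
    (hπM : algebraMap A (integralClosure A L) π ∈ M)
    (hτM : algebraMap A (integralClosure A L) τ ∈ M)
    (h : ∀ p : A, Prime p → algebraMap A (integralClosure A L) p ∈ M → ¬ τ ∣ p →
      LocalDisc.TSDField A K L p) :
    LocalDomain.LDAt (algebraMap A (integralClosure A L) π) M := by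
  classical
  have hinjK : Function.Injective (algebraMap A K) := IsFractionRing.injective A K
  have hinj : Function.Injective (algebraMap A L) := by
    rw [IsScalarTower.algebraMap_eq A K L]
    exact (algebraMap K L).injective.comp hinjK
  have hfs : FaithfulSMul A L := (faithfulSMul_iff_algebraMap_injective A L).mpr hinj
  set x : Ideal A := M.comap (algebraMap A (integralClosure A L)) with hx
  have hxmax : x.IsMaximal := Ideal.isMaximal_comap_of_isIntegral_of_isMaximal M
  have hπx : π ∈ x := Ideal.mem_comap.mpr hπM
  have hτx : τ ∈ x := Ideal.mem_comap.mpr hτM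
  have hxspan : Ideal.span {π, τ} = x := by
    refine hmax.eq_of_le hxmax.ne_top ?_
    rw [Ideal.span_le]
    intro y hy
    rcases hy with hy | hy
    · rw [hy]; exact hπx
    · rw [Set.mem_singleton_iff] at hy
      rw [hy]; exact hτx
  have hunitK : ∀ y : x.primeCompl, IsUnit (algebraMap A K y) := fun y =>
    IsUnit.mk0 _ ((map_ne_zero_iff _ hinjK).mpr (fun h0 => y.2 (h0 ▸ x.zero_mem)))
  have hunit : ∀ y : x.primeCompl, IsUnit (algebraMap A L y) := fun y =>
    IsUnit.mk0 _ ((map_ne_zero_iff _ hinj).mpr (fun h0 => y.2 (h0 ▸ x.zero_mem)))
  let R := Localization.AtPrime x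
  let algRK : Algebra R K := (IsLocalization.lift (M := x.primeCompl) hunitK).toAlgebra
  have towerARK : IsScalarTower A R K := IsScalarTower.of_algebraMap_eq fun a => by
    simp [RingHom.algebraMap_toAlgebra, R]
  have fracR : IsFractionRing R K :=
    IsFractionRing.isFractionRing_of_isDomain_of_isLocalization x.primeCompl R K
  let algRL : Algebra R L := ((algebraMap K L).comp (algebraMap R K)).toAlgebra
  have towerRKL : IsScalarTower R K L := IsScalarTower.of_algebraMap_eq fun a => rfl
  have towerARL : IsScalarTower A R L := IsScalarTower.of_algebraMap_eq fun a => by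
    rw [RingHom.algebraMap_toAlgebra, RingHom.comp_apply, ← IsScalarTower.algebraMap_apply A R K,
      ← IsScalarTower.algebraMap_apply A K L]
  have domR : IsDomain R := IsLocalization.isDomain_of_atPrime R x
  have locR : IsLocalRing R := IsLocalization.AtPrime.isLocalRing R x
  have noethR : IsNoetherianRing R := IsLocalization.isNoetherianRing x.primeCompl R inferInstance
  have icR : IsIntegrallyClosed R :=
    isIntegrallyClosed_of_isLocalization R x.primeCompl x.primeCompl_le_nonZeroDivisors
  have freeC : Module.Free R (integralClosure R L) :=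
    RegLocal.free_integralClosure_of_isLocalization_atPrime hπ x hπx R K L
  have finC : Module.Finite R (integralClosure R L) :=
    IsIntegralClosure.finite R K L (integralClosure R L)
  have hπ' : Prime (algebraMap A R π) := RegLocal.prime_algebraMap π x R hπ hπx
  have hτ' : Prime (algebraMap A R τ) := RegLocal.prime_algebraMap τ x R hτ hτx
  have hπτ' : ¬ algebraMap A R π ∣ algebraMap A R τ := fun hdvd =>
    hπτ (dvd_of_algebraMap_dvd_atPrime x R hπ hπx hdvd)
  have hmaxR : IsLocalRing.maximalIdeal R = Ideal.span {algebraMap A R π, algebraMap A R τ} := by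
    have h1 : x.map (algebraMap A R) = IsLocalRing.maximalIdeal R :=
      IsLocalization.AtPrime.map_eq_maximalIdeal x R
    have h2 : x.map (algebraMap A R) = (Ideal.span {π, τ}).map (algebraMap A R) :=
      congrArg (Ideal.map (algebraMap A R)) hxspan.symm
    rw [← h1, h2, Ideal.map_span, Set.image_pair]
  have hcharR : ∀ n : ℕ, n ≠ 0 → ¬ algebraMap A R τ ∣ (n : R) := by
    intro n hn hdvd
    rw [← map_natCast (algebraMap A R)] at hdvd
    exact hchar n hn (dvd_of_algebraMap_dvd_atPrime x R hτ hτx hdvd)
  have hRL : Function.Injective (algebraMap R L) :=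
    (algebraMap K L).injective.comp (IsFractionRing.injective R K)
  -- the discriminant is supported on `τ = 0`
  have hdisc : ∃ n : ℕ, Algebra.discr R (Module.Free.chooseBasis R (integralClosure R L)) ∣
      algebraMap A R τ ^ n := by
    refine LocalDisc.discr_dvd_pow (K := K) (L := L) x _ τ fun p hp hpx => ?_
    by_cases hτp : τ ∣ p
    · left
      obtain ⟨w, hw⟩ := hτp
      have hwu : IsUnit w := (hp.irreducible.isUnit_or_isUnit hw).resolve_left hτ.not_isUnit
      obtain ⟨w', hw'⟩ := hwu.exists_right_inv
      exact ⟨w', by rw [hw, mul_assoc, hw', mul_one]⟩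
    · right
      exact h p hp (Ideal.mem_comap.mp hpx) hτp
  have icC : IsIntegrallyClosed (integralClosure R L) :=
    integralClosure.isIntegrallyClosedOfFiniteExtension K
  have noethC : IsNoetherianRing (integralClosure R L) :=
    isNoetherian_of_tower R (inferInstance : IsNoetherian R (integralClosure R L))
  -- the localisation of the integral closure
  let algCC : Algebra (integralClosure A L) (integralClosure R L) :=
    (RegLocal.integralClosureMap (A := A) (L := L) R).toAlgebra
  have tower2 : IsScalarTower (integralClosure A L) (integralClosure R L) L :=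
    IsScalarTower.of_algebraMap_eq fun c => rfl
  have tower3 : IsScalarTower A (integralClosure A L) (integralClosure R L) :=
    IsScalarTower.of_algebraMap_eq fun a => Subtype.ext rfl
  have hLL : IsLocalization (Algebra.algebraMapSubmonoid L x.primeCompl) L := by
    apply IsLocalization.self
    rintro _ ⟨y, hy, rfl⟩
    exact hunit ⟨y, hy⟩
  have hloc' : IsLocalization (Algebra.algebraMapSubmonoid (integralClosure A L) x.primeCompl)
      (integralClosure R L) :=
    IsLocalization.integralClosure (S := L) (Rf := R) (Sf := L) x.primeCompl
  have hπeq : algebraMap (integralClosure A L) (integralClosure R L)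
      (algebraMap A (integralClosure A L) π) =
      algebraMap R (integralClosure R L) (algebraMap A R π) := by
    apply Subtype.ext
    change algebraMap A L π = algebraMap R L (algebraMap A R π)
    rw [← IsScalarTower.algebraMap_apply]
  -- the local statement
  have hLD' : ∀ M' : Ideal (integralClosure R L), M'.IsMaximal →
      algebraMap (integralClosure A L) (integralClosure R L)
        (algebraMap A (integralClosure A L) π) ∈ M' →
      LocalDomain.LDAt (algebraMap (integralClosure A L) (integralClosure R L)
        (algebraMap A (integralClosure A L) π)) M' := by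
    intro M' hM' hπM'
    rw [hπeq] at hπM' ⊢
    exact ldAt_of_tame hRL (Module.Free.chooseBasis R (integralClosure R L))
      (algebraMap A R π) (algebraMap A R τ) hπ' hτ' hπτ' hmaxR hcharR hdisc M' hM' hπM'
  refine LocalDomain.ldAt_of_isLocalization (C' := integralClosure R L)
    (Algebra.algebraMapSubmonoid (integralClosure A L) x.primeCompl)
    (algebraMap A (integralClosure A L) π) hLD' M hM ?_ hπM
  rw [Set.disjoint_left]
  rintro _ ⟨y, hy, rfl⟩ hxM
  exact hy (Ideal.mem_comap.mpr hxM)

end Fermat.Agent.S30.Model.Tame
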