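import Mathlib

/-!
# Tame descent of regular parameters along a finite group quotient (Mathlib only)

`B` a commutative ring with an action of a finite group `G` by ring automorphisms, `|G|`
invertible in `B`.  `π, s ∈ B`, `π` invariant, `g • s = χ g * s` for a multiplicative
`χ : G → B` with invariant values such that every `1 - χ g ^ i` is zero or a unit (e.g.
`χ g` a power of a primitive `e`-th root of unity `ζ`, `e` invertible).

`N` a maximal ideal of `B` with `N · B_N = (π, s) · B_N` (`hreg`) and `s` not nilpotent modulo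
`π` at `N` (`hdom`).  Then the ideal `N ∩ B^G` of the ring of invariants is, locally at `N`,
generated by `π` and ONE invariant element `z`, with invariant witnesses
(`exists_invariant_generator`).

This is the descent step "`C'` étale over `O[s]_(π,s)`, `s ^ e = u - c`, `e` invertible
⇒ the quotient `C = C'^{μ_e}` is regular at the image point" of the model theorem.
-/

set_option autoImplicit false

namespace Fermat.Agent.S30.Model.TameDescent

open Finset

section Basic

variable {B : Type*} [CommRing B] {G : Type*} [Group G] [MulSemiringAction G B]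

theorem smul_natCast_eq (g : G) (n : ℕ) : g • (n : B) = n :=
  map_natCast (MulSemiringAction.toRingHom G B g) n

theorem smul_mem_of_smul_sub_mem {N : Ideal B} {g : G} (hg : ∀ x : B, g • x - x ∈ N) {x : B}
    (hx : x ∈ N) : g • x ∈ N := by
  have := N.add_mem (hg x) hx
  simpa using this

/-- The inertia subgroup of an ideal `N`: the elements acting trivially on `B ⧸ N`. -/
def inertia (G : Type*) [Group G] [MulSemiringAction G B] (N : Ideal B) : Subgroup G where
  carrier := {g | ∀ x : B, g • x - x ∈ N}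
  mul_mem' := by
    intro g h hg hh x
    have h1 : g • (h • x - x) ∈ N := smul_mem_of_smul_sub_mem hg (hh x)
    have h2 := N.add_mem h1 (hg x)
    have : (g * h) • x - x = g • (h • x - x) + (g • x - x) := by
      rw [mul_smul, smul_sub]; ring
    rw [this]; exact h2
  one_mem' := by
    intro x
    simp
  inv_mem' := by
    intro g hg x
    have h1 := hg (g⁻¹ • x)
    rw [smul_inv_smul] at h1
    have : g⁻¹ • x - x = -(x - g⁻¹ • x) := by ring
    rw [this]; exact N.neg_mem h1

theorem mem_inertia {N : Ideal B} {g : G} : g ∈ inertia G N ↔ ∀ x : B, g • x - x ∈ N := Iff.rfl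

end Basic

section Fin

variable {B : Type*} [CommRing B] {G : Type*} [Group G] [Fintype G] [MulSemiringAction G B]

theorem smul_sum_smul (g : G) (x : B) : g • ∑ h : G, h • x = ∑ h : G, h • x := by
  rw [Finset.smul_sum]
  exact Fintype.sum_equiv (Equiv.mulLeft g) _ _ (fun h => by simp [mul_smul])

theorem smul_prod_smul (g : G) (x : B) : g • ∏ h : G, h • x = ∏ h : G, h • x := by
  rw [Finset.smul_prod']
  exact Fintype.prod_equiv (Equiv.mulLeft g) _ _ (fun h => by simp [mul_smul])

theorem smul_inv_card {u : B} (hu : u * (Fintype.card G : B) = 1) (g : G) : g • u = u := by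
  have h1 : g • u * (Fintype.card G : B) = 1 := by
    have h := congrArg (fun x => g • x) hu
    simp only [smul_mul', smul_natCast_eq, smul_one] at h
    exact h
  calc g • u = g • u * (u * (Fintype.card G : B)) := by rw [hu, mul_one]
    _ = (g • u * (Fintype.card G : B)) * u := by ring
    _ = u := by rw [h1, one_mul]

end Fin

section StepC

variable {B : Type*} [CommRing B] {G : Type*} [Group G] [MulSemiringAction G B]

/-- **Step C.**  An invariant element of `N` lies in `(π, s ^ i)` locally at `N`, for every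
`i ≤ m`, provided for each `0 < i < m` some element of the inertia group has `χ h ^ i ≠ 1`. -/
theorem exists_mul_eq_of_invariant
    (π s : B) (χ : G → B) (N : Ideal B) [hN : N.IsPrime]
    (hπ : ∀ g : G, g • π = π) (hs : ∀ g : G, g • s = χ g * s)
    (hχu : ∀ (g : G) (i : ℕ), χ g ^ i = 1 ∨ IsUnit (1 - χ g ^ i))
    (hreg : ∀ y ∈ N, ∃ t, t ∉ N ∧ ∃ a b : B, t * y = a * π + b * s)
    (hdom : ∀ w : B, w ∉ N → ∀ i : ℕ, ¬ π ∣ w * s ^ i)
    (m : ℕ) (hm : ∀ i, 0 < i → i < m → ∃ h : G, h ∈ inertia G N ∧ χ h ^ i ≠ 1)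
    (y : B) (hyN : y ∈ N) (hy : ∀ g : G, g • y = y) :
    ∀ i, 1 ≤ i → i ≤ m → ∃ t, t ∉ N ∧ ∃ a c : B, t * y = a * π + c * s ^ i := by
  intro i hi
  induction i, hi using Nat.le_induction with
  | base =>
    intro _
    obtain ⟨t, ht, a, b, hab⟩ := hreg y hyN
    exact ⟨t, ht, a, b, by rw [pow_one]; exact hab⟩
  | succ i hi ih =>
    intro him
    obtain ⟨t, ht, a, c, hac⟩ := ih (by omega)
    have hcN : c ∈ N := by
      by_contra hc
      obtain ⟨h, hhI, hne⟩ := hm i (by omega) (by omega)
      have hunit : IsUnit (1 - χ h ^ i) := (hχu h i).resolve_left hne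
      have hI : ∀ x : B, h • x - x ∈ N := hhI
      -- apply `h` to the relation
      have hac' : h • t * y = h • a * π + h • c * (χ h ^ i * s ^ i) := by
        have := congrArg (fun x => h • x) hac
        simp only [smul_mul', smul_add, smul_pow', hy, hπ, hs, mul_pow] at this
        exact this
      set W : B := h • t * c - t * (h • c) * χ h ^ i with hW
      have hdvd : π ∣ W * s ^ i := by
        refine ⟨t * h • a - h • t * a, ?_⟩
        rw [hW]
        linear_combination (-(h • t)) * hac + t * hac'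
      have hWN : W ∉ N := by
        intro hWmem
        have h1 : (h • t - t) * c ∈ N := N.mul_mem_right _ (hI t)
        have h2 : t * (h • c - c) * χ h ^ i ∈ N :=
          N.mul_mem_right _ (N.mul_mem_left _ (hI c))
        have h3 : t * c * (1 - χ h ^ i) ∈ N := by
          have : t * c * (1 - χ h ^ i) = W - (h • t - t) * c + t * (h • c - c) * χ h ^ i := by
            rw [hW]; ring
          rw [this]
          exact N.add_mem (N.sub_mem hWmem h1) h2
        rcases hN.mem_or_mem h3 with h4 | h4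
        · rcases hN.mem_or_mem h4 with h5 | h5
          · exact ht h5
          · exact hc h5
        · exact hN.ne_top (Ideal.eq_top_of_isUnit_mem _ h4 hunit)
      exact hdom W hWN i hdvd
    obtain ⟨t', ht', a', b', hab'⟩ := hreg c hcN
    refine ⟨t' * t, fun h => (hN.mem_or_mem h).elim ht' ht, t' * a + a' * s ^ i, b', ?_⟩
    rw [pow_succ]
    linear_combination t' * hac + s ^ i * hab'

end StepC

section StepE

variable {B : Type*} [CommRing B] {G : Type*} [Group G] [Fintype G] [MulSemiringAction G B]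

/-- **Step E.**  A local relation `t * y = a * π + b * z` between invariant elements `y, π, z`
with `t ∉ N` can be chosen with invariant `t, a, b`. -/
theorem exists_invariant_witness
    (π z : B) (N : Ideal B) [hN : N.IsPrime]
    (hπ : ∀ g : G, g • π = π) (hz : ∀ g : G, g • z = z)
    (hcard : IsUnit ((Fintype.card G : ℕ) : B))
    (y : B) (hy : ∀ g : G, g • y = y)
    (h : ∃ t, t ∉ N ∧ ∃ a b : B, t * y = a * π + b * z) :
    ∃ t, t ∉ N ∧ (∀ g : G, g • t = t) ∧
      ∃ a b : B, (∀ g : G, g • a = a) ∧ (∀ g : G, g • b = b) ∧ t * y = a * π + b * z := by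
  classical
  obtain ⟨u, hu⟩ := hcard.exists_left_inv
  -- the ideal of admissible `t`
  let 𝔞 : Ideal B :=
    { carrier := {t | ∃ a b : B, t * y = a * π + b * z}
      add_mem' := by
        rintro t t' ⟨a, b, hab⟩ ⟨a', b', hab'⟩
        exact ⟨a + a', b + b', by linear_combination hab + hab'⟩
      zero_mem' := ⟨0, 0, by ring⟩
      smul_mem' := by
        rintro c t ⟨a, b, hab⟩
        exact ⟨c * a, c * b, by rw [smul_eq_mul]; linear_combination c * hab⟩ }
  have h𝔞 : ∀ t : B, t ∈ 𝔞 ↔ ∃ a b : B, t * y = a * π + b * z := fun t => Iff.rfl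
  have hstab : ∀ (g : G) (t : B), t ∈ 𝔞 → g • t ∈ 𝔞 := by
    rintro g t ⟨a, b, hab⟩
    refine ⟨g • a, g • b, ?_⟩
    have := congrArg (fun x => g • x) hab
    simp only [smul_mul', smul_add, hy, hπ, hz] at this
    exact this
  obtain ⟨t₀, ht₀N, ht₀⟩ := h
  have ht₀𝔞 : t₀ ∈ 𝔞 := ht₀
  -- prime avoidance
  have hnot : ¬ ((𝔞 : Set B) ⊆ ⋃ g ∈ ((Finset.univ : Finset G) : Set G),
      ((N.comap (MulSemiringAction.toRingHom G B g) : Ideal B) : Set B)) := by
    intro hsub
    rw [Ideal.subset_union_prime (1 : G) (1 : G)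
      (fun g _ _ _ => Ideal.comap_isPrime _ _)] at hsub
    obtain ⟨g, -, hg⟩ := hsub
    have h1 : g⁻¹ • t₀ ∈ 𝔞 := hstab g⁻¹ t₀ ht₀𝔞
    have h2 := hg h1
    rw [Ideal.mem_comap, MulSemiringAction.toRingHom_apply, smul_inv_smul] at h2
    exact ht₀N h2
  rw [Set.not_subset] at hnot
  obtain ⟨t₁, ht₁𝔞, ht₁⟩ := hnot
  have ht₁' : ∀ g : G, g • t₁ ∉ N := by
    intro g hg
    apply ht₁
    simp only [Finset.coe_univ, Set.mem_univ, Set.iUnion_true, Set.mem_iUnion, SetLike.mem_coe]
    exact ⟨g, by rw [Ideal.mem_comap, MulSemiringAction.toRingHom_apply]; exact hg⟩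
  -- the norm of `t₁`
  set n : B := ∏ g : G, g • t₁ with hn
  have hn𝔞 : n ∈ 𝔞 := by
    have hdvd : (1 : G) • t₁ ∣ n := Finset.dvd_prod_of_mem (fun g : G => g • t₁) (Finset.mem_univ 1)
    rw [one_smul] at hdvd
    obtain ⟨q, hq⟩ := hdvd
    rw [hq]
    exact 𝔞.mul_mem_right q ht₁𝔞
  have hninv : ∀ g : G, g • n = n := fun g => smul_prod_smul g t₁
  have hnN : n ∉ N := by
    intro hmem
    rw [hn, Ideal.IsPrime.prod_mem_iff] at hmem
    obtain ⟨g, -, hg⟩ := hmem
    exact ht₁' g hg
  obtain ⟨a, b, hab⟩ := hn𝔞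
  have hug : ∀ g : G, g • u = u := fun g => smul_inv_card (by exact_mod_cast hu) g
  refine ⟨n, hnN, hninv, u * ∑ g : G, g • a, u * ∑ g : G, g • b, ?_, ?_, ?_⟩
  · intro g
    rw [smul_mul', hug, smul_sum_smul]
  · intro g
    rw [smul_mul', hug, smul_sum_smul]
  · have hsum : ∑ g : G, g • (n * y) = (∑ g : G, g • a) * π + (∑ g : G, g • b) * z := by
      rw [hab, Finset.sum_mul, Finset.sum_mul, ← Finset.sum_add_distrib]
      refine Finset.sum_congr rfl fun g _ => ?_
      rw [smul_add, smul_mul', smul_mul', hπ, hz]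
    have hsum' : ∑ g : G, g • (n * y) = (Fintype.card G : B) * (n * y) := by
      have : ∀ g : G, g • (n * y) = n * y := fun g => by rw [smul_mul', hninv, hy]
      rw [Finset.sum_congr rfl (fun g _ => this g), Finset.sum_const, Finset.card_univ,
        nsmul_eq_mul]
    have hu' : u * (Fintype.card G : B) = 1 := by exact_mod_cast hu
    calc n * y = u * (Fintype.card G : B) * (n * y) := by rw [hu', one_mul]
      _ = u * ∑ g : G, g • (n * y) := by rw [hsum']; ring
      _ = u * (∑ g : G, g • a) * π + u * (∑ g : G, g • b) * z := by rw [hsum]; ring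

end StepE

section StepB

variable {B : Type*} [CommRing B] {G : Type*} [Group G] [Fintype G] [MulSemiringAction G B]

/-- **Step B.**  An element `ε ≡ 1 mod N` with `g • ε ∈ N` for every `g` not stabilising `N`. -/
theorem exists_eps (N : Ideal B) [hN : N.IsMaximal] :
    ∃ ε : B, ε - 1 ∈ N ∧ ∀ g : G, ¬ (∀ x : B, g • x ∈ N ↔ x ∈ N) → g • ε ∈ N := by
  classical
  set J : G → Ideal B := fun g => N.comap (MulSemiringAction.toRingHom G B g) with hJ
  have hmemJ : ∀ (g : G) (x : B), x ∈ J g ↔ g • x ∈ N := fun g x => by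
    rw [hJ, Ideal.mem_comap, MulSemiringAction.toRingHom_apply]
  have hJmax : ∀ g : G, (J g).IsMaximal := fun g =>
    Ideal.comap_isMaximal_of_surjective _ (fun x => ⟨g⁻¹ • x, by
      rw [MulSemiringAction.toRingHom_apply, smul_inv_smul]⟩)
  set S : Finset G := Finset.univ.filter (fun g : G => ¬ (∀ x : B, g • x ∈ N ↔ x ∈ N)) with hS
  have hsup : N ⊔ ⨅ g ∈ S, J g = ⊤ := by
    apply Ideal.sup_iInf_eq_top
    intro g hg
    rw [hS, Finset.mem_filter] at hg
    apply hN.coprime_of_ne (hJmax g)
    intro hNJ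
    apply hg.2
    intro x
    rw [← hmemJ, ← hNJ]
  have h1 : (1 : B) ∈ N ⊔ ⨅ g ∈ S, J g := by rw [hsup]; exact Submodule.mem_top
  obtain ⟨n, hn, p, hp, hnp⟩ := Submodule.mem_sup.1 h1
  refine ⟨p, ?_, ?_⟩
  · have : p - 1 = -n := by rw [← hnp]; ring
    rw [this]; exact N.neg_mem hn
  · intro g hg
    have hgS : g ∈ S := by rw [hS, Finset.mem_filter]; exact ⟨Finset.mem_univ g, hg⟩
    have : p ∈ J g := by
      rw [Ideal.mem_iInf] at hp
      have := hp g
      rw [Ideal.mem_iInf] at this
      exact this hgS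
    exact (hmemJ g p).1 this

end StepB

section StepA

variable {B : Type*} [CommRing B] {G : Type*} [Group G] [Fintype G] [MulSemiringAction G B]

/-- **Step A** (Dedekind independence of the automorphisms of `B ⧸ N` induced by the
decomposition group).  If `χ ^ m` is trivial on the inertia group and `|G|` is invertible, some
`a` has `∑_{g ∈ D} χ g ^ m * g • a ∉ N`. -/
theorem exists_sum_notMem
    (χ : G → B) (N : Ideal B) [hN : N.IsMaximal]
    (hcard : IsUnit ((Fintype.card G : ℕ) : B)) (m : ℕ)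
    (hm : ∀ h : G, h ∈ inertia G N → χ h ^ m = 1)
    (D : Finset G) (hmemD : ∀ g : G, g ∈ D ↔ ∀ x : B, g • x ∈ N ↔ x ∈ N) :
    ∃ a : B, ∑ g ∈ D, χ g ^ m * g • a ∉ N := by
  classical
  by_contra hall
  push Not at hall
  let _ : Field (B ⧸ N) := Ideal.Quotient.field N
  have hle : ∀ g : G, g ∈ D → N ≤ N.comap (MulSemiringAction.toRingHom G B g) := by
    intro g hg x hx
    rw [Ideal.mem_comap, MulSemiringAction.toRingHom_apply]
    exact ((hmemD g).1 hg x).2 hx
  let φ : G → (B ⧸ N →+* B ⧸ N) := fun g =>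
    if hg : g ∈ D then Ideal.quotientMap N (MulSemiringAction.toRingHom G B g) (hle g hg)
    else RingHom.id _
  have hφ : ∀ g ∈ D, ∀ x : B, φ g (Ideal.Quotient.mk N x) = Ideal.Quotient.mk N (g • x) := by
    intro g hg x
    simp only [φ, dif_pos hg]
    rw [Ideal.quotientMap_mk, MulSemiringAction.toRingHom_apply]
  let f : G → (B ⧸ N →* B ⧸ N) := fun g => (φ g : B ⧸ N →* B ⧸ N)
  have hf : ∀ (g : G) (x : B ⧸ N), f g x = φ g x := fun g x => rfl
  have h1D : (1 : G) ∈ D := (hmemD 1).2 (fun x => by rw [one_smul])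
  have hli := linearIndependent_monoidHom (B ⧸ N) (B ⧸ N)
  have hsum : ∑ ψ ∈ D.image f, (∑ g ∈ D with f g = ψ, Ideal.Quotient.mk N (χ g ^ m)) •
      ((ψ : B ⧸ N →* B ⧸ N) : B ⧸ N → B ⧸ N) = 0 := by
    funext x
    obtain ⟨a, rfl⟩ := Ideal.Quotient.mk_surjective x
    rw [Finset.sum_apply, Pi.zero_apply]
    have h1 : ∀ ψ ∈ D.image f,
        ((∑ g ∈ D with f g = ψ, Ideal.Quotient.mk N (χ g ^ m)) •
          ((ψ : B ⧸ N →* B ⧸ N) : B ⧸ N → B ⧸ N)) (Ideal.Quotient.mk N a) =
        ∑ g ∈ D with f g = ψ, Ideal.Quotient.mk N (χ g ^ m * g • a) := by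
      intro ψ _
      rw [Pi.smul_apply, smul_eq_mul, Finset.sum_mul]
      refine Finset.sum_congr rfl fun g hg => ?_
      rw [Finset.mem_filter] at hg
      rw [← hg.2, hf, hφ g hg.1, map_mul]
    rw [Finset.sum_congr rfl h1,
      Finset.sum_fiberwise_of_maps_to (fun g hg => Finset.mem_image_of_mem f hg), ← map_sum]
    exact Ideal.Quotient.eq_zero_iff_mem.2 (hall a)
  have key := linearIndependent_iff'.1 hli (D.image f)
    (fun ψ => ∑ g ∈ D with f g = ψ, Ideal.Quotient.mk N (χ g ^ m)) hsum (f 1)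
    (Finset.mem_image_of_mem f h1D)
  -- the fibre over `f 1` is the inertia group
  have hfib : (D.filter fun g => f g = f 1) =
      Finset.univ.filter (fun g : G => g ∈ inertia G N) := by
    ext g
    simp only [Finset.mem_filter, Finset.mem_univ, true_and]
    constructor
    · rintro ⟨hgD, hfg⟩ x
      have h2 := DFunLike.congr_fun hfg (Ideal.Quotient.mk N x)
      rw [hf, hf, hφ g hgD, hφ 1 h1D, one_smul] at h2
      exact Ideal.Quotient.eq.1 h2
    · intro hg
      have hgD : g ∈ D := by
        rw [hmemD]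
        intro x
        constructor
        · intro hx
          have := N.sub_mem hx (hg x)
          simpa using this
        · intro hx
          exact smul_mem_of_smul_sub_mem hg hx
      refine ⟨hgD, ?_⟩
      apply DFunLike.ext
      intro x
      obtain ⟨a, rfl⟩ := Ideal.Quotient.mk_surjective x
      rw [hf, hf, hφ g hgD, hφ 1 h1D, one_smul]
      exact Ideal.Quotient.eq.2 (hg a)
  have key2 : ((Fintype.card (inertia G N) : ℕ) : B) ∈ N := by
    rw [← Ideal.Quotient.eq_zero_iff_mem, map_natCast]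
    have h3 : ∑ g ∈ D with f g = f 1, Ideal.Quotient.mk N (χ g ^ m) =
        ((Fintype.card (inertia G N) : ℕ) : B ⧸ N) := by
      rw [hfib]
      have h4 : ∀ g ∈ Finset.univ.filter (fun g : G => g ∈ inertia G N),
          Ideal.Quotient.mk N (χ g ^ m) = 1 := by
        intro g hg
        rw [Finset.mem_filter] at hg
        rw [hm g hg.2, map_one]
      rw [Finset.sum_congr rfl h4, Finset.sum_const, nsmul_eq_mul, mul_one,
        Fintype.card_subtype]
    rw [← h3]
    exact key
  have hdvd : Fintype.card (inertia G N) ∣ Fintype.card G := by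
    have := Subgroup.card_subgroup_dvd_card (inertia G N)
    rwa [Nat.card_eq_fintype_card, Nat.card_eq_fintype_card] at this
  obtain ⟨q, hq⟩ := hdvd
  have hunit : IsUnit ((Fintype.card (inertia G N) : ℕ) : B) := by
    rw [hq, Nat.cast_mul] at hcard
    exact isUnit_of_mul_isUnit_left hcard
  exact hN.ne_top (Ideal.eq_top_of_isUnit_mem _ key2 hunit)

end StepA

section Main

variable {B : Type*} [CommRing B] {G : Type*} [Group G] [Fintype G] [MulSemiringAction G B]

/-- **Tame descent of regular parameters.**  See the module docstring. -/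
theorem exists_invariant_generator
    (π s : B) (χ : G → B) (N : Ideal B) [hN : N.IsMaximal]
    (hπ : ∀ g : G, g • π = π) (hs : ∀ g : G, g • s = χ g * s)
    (hχ1 : χ 1 = 1) (hχmul : ∀ g h : G, χ (g * h) = χ g * χ h)
    (hχu : ∀ (g : G) (i : ℕ), χ g ^ i = 1 ∨ IsUnit (1 - χ g ^ i))
    (hcard : IsUnit ((Fintype.card G : ℕ) : B))
    (hsN : s ∈ N)
    (hreg : ∀ y ∈ N, ∃ t, t ∉ N ∧ ∃ a b : B, t * y = a * π + b * s)
    (hdom : ∀ w : B, w ∉ N → ∀ i : ℕ, ¬ π ∣ w * s ^ i) :
    ∃ z ∈ N, (∀ g : G, g • z = z) ∧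
      ∀ y ∈ N, (∀ g : G, g • y = y) →
        ∃ t, t ∉ N ∧ (∀ g : G, g • t = t) ∧
          ∃ a b : B, (∀ g : G, g • a = a) ∧ (∀ g : G, g • b = b) ∧ t * y = a * π + b * z := by
  classical
  have hNp : N.IsPrime := hN.isPrime
  obtain ⟨u, hu⟩ := hcard.exists_left_inv
  have hu' : u * (Fintype.card G : B) = 1 := by exact_mod_cast hu
  have hug : ∀ g : G, g • u = u := fun g => smul_inv_card hu' g
  -- `χ` of a power
  have hχpow : ∀ (h : G) (n : ℕ), χ (h ^ n) = χ h ^ n := by
    intro h n
    induction n with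
    | zero => rw [pow_zero, pow_zero, hχ1]
    | succ n ih => rw [pow_succ, pow_succ, hχmul, ih]
  -- the exponent `m`
  have hex : ∃ m : ℕ, 0 < m ∧ ∀ h : G, h ∈ inertia G N → χ h ^ m = 1 :=
    ⟨Fintype.card G, Fintype.card_pos, fun h _ => by rw [← hχpow, pow_card_eq_one, hχ1]⟩
  set m := Nat.find hex with hmdef
  have hm0 : 0 < m := (Nat.find_spec hex).1
  have hm1 : ∀ h : G, h ∈ inertia G N → χ h ^ m = 1 := (Nat.find_spec hex).2
  have hmin : ∀ i, 0 < i → i < m → ∃ h : G, h ∈ inertia G N ∧ χ h ^ i ≠ 1 := by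
    intro i hi him
    have := Nat.find_min hex him
    push Not at this
    exact this hi
  -- decomposition group
  set D : Finset G := Finset.univ.filter (fun g : G => ∀ x : B, g • x ∈ N ↔ x ∈ N) with hD
  have hmemD : ∀ g : G, g ∈ D ↔ ∀ x : B, g • x ∈ N ↔ x ∈ N := fun g => by
    rw [hD, Finset.mem_filter]; simp
  obtain ⟨a₀, ha₀⟩ := exists_sum_notMem χ N hcard m hm1 D hmemD
  obtain ⟨ε, hε1, hε⟩ := exists_eps (G := G) N
  -- the generator
  set w : B := u * ∑ g : G, χ g ^ m * g • a₀ * g • ε with hw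
  set z : B := u * ∑ g : G, g • (a₀ * ε * s ^ m) with hz
  have hzw : z = w * s ^ m := by
    have hterm : ∀ g : G, g • (a₀ * ε * s ^ m) = χ g ^ m * g • a₀ * g • ε * s ^ m := by
      intro g
      rw [smul_mul', smul_mul', smul_pow', hs, mul_pow]
      ring
    rw [hz, hw, Finset.sum_congr rfl (fun g _ => hterm g), ← Finset.sum_mul]
    ring
  have hzinv : ∀ g : G, g • z = z := by
    intro g
    rw [hz, smul_mul', hug, smul_sum_smul]
  have hzN : z ∈ N := by
    rw [hzw]
    exact N.mul_mem_left _ (N.pow_mem_of_mem hsN m hm0)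
  have hwN : w ∉ N := by
    intro hwmem
    apply ha₀
    -- the sum over all of `G` is in `N`
    have hS : ∑ g : G, χ g ^ m * g • a₀ * g • ε ∈ N := by
      have : ∑ g : G, χ g ^ m * g • a₀ * g • ε = (Fintype.card G : B) * w := by
        rw [hw, ← mul_assoc, mul_comm (Fintype.card G : B) u, hu', one_mul]
      rw [this]
      exact N.mul_mem_left _ hwmem
    -- split according to `D`
    have hsplit : ∑ g ∈ D, χ g ^ m * g • a₀ =
        ∑ g : G, χ g ^ m * g • a₀ * g • ε
          - ∑ g ∈ D, χ g ^ m * g • a₀ * (g • ε - 1)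
          - ∑ g ∈ Finset.univ.filter (fun g : G => g ∉ D), χ g ^ m * g • a₀ * g • ε := by
      have h1 : ∑ g : G, χ g ^ m * g • a₀ * g • ε =
          ∑ g ∈ D, χ g ^ m * g • a₀ * g • ε +
          ∑ g ∈ Finset.univ.filter (fun g : G => g ∉ D), χ g ^ m * g • a₀ * g • ε := by
        rw [← Finset.sum_filter_add_sum_filter_not Finset.univ (fun g : G => g ∈ D)]
        congr 1
        refine Finset.sum_congr ?_ fun _ _ => rfl
        ext g; simp
      have h2 : ∑ g ∈ D, χ g ^ m * g • a₀ =
          ∑ g ∈ D, χ g ^ m * g • a₀ * g • ε - ∑ g ∈ D, χ g ^ m * g • a₀ * (g • ε - 1) := by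
        rw [← Finset.sum_sub_distrib]
        refine Finset.sum_congr rfl fun g _ => ?_
        ring
      rw [h1, h2]
      ring
    rw [hsplit]
    refine N.sub_mem (N.sub_mem hS ?_) ?_
    · refine N.sum_mem fun g hg => N.mul_mem_left _ ?_
      have : g • ε - 1 = g • (ε - 1) := by rw [smul_sub, smul_one]
      rw [this]
      exact ((hmemD g).1 hg _).2 hε1
    · refine N.sum_mem fun g hg => N.mul_mem_left _ ?_
      rw [Finset.mem_filter] at hg
      exact hε g (fun h => hg.2 ((hmemD g).2 h))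
  refine ⟨z, hzN, hzinv, ?_⟩
  intro y hyN hy
  obtain ⟨t, ht, a, c, hac⟩ :=
    exists_mul_eq_of_invariant π s χ N hπ hs hχu hreg hdom m hmin y hyN hy m hm0 le_rfl
  exact exists_invariant_witness π z N hπ hzinv hcard y hy
    ⟨w * t, fun h => (hNp.mem_or_mem h).elim hwN ht, w * a, c, by
      rw [hzw]; linear_combination w * hac⟩

end Main

end Fermat.Agent.S30.Model.TameDescent
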